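/-
Programme M27 (target S27), chapter C (helper5): **generalized argument principle on a disc, with a
vector valued holomorphic weight, and holomorphy in the parameter.**  Mathlib + the planar engine
`M17.DbarLogDeriv5` (global decomposition of a logarithmic derivative) only.

* `circleIntegral_logDeriv_smul` (GAP):
  `∮_{|a-q|=ρ} (g'(a)/g(a)) • W(a) da = 2πi • ∑_{p ∈ Z} ord_p(g) • W(p)`.
* `differentiableOn_circleIntegral_inv_sub_smul` (PAR): `z ↦ ∮ (g(a) - z)⁻¹ • G(a) da` is holomorphic
  on the ball `|z - z₀| < m` when `m ≤ |g - z₀|` on the circle.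
* `exists_lift_weighted_fibre` : the two together: the weighted fibre sum
  `z ↦ ∑_{p ∈ ball, g p = z} ord_p(g - z) • W(p)` is (the restriction of) a holomorphic function of `z`
  near `z₀`, critical value or not.
-/
import Mathlib
import Fermat.Agent.M17.DbarLogDeriv5

set_option autoImplicit false
set_option linter.unusedSectionVars false
set_option linter.unusedVariables false
set_option linter.style.longLine false

noncomputable section

namespace Fermat.Agent.M27.ArgPrinciple5

open MeasureTheory Set Filter Topology Metric Complex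
open scoped Real

variable {E : Type*} [NormedAddCommGroup E] [NormedSpace ℂ E] [CompleteSpace E]

/-- the closed ball as the topological support of an indicator function (to quote the planar
engine, which is phrased with `tsupport φ`). -/
lemma tsupport_indicator_ball (q : ℂ) {ρ : ℝ} (hρ : 0 < ρ) :
    tsupport ((ball q ρ).indicator (fun _ => (1 : ℂ))) = closedBall q ρ := by
  have : Function.support ((ball q ρ).indicator (fun _ => (1 : ℂ))) = ball q ρ := by
    ext a
    simp [Function.mem_support, Set.indicator_apply]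
  rw [tsupport, this, closure_ball q hρ.ne']

/-- **(GAP)** generalized argument principle on a disc, with a holomorphic vector valued weight. `Z` is
any finite subset of the open disc containing the zeros of `g` in the closed disc. -/
theorem circleIntegral_logDeriv_smul
    {U : Set ℂ} (hU : IsOpen U) {q : ℂ} {ρ : ℝ} (hρ : 0 < ρ) (hsub : closedBall q ρ ⊆ U)
    {g : ℂ → ℂ} (hg : DifferentiableOn ℂ g U) (hne : ∀ z ∈ U, analyticOrderAt g z ≠ ⊤)
    {W : ℂ → E} (hW : DifferentiableOn ℂ W U)
    (Z : Finset ℂ) (hZ : ∀ a ∈ closedBall q ρ, g a = 0 → a ∈ Z) (hZb : ∀ p ∈ Z, p ∈ ball q ρ) :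
    (∮ a in C(q, ρ), (deriv g a / g a) • W a)
      = (2 * π * I : ℂ) • ∑ p ∈ Z, (analyticOrderNatAt g p : ℂ) • W p := by
  obtain ⟨U', h₀, hU'open, hsub', hh₀d, heq⟩ :=
    Fermat.Agent.M17.DbarLogDeriv5.exists_decomp_logDeriv
      (φ := (ball q ρ).indicator (fun _ => (1 : ℂ))) hU
      (by rw [tsupport_indicator_ball q hρ]; exact hsub) hg hne Z
      (by rw [tsupport_indicator_ball q hρ]; exact hZ)
  rw [tsupport_indicator_ball q hρ] at hsub'
  -- the weight is continuous on the closed disc and differentiable inside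
  have hWc : ContinuousOn W (closedBall q ρ) := hW.continuousOn.mono hsub
  have hWd : ∀ x ∈ ball q ρ \ (∅ : Set ℂ), DifferentiableAt ℂ W x := fun x hx =>
    hW.differentiableAt (hU.mem_nhds (hsub (ball_subset_closedBall hx.1)))
  -- rewrite the integrand on the circle
  have hcongr : EqOn (fun a => (deriv g a / g a) • W a)
      (fun a => ∑ p ∈ Z, (analyticOrderNatAt g p : ℂ) • ((a - p)⁻¹ • W a) + h₀ a • W a)
      (sphere q ρ) := by
    intro a ha
    have haZ : a ∉ Z := fun h => by
      have := hZb a h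
      rw [mem_ball] at this
      rw [mem_sphere] at ha
      exact absurd ha this.ne
    have haU' : a ∈ U' := hsub' (sphere_subset_closedBall ha)
    simp only
    rw [heq a haU' haZ, add_smul, Finset.sum_smul]
    congr 1
    refine Finset.sum_congr rfl fun p _ => ?_
    rw [div_eq_mul_inv, mul_smul]
  rw [circleIntegral.integral_congr hρ.le hcongr]
  -- integrability of the pieces
  have hint1 : ∀ p ∈ Z, CircleIntegrable
      (fun a => (analyticOrderNatAt g p : ℂ) • ((a - p)⁻¹ • W a)) q ρ := by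
    intro p hp
    apply ContinuousOn.circleIntegrable hρ.le
    apply ContinuousOn.const_smul
    apply ContinuousOn.smul
    · apply ContinuousOn.inv₀ (by fun_prop)
      intro a ha hap
      have : a = p := sub_eq_zero.mp hap
      have hpb := hZb p hp
      rw [mem_ball] at hpb
      rw [mem_sphere, this] at ha
      exact absurd ha hpb.ne
    · exact hWc.mono sphere_subset_closedBall
  have hh₀c : ContinuousOn (fun a => h₀ a • W a) (closedBall q ρ) :=
    (hh₀d.continuousOn.mono hsub').smul hWc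
  have hint2 : CircleIntegrable (fun a => h₀ a • W a) q ρ :=
    (hh₀c.mono sphere_subset_closedBall).circleIntegrable hρ.le
  rw [circleIntegral.integral_add (CircleIntegrable.fun_sum Z hint1) hint2,
    circleIntegral.integral_fun_sum hint1]
  -- the holomorphic remainder integrates to zero
  have hzero : (∮ a in C(q, ρ), h₀ a • W a) = 0 := by
    apply Complex.circleIntegral_eq_zero_of_differentiable_on_off_countable hρ.le countable_empty hh₀c
    intro x hx
    exact (hh₀d.differentiableAt (hU'open.mem_nhds (hsub' (ball_subset_closedBall hx.1)))).smul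
      (hWd x hx)
  rw [hzero, add_zero, Finset.smul_sum]
  refine Finset.sum_congr rfl fun p hp => ?_
  rw [circleIntegral.integral_smul,
    Complex.circleIntegral_sub_inv_smul_of_differentiable_on_off_countable countable_empty
      (hZb p hp) hWc hWd, smul_comm]

/-- **(PAR)** a Cauchy type integral `z ↦ ∮ (g(a) - z)⁻¹ • G(a) da` has a complex derivative at every
`z` at distance `≥ m > 0`... precisely: at every point of the ball `|z - z₀| < m`, if `m ≤ |g - z₀|` on the circle. -/
theorem hasDerivAt_circleIntegral_inv_sub_smul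
    {q : ℂ} {ρ : ℝ} (hρ : 0 ≤ ρ) {g : ℂ → ℂ} {G : ℂ → E}
    (hg : ContinuousOn g (sphere q ρ)) (hG : ContinuousOn G (sphere q ρ)) {z₀ : ℂ} {m : ℝ}
    (hm : ∀ a ∈ sphere q ρ, m ≤ ‖g a - z₀‖) {x₀ : ℂ} (hx₀ : x₀ ∈ ball z₀ m) :
    HasDerivAt (fun z => ∮ a in C(q, ρ), (g a - z)⁻¹ • G a)
      (∮ a in C(q, ρ), ((g a - x₀)⁻¹ ^ 2) • G a) x₀ := by
  set δ : ℝ := (m - dist x₀ z₀) / 2 with hδ
  have hδpos : 0 < δ := by rw [mem_ball] at hx₀; linarith
  have hcm : ∀ θ, circleMap q ρ θ ∈ sphere q ρ := fun θ => circleMap_mem_sphere q hρ θ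
  have hgc : Continuous fun θ => g (circleMap q ρ θ) :=
    hg.comp_continuous (continuous_circleMap q ρ) hcm
  have hGc : Continuous fun θ => G (circleMap q ρ θ) :=
    hG.comp_continuous (continuous_circleMap q ρ) hcm
  have hfar : ∀ x ∈ ball x₀ δ, ∀ θ, δ ≤ ‖g (circleMap q ρ θ) - x‖ := by
    intro x hx θ
    have h1 := hm _ (hcm θ)
    have h2 : ‖g (circleMap q ρ θ) - z₀‖ ≤ ‖g (circleMap q ρ θ) - x‖ + ‖x - z₀‖ := by
      have : g (circleMap q ρ θ) - z₀ = (g (circleMap q ρ θ) - x) + (x - z₀) := by ring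
      rw [this]; exact norm_add_le _ _
    have h3 : ‖x - z₀‖ ≤ dist x x₀ + dist x₀ z₀ := by
      rw [← dist_eq_norm]; exact dist_triangle _ _ _
    rw [mem_ball] at hx
    linarith
  have hne : ∀ x ∈ ball x₀ δ, ∀ θ, g (circleMap q ρ θ) - x ≠ 0 := by
    intro x hx θ h0
    have := hfar x hx θ
    rw [h0, norm_zero] at this
    linarith
  have hdcm : Continuous fun θ => deriv (circleMap q ρ) θ := by
    have : (fun θ => deriv (circleMap q ρ) θ) = fun θ => circleMap 0 ρ θ * I := by
      funext θ; exact deriv_circleMap q ρ θ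
    rw [this]; exact (continuous_circleMap 0 ρ).mul continuous_const
  have key := intervalIntegral.hasDerivAt_integral_of_dominated_loc_of_deriv_le
    (𝕜 := ℂ) (μ := volume) (a := 0) (b := 2 * π)
    (F := fun z θ => deriv (circleMap q ρ) θ • ((g (circleMap q ρ θ) - z)⁻¹ • G (circleMap q ρ θ)))
    (F' := fun z θ => deriv (circleMap q ρ) θ •
      (((g (circleMap q ρ θ) - z)⁻¹ ^ 2) • G (circleMap q ρ θ)))
    (x₀ := x₀) (s := ball x₀ δ)
    (bound := fun θ => |ρ| * ((δ⁻¹) ^ 2 * ‖G (circleMap q ρ θ)‖))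
    (ball_mem_nhds x₀ hδpos) ?_ ?_ ?_ ?_ ?_ ?_
  · exact key.2
  · -- measurability near x₀
    filter_upwards [ball_mem_nhds x₀ hδpos] with x hx
    apply Continuous.aestronglyMeasurable
    exact hdcm.smul (((hgc.sub continuous_const).inv₀ (hne x hx)).smul hGc)
  · -- integrability at x₀
    apply Continuous.intervalIntegrable
    exact hdcm.smul (((hgc.sub continuous_const).inv₀
      (hne x₀ (mem_ball_self hδpos))).smul hGc)
  · apply Continuous.aestronglyMeasurable
    exact hdcm.smul ((((hgc.sub continuous_const).inv₀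
      (hne x₀ (mem_ball_self hδpos))).pow 2).smul hGc)
  · -- the bound
    refine Filter.Eventually.of_forall fun θ _ x hx => ?_
    rw [norm_smul, norm_smul, deriv_circleMap, norm_mul, norm_circleMap_zero, norm_I, mul_one,
      norm_pow, norm_inv]
    have h1 := hfar x hx θ
    have h2 : ‖g (circleMap q ρ θ) - x‖⁻¹ ≤ δ⁻¹ := inv_anti₀ hδpos h1
    have h3 : (‖g (circleMap q ρ θ) - x‖⁻¹) ^ 2 ≤ (δ⁻¹) ^ 2 :=
      pow_le_pow_left₀ (inv_nonneg.mpr (norm_nonneg _)) h2 2
    gcongr
  · apply Continuous.intervalIntegrable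
    exact continuous_const.mul (continuous_const.mul hGc.norm)
  · -- the derivative in the parameter
    refine Filter.Eventually.of_forall fun θ _ x hx => ?_
    have hx0 := hne x hx θ
    have h1 : HasDerivAt (fun z : ℂ => (g (circleMap q ρ θ) - z)⁻¹)
        ((g (circleMap q ρ θ) - x)⁻¹ ^ 2) x := by
      have h2 : HasDerivAt (fun z : ℂ => g (circleMap q ρ θ) - z) (-1) x := by
        simpa using (hasDerivAt_id x).const_sub (g (circleMap q ρ θ))
      have h3 := h2.inv hx0
      have h4 : - (-1 : ℂ) / (g (circleMap q ρ θ) - x) ^ 2 = (g (circleMap q ρ θ) - x)⁻¹ ^ 2 := by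
        rw [neg_neg, inv_pow, one_div]
      exact h3.congr_deriv h4
    exact (h1.smul_const (G (circleMap q ρ θ))).const_smul (deriv (circleMap q ρ) θ)

/-- **(PAR)**, `DifferentiableOn` form. -/
theorem differentiableOn_circleIntegral_inv_sub_smul
    {q : ℂ} {ρ : ℝ} (hρ : 0 ≤ ρ) {g : ℂ → ℂ} {G : ℂ → E}
    (hg : ContinuousOn g (sphere q ρ)) (hG : ContinuousOn G (sphere q ρ)) {z₀ : ℂ} {m : ℝ}
    (hm : ∀ a ∈ sphere q ρ, m ≤ ‖g a - z₀‖) :
    DifferentiableOn ℂ (fun z => ∮ a in C(q, ρ), (g a - z)⁻¹ • G a) (ball z₀ m) := fun x hx =>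
  (hasDerivAt_circleIntegral_inv_sub_smul hρ hg hG hm hx).differentiableAt.differentiableWithinAt

/-- a holomorphic function on a preconnected open set which does not vanish at some point has finite
order everywhere. -/
lemma analyticOrderAt_ne_top_of_ne_zero {U : Set ℂ} (hU : IsOpen U) (hUc : IsPreconnected U)
    {g : ℂ → ℂ} (hg : DifferentiableOn ℂ g U) {a : ℂ} (ha : a ∈ U) (hga : g a ≠ 0) :
    ∀ z ∈ U, analyticOrderAt g z ≠ ⊤ := by
  intro z hz
  have hA : AnalyticOnNhd ℂ g U := hg.analyticOnNhd hU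
  refine hA.analyticOrderAt_ne_top_of_isPreconnected hUc ha hz ?_
  rw [(hA a ha).analyticOrderAt_eq_zero.2 hga]
  exact ENat.zero_ne_top

/-- the zeros of `g - z` in the closed disc are finite. -/
lemma finite_fibre_closedBall {U : Set ℂ} (hU : IsOpen U) (hUc : IsPreconnected U)
    {q : ℂ} {ρ : ℝ} (hρ : 0 < ρ) (hsub : closedBall q ρ ⊆ U)
    {g : ℂ → ℂ} (hg : DifferentiableOn ℂ g U) {z : ℂ} (hz : ∀ a ∈ sphere q ρ, g a ≠ z) :
    (closedBall q ρ ∩ {a | g a = z}).Finite := by
  obtain ⟨a, ha⟩ : (sphere q ρ).Nonempty := NormedSpace.sphere_nonempty.mpr hρ.le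
  have hgz : DifferentiableOn ℂ (fun a => g a - z) U := hg.sub_const z
  have hne := analyticOrderAt_ne_top_of_ne_zero hU hUc hgz
    (hsub (sphere_subset_closedBall ha)) (sub_ne_zero.mpr (hz a ha))
  have := Fermat.Agent.M17.DbarLogDeriv5.finite_zeros hU (isCompact_closedBall q ρ) hsub hgz hne
  refine this.subset ?_
  rintro b ⟨hb, hb0⟩
  exact ⟨hb, by simpa [sub_eq_zero] using hb0⟩

/-- **weighted fibre sums lift holomorphically.** `g`, `W` holomorphic on a preconnected open
neighbourhood of the closed disc, `g ≠ z₀` on the circle. Then there is a holomorphic `φ` on a ball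
around `z₀` such that for every `z` in that ball `g ≠ z` on the circle and
`φ z = ∑_{p ∈ Z} ord_p(g - z) • W p` for every finite `Z` inside the open disc containing the fibre
`{g = z}` in the closed disc. No case distinction critical / non critical. -/
theorem exists_lift_weighted_fibre
    {U : Set ℂ} (hU : IsOpen U) (hUc : IsPreconnected U)
    {q : ℂ} {ρ : ℝ} (hρ : 0 < ρ) (hsub : closedBall q ρ ⊆ U)
    {g : ℂ → ℂ} (hg : DifferentiableOn ℂ g U) {W : ℂ → E} (hW : DifferentiableOn ℂ W U)
    {z₀ : ℂ} (hz₀ : ∀ a ∈ sphere q ρ, g a ≠ z₀) :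
    ∃ ε : ℝ, 0 < ε ∧ ∃ φ : ℂ → E, DifferentiableOn ℂ φ (ball z₀ ε) ∧
      ∀ z ∈ ball z₀ ε, (∀ a ∈ sphere q ρ, g a ≠ z) ∧
        ∀ Z : Finset ℂ, (∀ a ∈ closedBall q ρ, g a = z → a ∈ Z) → (∀ p ∈ Z, p ∈ ball q ρ) →
          φ z = ∑ p ∈ Z, analyticOrderNatAt (fun a => g a - z) p • W p := by
  have hsphU : sphere q ρ ⊆ U := sphere_subset_closedBall.trans hsub
  have hgc : ContinuousOn g (sphere q ρ) := hg.continuousOn.mono hsphU
  have hdg : DifferentiableOn ℂ (deriv g) U := hg.deriv hU
  have hGc : ContinuousOn (fun a => deriv g a • W a) (sphere q ρ) :=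
    (hdg.continuousOn.mono hsphU).smul (hW.continuousOn.mono hsphU)
  -- the distance of `z₀` to `g (circle)`
  obtain ⟨a₀, ha₀, hmin⟩ := (isCompact_sphere q ρ).exists_isMinOn
    (NormedSpace.sphere_nonempty.mpr hρ.le) (f := fun a => ‖g a - z₀‖)
    ((hgc.sub continuousOn_const).norm)
  set m : ℝ := ‖g a₀ - z₀‖ with hm
  have hmpos : 0 < m := norm_pos_iff.mpr (sub_ne_zero.mpr (hz₀ a₀ ha₀))
  have hmle : ∀ a ∈ sphere q ρ, m ≤ ‖g a - z₀‖ := fun a ha => hmin ha
  refine ⟨m, hmpos, fun z => (2 * π * I : ℂ)⁻¹ • ∮ a in C(q, ρ), (g a - z)⁻¹ • (deriv g a • W a),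
    (differentiableOn_circleIntegral_inv_sub_smul hρ.le hgc hGc hmle).const_smul _, ?_⟩
  intro z hz
  have hzne : ∀ a ∈ sphere q ρ, g a ≠ z := by
    intro a ha h
    have h1 := hmle a ha
    rw [h, ← dist_eq_norm] at h1
    rw [mem_ball] at hz
    linarith
  refine ⟨hzne, fun Z hZ hZb => ?_⟩
  obtain ⟨a, ha⟩ : (sphere q ρ).Nonempty := NormedSpace.sphere_nonempty.mpr hρ.le
  have hgz : DifferentiableOn ℂ (fun a => g a - z) U := hg.sub_const z
  have hne := analyticOrderAt_ne_top_of_ne_zero hU hUc hgz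
    (hsub (sphere_subset_closedBall ha)) (sub_ne_zero.mpr (hzne a ha))
  have hgap := circleIntegral_logDeriv_smul hU hρ hsub hgz hne hW Z
    (fun a ha h0 => hZ a ha (sub_eq_zero.mp h0)) hZb
  have hint : (∮ a in C(q, ρ), (g a - z)⁻¹ • (deriv g a • W a))
      = ∮ a in C(q, ρ), (deriv (fun a => g a - z) a / (g a - z)) • W a := by
    refine circleIntegral.integral_congr hρ.le fun a _ => ?_
    show (g a - z)⁻¹ • (deriv g a • W a) = (deriv (fun a => g a - z) a / (g a - z)) • W a
    rw [deriv_sub_const, div_eq_mul_inv, mul_comm, mul_smul]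
  simp only
  rw [hint, hgap, smul_smul, inv_mul_cancel₀ (by simp [Real.pi_ne_zero, I_ne_zero]), one_smul]
  refine Finset.sum_congr rfl fun p _ => ?_
  exact Nat.cast_smul_eq_nsmul ℂ _ _

end Fermat.Agent.M27.ArgPrinciple5
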