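/-
Programme M27 (target S27), **THE INTERFACE** (helper2, architect): the Riemann surface of a
function field `F / ℂ`, as consumed by chapters B, C, E, F and produced by chapter A.

Vocabulary of the tree: `H : RR.LSpace.LHyp ℂ F` (all places have degree one, principal divisors),
`M15.DivDefs4.valAt H P f : ℂ` (value of `f` at `P`, `0` at a pole), `Place.ord`.

* `sval H f P : OnePoint ℂ`  : the value of `f` at `P` in the Riemann sphere (`∞` at a pole);
* `Chart H`                   : a holomorphic chart `c : ball 0 r → Place ℂ F` with coordinate `t`: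
    (N2) `emb`        `c` is an open embedding of the disc,
         `ord_t`      `t - a` is a uniformiser at `c a`,
    (N3) `analyticAt` `f` regular at `c a`  ⇒  `b ↦ f (c b)` is analytic at `a`,
         `order_eq`   and its analytic order at `a` is `ord_{c a} f`   (LOCAL form, at every point),
    (N4) `hasDerivAt` `d f = g • d t`  ⇒  `(f ∘ c)' = g ∘ c`;
* `IsRSurface H`              : (N1) `Place ℂ F` is compact Hausdorff, every `sval H f` is continuous,
                                and every place is the centre `c 0` of a chart.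
The topology on `Place ℂ F` is an instance ARGUMENT (chapter A provides it by `letI`).
-/
import Mathlib
import Fermat.Agent.RR.LSpace
import Fermat.Agent.M15.DivDefs4

set_option autoImplicit false
set_option linter.unusedSectionVars false
set_option linter.unusedVariables false
set_option linter.style.longLine false

noncomputable section

namespace Fermat.Agent.M27.Iface2

open AlgebraicCurve Metric Topology KaehlerDifferential
open Fermat.Agent.RR.LSpace Fermat.Agent.M15.DivDefs4

variable {F : Type*} [Field F] [Algebra ℂ F]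

open Classical in
/-- the value of `f` at `P` in the Riemann sphere. -/
def sval (H : LHyp ℂ F) (f : F) (P : Place ℂ F) : OnePoint ℂ :=
  if f ∈ P.toValuationSubring then ((valAt H P f : ℂ) : OnePoint ℂ) else OnePoint.infty

theorem sval_of_mem (H : LHyp ℂ F) {f : F} {P : Place ℂ F} (h : f ∈ P.toValuationSubring) :
    sval H f P = ((valAt H P f : ℂ) : OnePoint ℂ) := if_pos h

theorem sval_of_not_mem (H : LHyp ℂ F) {f : F} {P : Place ℂ F} (h : f ∉ P.toValuationSubring) :
    sval H f P = OnePoint.infty := if_neg h

/-- **a holomorphic chart** of `Place ℂ F`. -/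
structure Chart (H : LHyp ℂ F) [TopologicalSpace (Place ℂ F)] where
  /-- the coordinate function -/
  t : F
  /-- the radius of the coordinate disc -/
  r : ℝ
  r_pos : 0 < r
  /-- the chart map (only its restriction to `ball 0 r` matters) -/
  c : ℂ → Place ℂ F
  /-- (N2) `c` is an open embedding of the disc -/
  emb : IsOpenEmbedding (fun a : ball (0 : ℂ) r => c a)
  /-- (N2) `t - a` is a uniformiser at `c a` -/
  ord_t : ∀ a ∈ ball (0 : ℂ) r, (c a).ord (t - algebraMap ℂ F a) = 1
  /-- (N3) a function regular at `c a` is analytic at `a` in the coordinate -/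
  analyticAt : ∀ (f : F) (a : ℂ), a ∈ ball (0 : ℂ) r → 0 ≤ (c a).ord f →
    AnalyticAt ℂ (fun b => valAt H (c b) f) a
  /-- (N3) algebraic order = analytic order -/
  order_eq : ∀ (f : F) (a : ℂ), f ≠ 0 → a ∈ ball (0 : ℂ) r → 0 ≤ (c a).ord f →
    analyticOrderAt (fun b => valAt H (c b) f) a = (((c a).ord f).toNat : ℕ∞)
  /-- (N4) algebraic derivative = analytic derivative -/
  hasDerivAt : ∀ (f g : F) (a : ℂ), a ∈ ball (0 : ℂ) r → 0 ≤ (c a).ord f →
    D ℂ F f = g • D ℂ F t → HasDerivAt (fun b => valAt H (c b) f) (valAt H (c a) g) a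

/-- **the Riemann surface of `F / ℂ`** (N1 + existence of charts). -/
structure IsRSurface (H : LHyp ℂ F) [TopologicalSpace (Place ℂ F)] : Prop where
  compactSpace : CompactSpace (Place ℂ F)
  t2Space : T2Space (Place ℂ F)
  continuous_sval : ∀ f : F, Continuous (sval H f)
  exists_chart : ∀ P : Place ℂ F, ∃ φ : Chart H, φ.c 0 = P

namespace Chart

variable {H : LHyp ℂ F} [TopologicalSpace (Place ℂ F)] (φ : Chart H)

/-- the function `f` read in the chart. -/
def hat (f : F) : ℂ → ℂ := fun b => valAt H (φ.c b) f

theorem hat_apply (f : F) (b : ℂ) : φ.hat f b = valAt H (φ.c b) f := rfl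

/-- the open image of the chart. -/
def dom : Set (Place ℂ F) := φ.c '' ball (0 : ℂ) φ.r

theorem isOpen_dom : IsOpen φ.dom := by
  have h := φ.emb.isOpen_range
  have : Set.range (fun a : ball (0 : ℂ) φ.r => φ.c a) = φ.dom := by
    ext P
    constructor
    · rintro ⟨a, rfl⟩
      exact ⟨a.1, a.2, rfl⟩
    · rintro ⟨a, ha, rfl⟩
      exact ⟨⟨a, ha⟩, rfl⟩
  rwa [this] at h

theorem zero_mem_ball : (0 : ℂ) ∈ ball (0 : ℂ) φ.r := mem_ball_self φ.r_pos

theorem injOn : Set.InjOn φ.c (ball (0 : ℂ) φ.r) := by
  intro a ha b hb hab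
  have := φ.emb.injective (a₁ := ⟨a, ha⟩) (a₂ := ⟨b, hb⟩) hab
  exact congrArg Subtype.val this

theorem continuousOn : ContinuousOn φ.c (ball (0 : ℂ) φ.r) :=
  continuousOn_iff_continuous_domRestrict.mpr φ.emb.continuous

/-- `t` takes the value `a` at `c a`. -/
theorem valAt_t {a : ℂ} (ha : a ∈ ball (0 : ℂ) φ.r) : valAt H (φ.c a) φ.t = a :=
  valAt_eq_of H (φ.c a) (Or.inr (by rw [φ.ord_t a ha]; exact one_pos))

theorem hat_t {a : ℂ} (ha : a ∈ ball (0 : ℂ) φ.r) : φ.hat φ.t a = a := φ.valAt_t ha

end Chart

end Fermat.Agent.M27.Iface2
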