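/-
Programme M27 (target S27), chapter C (helper5): **the Liouville step of "easy Abel mod Lam", in
abstract form.**  Mathlib only.

`E` a complex Banach space, `Lam` a COUNTABLE additive subgroup of `E` (not assumed discrete or
closed), `Ψ Ψ' : ℂ → E ⧸ Lam` two functions which have holomorphic local lifts at every point of `ℂ`
and satisfy `Ψ z = Ψ' z⁻¹` for `z ≠ 0`. Then `Ψ` and `Ψ'` are constant and `Ψ 0 = Ψ' 0`.

Proof: two local lifts differ by a continuous `Lam`-valued function on a convex set, i.e. by a constant;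
so the derivative `h` of the local lifts is a well defined entire function; near infinity
`h z = -(φ')'(1/z)/z²` tends to `0`; Liouville.
-/
import Mathlib

set_option autoImplicit false
set_option linter.unusedSectionVars false
set_option linter.unusedVariables false
set_option linter.style.longLine false

noncomputable section

namespace Fermat.Agent.M27.LiouvilleLam5

open Set Filter Topology Metric

variable {E : Type*} [NormedAddCommGroup E] [NormedSpace ℂ E] [CompleteSpace E]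

/-- a continuous map from a preconnected set to a countable subset of a metric space is constant -/
lemma const_of_countable_values {X : Type*} [TopologicalSpace X] {M : Type*} [MetricSpace M]
    {s : Set X} (hs : IsPreconnected s) {u : X → M} (hu : ContinuousOn u s) {C : Set M}
    (hC : C.Countable) (huC : ∀ x ∈ s, u x ∈ C) {x y : X} (hx : x ∈ s) (hy : y ∈ s) : u x = u y := by
  have h1 : IsPreconnected (u '' s) := hs.image u hu
  have h2 : u '' s ⊆ C := by rintro _ ⟨a, ha, rfl⟩; exact huC a ha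
  exact hC.isTotallyDisconnected _ h2 h1 (mem_image_of_mem u hx) (mem_image_of_mem u hy)

variable {Lam : AddSubgroup E}

/-- two continuous lifts of the same `E ⧸ Lam`-valued function on a preconnected set differ by a
constant. -/
lemma lifts_differ_by_const (hLam : (Lam : Set E).Countable) {B : Set ℂ} (hB : IsPreconnected B)
    {φ₁ φ₂ : ℂ → E} (h₁ : ContinuousOn φ₁ B) (h₂ : ContinuousOn φ₂ B)
    (heq : ∀ z ∈ B, ((φ₁ z : E) : E ⧸ Lam) = (φ₂ z : E)) :
    ∃ c : E, ∀ z ∈ B, φ₁ z = φ₂ z + c := by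
  rcases B.eq_empty_or_nonempty with rfl | ⟨b, hb⟩
  · exact ⟨0, fun z hz => absurd hz (notMem_empty z)⟩
  refine ⟨φ₁ b - φ₂ b, fun z hz => ?_⟩
  have hmem : ∀ w ∈ B, φ₁ w - φ₂ w ∈ (Lam : Set E) := by
    intro w hw
    have := heq w hw
    rw [eq_comm, QuotientAddGroup.eq] at this
    simpa [sub_eq_neg_add] using this
  have := const_of_countable_values hB (h₁.sub h₂) hLam hmem hz hb
  simp only [Pi.sub_apply] at this
  rw [← this]; abel

/-- `Ψ : ℂ → E ⧸ Lam` has holomorphic local lifts at every point. -/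
def HasLifts (Ψ : ℂ → E ⧸ Lam) : Prop :=
  ∀ z₀ : ℂ, ∃ ε : ℝ, 0 < ε ∧ ∃ φ : ℂ → E, DifferentiableOn ℂ φ (ball z₀ ε) ∧
    ∀ z ∈ ball z₀ ε, ((φ z : E) : E ⧸ Lam) = Ψ z

/-- the common derivative of the local lifts -/
lemma exists_common_deriv (hLam : (Lam : Set E).Countable) {Ψ : ℂ → E ⧸ Lam} (hΨ : HasLifts Ψ) :
    ∃ h : ℂ → E, Differentiable ℂ h ∧
      ∀ (U : Set ℂ) (φ : ℂ → E), IsOpen U → DifferentiableOn ℂ φ U →
        (∀ z ∈ U, ((φ z : E) : E ⧸ Lam) = Ψ z) → ∀ z ∈ U, deriv φ z = h z := by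
  choose ε hε φ hφd hφ using hΨ
  -- comparison of an arbitrary lift with the chosen lift
  have hcmp : ∀ (U : Set ℂ) (χ : ℂ → E), IsOpen U → DifferentiableOn ℂ χ U →
      (∀ z ∈ U, ((χ z : E) : E ⧸ Lam) = Ψ z) → ∀ z₀, ∀ z ∈ U, z ∈ ball z₀ (ε z₀) →
        deriv χ z = deriv (φ z₀) z := by
    intro U χ hU hχd hχ z₀ z hzU hz
    obtain ⟨r, hr, hrU⟩ := Metric.isOpen_iff.mp hU z hzU
    set B : Set ℂ := ball z r ∩ ball z₀ (ε z₀) with hB
    have hBconv : Convex ℝ B := (convex_ball z r).inter (convex_ball z₀ (ε z₀))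
    have hBopen : IsOpen B := isOpen_ball.inter isOpen_ball
    have hzB : z ∈ B := ⟨mem_ball_self hr, hz⟩
    obtain ⟨c, hc⟩ := lifts_differ_by_const hLam hBconv.isPreconnected
      ((hχd.mono (inter_subset_left.trans hrU)).continuousOn)
      ((hφd z₀).continuousOn.mono inter_subset_right)
      (fun w hw => by rw [hχ w (hrU hw.1), hφ z₀ w hw.2])
    have hev : χ =ᶠ[𝓝 z] fun w => φ z₀ w + c := by
      filter_upwards [hBopen.mem_nhds hzB] with w hw using hc w hw
    rw [hev.deriv_eq, deriv_add_const]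
  refine ⟨fun z => deriv (φ z) z, ?_, ?_⟩
  · intro z₀
    have hev : (fun z => deriv (φ z) z) =ᶠ[𝓝 z₀] deriv (φ z₀) := by
      filter_upwards [isOpen_ball.mem_nhds (mem_ball_self (hε z₀))] with z hz
      exact hcmp (ball z (ε z)) (φ z) isOpen_ball (hφd z) (hφ z) z₀ z (mem_ball_self (hε z)) hz
    have hd : DifferentiableAt ℂ (deriv (φ z₀)) z₀ :=
      ((hφd z₀).deriv isOpen_ball).differentiableAt (isOpen_ball.mem_nhds (mem_ball_self (hε z₀)))
    exact hd.congr_of_eventuallyEq hev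
  · intro U χ hU hχd hχ z hz
    exact hcmp U χ hU hχd hχ z z hz (mem_ball_self (hε z))

/-- if the common derivative vanishes identically then `Ψ` is constant. -/
lemma const_of_deriv_zero {Ψ : ℂ → E ⧸ Lam} (hΨ : HasLifts Ψ)
    (h0 : ∀ (U : Set ℂ) (φ : ℂ → E), IsOpen U → DifferentiableOn ℂ φ U →
        (∀ z ∈ U, ((φ z : E) : E ⧸ Lam) = Ψ z) → ∀ z ∈ U, deriv φ z = 0) (z w : ℂ) :
    Ψ z = Ψ w := by
  -- `Ψ` is constant on a ball around every point
  have hloc : ∀ z₀ : ℂ, ∃ ε : ℝ, 0 < ε ∧ ∀ z ∈ ball z₀ ε, Ψ z = Ψ z₀ := by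
    intro z₀
    obtain ⟨ε, hε, φ, hφd, hφ⟩ := hΨ z₀
    refine ⟨ε, hε, fun z hz => ?_⟩
    have hconst : φ z = φ z₀ := by
      have hderiv : ∀ x ∈ ball z₀ ε, fderivWithin ℂ φ (ball z₀ ε) x = 0 := by
        intro x hx
        have hdx : DifferentiableAt ℂ φ x := hφd.differentiableAt (isOpen_ball.mem_nhds hx)
        rw [fderivWithin_eq_fderiv (isOpen_ball.uniqueDiffWithinAt hx) hdx]
        ext
        simp [h0 (ball z₀ ε) φ isOpen_ball hφd hφ x hx]
      exact (convex_ball z₀ ε).is_const_of_fderivWithin_eq_zero (𝕜 := ℂ) hφd hderiv hz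
        (mem_ball_self hε)
    rw [← hφ z hz, ← hφ z₀ (mem_ball_self hε), hconst]
  have hclopen : IsClopen {x | Ψ x = Ψ w} := by
    constructor
    · rw [← isOpen_compl_iff, Metric.isOpen_iff]
      intro x hx
      obtain ⟨ε, hε, h⟩ := hloc x
      exact ⟨ε, hε, fun y hy => by
        simp only [mem_compl_iff, mem_ofPred_eq] at hx ⊢
        rw [h y hy]; exact hx⟩
    · rw [Metric.isOpen_iff]
      intro x hx
      obtain ⟨ε, hε, h⟩ := hloc x
      exact ⟨ε, hε, fun y hy => by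
        simp only [mem_ofPred_eq] at hx ⊢
        rw [h y hy]; exact hx⟩
  have := hclopen.eq_univ ⟨w, rfl⟩
  have hz : z ∈ {x | Ψ x = Ψ w} := by rw [this]; exact mem_univ z
  exact hz

/-- **the Liouville step.** -/
theorem eq_of_hasLifts_of_inv (hLam : (Lam : Set E).Countable)
    {Ψ Ψ' : ℂ → E ⧸ Lam} (hΨ : HasLifts Ψ) (hΨ' : HasLifts Ψ')
    (hinv : ∀ z : ℂ, z ≠ 0 → Ψ z = Ψ' z⁻¹) : Ψ 0 = Ψ' 0 := by
  -- it is enough to show that both are constant
  suffices H : ∀ {Ψ Ψ' : ℂ → E ⧸ Lam}, HasLifts Ψ → HasLifts Ψ' → (∀ z : ℂ, z ≠ 0 → Ψ z = Ψ' z⁻¹) →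
      ∀ z w, Ψ z = Ψ w by
    have h1 := H hΨ hΨ' hinv 0 1
    have h2 := H hΨ' hΨ (fun z hz => by rw [hinv z⁻¹ (inv_ne_zero hz), inv_inv]) 0 1
    rw [h1, h2, hinv 1 one_ne_zero, inv_one]
  clear hΨ hΨ' hinv Ψ Ψ'
  intro Ψ Ψ' hΨ hΨ' hinv
  obtain ⟨h, hh, hcommon⟩ := exists_common_deriv hLam hΨ
  refine const_of_deriv_zero hΨ fun U φ hU hφd hφ z hz => ?_
  rw [hcommon U φ hU hφd hφ z hz]
  -- `h` tends to `0` at infinity
  obtain ⟨ε, hε, φ', hφ'd, hφ'⟩ := hΨ' 0
  -- the lift `w ↦ φ' (w⁻¹)` of `Ψ` near infinity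
  set V : Set ℂ := {w | ε⁻¹ < ‖w‖} with hV
  have hVopen : IsOpen V := isOpen_lt continuous_const continuous_norm
  have hV0 : ∀ w ∈ V, w ≠ 0 := by
    intro w hw h0
    rw [hV, mem_ofPred_eq, h0, norm_zero] at hw
    exact absurd (inv_pos.mpr hε) (not_lt.mpr hw.le)
  have hVinv : ∀ w ∈ V, w⁻¹ ∈ ball (0 : ℂ) ε := by
    intro w hw
    have hw0 := hV0 w hw
    rw [mem_ball_zero_iff, norm_inv]
    rw [hV, mem_ofPred_eq] at hw
    exact inv_lt_of_inv_lt₀ hε hw
  have hχ : ∀ w ∈ V, HasDerivAt (fun w => φ' w⁻¹) ((-(w ^ 2)⁻¹) • deriv φ' w⁻¹) w := by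
    intro w hw
    have h1 : HasDerivAt φ' (deriv φ' w⁻¹) w⁻¹ :=
      (hφ'd.differentiableAt (isOpen_ball.mem_nhds (hVinv w hw))).hasDerivAt
    exact h1.scomp w (hasDerivAt_inv (hV0 w hw))
  have hhV : ∀ w ∈ V, h w = (-(w ^ 2)⁻¹) • deriv φ' w⁻¹ := by
    intro w hw
    rw [← hcommon V (fun w => φ' w⁻¹) hVopen
      (fun x hx => (hχ x hx).differentiableAt.differentiableWithinAt)
      (fun x hx => by rw [hφ' x⁻¹ (hVinv x hx), hinv x (hV0 x hx)]) w hw]
    exact (hχ w hw).deriv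
  -- bound of `deriv φ'` on a smaller closed ball
  have hcont : ContinuousOn (deriv φ') (closedBall (0 : ℂ) (ε / 2)) :=
    (hφ'd.deriv isOpen_ball).continuousOn.mono (closedBall_subset_ball (by linarith))
  obtain ⟨M, hM⟩ := (isCompact_closedBall (0 : ℂ) (ε / 2)).exists_bound_of_continuousOn hcont
  have htend : Tendsto h (cocompact ℂ) (𝓝 0) := by
    rw [tendsto_zero_iff_norm_tendsto_zero]
    have hnorm : Tendsto (fun z : ℂ => ‖z‖) (cocompact ℂ) atTop := tendsto_norm_cocompact_atTop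
    have hlim : Tendsto (fun z : ℂ => M / ‖z‖ ^ 2) (cocompact ℂ) (𝓝 0) :=
      tendsto_const_nhds.div_atTop ((tendsto_pow_atTop (n := 2) (by norm_num)).comp hnorm)
    refine squeeze_zero' (Eventually.of_forall fun _ => norm_nonneg _) ?_ hlim
    filter_upwards [hnorm.eventually_ge_atTop (2 / ε + 1)] with z hz
    have hεinv : ε⁻¹ < ‖z‖ := by
      have : ε⁻¹ ≤ 2 / ε := by rw [div_eq_mul_inv]; nlinarith [inv_pos.mpr hε]
      linarith
    have hzV : z ∈ V := hεinv
    have hz0 : z ≠ 0 := hV0 z hzV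
    have hzinv : z⁻¹ ∈ closedBall (0 : ℂ) (ε / 2) := by
      rw [mem_closedBall_zero_iff, norm_inv]
      have h2 : 2 / ε ≤ ‖z‖ := by linarith
      have hpos : 0 < 2 / ε := by positivity
      calc ‖z‖⁻¹ ≤ (2 / ε)⁻¹ := inv_anti₀ hpos h2
        _ = ε / 2 := by rw [inv_div]
    rw [hhV z hzV, norm_smul, norm_neg, norm_inv, norm_pow, div_eq_inv_mul]
    exact mul_le_mul_of_nonneg_left (hM _ hzinv) (by positivity)
  exact hh.apply_eq_of_tendsto_cocompact z htend

end Fermat.Agent.M27.LiouvilleLam5
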