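/-
Programme M27 (target S27), chapter C (helper5): **easy Abel mod `Lam`** on the Riemann surface of a
function field `F / ℂ` (interface `M27/Iface2`).

Data: a family of charts `φ i` covering `Place ℂ F`, holomorphic `E`-valued chart functions `W i`
(the chart primitives of the regular differentials) and a map `Fbar : Place ℂ F → E ⧸ Lam` with
`Fbar (c_i a) = [W i a]` (i.e. the transition constants lie in `Lam`), `Lam` a COUNTABLE subgroup.

* `mult f z P = (ord_P (f - z))⁺`, `Psi f z = ∑ᶠ P, mult f z P • Fbar P` (the sum of `Fbar` over the fibre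
  of `f` over `z`, with multiplicities);
* `exists_lift_zero` : `Psi f` has a holomorphic lift near `0` (contour integrals, no case distinction);
* `hasLifts_Psi`, `Psi_inv` : lifts everywhere, `Psi f z = Psi f⁻¹ z⁻¹`;
* **`abel_mod_Lam`** : `∑ᶠ P, ord_P f • Fbar P = 0` for every `f ≠ 0`.
-/
import Mathlib
import Fermat.Agent.M27.Iface2
import Fermat.Agent.M27.ArgPrinciple5
import Fermat.Agent.M27.LiouvilleLam5

set_option autoImplicit false
set_option linter.unusedSectionVars false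
set_option linter.unusedVariables false
set_option linter.style.longLine false

noncomputable section

namespace Fermat.Agent.M27.AbelLam5

open AlgebraicCurve Metric Topology Set Filter
open Fermat.Agent.RR.LSpace Fermat.Agent.M15.DivDefs4 Fermat.Agent.X0
open Fermat.Agent.M27.Iface2 Fermat.Agent.M27.ArgPrinciple5 Fermat.Agent.M27.LiouvilleLam5

variable {F : Type*} [Field F] [Algebra ℂ F]

/-! ### multiplicities -/

/-- the multiplicity of `P` in the fibre of `f` over `z`. -/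
def mult (f : F) (z : ℂ) (P : Place ℂ F) : ℕ := (P.ord (f - algebraMap ℂ F z)).toNat

/-- `f` is not a constant. -/
def IsNonconst (f : F) : Prop := ∀ z : ℂ, f ≠ algebraMap ℂ F z

theorem IsNonconst.sub_alg_ne_zero {f : F} (hf : IsNonconst f) (z : ℂ) :
    f - algebraMap ℂ F z ≠ 0 :=
  _root_.sub_ne_zero.mpr (hf z)

theorem IsNonconst.ne_zero {f : F} (hf : IsNonconst f) : f ≠ 0 := by
  intro h; exact hf 0 (by simp [h])

theorem IsNonconst.sub_const {f : F} (hf : IsNonconst f) (z₀ : ℂ) :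
    IsNonconst (f - algebraMap ℂ F z₀) := by
  intro z h
  apply hf (z + z₀)
  rw [map_add, ← h]; ring

theorem IsNonconst.inv {f : F} (hf : IsNonconst f) : IsNonconst f⁻¹ := by
  intro z h
  rcases eq_or_ne z 0 with rfl | hz
  · rw [map_zero, inv_eq_zero] at h
    exact hf.ne_zero h
  · apply hf z⁻¹
    rw [map_inv₀, ← h, inv_inv]

theorem mult_sub_const (f : F) (z₀ z : ℂ) (P : Place ℂ F) :
    mult (f - algebraMap ℂ F z₀) z P = mult f (z₀ + z) P := by
  unfold mult
  rw [map_add, sub_sub]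

variable (H : LHyp ℂ F)

include H in
theorem finite_mult_ne_zero {f : F} (z : ℂ) (hf : f - algebraMap ℂ F z ≠ 0) :
    {P : Place ℂ F | mult f z P ≠ 0}.Finite := by
  obtain ⟨D, hD, -⟩ := H.principal _ hf
  refine D.support.finite_toSet.subset ?_
  intro P hP
  rw [Finset.mem_coe, Finsupp.mem_support_iff, hD P]
  intro h0
  apply hP
  unfold mult
  rw [h0]; rfl

theorem mult_ne_zero_iff {f : F} {z : ℂ} {P : Place ℂ F} :
    mult f z P ≠ 0 ↔ 0 < P.ord (f - algebraMap ℂ F z) := by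
  unfold mult
  rw [Ne, Int.toNat_eq_zero, not_le]

theorem sval_ne_infty_iff {f : F} {P : Place ℂ F} :
    sval H f P ≠ OnePoint.infty ↔ f ∈ P.toValuationSubring := by
  by_cases h : f ∈ P.toValuationSubring
  · simp [sval_of_mem H h, h]
  · simp [sval_of_not_mem H h, h]

theorem sval_eq_coe_iff {f : F} {z : ℂ} (hfz : f - algebraMap ℂ F z ≠ 0) {P : Place ℂ F} :
    sval H f P = (z : OnePoint ℂ) ↔ 0 < P.ord (f - algebraMap ℂ F z) := by
  constructor
  · intro h
    have hmem : f ∈ P.toValuationSubring := by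
      rw [← sval_ne_infty_iff H, h]; exact OnePoint.coe_ne_infty z
    rw [sval_of_mem H hmem, OnePoint.coe_eq_coe] at h
    have := valAt_spec H P hmem
    rw [h] at this
    exact this.resolve_left hfz
  · intro h
    rw [sval_of_mem H (mem_of_ord_sub_pos P (Or.inr h)), valAt_eq_of H P (Or.inr h)]

/-- the multiplicities of `f` over `z` and of `f⁻¹` over `z⁻¹` agree. -/
theorem mult_inv {f : F} (hf : IsNonconst f) {z : ℂ} (hz : z ≠ 0) (P : Place ℂ F) :
    mult f⁻¹ z⁻¹ P = mult f z P := by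
  have hf0 := hf.ne_zero
  have hfz := hf.sub_alg_ne_zero z
  have hcz : algebraMap ℂ F z ≠ 0 := by simpa using hz
  have hkey : f⁻¹ - algebraMap ℂ F z⁻¹ = -(f - algebraMap ℂ F z) * (f * algebraMap ℂ F z)⁻¹ := by
    rw [map_inv₀]; field_simp; ring
  have hord : P.ord (f⁻¹ - algebraMap ℂ F z⁻¹) = P.ord (f - algebraMap ℂ F z) - P.ord f := by
    rw [hkey, P.ord_mul (neg_ne_zero.mpr hfz) (inv_ne_zero (mul_ne_zero hf0 hcz)), FF.ord_neg,
      P.ord_inv, P.ord_mul hf0 hcz, FF.ord_algebraMap]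
    ring
  unfold mult
  rw [hord]
  -- `f = (f - z) + z`
  have hsum : f = (f - algebraMap ℂ F z) + algebraMap ℂ F z := by ring
  rcases lt_or_ge 0 (P.ord (f - algebraMap ℂ F z)) with hpos | hneg
  · have h0 : P.ord f = 0 := by
      have h1 : P.ord (algebraMap ℂ F z + (f - algebraMap ℂ F z)) = P.ord (algebraMap ℂ F z) :=
        FF.ord_add_eq_of_lt P hcz (by rw [FF.ord_algebraMap]; exact hpos)
      rw [FF.ord_algebraMap] at h1
      rw [← h1]; congr 1; ring
    rw [h0, sub_zero]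
  · have h1 : min (P.ord (f - algebraMap ℂ F z)) (P.ord (algebraMap ℂ F z)) ≤ P.ord f := by
      have := FF.ord_add_ge P (f := f - algebraMap ℂ F z) (g := algebraMap ℂ F z)
        (by rw [← hsum]; exact hf0)
      rwa [← hsum] at this
    rw [FF.ord_algebraMap, min_eq_left hneg] at h1
    rw [Int.toNat_eq_zero.mpr hneg, Int.toNat_eq_zero.mpr (by omega)]

/-! ### functions read in a chart -/

section ChartLemmas

variable {H} [TopologicalSpace (Place ℂ F)] (hS : IsRSurface H) (φ : Chart H)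

/-- the image of an open subset of the coordinate disc is open. -/
theorem isOpen_image_chart {V : Set ℂ} (hV : IsOpen V) (hsub : V ⊆ ball (0 : ℂ) φ.r) :
    IsOpen (φ.c '' V) := by
  have h := φ.emb.isOpenMap _ (hV.preimage (continuous_subtype_val (p := fun a => a ∈ ball (0 : ℂ) φ.r)))
  convert h using 1
  ext P
  constructor
  · rintro ⟨a, ha, rfl⟩
    exact ⟨⟨a, hsub ha⟩, ha, rfl⟩
  · rintro ⟨a, ha, rfl⟩
    exact ⟨a.1, ha, rfl⟩

include hS in
/-- regularity is an open condition in a chart. -/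
theorem eventually_mem_valuationSubring {f : F} {a : ℂ} (ha : a ∈ ball (0 : ℂ) φ.r)
    (hf : f ∈ (φ.c a).toValuationSubring) :
    ∀ᶠ b in 𝓝 a, b ∈ ball (0 : ℂ) φ.r ∧ f ∈ (φ.c b).toValuationSubring := by
  have hcont : ContinuousOn (fun b => sval H f (φ.c b)) (ball (0 : ℂ) φ.r) :=
    (hS.continuous_sval f).comp_continuousOn φ.continuousOn
  have hopen : IsOpen (ball (0 : ℂ) φ.r ∩ (fun b => sval H f (φ.c b)) ⁻¹' {OnePoint.infty}ᶜ) :=
    hcont.isOpen_inter_preimage isOpen_ball isOpen_compl_singleton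
  have hmem : a ∈ ball (0 : ℂ) φ.r ∩ (fun b => sval H f (φ.c b)) ⁻¹' {OnePoint.infty}ᶜ :=
    ⟨ha, (sval_ne_infty_iff H).mpr hf⟩
  filter_upwards [hopen.mem_nhds hmem] with b hb
  exact ⟨hb.1, (sval_ne_infty_iff H).mp hb.2⟩

/-- `(f - z)^ = f^ - z` at regular points. -/
theorem hat_sub_const {f : F} (z : ℂ) {b : ℂ} (hf : f ∈ (φ.c b).toValuationSubring) :
    φ.hat (f - algebraMap ℂ F z) b = φ.hat f b - z := by
  have hz : -algebraMap ℂ F z ∈ (φ.c b).toValuationSubring :=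
    neg_mem ((φ.c b).algebraMap_mem' z)
  rw [Chart.hat_apply, Chart.hat_apply, sub_eq_add_neg, valAt_add H _ hf hz, ← map_neg,
    valAt_algebraMap, sub_eq_add_neg]

include hS in
/-- analytic order of `f^ - z` = multiplicity. -/
theorem analyticOrderNatAt_hat_sub {f : F} (z : ℂ) (hfz : f - algebraMap ℂ F z ≠ 0) {a : ℂ}
    (ha : a ∈ ball (0 : ℂ) φ.r) (hf : f ∈ (φ.c a).toValuationSubring) :
    analyticOrderNatAt (fun b => φ.hat f b - z) a = mult f z (φ.c a) := by
  have hmem : f - algebraMap ℂ F z ∈ (φ.c a).toValuationSubring :=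
    sub_mem hf ((φ.c a).algebraMap_mem' z)
  have hord : 0 ≤ (φ.c a).ord (f - algebraMap ℂ F z) := FF.ord_nonneg_of_mem _ hmem
  have hev : (fun b => φ.hat f b - z) =ᶠ[𝓝 a] fun b => valAt H (φ.c b) (f - algebraMap ℂ F z) := by
    filter_upwards [eventually_mem_valuationSubring hS φ ha hf] with b hb
    exact (hat_sub_const φ z hb.2).symm
  unfold analyticOrderNatAt
  rw [analyticOrderAt_congr hev, φ.order_eq _ a hfz ha hord]
  rfl

/-- `f^` is holomorphic on an open set of regular points. -/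
theorem differentiableOn_hat {f : F} {U : Set ℂ}
    (hU : ∀ b ∈ U, b ∈ ball (0 : ℂ) φ.r ∧ f ∈ (φ.c b).toValuationSubring) :
    DifferentiableOn ℂ (φ.hat f) U := fun b hb =>
  (φ.analyticAt f b (hU b hb).1 (FF.ord_nonneg_of_mem _ (hU b hb).2)).differentiableAt.differentiableWithinAt

/-- zeros of `f^` are isolated. -/
theorem eventually_hat_ne_zero {f : F} (hf0 : f ≠ 0) {a : ℂ} (ha : a ∈ ball (0 : ℂ) φ.r)
    (hf : f ∈ (φ.c a).toValuationSubring) : ∀ᶠ b in 𝓝[≠] a, φ.hat f b ≠ 0 := by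
  have hord : 0 ≤ (φ.c a).ord f := FF.ord_nonneg_of_mem _ hf
  have hA : AnalyticAt ℂ (φ.hat f) a := φ.analyticAt f a ha hord
  rcases hA.eventually_eq_zero_or_eventually_ne_zero with h | h
  · exfalso
    have h1 : analyticOrderAt (φ.hat f) a = ⊤ := analyticOrderAt_eq_top.mpr h
    have h2 := φ.order_eq f a hf0 ha hord
    rw [show (fun b => valAt H (φ.c b) f) = φ.hat f from rfl, h1] at h2
    exact ENat.top_ne_coe _ h2
  · exact h

end ChartLemmas

/-! ### generic lemmas -/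

/-- compactness: a continuous `OnePoint ℂ`-valued function which avoids the finite value `z₀` on a
compact set avoids a whole ball around `z₀`. -/
lemma exists_ball_avoid {X : Type*} [TopologicalSpace X] {K : Set X} (hK : IsCompact K)
    {v : X → OnePoint ℂ} (hv : ContinuousOn v K) {z₀ : ℂ} (h : ∀ P ∈ K, v P ≠ (z₀ : OnePoint ℂ)) :
    ∃ δ : ℝ, 0 < δ ∧ ∀ P ∈ K, ∀ z ∈ ball z₀ δ, v P ≠ (z : OnePoint ℂ) := by
  have hcl : IsClosed (v '' K) := (hK.image_of_continuousOn hv).isClosed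
  have hnot : (z₀ : OnePoint ℂ) ∉ v '' K := by
    rintro ⟨P, hP, hPz⟩; exact h P hP hPz
  have hopen : IsOpen ((↑) ⁻¹' (v '' K)ᶜ : Set ℂ) :=
    hcl.isOpen_compl.preimage OnePoint.continuous_coe
  obtain ⟨δ, hδ, hsub⟩ := Metric.isOpen_iff.mp hopen z₀ hnot
  refine ⟨δ, hδ, fun P hP z hz hPz => ?_⟩
  exact hsub hz ⟨P, hP, hPz⟩

/-- a positive lower bound for finitely many positive numbers. -/
lemma exists_pos_le_of_finite {α : Type*} {S : Set α} (hS : S.Finite) (e : α → ℝ)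
    (he : ∀ a ∈ S, 0 < e a) {δ : ℝ} (hδ : 0 < δ) :
    ∃ ε : ℝ, 0 < ε ∧ ε ≤ δ ∧ ∀ a ∈ S, ε ≤ e a := by
  induction S, hS using Set.Finite.induction_on with
  | empty => exact ⟨δ, hδ, le_rfl, fun a ha => absurd ha (notMem_empty a)⟩
  | @insert a s has hs ih =>
    obtain ⟨ε, hε, hεδ, hle⟩ := ih fun b hb => he b (mem_insert_of_mem a hb)
    refine ⟨min ε (e a), lt_min hε (he a (mem_insert a s)), (min_le_left _ _).trans hεδ, ?_⟩
    intro b hb
    rcases hb with rfl | hb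
    · exact min_le_right _ _
    · exact (min_le_left _ _).trans (hle b hb)

/-! ### the local lift -/

section Lift

variable {H} [TopologicalSpace (Place ℂ F)] (hS : IsRSurface H)
  {E : Type*} [NormedAddCommGroup E] [NormedSpace ℂ E] [CompleteSpace E] {Lam : AddSubgroup E}
  {ι : Type*} (φ : ι → Chart H) (hcov : ∀ P : Place ℂ F, ∃ i, P ∈ (φ i).dom)
  (W : ι → ℂ → E) (hW : ∀ i, DifferentiableOn ℂ (W i) (ball (0 : ℂ) (φ i).r))
  (Fbar : Place ℂ F → E ⧸ Lam)
  (hFbar : ∀ i, ∀ a ∈ ball (0 : ℂ) (φ i).r, Fbar ((φ i).c a) = ((W i a : E) : E ⧸ Lam))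

/-- the sum of `Fbar` over the fibre of `f` over `z`, with multiplicities. -/
def Psi (Fbar : Place ℂ F → E ⧸ Lam) (f : F) (z : ℂ) : E ⧸ Lam :=
  ∑ᶠ P : Place ℂ F, mult f z P • Fbar P

include hS hcov hW hFbar in
/-- **the local lift at `0`**: contour integrals on small discs around the zeros of `f`. -/
theorem exists_lift_zero {f : F} (hf : IsNonconst f) :
    ∃ ε : ℝ, 0 < ε ∧ ∃ ψ : ℂ → E, DifferentiableOn ℂ ψ (ball (0 : ℂ) ε) ∧
      ∀ z ∈ ball (0 : ℂ) ε, ((ψ z : E) : E ⧸ Lam) = Psi Fbar f z := by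
  classical
  haveI := hS.compactSpace
  haveI := hS.t2Space
  have hf0 := hf.ne_zero
  -- the zeros of `f`
  set S : Set (Place ℂ F) := {P | 0 < P.ord f} with hSdef
  have hSfin : S.Finite := by
    have := finite_mult_ne_zero H (f := f) 0 (by simpa using hf0)
    refine this.subset ?_
    intro P hP
    rw [mem_ofPred_eq, mult_ne_zero_iff]
    have hP' : 0 < P.ord f := hP
    simpa using hP'
  obtain ⟨Usep, hUsep, hdisj⟩ := hSfin.t2_separation
  haveI : Nonempty ι := by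
    obtain ⟨P⟩ := H.nonempty
    obtain ⟨i, -⟩ := hcov P
    exact ⟨i⟩
  -- chart data at the zeros
  have hdata : ∀ Q ∈ S, ∃ (i : ι) (q : ℂ) (ρ : ℝ), q ∈ ball (0 : ℂ) (φ i).r ∧ (φ i).c q = Q ∧ 0 < ρ ∧
      (∀ b ∈ ball q ρ, b ∈ ball (0 : ℂ) (φ i).r ∧ f ∈ ((φ i).c b).toValuationSubring) ∧
      (∀ b ∈ ball q ρ, (φ i).c b ∈ Usep Q) ∧ (∀ b ∈ ball q ρ, b ≠ q → (φ i).hat f b ≠ 0) := by
    intro Q hQ
    obtain ⟨i, q, hq, rfl⟩ := hcov Q
    have hmem : f ∈ ((φ i).c q).toValuationSubring := FF.mem_of_ord_nonneg _ (le_of_lt hQ)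
    have h1 := eventually_mem_valuationSubring hS (φ i) hq hmem
    have h2 : ∀ᶠ b in 𝓝 q, (φ i).c b ∈ Usep ((φ i).c q) := by
      have hc : ContinuousAt (φ i).c q :=
        (φ i).continuousOn.continuousAt (isOpen_ball.mem_nhds hq)
      exact hc.eventually ((hUsep _).2.mem_nhds (hUsep _).1)
    have h3 : ∀ᶠ b in 𝓝 q, b ≠ q → (φ i).hat f b ≠ 0 := by
      have := eventually_hat_ne_zero (φ i) hf0 hq hmem
      rw [eventually_nhdsWithin_iff] at this
      exact this
    obtain ⟨ρ, hρ, hball⟩ := Metric.eventually_nhds_iff_ball.mp (h1.and (h2.and h3))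
    exact ⟨i, q, ρ, hq, rfl, hρ, fun b hb => (hball b hb).1, fun b hb => (hball b hb).2.1,
      fun b hb => (hball b hb).2.2⟩
  choose! iQ qQ ρQ hq hcq hρ hreg hsep hiso using hdata
  -- the contour lifts
  have hlift : ∀ Q ∈ S, ∃ ε : ℝ, 0 < ε ∧ ∃ ψ : ℂ → E, DifferentiableOn ℂ ψ (ball (0 : ℂ) ε) ∧
      ∀ z ∈ ball (0 : ℂ) ε, (∀ a ∈ sphere (qQ Q) (ρQ Q / 2), (φ (iQ Q)).hat f a ≠ z) ∧
        ∀ Z : Finset ℂ, (∀ a ∈ closedBall (qQ Q) (ρQ Q / 2), (φ (iQ Q)).hat f a = z → a ∈ Z) →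
          (∀ p ∈ Z, p ∈ ball (qQ Q) (ρQ Q / 2)) →
          ψ z = ∑ p ∈ Z, analyticOrderNatAt (fun a => (φ (iQ Q)).hat f a - z) p • W (iQ Q) p := by
    intro Q hQ
    have hρ2 : 0 < ρQ Q / 2 := half_pos (hρ Q hQ)
    have hsub : closedBall (qQ Q) (ρQ Q / 2) ⊆ ball (qQ Q) (ρQ Q) :=
      closedBall_subset_ball (by linarith [hρ Q hQ])
    exact exists_lift_weighted_fibre isOpen_ball (convex_ball _ _).isPreconnected hρ2 hsub
      (differentiableOn_hat (φ (iQ Q)) (hreg Q hQ))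
      ((hW (iQ Q)).mono fun b hb => (hreg Q hQ b hb).1)
      (z₀ := 0) (fun a ha => hiso Q hQ a (hsub (sphere_subset_closedBall ha)) (by
        intro h
        rw [h, mem_sphere, dist_self] at ha
        linarith))
  choose! εQ hεQ ψQ hψd hψ using hlift
  -- the discs and the compact complement
  set Dsk : Place ℂ F → Set (Place ℂ F) := fun Q => (φ (iQ Q)).c '' ball (qQ Q) (ρQ Q / 2) with hDsk
  have hhalf : ∀ Q ∈ S, ball (qQ Q) (ρQ Q / 2) ⊆ ball (qQ Q) (ρQ Q) := fun Q hQ =>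
    ball_subset_ball (by linarith [hρ Q hQ])
  have hDopen : ∀ Q ∈ S, IsOpen (Dsk Q) := fun Q hQ =>
    isOpen_image_chart (φ (iQ Q)) isOpen_ball (fun b hb => (hreg Q hQ b (hhalf Q hQ hb)).1)
  set K : Set (Place ℂ F) := (⋃ Q ∈ S, Dsk Q)ᶜ with hK
  have hKcl : IsClosed K := (isOpen_biUnion hDopen).isClosed_compl
  have hKne : ∀ P ∈ K, sval H f P ≠ ((0 : ℂ) : OnePoint ℂ) := by
    intro P hP h0
    have hPS : P ∈ S := by
      have := (sval_eq_coe_iff H (z := 0) (by simpa using hf0)).mp h0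
      show 0 < P.ord f
      simpa using this
    apply hP
    exact mem_biUnion hPS ⟨qQ P, mem_ball_self (half_pos (hρ P hPS)), hcq P hPS⟩
  obtain ⟨δ, hδ, hδK⟩ := exists_ball_avoid hKcl.isCompact (hS.continuous_sval f).continuousOn hKne
  obtain ⟨ε, hε, hεδ, hεle⟩ := exists_pos_le_of_finite hSfin εQ hεQ hδ
  refine ⟨ε, hε, fun z => ∑ Q ∈ hSfin.toFinset, ψQ Q z, ?_, ?_⟩
  · exact DifferentiableOn.fun_sum fun Q hQ =>
      (hψd Q (hSfin.mem_toFinset.mp hQ)).mono (ball_subset_ball (hεle Q (hSfin.mem_toFinset.mp hQ)))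
  intro z hz
  have hfz := hf.sub_alg_ne_zero z
  have hzQ : ∀ Q ∈ S, z ∈ ball (0 : ℂ) (εQ Q) := fun Q hQ => ball_subset_ball (hεle Q hQ) hz
  -- the fibres in the discs
  have hfin : ∀ Q ∈ S,
      (closedBall (qQ Q) (ρQ Q / 2) ∩ {a | (φ (iQ Q)).hat f a = z}).Finite := by
    intro Q hQ
    exact finite_fibre_closedBall isOpen_ball (convex_ball _ _).isPreconnected
      (half_pos (hρ Q hQ)) (closedBall_subset_ball (by linarith [hρ Q hQ]))
      (differentiableOn_hat (φ (iQ Q)) (hreg Q hQ)) ((hψ Q hQ z (hzQ Q hQ)).1)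
  set Zf : Place ℂ F → Finset ℂ := fun Q => if hQ : Q ∈ S then (hfin Q hQ).toFinset else ∅ with hZf
  have hZmem : ∀ Q ∈ S, ∀ a, a ∈ Zf Q ↔
      a ∈ closedBall (qQ Q) (ρQ Q / 2) ∧ (φ (iQ Q)).hat f a = z := by
    intro Q hQ a
    simp only [hZf, dif_pos hQ, Set.Finite.mem_toFinset]
    rfl
  have hZb : ∀ Q ∈ S, ∀ p ∈ Zf Q, p ∈ ball (qQ Q) (ρQ Q / 2) := by
    intro Q hQ p hp
    obtain ⟨hp1, hp2⟩ := (hZmem Q hQ p).mp hp
    rw [mem_closedBall] at hp1
    rw [mem_ball]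
    refine lt_of_le_of_ne hp1 fun heq => ?_
    exact (hψ Q hQ z (hzQ Q hQ)).1 p (mem_sphere.mpr heq) hp2
  -- one term
  have hterm : ∀ Q ∈ S, (QuotientAddGroup.mk' Lam) (ψQ Q z)
      = ∑ P ∈ (Zf Q).image (φ (iQ Q)).c, mult f z P • Fbar P := by
    intro Q hQ
    rw [(hψ Q hQ z (hzQ Q hQ)).2 (Zf Q) (fun a ha haz => (hZmem Q hQ a).mpr ⟨ha, haz⟩) (hZb Q hQ),
      map_sum, Finset.sum_image]
    · refine Finset.sum_congr rfl fun p hp => ?_
      have hpb := hhalf Q hQ (hZb Q hQ p hp)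
      rw [map_nsmul, hFbar (iQ Q) p (hreg Q hQ p hpb).1,
        analyticOrderNatAt_hat_sub hS (φ (iQ Q)) z hfz (hreg Q hQ p hpb).1 (hreg Q hQ p hpb).2]
      rfl
    · intro a ha b hb hab
      exact (φ (iQ Q)).injOn (hreg Q hQ a (hhalf Q hQ (hZb Q hQ a ha))).1
        (hreg Q hQ b (hhalf Q hQ (hZb Q hQ b hb))).1 hab
  show (QuotientAddGroup.mk' Lam) (∑ Q ∈ hSfin.toFinset, ψQ Q z) = Psi Fbar f z
  rw [map_sum, Finset.sum_congr rfl fun Q hQ => hterm Q (hSfin.mem_toFinset.mp hQ),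
    ← Finset.sum_biUnion]
  · unfold Psi
    symm
    apply finsum_eq_sum_of_support_subset
    intro P hP
    rw [Function.mem_support] at hP
    have hm : mult f z P ≠ 0 := fun h0 => hP (by rw [h0, zero_smul])
    have hsv : sval H f P = (z : OnePoint ℂ) := (sval_eq_coe_iff H hfz).mpr (mult_ne_zero_iff.mp hm)
    have hPK : P ∉ K := fun hPK => hδK P hPK z (ball_subset_ball hεδ hz) hsv
    rw [hK, notMem_compl_iff] at hPK
    obtain ⟨Q, hQ, p, hp, rfl⟩ := mem_iUnion₂.mp hPK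
    rw [Finset.coe_biUnion]
    refine mem_biUnion (hSfin.mem_toFinset.mpr hQ) ?_
    rw [Finset.coe_image]
    refine ⟨p, ?_, rfl⟩
    rw [Finset.mem_coe, hZmem Q hQ]
    refine ⟨ball_subset_closedBall hp, ?_⟩
    have hmem := (hreg Q hQ p (hhalf Q hQ hp)).2
    rw [sval_of_mem H hmem, OnePoint.coe_eq_coe] at hsv
    exact hsv
  · intro Q hQ Q' hQ' hne
    rw [Function.onFun, Finset.disjoint_left]
    intro P hP hP'
    obtain ⟨p, hp, rfl⟩ := Finset.mem_image.mp hP
    obtain ⟨p', hp', hpp'⟩ := Finset.mem_image.mp hP'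
    have hQS := hSfin.mem_toFinset.mp hQ
    have hQS' := hSfin.mem_toFinset.mp hQ'
    have h1 := hsep Q hQS p (hhalf Q hQS (hZb Q hQS p hp))
    have h2 := hsep Q' hQS' p' (hhalf Q' hQS' (hZb Q' hQS' p' hp'))
    rw [hpp'] at h2
    exact (Set.disjoint_left.mp (hdisj hQS hQS' hne)) h1 h2

end Lift

/-! ### lifts everywhere, inversion, and the theorem -/

section Main

variable {H} [TopologicalSpace (Place ℂ F)] (hS : IsRSurface H)
  {E : Type*} [NormedAddCommGroup E] [NormedSpace ℂ E] [CompleteSpace E] {Lam : AddSubgroup E}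
  {ι : Type*} (φ : ι → Chart H) (hcov : ∀ P : Place ℂ F, ∃ i, P ∈ (φ i).dom)
  (W : ι → ℂ → E) (hW : ∀ i, DifferentiableOn ℂ (W i) (ball (0 : ℂ) (φ i).r))
  (Fbar : Place ℂ F → E ⧸ Lam)
  (hFbar : ∀ i, ∀ a ∈ ball (0 : ℂ) (φ i).r, Fbar ((φ i).c a) = ((W i a : E) : E ⧸ Lam))

include hS hcov hW hFbar in
/-- `Psi f` has holomorphic local lifts at every point. -/
theorem hasLifts_Psi {f : F} (hf : IsNonconst f) : HasLifts (Psi Fbar f) := by
  intro z₀
  obtain ⟨ε, hε, ψ, hψd, hψ⟩ := exists_lift_zero hS φ hcov W hW Fbar hFbar (hf.sub_const z₀)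
  have hmaps : MapsTo (fun z : ℂ => z - z₀) (ball z₀ ε) (ball (0 : ℂ) ε) := by
    intro z hz
    rw [mem_ball, dist_eq_norm] at hz
    rw [mem_ball_zero_iff]
    exact hz
  refine ⟨ε, hε, fun z => ψ (z - z₀), ?_, ?_⟩
  · exact hψd.comp (differentiableOn_id.sub_const z₀) hmaps
  · intro z hz
    rw [hψ (z - z₀) (hmaps hz)]
    unfold Psi
    refine finsum_congr fun P => ?_
    rw [mult_sub_const, add_sub_cancel]

/-- `Psi f z = Psi f⁻¹ z⁻¹`. -/
theorem Psi_inv {f : F} (hf : IsNonconst f) {z : ℂ} (hz : z ≠ 0) :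
    Psi Fbar f z = Psi Fbar f⁻¹ z⁻¹ := by
  unfold Psi
  refine finsum_congr fun P => ?_
  rw [mult_inv hf hz]

theorem mult_zero (f : F) (P : Place ℂ F) : mult f 0 P = (P.ord f).toNat := by
  unfold mult
  rw [map_zero, sub_zero]

include hS hcov hW hFbar in
/-- **easy Abel mod `Lam`**: the `Fbar`-sum of a principal divisor vanishes in `E ⧸ Lam`. -/
theorem abel_mod_Lam (hLam : (Lam : Set E).Countable) {f : F} (hf0 : f ≠ 0) :
    ∑ᶠ P : Place ℂ F, P.ord f • Fbar P = 0 := by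
  by_cases hf : IsNonconst f
  · have h1 := eq_of_hasLifts_of_inv hLam (hasLifts_Psi hS φ hcov W hW Fbar hFbar hf)
      (hasLifts_Psi hS φ hcov W hW Fbar hFbar hf.inv) (fun z hz => Psi_inv Fbar hf hz)
    have hfin1 : (Function.support fun P : Place ℂ F => mult f 0 P • Fbar P).Finite := by
      refine (finite_mult_ne_zero H (f := f) 0 (by simpa using hf0)).subset ?_
      intro P hP h0
      exact hP (by simp only [h0, zero_smul])
    have hfin2 : (Function.support fun P : Place ℂ F => mult f⁻¹ 0 P • Fbar P).Finite := by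
      refine (finite_mult_ne_zero H (f := f⁻¹) 0 (by simpa using hf0)).subset ?_
      intro P hP h0
      exact hP (by simp only [h0, zero_smul])
    have hterm : ∀ P : Place ℂ F,
        P.ord f • Fbar P = mult f 0 P • Fbar P - mult f⁻¹ 0 P • Fbar P := by
      intro P
      rw [mult_zero, mult_zero, P.ord_inv, ← natCast_zsmul, ← natCast_zsmul, ← sub_smul,
        Int.toNat_sub_toNat_neg]
    rw [finsum_congr hterm, finsum_sub_distrib hfin1 hfin2]
    exact sub_eq_zero.mpr h1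
  · -- constants
    unfold IsNonconst at hf
    push_neg at hf
    obtain ⟨c, rfl⟩ := hf
    refine finsum_eq_zero_of_forall_eq_zero fun P => ?_
    rw [FF.ord_algebraMap, zero_smul]

end Main

end Fermat.Agent.M27.AbelLam5
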