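/-
Programme M27 (target S27), leaf (PRIM) (helper2): **regular differentials in a chart, their
primitives, and the local constancy of the transition "constants"**.

Setting of `Iface2`: `H : LHyp ℂ F`, a topology on `Place ℂ F`, charts `φ : Chart H`; `hx : IsGen ℂ x`.

* `IsRegular ω`               : `0 ≤ ord_P ω` at every place;
* `Chart.isGen_t`             : the coordinate `t` of a chart is a generator;
* `Chart.coeff φ ω : F`       : `ω = coeff φ ω • d t` (`coeff_smul`), `ord_{c a} (coeff φ ω) = ord_{c a} ω`;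
* `Chart.prim φ ω : ℂ → ℂ`    : for regular `ω`, `HasDerivAt (prim φ ω) (φ.hat (coeff φ ω) b) b` on the
                                 disc, `prim φ ω 0 = 0`;
* `Chart.exists_transition`   : if `φ.c a = ψ.c a'` then for `b` near `a` the point `φ.c b` is `ψ.c (τ b)`
                                 with `τ b = φ.hat ψ.t b ∈ ball 0 ψ.r`;
* `Chart.prim_transition`     : and `prim ψ ω (τ b) - prim φ ω b` is CONSTANT near `a`
                                 (= `prim ψ ω a' - prim φ ω a`).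
-/
import Mathlib
import Fermat.Agent.M27.Iface2
import Fermat.Agent.X0.FFGenus

set_option autoImplicit false
set_option linter.unusedSectionVars false
set_option linter.unusedVariables false
set_option linter.style.longLine false

noncomputable section

namespace Fermat.Agent.M27.Prim2

open AlgebraicCurve Metric Topology KaehlerDifferential Filter Set
open Fermat.Agent.RR.LSpace Fermat.Agent.M15.DivDefs4 Fermat.Agent.M27.Iface2 Fermat.Agent.X0.FF

variable {F : Type*} [Field F] [Algebra ℂ F] {H : LHyp ℂ F} [TopologicalSpace (Place ℂ F)] {x : F}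

/-- regular (holomorphic) differentials. -/
def IsRegular (ω : Ω[F⁄ℂ]) : Prop := ∀ P : Place ℂ F, 0 ≤ P.ordDifferential ω

end Fermat.Agent.M27.Prim2

namespace Fermat.Agent.M27.Iface2.Chart

open AlgebraicCurve Metric Topology KaehlerDifferential Filter Set
open Fermat.Agent.RR.LSpace Fermat.Agent.M15.DivDefs4 Fermat.Agent.M27.Iface2 Fermat.Agent.X0.FF
open Fermat.Agent.M27.Prim2

variable {F : Type*} [Field F] [Algebra ℂ F] {H : LHyp ℂ F} [TopologicalSpace (Place ℂ F)] {x : F}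

variable (φ : Chart H)

theorem t_sub_ne_zero {a : ℂ} (ha : a ∈ ball (0 : ℂ) φ.r) : φ.t - algebraMap ℂ F a ≠ 0 := by
  intro h0
  have := φ.ord_t a ha
  rw [h0, Place.ord_zero] at this
  exact zero_ne_one this

theorem transcendental_t : Transcendental ℂ φ.t := by
  intro halg
  obtain ⟨c, hc⟩ := eq_algebraMap_of_isAlgebraic halg
  have h1 := φ.ord_t 0 φ.zero_mem_ball
  rw [hc, ← map_sub, ord_algebraMap] at h1
  exact zero_ne_one h1

theorem isGen_t (hx : IsGen ℂ x) : IsGen ℂ φ.t := hx.of_transcendental φ.transcendental_t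

theorem genusHyp_t (hx : IsGen ℂ x) : GenusHyp ℂ φ.t := Fermat.Agent.X0.FFGenus.genusHyp (φ.isGen_t hx)

theorem D_t_ne_zero (hx : IsGen ℂ x) : D ℂ F φ.t ≠ 0 := (φ.genusHyp_t hx).D_ne_zero

theorem exists_coeff (hx : IsGen ℂ x) (ω : Ω[F⁄ℂ]) : ∃ g : F, ω = g • D ℂ F φ.t := by
  have hω : ω ∈ (⊤ : Submodule F Ω[F⁄ℂ]) := Submodule.mem_top
  rw [← (φ.genusHyp_t hx).span_D_eq_top, Submodule.mem_span_singleton] at hω
  obtain ⟨g, hg⟩ := hω
  exact ⟨g, hg.symm⟩

open Classical in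
/-- the coefficient of `ω` with respect to `d t`. -/
def coeff (ω : Ω[F⁄ℂ]) : F := if h : ∃ g : F, ω = g • D ℂ F φ.t then h.choose else 0

theorem coeff_smul (hx : IsGen ℂ x) (ω : Ω[F⁄ℂ]) : ω = φ.coeff ω • D ℂ F φ.t := by
  unfold coeff
  rw [dif_pos (φ.exists_coeff hx ω)]
  exact (φ.exists_coeff hx ω).choose_spec

theorem coeff_unique (hx : IsGen ℂ x) {ω : Ω[F⁄ℂ]} {g : F} (hg : ω = g • D ℂ F φ.t) :
    φ.coeff ω = g := by
  have h1 := φ.coeff_smul hx ω
  have h2 : (φ.coeff ω - g) • D ℂ F φ.t = 0 := by rw [sub_smul, ← h1, ← hg, sub_self]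
  rcases smul_eq_zero.mp h2 with h | h
  · exact sub_eq_zero.mp h
  · exact absurd h (φ.D_t_ne_zero hx)

theorem coeff_zero (hx : IsGen ℂ x) : φ.coeff (0 : Ω[F⁄ℂ]) = 0 :=
  φ.coeff_unique hx (zero_smul _ _).symm

theorem coeff_ne_zero (hx : IsGen ℂ x) {ω : Ω[F⁄ℂ]} (hω : ω ≠ 0) : φ.coeff ω ≠ 0 := by
  intro h0
  apply hω
  rw [φ.coeff_smul hx ω, h0, zero_smul]

/-- `ord (d t) = 0` at every point of the chart. -/
theorem ordDifferential_D_t (hx : IsGen ℂ x) {a : ℂ} (ha : a ∈ ball (0 : ℂ) φ.r) :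
    (φ.c a).ordDifferential (D ℂ F φ.t) = 0 := by
  have h1 : 0 < (φ.c a).ord (φ.t - algebraMap ℂ F a) := by rw [φ.ord_t a ha]; exact one_pos
  rw [(φ.genusHyp_t hx).ordDifferential_dx_of_zero h1, φ.ord_t a ha, sub_self]

/-- the order of a differential at a point of the chart is the order of its coefficient. -/
theorem ordDifferential_eq_ord_coeff (hx : IsGen ℂ x) {ω : Ω[F⁄ℂ]} (hω : ω ≠ 0) {a : ℂ}
    (ha : a ∈ ball (0 : ℂ) φ.r) : (φ.c a).ordDifferential ω = (φ.c a).ord (φ.coeff ω) := by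
  conv_lhs => rw [φ.coeff_smul hx ω]
  rw [(φ.genusHyp_t hx).ordDifferential_smul' (φ.c a) _ (φ.coeff_ne_zero hx hω) _ (φ.D_t_ne_zero hx),
    φ.ordDifferential_D_t hx ha, add_zero]

theorem ord_coeff_nonneg (hx : IsGen ℂ x) {ω : Ω[F⁄ℂ]} (hω : IsRegular ω) {a : ℂ}
    (ha : a ∈ ball (0 : ℂ) φ.r) : 0 ≤ (φ.c a).ord (φ.coeff ω) := by
  rcases eq_or_ne ω 0 with rfl | h0
  · rw [φ.coeff_zero hx, Place.ord_zero]
  · rw [← φ.ordDifferential_eq_ord_coeff hx h0 ha]
    exact hω _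

/-- the coefficient of a regular differential is holomorphic on the disc. -/
theorem differentiableOn_hat_coeff (hx : IsGen ℂ x) {ω : Ω[F⁄ℂ]} (hω : IsRegular ω) :
    DifferentiableOn ℂ (φ.hat (φ.coeff ω)) (ball (0 : ℂ) φ.r) := fun a ha =>
  (φ.analyticAt _ a ha (φ.ord_coeff_nonneg hx hω ha)).differentiableAt.differentiableWithinAt

open Classical in
/-- **the primitive of a regular differential in a chart**, normalised by `prim φ ω 0 = 0`. -/
def prim (ω : Ω[F⁄ℂ]) : ℂ → ℂ :=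
  if h : ∃ g : ℂ → ℂ, g 0 = 0 ∧ ∀ b ∈ ball (0 : ℂ) φ.r, HasDerivAt g (φ.hat (φ.coeff ω) b) b
  then h.choose else 0

theorem exists_prim (hx : IsGen ℂ x) {ω : Ω[F⁄ℂ]} (hω : IsRegular ω) :
    ∃ g : ℂ → ℂ, g 0 = 0 ∧ ∀ b ∈ ball (0 : ℂ) φ.r, HasDerivAt g (φ.hat (φ.coeff ω) b) b :=
  (φ.differentiableOn_hat_coeff hx hω).isExactOn_ball.with_val_at 0 0

theorem prim_zero (hx : IsGen ℂ x) {ω : Ω[F⁄ℂ]} (hω : IsRegular ω) : φ.prim ω 0 = 0 := by
  unfold prim
  rw [dif_pos (φ.exists_prim hx hω)]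
  exact (φ.exists_prim hx hω).choose_spec.1

theorem hasDerivAt_prim (hx : IsGen ℂ x) {ω : Ω[F⁄ℂ]} (hω : IsRegular ω) {b : ℂ}
    (hb : b ∈ ball (0 : ℂ) φ.r) : HasDerivAt (φ.prim ω) (φ.hat (φ.coeff ω) b) b := by
  unfold prim
  rw [dif_pos (φ.exists_prim hx hω)]
  exact (φ.exists_prim hx hω).choose_spec.2 b hb

theorem differentiableOn_prim (hx : IsGen ℂ x) {ω : Ω[F⁄ℂ]} (hω : IsRegular ω) :
    DifferentiableOn ℂ (φ.prim ω) (ball (0 : ℂ) φ.r) := fun b hb =>
  (φ.hasDerivAt_prim hx hω hb).differentiableAt.differentiableWithinAt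

/-! ### transitions -/

variable (ψ : Chart H)

/-- the coordinate `ψ.t` is regular at every point of `ψ.dom`. -/
theorem ord_t_nonneg {a' : ℂ} (ha' : a' ∈ ball (0 : ℂ) ψ.r) : 0 ≤ (ψ.c a').ord ψ.t := by
  have h1 : ψ.t - algebraMap ℂ F a' ∈ (ψ.c a').toValuationSubring :=
    mem_of_ord_nonneg _ (by rw [ψ.ord_t a' ha']; exact zero_le_one)
  have h2 := add_mem h1 ((ψ.c a').algebraMap_mem' a')
  rw [sub_add_cancel] at h2
  exact ord_nonneg_of_mem _ h2

/-- **change of charts**: near `a`, `φ.c b = ψ.c (φ.hat ψ.t b)`. -/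
theorem exists_transition {a a' : ℂ} (ha : a ∈ ball (0 : ℂ) φ.r) (ha' : a' ∈ ball (0 : ℂ) ψ.r)
    (h : φ.c a = ψ.c a') :
    ∀ᶠ b in 𝓝 a, b ∈ ball (0 : ℂ) φ.r ∧ φ.hat ψ.t b ∈ ball (0 : ℂ) ψ.r ∧
      ψ.c (φ.hat ψ.t b) = φ.c b := by
  have hopen : IsOpen (ball (0 : ℂ) φ.r ∩ φ.c ⁻¹' ψ.dom) :=
    φ.continuousOn.isOpen_inter_preimage isOpen_ball ψ.isOpen_dom
  have hmem : a ∈ ball (0 : ℂ) φ.r ∩ φ.c ⁻¹' ψ.dom := ⟨ha, by
    show φ.c a ∈ ψ.dom
    rw [h]; exact ⟨a', ha', rfl⟩⟩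
  filter_upwards [hopen.mem_nhds hmem] with b hb
  obtain ⟨hb1, b', hb', hbb'⟩ := hb
  have hτ : φ.hat ψ.t b = b' := by
    rw [Chart.hat_apply, ← hbb']
    exact ψ.valAt_t hb'
  exact ⟨hb1, by rw [hτ]; exact hb', by rw [hτ]; exact hbb'⟩

/-- **the transition "constants" are locally constant.** -/
theorem prim_transition (hx : IsGen ℂ x) {ω : Ω[F⁄ℂ]} (hω : IsRegular ω) {a a' : ℂ}
    (ha : a ∈ ball (0 : ℂ) φ.r) (ha' : a' ∈ ball (0 : ℂ) ψ.r) (h : φ.c a = ψ.c a') :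
    ∀ᶠ b in 𝓝 a, ψ.prim ω (φ.hat ψ.t b) - φ.prim ω b = ψ.prim ω a' - φ.prim ω a := by
  -- a ball around `a` on which the change of charts is defined
  obtain ⟨ε, hε, hball⟩ := Metric.eventually_nhds_iff_ball.mp (φ.exists_transition ψ ha ha' h)
  -- `d ψ.t = g • d φ.t`
  set g : F := φ.coeff (D ℂ F ψ.t) with hg
  have hDg : D ℂ F ψ.t = g • D ℂ F φ.t := φ.coeff_smul hx _
  -- `coeff φ ω = coeff ψ ω * g`
  have hcoeff : φ.coeff ω = ψ.coeff ω * g := by
    apply φ.coeff_unique hx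
    rw [mul_smul, ← hDg, ← ψ.coeff_smul hx ω]
  set k : ℂ → ℂ := fun b => ψ.prim ω (φ.hat ψ.t b) - φ.prim ω b with hk
  have hderiv : ∀ b ∈ ball a ε, HasDerivAt k 0 b := by
    intro b hb
    obtain ⟨hb1, hb2, hb3⟩ := hball b hb
    -- `ψ.t` is regular at `φ.c b`
    have hreg : 0 ≤ (φ.c b).ord ψ.t := by rw [← hb3]; exact ψ.ord_t_nonneg hb2
    have hτ : HasDerivAt (φ.hat ψ.t) (valAt H (φ.c b) g) b :=
      φ.hasDerivAt ψ.t g b hb1 hreg hDg
    have h1 : HasDerivAt (ψ.prim ω) (ψ.hat (ψ.coeff ω) (φ.hat ψ.t b)) (φ.hat ψ.t b) :=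
      ψ.hasDerivAt_prim hx hω hb2
    have h2 := h1.comp b hτ
    have h3 := φ.hasDerivAt_prim hx hω hb1
    have h4 := h2.sub h3
    -- the two derivatives agree
    have hval : ψ.hat (ψ.coeff ω) (φ.hat ψ.t b) * valAt H (φ.c b) g - φ.hat (φ.coeff ω) b = 0 := by
      have e0 : ψ.hat (ψ.coeff ω) (φ.hat ψ.t b) = valAt H (φ.c b) (ψ.coeff ω) := by
        rw [Chart.hat_apply, hb3]
      rw [e0, Chart.hat_apply, hcoeff]
      have hm1 : ψ.coeff ω ∈ (φ.c b).toValuationSubring := by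
        rw [← hb3]; exact mem_of_ord_nonneg _ (ψ.ord_coeff_nonneg hx hω hb2)
      have hm2 : g ∈ (φ.c b).toValuationSubring := by
        rcases eq_or_ne g 0 with h0 | h0
        · rw [h0]; exact zero_mem _
        · apply mem_of_ord_nonneg
          -- `ord (d ψ.t) = ord g + ord (d φ.t)` at `φ.c b`, both differentials have order `0`
          have e1 := (φ.genusHyp_t hx).ordDifferential_smul' (φ.c b) g h0 _ (φ.D_t_ne_zero hx)
          rw [← hDg, φ.ordDifferential_D_t hx hb1, add_zero] at e1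
          have e2 := ψ.ordDifferential_D_t hx hb2
          rw [hb3] at e2
          rw [← e1, e2]
      rw [valAt_mul H (φ.c b) hm1 hm2, sub_self]
    rw [hval] at h4
    exact h4
  have hconst : ∀ b ∈ ball a ε, k b = k a := by
    intro b hb
    have hdiff : DifferentiableOn ℂ k (ball a ε) := fun z hz =>
      (hderiv z hz).differentiableAt.differentiableWithinAt
    have hzero : ∀ z ∈ ball a ε, fderivWithin ℂ k (ball a ε) z = 0 := by
      intro z hz
      rw [fderivWithin_eq_fderiv (isOpen_ball.uniqueDiffWithinAt hz) (hderiv z hz).differentiableAt]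
      have := (hderiv z hz).hasFDerivAt.fderiv
      rw [this]
      ext; simp
    exact (convex_ball a ε).is_const_of_fderivWithin_eq_zero hdiff hzero hb (mem_ball_self hε)
  have hka : k a = ψ.prim ω a' - φ.prim ω a := by
    have : φ.hat ψ.t a = a' := by
      rw [Chart.hat_apply, h]; exact ψ.valAt_t ha'
    simp only [hk, this]
  filter_upwards [Metric.ball_mem_nhds a hε] with b hb
  rw [← hka]
  exact hconst b hb

end Fermat.Agent.M27.Iface2.Chart
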