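/-
Programme M27 (target S27), chapter C (helper5), second file: **the package "easy Abel mod Lam" for
the chart primitives of `Prim2`.**

`hS : IsRSurface H`, `hx : IsGen ℂ x`, `φ : ι → Chart H` a COUNTABLE covering family of charts,
`ω : κ → Ω[F⁄ℂ]` finitely many regular differentials, `E := κ → ℂ`.

* `primVec φ ω i a := fun k => (φ i).prim (ω k) a`          : the vector of chart primitives;
* `transSet φ ω`                                           : the set of all transition values
    `primVec j a' - primVec i a` for `(φ i).c a = (φ j).c a'`;  `countable_transSet`;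
* `Lam φ ω := AddSubgroup.closure (transSet φ ω)`          : COUNTABLE (`countable_Lam`);
* `Fbar φ ω hcov : Place ℂ F → E ⧸ Lam`, `Fbar_chart : Fbar (c_i a) = [primVec i a]`;
* **`abel`** : `∑ᶠ P, ord_P f • Fbar P = 0`;  `abel_divisor`, `abel_tuple` (the form used by chapter E).
Generic: `countable_closure`, `countable_image_of_locally_const`.
-/
import Mathlib
import Fermat.Agent.M27.Prim2
import Fermat.Agent.M27.AbelLam5

set_option autoImplicit false
set_option linter.unusedSectionVars false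
set_option linter.unusedVariables false
set_option linter.style.longLine false

noncomputable section

namespace Fermat.Agent.M27.AbelLamCor5

open AlgebraicCurve Metric Topology Set Filter KaehlerDifferential
open Fermat.Agent.RR.LSpace Fermat.Agent.M15.DivDefs4 Fermat.Agent.X0 Fermat.Agent.X0.FF
open Fermat.Agent.M27.Iface2 Fermat.Agent.M27.Prim2 Fermat.Agent.M27.AbelLam5

/-! ### generic lemmas -/

/-- the additive subgroup generated by a countable set is countable. -/
lemma countable_closure {A : Type*} [AddCommGroup A] {S : Set A} (hS : S.Countable) :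
    ((AddSubgroup.closure S : AddSubgroup A) : Set A).Countable := by
  haveI : Countable S := hS.to_subtype
  have h1 : ((Submodule.span ℤ S : Submodule ℤ A) : Set A)
      = Set.range (Finsupp.linearCombination ℤ (Subtype.val : S → A)) := by
    rw [← LinearMap.coe_range, Finsupp.range_linearCombination, Subtype.range_coe]
  have h2 : ((AddSubgroup.closure S : AddSubgroup A) : Set A)
      = ((Submodule.span ℤ S : Submodule ℤ A) : Set A) := by
    rw [← Submodule.span_int_eq_addSubgroupClosure]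
    rfl
  rw [h2, h1]
  exact Set.countable_range _

/-- a function on a subset of a second countable space which is locally constant on that subset
takes countably many values there. -/
lemma countable_image_of_locally_const {X : Type*} [TopologicalSpace X]
    [SecondCountableTopology X] {A : Type*} {s : Set X} {κ : X → A}
    (h : ∀ a ∈ s, ∀ᶠ b in 𝓝[s] a, κ b = κ a) : (κ '' s).Countable := by
  obtain ⟨t, hts, htc, hcov⟩ := TopologicalSpace.countable_cover_nhdsWithin
    (f := fun a => {b | κ b = κ a}) (s := s) h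
  refine (htc.image κ).mono ?_
  rintro _ ⟨b, hb, rfl⟩
  obtain ⟨a, hat, hba⟩ := mem_iUnion₂.mp (hcov hb)
  exact ⟨a, hat, hba.symm⟩

/-! ### the transition values of the chart primitives -/

section Package

variable {F : Type*} [Field F] [Algebra ℂ F] {H : LHyp ℂ F} [TopologicalSpace (Place ℂ F)] {x : F}
  {ι : Type*} {κ : Type*} [Fintype κ]

/-- the vector of chart primitives of the differentials `ω k`. -/
def primVec (φ : ι → Chart H) (ω : κ → Ω[F⁄ℂ]) (i : ι) (a : ℂ) : κ → ℂ :=
  fun k => (φ i).prim (ω k) a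

/-- all transition values of the chart primitives. -/
def transSet (φ : ι → Chart H) (ω : κ → Ω[F⁄ℂ]) : Set (κ → ℂ) :=
  {v | ∃ (i j : ι) (a a' : ℂ), a ∈ ball (0 : ℂ) (φ i).r ∧ a' ∈ ball (0 : ℂ) (φ j).r ∧
    (φ i).c a = (φ j).c a' ∧ v = primVec φ ω j a' - primVec φ ω i a}

/-- the countable subgroup of "periods and junk constants". -/
def Lam (φ : ι → Chart H) (ω : κ → Ω[F⁄ℂ]) : AddSubgroup (κ → ℂ) :=
  AddSubgroup.closure (transSet φ ω)

theorem differentiableOn_primVec (hx : IsGen ℂ x) (φ : ι → Chart H) {ω : κ → Ω[F⁄ℂ]}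
    (hω : ∀ k, IsRegular (ω k)) (i : ι) :
    DifferentiableOn ℂ (primVec φ ω i) (ball (0 : ℂ) (φ i).r) := by
  rw [differentiableOn_pi]
  intro k
  exact (φ i).differentiableOn_prim hx (hω k)

theorem countable_transSet [Countable ι] (hx : IsGen ℂ x) (φ : ι → Chart H) {ω : κ → Ω[F⁄ℂ]}
    (hω : ∀ k, IsRegular (ω k)) : (transSet φ ω).Countable := by
  -- for fixed `i j` the transition value is a locally constant function of `a`
  have hij : ∀ i j : ι, ({v | ∃ (a a' : ℂ), a ∈ ball (0 : ℂ) (φ i).r ∧ a' ∈ ball (0 : ℂ) (φ j).r ∧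
      (φ i).c a = (φ j).c a' ∧ v = primVec φ ω j a' - primVec φ ω i a} : Set (κ → ℂ)).Countable := by
    intro i j
    set V : Set ℂ := {a | a ∈ ball (0 : ℂ) (φ i).r ∧ (φ i).c a ∈ (φ j).dom} with hV
    set kap : ℂ → (κ → ℂ) := fun a =>
      primVec φ ω j ((φ i).hat (φ j).t a) - primVec φ ω i a with hkap
    have hloc : ∀ a ∈ V, ∀ᶠ b in 𝓝[V] a, kap b = kap a := by
      rintro a ⟨ha, a', ha', haa'⟩
      have hτ : (φ i).hat (φ j).t a = a' := by
        rw [Chart.hat_apply, ← haa']; exact (φ j).valAt_t ha'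
      have hall : ∀ᶠ b in 𝓝 a, ∀ k : κ,
          (φ j).prim (ω k) ((φ i).hat (φ j).t b) - (φ i).prim (ω k) b
            = (φ j).prim (ω k) a' - (φ i).prim (ω k) a := by
        rw [Filter.eventually_all]
        intro k
        exact (φ i).prim_transition (φ j) hx (hω k) ha ha' haa'.symm
      refine (hall.filter_mono nhdsWithin_le_nhds).mono fun b hb => ?_
      funext k
      simp only [hkap, primVec, Pi.sub_apply, hτ]
      exact hb k
    refine (countable_image_of_locally_const hloc).mono ?_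
    rintro v ⟨a, a', ha, ha', haa', rfl⟩
    refine ⟨a, ⟨ha, a', ha', haa'.symm⟩, ?_⟩
    have hτ : (φ i).hat (φ j).t a = a' := by
      rw [Chart.hat_apply, haa']; exact (φ j).valAt_t ha'
    simp only [hkap, hτ]
  have hunion : transSet φ ω = ⋃ (i : ι) (j : ι), {v | ∃ (a a' : ℂ), a ∈ ball (0 : ℂ) (φ i).r ∧
      a' ∈ ball (0 : ℂ) (φ j).r ∧ (φ i).c a = (φ j).c a' ∧
      v = primVec φ ω j a' - primVec φ ω i a} := by
    ext v
    simp only [transSet, mem_ofPred_eq, mem_iUnion]
  rw [hunion]
  exact countable_iUnion fun i => countable_iUnion fun j => hij i j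

theorem countable_Lam [Countable ι] (hx : IsGen ℂ x) (φ : ι → Chart H) {ω : κ → Ω[F⁄ℂ]}
    (hω : ∀ k, IsRegular (ω k)) : ((Lam φ ω : AddSubgroup (κ → ℂ)) : Set (κ → ℂ)).Countable :=
  countable_closure (countable_transSet hx φ hω)

open Classical in
/-- the class of the chart primitives at a place, modulo `Lam`. -/
def Fbar (φ : ι → Chart H) (ω : κ → Ω[F⁄ℂ]) (P : Place ℂ F) : (κ → ℂ) ⧸ Lam φ ω :=
  if h : ∃ (i : ι) (a : ℂ), a ∈ ball (0 : ℂ) (φ i).r ∧ (φ i).c a = P then
    ((primVec φ ω h.choose h.choose_spec.choose : κ → ℂ) : (κ → ℂ) ⧸ Lam φ ω)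
  else 0

theorem Fbar_chart (φ : ι → Chart H) (ω : κ → Ω[F⁄ℂ]) (i : ι) {a : ℂ}
    (ha : a ∈ ball (0 : ℂ) (φ i).r) :
    Fbar φ ω ((φ i).c a) = ((primVec φ ω i a : κ → ℂ) : (κ → ℂ) ⧸ Lam φ ω) := by
  have h : ∃ (i' : ι) (a' : ℂ), a' ∈ ball (0 : ℂ) (φ i').r ∧ (φ i').c a' = (φ i).c a :=
    ⟨i, a, ha, rfl⟩
  unfold Fbar
  rw [dif_pos h]
  obtain ⟨h1, h2⟩ := h.choose_spec.choose_spec
  rw [QuotientAddGroup.eq]
  apply AddSubgroup.subset_closure
  refine ⟨h.choose, i, h.choose_spec.choose, a, h1, ha, h2, ?_⟩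
  abel

variable (hS : IsRSurface H) (hx : IsGen ℂ x) (φ : ι → Chart H)
  (hcov : ∀ P : Place ℂ F, ∃ i, P ∈ (φ i).dom) {ω : κ → Ω[F⁄ℂ]} (hω : ∀ k, IsRegular (ω k))

include hS hx hcov hω in
/-- **easy Abel mod `Lam`** for the chart primitives. -/
theorem abel [Countable ι] {f : F} (hf : f ≠ 0) :
    ∑ᶠ P : Place ℂ F, P.ord f • Fbar φ ω P = 0 :=
  abel_mod_Lam hS φ hcov (primVec φ ω) (differentiableOn_primVec hx φ hω) (Fbar φ ω)
    (fun i a ha => Fbar_chart φ ω i ha) (countable_Lam hx φ hω) hf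

/-- the additive extension of `Fbar` to divisors. -/
def FbarDiv (φ : ι → Chart H) (ω : κ → Ω[F⁄ℂ]) : Divisor ℂ F →+ (κ → ℂ) ⧸ Lam φ ω :=
  Finsupp.liftAddHom fun P => zmultiplesHom _ (Fbar φ ω P)

theorem FbarDiv_single (P : Place ℂ F) (n : ℤ) :
    FbarDiv φ ω (Finsupp.single P n) = n • Fbar φ ω P := by
  simp [FbarDiv]

theorem FbarDiv_apply (D : Divisor ℂ F) :
    FbarDiv φ ω D = ∑ᶠ P : Place ℂ F, D P • Fbar φ ω P := by
  rw [FbarDiv, Finsupp.liftAddHom_apply, Finsupp.sum]
  symm
  apply finsum_eq_sum_of_support_subset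
  intro P hP
  rw [Function.mem_support] at hP
  rw [Finset.mem_coe, Finsupp.mem_support_iff]
  intro h0
  apply hP
  rw [h0]
  exact zero_zsmul _

include hS hx hcov hω in
/-- **easy Abel**, divisor form: `FbarDiv` kills principal divisors. -/
theorem abel_divisor [Countable ι] {D : Divisor ℂ F}
    (hD : D ∈ Divisor.principal (K := ℂ) (F := F)) : FbarDiv φ ω D = 0 := by
  obtain ⟨f, hf, hDf⟩ := hD
  rw [FbarDiv_apply, finsum_congr fun P => by rw [hDf P]]
  exact abel hS hx φ hcov hω hf

include hS hx hcov hω in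
/-- **easy Abel**, tuple form: linearly equivalent tuples have the same `Fbar`-sum. -/
theorem abel_tuple [Countable ι] {m n : ℕ} (T : Fin m → Place ℂ F) (T' : Fin n → Place ℂ F)
    (hD : (∑ k, Finsupp.single (T k) (1 : ℤ)) - (∑ k, Finsupp.single (T' k) (1 : ℤ))
      ∈ Divisor.principal (K := ℂ) (F := F)) :
    ∑ k, Fbar φ ω (T k) = ∑ k, Fbar φ ω (T' k) := by
  have h := abel_divisor hS hx φ hcov hω hD
  rw [map_sub, map_sum, map_sum, sub_eq_zero] at h
  simpa [FbarDiv_single] using h

end Package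

end Fermat.Agent.M27.AbelLamCor5
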