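/-
Programme M27 (target S27), chapter E, file 1 (helper2): **operations on charts**.

* `Chart.restrict φ r' _ _`      : the chart restricted to a smaller disc;
* `exists_chart_subset`           : a chart centred at `P` inside a given open neighbourhood of `P`;
* `exists_disjoint_charts`        : charts centred at `n` distinct points with pairwise disjoint domains;
* `exists_finite_atlas`           : finitely many charts cover `Place ℂ F`.
-/
import Mathlib
import Fermat.Agent.M27.Iface2

set_option autoImplicit false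
set_option linter.unusedSectionVars false
set_option linter.unusedVariables false
set_option linter.style.longLine false

noncomputable section

namespace Fermat.Agent.M27.Iface2.Chart

open AlgebraicCurve Metric Topology Set
open Fermat.Agent.RR.LSpace Fermat.Agent.M15.DivDefs4 Fermat.Agent.M27.Iface2

variable {F : Type*} [Field F] [Algebra ℂ F] {H : LHyp ℂ F} [TopologicalSpace (Place ℂ F)]

/-- the chart restricted to a smaller disc. -/
def restrict (φ : Chart H) (r' : ℝ) (hr' : 0 < r') (hle : r' ≤ φ.r) : Chart H where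
  t := φ.t
  r := r'
  r_pos := hr'
  c := φ.c
  emb := by
    have hsub : ball (0 : ℂ) r' ⊆ ball (0 : ℂ) φ.r := ball_subset_ball hle
    have hinc : IsOpenEmbedding (Set.inclusion hsub) := by
      have h1 : IsOpenEmbedding (Subtype.val : ball (0 : ℂ) φ.r → ℂ) :=
        isOpen_ball.isOpenEmbedding_subtypeVal
      have h2 : IsOpenEmbedding ((Subtype.val : ball (0 : ℂ) φ.r → ℂ) ∘ Set.inclusion hsub) := by
        have : ((Subtype.val : ball (0 : ℂ) φ.r → ℂ) ∘ Set.inclusion hsub) =
            (Subtype.val : ball (0 : ℂ) r' → ℂ) := rfl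
        rw [this]
        exact isOpen_ball.isOpenEmbedding_subtypeVal
      exact (IsOpenEmbedding.of_comp_iff _ h1).mp h2
    exact φ.emb.comp hinc
  ord_t := fun a ha => φ.ord_t a (ball_subset_ball hle ha)
  analyticAt := fun f a ha h => φ.analyticAt f a (ball_subset_ball hle ha) h
  order_eq := fun f a hf ha h => φ.order_eq f a hf (ball_subset_ball hle ha) h
  hasDerivAt := fun f g a ha h hD => φ.hasDerivAt f g a (ball_subset_ball hle ha) h hD

@[simp] theorem restrict_c (φ : Chart H) (r' : ℝ) (hr' : 0 < r') (hle : r' ≤ φ.r) :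
    (φ.restrict r' hr' hle).c = φ.c := rfl

@[simp] theorem restrict_t (φ : Chart H) (r' : ℝ) (hr' : 0 < r') (hle : r' ≤ φ.r) :
    (φ.restrict r' hr' hle).t = φ.t := rfl

@[simp] theorem restrict_r (φ : Chart H) (r' : ℝ) (hr' : 0 < r') (hle : r' ≤ φ.r) :
    (φ.restrict r' hr' hle).r = r' := rfl

theorem dom_restrict (φ : Chart H) (r' : ℝ) (hr' : 0 < r') (hle : r' ≤ φ.r) :
    (φ.restrict r' hr' hle).dom = φ.c '' ball (0 : ℂ) r' := rfl

theorem mem_dom_self (φ : Chart H) : φ.c 0 ∈ φ.dom := ⟨0, φ.zero_mem_ball, rfl⟩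

/-- a chart centred at `P` inside a given open neighbourhood of `P`. -/
theorem exists_chart_subset (S : IsRSurface H) (P : Place ℂ F) {O : Set (Place ℂ F)}
    (hO : IsOpen O) (hP : P ∈ O) : ∃ φ : Chart H, φ.c 0 = P ∧ φ.dom ⊆ O := by
  obtain ⟨φ, hφ⟩ := S.exists_chart P
  have hopen : IsOpen (ball (0 : ℂ) φ.r ∩ φ.c ⁻¹' O) :=
    φ.continuousOn.isOpen_inter_preimage isOpen_ball hO
  have hmem : (0 : ℂ) ∈ ball (0 : ℂ) φ.r ∩ φ.c ⁻¹' O := ⟨φ.zero_mem_ball, by
    show φ.c 0 ∈ O
    rw [hφ]; exact hP⟩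
  obtain ⟨ε, hε, hball⟩ := Metric.isOpen_iff.mp hopen 0 hmem
  have hle : min ε φ.r ≤ φ.r := min_le_right _ _
  refine ⟨φ.restrict (min ε φ.r) (lt_min hε φ.r_pos) hle, hφ, ?_⟩
  rw [dom_restrict]
  rintro _ ⟨a, ha, rfl⟩
  exact (hball (ball_subset_ball (min_le_left _ _) ha)).2

/-- charts centred at distinct points with pairwise disjoint domains. -/
theorem exists_disjoint_charts (S : IsRSurface H) {n : ℕ} (P : Fin n → Place ℂ F)
    (hP : Function.Injective P) :
    ∃ φ : Fin n → Chart H, (∀ i, (φ i).c 0 = P i) ∧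
      ∀ i j, i ≠ j → Disjoint (φ i).dom (φ j).dom := by
  haveI := S.t2Space
  -- pairwise disjoint open neighbourhoods of the finitely many points
  obtain ⟨U, hU1, hU2⟩ := (Set.finite_range P).t2_separation
  have hch : ∀ i, ∃ φ : Chart H, φ.c 0 = P i ∧ φ.dom ⊆ U (P i) := fun i =>
    exists_chart_subset S (P i) (hU1 (P i)).2 (hU1 (P i)).1
  choose φ hφ1 hφ2 using hch
  refine ⟨φ, hφ1, fun i j hij => ?_⟩
  have hne : P i ≠ P j := fun h => hij (hP h)
  have hd : Disjoint (U (P i)) (U (P j)) := hU2 (Set.mem_range_self i) (Set.mem_range_self j) hne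
  exact hd.mono (hφ2 i) (hφ2 j)

/-- finitely many charts cover `Place ℂ F`. -/
theorem exists_finite_atlas (S : IsRSurface H) :
    ∃ (N : ℕ) (𝔄 : Fin N → Chart H), ∀ P : Place ℂ F, ∃ α, P ∈ (𝔄 α).dom := by
  haveI := S.compactSpace
  have hch : ∀ P : Place ℂ F, ∃ φ : Chart H, φ.c 0 = P := S.exists_chart
  choose φ hφ using hch
  obtain ⟨t, ht⟩ := isCompact_univ.elim_finite_subcover (fun P => (φ P).dom)
    (fun P => (φ P).isOpen_dom) (fun P _ => Set.mem_iUnion.mpr ⟨P, by
      have := (φ P).mem_dom_self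
      rwa [hφ P] at this⟩)
  refine ⟨t.card, fun α => φ (t.equivFin.symm α), fun P => ?_⟩
  obtain ⟨Q, hQ, hPQ⟩ := Set.mem_iUnion₂.mp (ht (Set.mem_univ P))
  refine ⟨t.equivFin ⟨Q, hQ⟩, ?_⟩
  simpa using hPQ

end Fermat.Agent.M27.Iface2.Chart
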