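/-
Programme M27 (target S27), chapter E, file 2 (helper2): **a basis of the regular differentials and
the non-speciality criterion in charts**.

`hx : IsGen ℂ x`, `X := M15.ThirdKind0.rrDataGen hx`, `W := canDiv X (dx)`, `g := genusFF ℂ F`.

* `basisL hx : Basis (Fin g) ℂ L(W)`, `ωb hx j := (basisL hx j) • dx`, `isRegular_ωb`;
* `Chart.coeff_add/coeff_smulF/coeff_sum` : linearity of the chart coefficient;
* `mat hx φ a : Matrix (Fin g) (Fin g) ℂ`, `mat i j = (φ i).hat ((φ i).coeff (ωb j)) (a i)`;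
* `finrank_L_eq_one_of_det_ne_zero` : charts with pairwise disjoint domains, `det (mat a) ≠ 0`
   ⇒ `l (Σ (φ i).c (a i)) = 1`;
* `det_ne_zero_of_finrank_L_eq_one` : the converse.
-/
import Mathlib
import Fermat.Agent.M27.Prim2
import Fermat.Agent.M17.GenericRR2

set_option autoImplicit false
set_option linter.unusedSectionVars false
set_option linter.unusedVariables false
set_option linter.style.longLine false

noncomputable section

namespace Fermat.Agent.M27.Iface2.Chart

open AlgebraicCurve Metric Topology KaehlerDifferential Filter Set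
open Fermat.Agent.RR.LSpace Fermat.Agent.M15.DivDefs4 Fermat.Agent.M27.Iface2 Fermat.Agent.X0.FF
open Fermat.Agent.M27.Prim2

variable {F : Type*} [Field F] [Algebra ℂ F] {H : LHyp ℂ F} [TopologicalSpace (Place ℂ F)] {x : F}

variable (φ : Chart H)

theorem coeff_add (hx : IsGen ℂ x) (ω₁ ω₂ : Ω[F⁄ℂ]) :
    φ.coeff (ω₁ + ω₂) = φ.coeff ω₁ + φ.coeff ω₂ := by
  apply φ.coeff_unique hx
  rw [add_smul, ← φ.coeff_smul hx ω₁, ← φ.coeff_smul hx ω₂]

theorem coeff_smulF (hx : IsGen ℂ x) (k : F) (ω : Ω[F⁄ℂ]) :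
    φ.coeff (k • ω) = k * φ.coeff ω := by
  apply φ.coeff_unique hx
  rw [mul_smul, ← φ.coeff_smul hx ω]

theorem coeff_sum (hx : IsGen ℂ x) {ι : Type*} (s : Finset ι) (ω : ι → Ω[F⁄ℂ]) :
    φ.coeff (∑ j ∈ s, ω j) = ∑ j ∈ s, φ.coeff (ω j) := by
  classical
  induction s using Finset.induction_on with
  | empty => simpa using φ.coeff_zero hx
  | insert a s ha ih => rw [Finset.sum_insert ha, Finset.sum_insert ha, φ.coeff_add hx, ih]

end Fermat.Agent.M27.Iface2.Chart

namespace Fermat.Agent.M27.RegDiff2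

open AlgebraicCurve Metric Topology KaehlerDifferential Filter Set Module
open Fermat.Agent.RR.LSpace Fermat.Agent.RR.Final Fermat.Agent.RR.Duality
open Fermat.Agent.M15.DivDefs4 Fermat.Agent.M27.Iface2 Fermat.Agent.X0.FF
open Fermat.Agent.M27.Prim2 Fermat.Agent.M17.GenericRR2

variable {F : Type*} [Field F] [Algebra ℂ F] {x : F}

/-- the Riemann-Roch data. -/
def XX (hx : IsGen ℂ x) : RRData ℂ F := Fermat.Agent.M15.ThirdKind0.rrDataGen hx

/-- the canonical divisor `div (dx)`. -/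
def WW (hx : IsGen ℂ x) : Divisor ℂ F := canDiv (XX hx) (D_ne_zero hx)

theorem WW_apply (hx : IsGen ℂ x) (v : Place ℂ F) : WW hx v = v.ordDifferential (D ℂ F x) := rfl

theorem finrank_L_WW (hx : IsGen ℂ x) :
    finrank ℂ (riemannRochSpace (WW hx)) = genusFF ℂ F :=
  finrank_L_canonical (XX hx) (D_ne_zero hx) (WW_apply hx)

/-- **Riemann-Roch** in the present notation. -/
theorem rr (hx : IsGen ℂ x) (D : Divisor ℂ F) :
    (finrank ℂ (riemannRochSpace D) : ℤ) - finrank ℂ (riemannRochSpace (WW hx - D)) =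
      Divisor.degree D + 1 - genusFF ℂ F :=
  riemann_roch (XX hx) (D_ne_zero hx) (WW_apply hx) D

/-- a basis of `L(W)`. -/
def basisL (hx : IsGen ℂ x) : Basis (Fin (genusFF ℂ F)) ℂ (riemannRochSpace (WW hx)) :=
  haveI : FiniteDimensional ℂ (riemannRochSpace (WW hx)) := finiteDimensional_L (XX hx).HL _
  Module.finBasisOfFinrankEq ℂ _ (finrank_L_WW hx)

/-- **the basis of the regular differentials.** -/
def ωb (hx : IsGen ℂ x) (j : Fin (genusFF ℂ F)) : Ω[F⁄ℂ] := ((basisL hx j : riemannRochSpace (WW hx)) : F) • D ℂ F x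

theorem ordDifferential_smul_dx (hx : IsGen ℂ x) {h : F} (hh : h ≠ 0) (v : Place ℂ F) :
    v.ordDifferential (h • D ℂ F x) = v.ord h + WW hx v :=
  (XX hx).HD.ordDifferential_smul v h hh _ (D_ne_zero hx)

theorem smul_dx_ne_zero (hx : IsGen ℂ x) {h : F} (hh : h ≠ 0) : h • D ℂ F x ≠ 0 :=
  smul_ne_zero hh (D_ne_zero hx)

/-- `h ∈ L(W)`, `h ≠ 0` ⇒ `h • dx` is regular. -/
theorem isRegular_smul_dx (hx : IsGen ℂ x) {h : F} (hh : h ≠ 0)
    (hmem : h ∈ riemannRochSpace (WW hx)) : IsRegular (h • D ℂ F x) := by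
  intro v
  rw [ordDifferential_smul_dx hx hh]
  have := (mem_L_iff hh).mp hmem v
  omega

theorem basisL_ne_zero (hx : IsGen ℂ x) (j : Fin (genusFF ℂ F)) :
    ((basisL hx j : riemannRochSpace (WW hx)) : F) ≠ 0 := by
  intro h0
  exact (basisL hx).ne_zero j (Subtype.ext h0)

theorem isRegular_ωb (hx : IsGen ℂ x) (j : Fin (genusFF ℂ F)) : IsRegular (ωb hx j) :=
  isRegular_smul_dx hx (basisL_ne_zero hx j) (basisL hx j).2

/-- the function `Σ λ_j h_j` of `L(W)`. -/
def comb (hx : IsGen ℂ x) (l : Fin (genusFF ℂ F) → ℂ) : F :=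
  ((∑ j, l j • basisL hx j : riemannRochSpace (WW hx)) : F)

theorem comb_mem (hx : IsGen ℂ x) (l : Fin (genusFF ℂ F) → ℂ) :
    comb hx l ∈ riemannRochSpace (WW hx) := Subtype.mem _

theorem comb_eq_zero_iff (hx : IsGen ℂ x) (l : Fin (genusFF ℂ F) → ℂ) : comb hx l = 0 ↔ l = 0 := by
  constructor
  · intro h
    have h1 : (∑ j, l j • basisL hx j : riemannRochSpace (WW hx)) = 0 := Subtype.ext h
    have := (Fintype.linearIndependent_iff.mp (basisL hx).linearIndependent) l h1
    exact funext this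
  · rintro rfl
    simp [comb]

theorem exists_comb (hx : IsGen ℂ x) {h : F} (hmem : h ∈ riemannRochSpace (WW hx)) :
    ∃ l : Fin (genusFF ℂ F) → ℂ, h = comb hx l := by
  refine ⟨fun j => (basisL hx).repr ⟨h, hmem⟩ j, ?_⟩
  have := (basisL hx).sum_repr ⟨h, hmem⟩
  unfold comb
  rw [this]

theorem comb_smul_dx (hx : IsGen ℂ x) (l : Fin (genusFF ℂ F) → ℂ) :
    comb hx l • D ℂ F x = ∑ j, (algebraMap ℂ F (l j)) • ωb hx j := by
  unfold comb ωb
  rw [Submodule.coe_sum, Finset.sum_smul]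
  refine Finset.sum_congr rfl fun j _ => ?_
  rw [Submodule.coe_smul, Algebra.smul_def, mul_smul]

variable {H : LHyp ℂ F} [TopologicalSpace (Place ℂ F)]

/-- **the evaluation matrix.** -/
def mat (hx : IsGen ℂ x) (φ : Fin (genusFF ℂ F) → Chart H) (a : Fin (genusFF ℂ F) → ℂ) :
    Matrix (Fin (genusFF ℂ F)) (Fin (genusFF ℂ F)) ℂ :=
  fun i j => (φ i).hat ((φ i).coeff (ωb hx j)) (a i)

/-- the value of the coefficient of `comb l • dx` in the chart `φ` at the point `a`. -/
theorem valAt_coeff_comb (hx : IsGen ℂ x) (φ : Chart H) {a : ℂ} (ha : a ∈ ball (0 : ℂ) φ.r)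
    (l : Fin (genusFF ℂ F) → ℂ) :
    valAt H (φ.c a) (φ.coeff (comb hx l • D ℂ F x)) =
      ∑ j, l j * φ.hat (φ.coeff (ωb hx j)) a := by
  rw [comb_smul_dx, φ.coeff_sum hx]
  have hmem : ∀ j, φ.coeff (algebraMap ℂ F (l j) • ωb hx j) ∈ (φ.c a).toValuationSubring := by
    intro j
    rw [φ.coeff_smulF hx]
    exact mul_mem ((φ.c a).algebraMap_mem' _)
      (mem_of_ord_nonneg _ (φ.ord_coeff_nonneg hx (isRegular_ωb hx j) ha))
  have key : ∀ s : Finset (Fin (genusFF ℂ F)),
      valAt H (φ.c a) (∑ j ∈ s, φ.coeff (algebraMap ℂ F (l j) • ωb hx j)) =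
        ∑ j ∈ s, l j * φ.hat (φ.coeff (ωb hx j)) a := by
    intro s
    classical
    induction s using Finset.induction_on with
    | empty =>
      simp only [Finset.sum_empty]
      have := valAt_algebraMap H (φ.c a) (0 : ℂ)
      simpa using this
    | insert b s hb ih =>
      rw [Finset.sum_insert hb, Finset.sum_insert hb,
        valAt_add H _ (hmem b) (Subring.sum_mem _ fun j _ => hmem j), ih]
      congr 1
      rw [φ.coeff_smulF hx, valAt_mul H _ ((φ.c a).algebraMap_mem' _)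
        (mem_of_ord_nonneg _ (φ.ord_coeff_nonneg hx (isRegular_ωb hx b) ha)), valAt_algebraMap]
      rfl
  exact key Finset.univ

theorem sumPts_apply' {n : ℕ} (Q : Fin n → Place ℂ F) (v : Place ℂ F) :
    sumPts Q v = ∑ i, (Finsupp.single (Q i) (1 : ℤ)) v := by
  unfold sumPts
  rw [Finsupp.coe_finsetSum, Finset.sum_apply]

theorem sumPts_apply_of_injective {n : ℕ} {Q : Fin n → Place ℂ F} (hQ : Function.Injective Q)
    (i : Fin n) : sumPts Q (Q i) = 1 := by
  classical
  rw [sumPts_apply', Finset.sum_eq_single i]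
  · simp
  · intro k _ hk
    rw [Finsupp.single_apply, if_neg (fun h => hk (hQ h))]
  · intro h; exact absurd (Finset.mem_univ i) h

theorem sumPts_apply_of_notMem {n : ℕ} {Q : Fin n → Place ℂ F} {v : Place ℂ F}
    (hv : ∀ i, Q i ≠ v) : sumPts Q v = 0 := by
  classical
  rw [sumPts_apply']
  refine Finset.sum_eq_zero fun k _ => ?_
  rw [Finsupp.single_apply, if_neg (hv k)]

section Criterion

variable (hx : IsGen ℂ x) (φ : Fin (genusFF ℂ F) → Chart H)
  (hdisj : ∀ i j, i ≠ j → Disjoint (φ i).dom (φ j).dom)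
  {a : Fin (genusFF ℂ F) → ℂ} (ha : ∀ i, a i ∈ ball (0 : ℂ) (φ i).r)

/-- the points `(φ i).c (a i)`. -/
def pts (φ : Fin (genusFF ℂ F) → Chart H) (a : Fin (genusFF ℂ F) → ℂ) :
    Fin (genusFF ℂ F) → Place ℂ F := fun i => (φ i).c (a i)

include hdisj ha in
theorem pts_injective : Function.Injective (pts φ a) := by
  intro i j hij
  by_contra hne
  have h1 : pts φ a i ∈ (φ i).dom := ⟨a i, ha i, rfl⟩
  have h2 : pts φ a i ∈ (φ j).dom := by rw [hij]; exact ⟨a j, ha j, rfl⟩
  exact (Set.disjoint_left.mp (hdisj i j hne) h1) h2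

include hdisj ha in
/-- `h = comb l ≠ 0` lies in `L(W - D)` iff `mat a *ᵥ l = 0`. -/
theorem comb_mem_L_sub_iff (l : Fin (genusFF ℂ F) → ℂ) (hl : l ≠ 0) :
    comb hx l ∈ riemannRochSpace (WW hx - sumPts (pts φ a)) ↔ (mat hx φ a).mulVec l = 0 := by
  have hh : comb hx l ≠ 0 := fun h0 => hl ((comb_eq_zero_iff hx l).mp h0)
  have hinj := pts_injective φ hdisj ha
  have hω0 : comb hx l • D ℂ F x ≠ 0 := smul_dx_ne_zero hx hh
  have hreg : IsRegular (comb hx l • D ℂ F x) := isRegular_smul_dx hx hh (comb_mem hx l)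
  -- the condition at the point `i`
  have hpt : ∀ i, (1 ≤ (pts φ a i).ord (comb hx l) + WW hx (pts φ a i)) ↔
      ((mat hx φ a).mulVec l) i = 0 := by
    intro i
    have e1 : (pts φ a i).ord (comb hx l) + WW hx (pts φ a i) =
        ((φ i).c (a i)).ord ((φ i).coeff (comb hx l • D ℂ F x)) := by
      rw [← ordDifferential_smul_dx hx hh, ← (φ i).ordDifferential_eq_ord_coeff hx hω0 (ha i)]
      rfl
    have hmem : (φ i).coeff (comb hx l • D ℂ F x) ∈ ((φ i).c (a i)).toValuationSubring :=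
      mem_of_ord_nonneg _ ((φ i).ord_coeff_nonneg hx hreg (ha i))
    have hc0 : (φ i).coeff (comb hx l • D ℂ F x) ≠ 0 := (φ i).coeff_ne_zero hx hω0
    have e2 : ((mat hx φ a).mulVec l) i =
        valAt H ((φ i).c (a i)) ((φ i).coeff (comb hx l • D ℂ F x)) := by
      rw [valAt_coeff_comb hx (φ i) (ha i) l]
      simp only [Matrix.mulVec, dotProduct, mat]
      exact Finset.sum_congr rfl fun j _ => mul_comm _ _
    rw [e1, e2, valAt_eq_zero_iff H _ hmem]
    constructor
    · intro h; right; omega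
    · rintro (h | h)
      · exact absurd h hc0
      · omega
  rw [mem_L_iff hh]
  constructor
  · intro h
    funext i
    rw [Pi.zero_apply, ← hpt i]
    have := h (pts φ a i)
    rw [Finsupp.sub_apply, sumPts_apply_of_injective hinj] at this
    omega
  · intro h v
    rw [Finsupp.sub_apply]
    by_cases hv : ∃ i, pts φ a i = v
    · obtain ⟨i, rfl⟩ := hv
      rw [sumPts_apply_of_injective hinj]
      have := (hpt i).mpr (by rw [h]; rfl)
      omega
    · push Not at hv
      rw [sumPts_apply_of_notMem hv]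
      have := (mem_L_iff hh).mp (comb_mem hx l) v
      omega

include hdisj ha in
/-- **non-speciality from the determinant.** -/
theorem finrank_L_eq_one_of_det_ne_zero (hdet : (mat hx φ a).det ≠ 0) :
    finrank ℂ (riemannRochSpace (sumPts (pts φ a))) = 1 := by
  have hbot : riemannRochSpace (WW hx - sumPts (pts φ a)) = ⊥ := by
    rw [eq_bot_iff]
    intro h hmem
    rw [Submodule.mem_bot]
    by_contra hh
    have hW : h ∈ riemannRochSpace (WW hx) :=
      L_mono (sub_le_self _ (sumPts_nonneg _)) hmem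
    obtain ⟨l, rfl⟩ := exists_comb hx hW
    have hl : l ≠ 0 := fun h0 => hh ((comb_eq_zero_iff hx l).mpr h0)
    have h1 := (comb_mem_L_sub_iff hx φ hdisj ha l hl).mp hmem
    exact hl (Matrix.eq_zero_of_mulVec_eq_zero hdet h1)
  have h2 := rr hx (sumPts (pts φ a))
  rw [hbot, finrank_bot, degree_sumPts (XX hx).HL] at h2
  have : (finrank ℂ (riemannRochSpace (sumPts (pts φ a))) : ℤ) = 1 := by
    push_cast at h2; linarith
  exact_mod_cast this

include hdisj ha in
/-- **the determinant from non-speciality.** -/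
theorem det_ne_zero_of_finrank_L_eq_one
    (h1 : finrank ℂ (riemannRochSpace (sumPts (pts φ a))) = 1) : (mat hx φ a).det ≠ 0 := by
  intro hdet
  obtain ⟨l, hl, hl0⟩ := Matrix.exists_mulVec_eq_zero_iff.mpr hdet
  have hmem := (comb_mem_L_sub_iff hx φ hdisj ha l hl).mpr hl0
  have hh : comb hx l ≠ 0 := fun h0 => hl ((comb_eq_zero_iff hx l).mp h0)
  have : FiniteDimensional ℂ (riemannRochSpace (WW hx - sumPts (pts φ a))) :=
    finiteDimensional_L (XX hx).HL _
  have hpos : 0 < finrank ℂ (riemannRochSpace (WW hx - sumPts (pts φ a))) := by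
    rw [Module.finrank_pos_iff_exists_ne_zero]
    exact ⟨⟨comb hx l, hmem⟩, fun h0 => hh (congrArg Subtype.val h0)⟩
  have h2 := rr hx (sumPts (pts φ a))
  rw [h1, degree_sumPts (XX hx).HL] at h2
  have : (finrank ℂ (riemannRochSpace (WW hx - sumPts (pts φ a))) : ℤ) = 0 := by
    push_cast at h2; linarith
  have : finrank ℂ (riemannRochSpace (WW hx - sumPts (pts φ a))) = 0 := by exact_mod_cast this
  omega

end Criterion

end Fermat.Agent.M27.RegDiff2
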