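/-
Programme M27 (target S27), chapter E, file 3 (helper2): **the Abel sum at a non-special divisor and
its local inverse**.

`AbelSetup hx H` : `g` distinct points `P₀ i` with `l(Σ P₀ i) = 1`, charts `φ i` centred at them with
pairwise disjoint domains.

* `abelSum D a j = Σ_i (φ i).prim (ωb j) (a i)`;
* `hasStrictFDerivAt_abelSum` : its strict derivative at `a` is `(mat a)ᵀ`;
* `exists_local_inverse` : open `N₀ ∋ 0`, `V₀ ∋ 0` and a continuous `s : V₀ → N₀` inverse to the Abel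
  sum, with `N₀` inside the product of the discs and inside `det (mat a) ≠ 0`.
-/
import Mathlib
import Fermat.Agent.M27.ChartOps2
import Fermat.Agent.M27.RegDiff2

set_option autoImplicit false
set_option linter.unusedSectionVars false
set_option linter.unusedVariables false
set_option linter.style.longLine false

noncomputable section

namespace Fermat.Agent.M27.AbelSum2

open AlgebraicCurve Metric Topology KaehlerDifferential Filter Set Module
open Fermat.Agent.RR.LSpace Fermat.Agent.M15.DivDefs4 Fermat.Agent.M27.Iface2 Fermat.Agent.X0.FF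
open Fermat.Agent.M27.Prim2 Fermat.Agent.M17.GenericRR2 Fermat.Agent.M27.RegDiff2

variable {F : Type*} [Field F] [Algebra ℂ F] {x : F} {H : LHyp ℂ F} [TopologicalSpace (Place ℂ F)]

/-- the data of chapter E. -/
structure AbelSetup (hx : IsGen ℂ x) (H : LHyp ℂ F) [TopologicalSpace (Place ℂ F)] where
  P₀ : Fin (genusFF ℂ F) → Place ℂ F
  φ : Fin (genusFF ℂ F) → Chart H
  center : ∀ i, (φ i).c 0 = P₀ i
  disj : ∀ i j, i ≠ j → Disjoint (φ i).dom (φ j).dom
  nonspecial : finrank ℂ (riemannRochSpace (sumPts P₀)) = 1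

theorem exists_abelSetup (hx : IsGen ℂ x) (S : IsRSurface H) : Nonempty (AbelSetup hx H) := by
  obtain ⟨P₀, hinj, -, h1⟩ := exists_generic_points_isGen hx ∅ Set.finite_empty (genusFF ℂ F) le_rfl
  obtain ⟨φ, hφ1, hφ2⟩ := Chart.exists_disjoint_charts S P₀ hinj
  exact ⟨⟨P₀, φ, hφ1, hφ2, h1⟩⟩

variable {hx : IsGen ℂ x} (D : AbelSetup hx H)

/-- the product of the coordinate discs. -/
def polydisc : Set (Fin (genusFF ℂ F) → ℂ) := {a | ∀ i, a i ∈ ball (0 : ℂ) (D.φ i).r}

theorem isOpen_polydisc : IsOpen (polydisc D) := by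
  have : polydisc D = ⋂ i, (fun a : Fin (genusFF ℂ F) → ℂ => a i) ⁻¹' ball (0 : ℂ) (D.φ i).r := by
    ext a; simp [polydisc]
  rw [this]
  exact isOpen_iInter_of_finite fun i => isOpen_ball.preimage (continuous_apply i)

theorem zero_mem_polydisc : (0 : Fin (genusFF ℂ F) → ℂ) ∈ polydisc D := fun i =>
  (D.φ i).zero_mem_ball

/-- **the Abel sum.** -/
def abelSum (a : Fin (genusFF ℂ F) → ℂ) : Fin (genusFF ℂ F) → ℂ :=
  fun j => ∑ i, (D.φ i).prim (ωb hx j) (a i)

theorem abelSum_zero : abelSum D 0 = 0 := by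
  funext j
  simp only [abelSum, Pi.zero_apply]
  exact Finset.sum_eq_zero fun i _ => (D.φ i).prim_zero hx (isRegular_ωb hx j)

/-- the derivative of the Abel sum. -/
def dAbel (a : Fin (genusFF ℂ F) → ℂ) :
    (Fin (genusFF ℂ F) → ℂ) →L[ℂ] (Fin (genusFF ℂ F) → ℂ) :=
  LinearMap.toContinuousLinearMap (Matrix.toLin' (mat hx D.φ a).transpose)

theorem dAbel_apply (a h : Fin (genusFF ℂ F) → ℂ) (j : Fin (genusFF ℂ F)) :
    dAbel D a h j = ∑ i, mat hx D.φ a i j * h i := by
  simp [dAbel, Matrix.toLin'_apply, Matrix.mulVec, dotProduct, Matrix.transpose_apply]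

theorem hasStrictFDerivAt_abelSum {a : Fin (genusFF ℂ F) → ℂ} (ha : a ∈ polydisc D) :
    HasStrictFDerivAt (abelSum D) (dAbel D a) a := by
  rw [hasStrictFDerivAt_pi']
  intro j
  -- the `j`-th component is a sum over `i`
  have hcomp : ∀ i ∈ (Finset.univ : Finset (Fin (genusFF ℂ F))),
      HasStrictFDerivAt (fun b : Fin (genusFF ℂ F) → ℂ => (D.φ i).prim (ωb hx j) (b i))
        ((mat hx D.φ a i j) • (ContinuousLinearMap.proj i :
          (Fin (genusFF ℂ F) → ℂ) →L[ℂ] ℂ)) a := by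
    intro i _
    have h1 : HasDerivAt ((D.φ i).prim (ωb hx j)) (mat hx D.φ a i j) (a i) :=
      (D.φ i).hasDerivAt_prim hx (isRegular_ωb hx j) (ha i)
    have h2 : AnalyticAt ℂ ((D.φ i).prim (ωb hx j)) (a i) :=
      ((D.φ i).differentiableOn_prim hx (isRegular_ωb hx j)).analyticAt
        (isOpen_ball.mem_nhds (ha i))
    have h3 : HasStrictDerivAt ((D.φ i).prim (ωb hx j)) (mat hx D.φ a i j) (a i) := by
      have := h2.hasStrictFDerivAt.hasStrictDerivAt
      have e : fderiv ℂ ((D.φ i).prim (ωb hx j)) (a i) 1 = mat hx D.φ a i j := by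
        rw [h1.hasFDerivAt.fderiv]; simp
      rwa [e] at this
    have h4 := h3.comp_hasStrictFDerivAt a
      ((ContinuousLinearMap.proj i : (Fin (genusFF ℂ F) → ℂ) →L[ℂ] ℂ).hasStrictFDerivAt)
    exact h4
  have hsum := HasStrictFDerivAt.fun_sum hcomp
  refine hsum.congr_fderiv ?_
  ext h
  simp only [ContinuousLinearMap.coe_comp, Function.comp_apply, ContinuousLinearMap.proj_apply,
    FunLike.coe_sum, Finset.sum_apply, FunLike.coe_smul, Pi.smul_apply, smul_eq_mul]
  rw [dAbel_apply]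

/-! ### the local inverse -/

theorem pts_zero : pts D.φ 0 = D.P₀ := funext fun i => D.center i

theorem continuousOn_mat (i j : Fin (genusFF ℂ F)) :
    ContinuousOn (fun a : Fin (genusFF ℂ F) → ℂ => mat hx D.φ a i j) (polydisc D) := by
  have h1 : ContinuousOn ((D.φ i).hat ((D.φ i).coeff (ωb hx j))) (ball (0 : ℂ) (D.φ i).r) :=
    ((D.φ i).differentiableOn_hat_coeff hx (isRegular_ωb hx j)).continuousOn
  exact h1.comp (continuous_apply i).continuousOn (fun a ha => ha i)

theorem continuousOn_det :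
    ContinuousOn (fun a : Fin (genusFF ℂ F) → ℂ => (mat hx D.φ a).det) (polydisc D) := by
  simp only [Matrix.det_apply]
  refine continuousOn_finsetSum _ fun σ _ => ?_
  refine ContinuousOn.const_smul ?_ _
  exact continuousOn_finsetProd _ fun i _ => continuousOn_mat D (σ i) i

/-- the good part of the polydisc. -/
def goodSet : Set (Fin (genusFF ℂ F) → ℂ) := {a | a ∈ polydisc D ∧ (mat hx D.φ a).det ≠ 0}

theorem isOpen_goodSet : IsOpen (goodSet D) := by
  have : goodSet D = polydisc D ∩ (fun a => (mat hx D.φ a).det) ⁻¹' {0}ᶜ := by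
    ext a; simp [goodSet]
  rw [this]
  exact (continuousOn_det D).isOpen_inter_preimage (isOpen_polydisc D) isOpen_compl_singleton

theorem det_zero_ne_zero : (mat hx D.φ 0).det ≠ 0 := by
  apply det_ne_zero_of_finrank_L_eq_one hx D.φ D.disj (zero_mem_polydisc D)
  rw [pts_zero]
  exact D.nonspecial

theorem zero_mem_goodSet : (0 : Fin (genusFF ℂ F) → ℂ) ∈ goodSet D :=
  ⟨zero_mem_polydisc D, det_zero_ne_zero D⟩

/-- the derivative at a good point, as an equivalence. -/
def dAbelEquiv {a : Fin (genusFF ℂ F) → ℂ} (ha : (mat hx D.φ a).det ≠ 0) :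
    (Fin (genusFF ℂ F) → ℂ) ≃L[ℂ] (Fin (genusFF ℂ F) → ℂ) :=
  (Matrix.toLinearEquiv' (mat hx D.φ a).transpose
    (Matrix.invertibleOfIsUnitDet _ (by
      rw [Matrix.det_transpose]; exact isUnit_iff_ne_zero.mpr ha))).toContinuousLinearEquiv

theorem coe_dAbelEquiv {a : Fin (genusFF ℂ F) → ℂ} (ha : (mat hx D.φ a).det ≠ 0) :
    ((dAbelEquiv D ha : (Fin (genusFF ℂ F) → ℂ) ≃L[ℂ] (Fin (genusFF ℂ F) → ℂ)) :
      (Fin (genusFF ℂ F) → ℂ) →L[ℂ] (Fin (genusFF ℂ F) → ℂ)) = dAbel D a := by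
  ext h j
  simp only [dAbelEquiv, dAbel, LinearMap.coe_toContinuousLinearMap', ContinuousLinearEquiv.coe_coe,
    LinearEquiv.coe_toContinuousLinearEquiv']
  rfl

/-- **the local inverse of the Abel sum.** -/
theorem exists_local_inverse :
    ∃ (N₀ V₀ : Set (Fin (genusFF ℂ F) → ℂ))
      (s : (Fin (genusFF ℂ F) → ℂ) → (Fin (genusFF ℂ F) → ℂ)),
      IsOpen N₀ ∧ IsOpen V₀ ∧ (0 : Fin (genusFF ℂ F) → ℂ) ∈ N₀ ∧ (0 : Fin (genusFF ℂ F) → ℂ) ∈ V₀ ∧
      N₀ ⊆ goodSet D ∧ MapsTo s V₀ N₀ ∧ MapsTo (abelSum D) N₀ V₀ ∧ ContinuousOn s V₀ ∧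
      ContinuousOn (abelSum D) N₀ ∧ (∀ v ∈ V₀, abelSum D (s v) = v) ∧
      (∀ a ∈ N₀, s (abelSum D a) = a) := by
  have h0 := det_zero_ne_zero D
  have hstrict : HasStrictFDerivAt (abelSum D)
      ((dAbelEquiv D h0 : (Fin (genusFF ℂ F) → ℂ) ≃L[ℂ] (Fin (genusFF ℂ F) → ℂ)) :
        (Fin (genusFF ℂ F) → ℂ) →L[ℂ] (Fin (genusFF ℂ F) → ℂ)) 0 := by
    rw [coe_dAbelEquiv]
    exact hasStrictFDerivAt_abelSum D (zero_mem_polydisc D)
  set Φ := (hstrict.toOpenPartialHomeomorph (abelSum D)).restrOpen (goodSet D) (isOpen_goodSet D)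
    with hΦ
  have hcoe : ∀ a, Φ a = abelSum D a := fun a => by
    rw [hΦ]
    show (hstrict.toOpenPartialHomeomorph (abelSum D)) a = abelSum D a
    rw [hstrict.toOpenPartialHomeomorph_coe]
  have hsrc : Φ.source = (hstrict.toOpenPartialHomeomorph (abelSum D)).source ∩ goodSet D :=
    OpenPartialHomeomorph.restrOpen_source _ _ _
  have h0src : (0 : Fin (genusFF ℂ F) → ℂ) ∈ Φ.source := by
    rw [hsrc]
    exact ⟨hstrict.mem_toOpenPartialHomeomorph_source, zero_mem_goodSet D⟩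
  refine ⟨Φ.source, Φ.target, Φ.symm, Φ.open_source, Φ.open_target, h0src, ?_, ?_, ?_, ?_, ?_, ?_,
    ?_, ?_⟩
  · have := Φ.map_source h0src
    rwa [hcoe, abelSum_zero] at this
  · intro a ha
    rw [hsrc] at ha
    exact ha.2
  · exact fun v hv => Φ.map_target hv
  · intro a ha
    have := Φ.map_source ha
    rwa [hcoe] at this
  · exact Φ.continuousOn_symm
  · have := Φ.continuousOn
    exact this.congr fun a _ => (hcoe a).symm
  · intro v hv
    rw [← hcoe]
    exact Φ.right_inv hv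
  · intro a ha
    rw [← hcoe]
    exact Φ.left_inv ha

end Fermat.Agent.M27.AbelSum2
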