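/-
Programme M27 (target S27), chapter E, file 4 (helper2): **the data (E1) of the Abel sum**, in the
exact shape of the hypotheses of `AbelOut9.abelOutput_of_localHomeo` (helper9).

For an `AbelSetup` (non-special `P₀`, disjoint special charts `φ i` centred at `P₀ i`):
* `coords Q i = t_i (Q i)` the chart coordinates of a tuple, continuous on the box `∏ dom φ_i`;
* `W₀ = {Q ∈ box | coords Q ∈ N₀}`, `A Q = abelSum (coords Q)`, `s v = pts φ (s₀ v)` with `(N₀, V₀, s₀)`
  the local inverse of `AbelSum2.exists_local_inverse`;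
* `Lam` = the countable group of transition constants of the atlas `Fin g ⊕ Fin N`
  (`AbelLamCor5.Lam`), and easy Abel: `ΣT + ΣP₀ ~ ΣQ + ΣQ'  ⇒  A T - A Q - A Q' ∈ Lam`.
End literal: `exists_abelData`.
-/
import Mathlib
import Fermat.Agent.M27.AbelSum2
import Fermat.Agent.M27.AbelLamCor5

set_option autoImplicit false
set_option linter.unusedSectionVars false
set_option linter.unusedVariables false
set_option linter.style.longLine false

noncomputable section

namespace Fermat.Agent.M27.AbelData2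

open AlgebraicCurve Metric Topology KaehlerDifferential Filter Set Module
open Fermat.Agent.RR.LSpace Fermat.Agent.M15.DivDefs4 Fermat.Agent.M27.Iface2 Fermat.Agent.X0.FF
open Fermat.Agent.M27.Prim2 Fermat.Agent.M17.GenericRR2 Fermat.Agent.M27.RegDiff2
open Fermat.Agent.M27.AbelSum2 Fermat.Agent.M27.AbelLamCor5

variable {F : Type*} [Field F] [Algebra ℂ F] {x : F} {H : LHyp ℂ F} [TopologicalSpace (Place ℂ F)]

/-- the coordinate of a chart is continuous on its domain. -/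
theorem continuousOn_valAt_t (φ : Chart H) :
    ContinuousOn (fun P : Place ℂ F => valAt H P φ.t) φ.dom := by
  rintro P ⟨a, ha, rfl⟩
  apply ContinuousAt.continuousWithinAt
  have h1 := φ.emb.map_nhds_eq ⟨a, ha⟩
  show Tendsto (fun P : Place ℂ F => valAt H P φ.t) (𝓝 (φ.c a)) (𝓝 (valAt H (φ.c a) φ.t))
  rw [← h1, tendsto_map'_iff, φ.valAt_t ha]
  have h2 : ((fun P : Place ℂ F => valAt H P φ.t) ∘ fun b : ball (0 : ℂ) φ.r => φ.c b) =
      fun b : ball (0 : ℂ) φ.r => (b : ℂ) := by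
    funext b
    exact φ.valAt_t b.2
  rw [h2]
  exact continuous_subtype_val.continuousAt

variable {hx : IsGen ℂ x} (D : AbelSetup hx H)

/-- the chart coordinates of a tuple of places. -/
def coords (Q : Fin (genusFF ℂ F) → Place ℂ F) : Fin (genusFF ℂ F) → ℂ :=
  fun i => valAt H (Q i) (D.φ i).t

/-- the product of the chart domains. -/
def box : Set (Fin (genusFF ℂ F) → Place ℂ F) := {Q | ∀ i, Q i ∈ (D.φ i).dom}

theorem isOpen_box : IsOpen (box D) := by
  have : box D = ⋂ i, (fun Q : Fin (genusFF ℂ F) → Place ℂ F => Q i) ⁻¹' (D.φ i).dom := by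
    ext Q; simp [box]
  rw [this]
  exact isOpen_iInter_of_finite fun i => (D.φ i).isOpen_dom.preimage (continuous_apply i)

theorem coords_pts {a : Fin (genusFF ℂ F) → ℂ} (ha : a ∈ polydisc D) :
    coords D (pts D.φ a) = a := funext fun i => (D.φ i).valAt_t (ha i)

theorem pts_mem_box {a : Fin (genusFF ℂ F) → ℂ} (ha : a ∈ polydisc D) : pts D.φ a ∈ box D :=
  fun i => ⟨a i, ha i, rfl⟩

theorem coords_mem_polydisc {Q : Fin (genusFF ℂ F) → Place ℂ F} (hQ : Q ∈ box D) :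
    coords D Q ∈ polydisc D := by
  intro i
  obtain ⟨a, ha, hQi⟩ := hQ i
  show valAt H (Q i) (D.φ i).t ∈ ball (0 : ℂ) (D.φ i).r
  rw [← hQi, (D.φ i).valAt_t ha]
  exact ha

theorem pts_coords {Q : Fin (genusFF ℂ F) → Place ℂ F} (hQ : Q ∈ box D) :
    pts D.φ (coords D Q) = Q := by
  funext i
  obtain ⟨a, ha, hQi⟩ := hQ i
  show (D.φ i).c (valAt H (Q i) (D.φ i).t) = Q i
  rw [← hQi, (D.φ i).valAt_t ha]

theorem coords_P₀ : coords D D.P₀ = 0 := by
  rw [← pts_zero D]
  exact coords_pts D (zero_mem_polydisc D)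

theorem P₀_mem_box : D.P₀ ∈ box D := by
  rw [← pts_zero D]
  exact pts_mem_box D (zero_mem_polydisc D)

theorem continuousOn_coords : ContinuousOn (coords D) (box D) := by
  apply continuousOn_pi.mpr
  intro i
  exact (continuousOn_valAt_t (D.φ i)).comp (continuous_apply i).continuousOn (fun Q hQ => hQ i)

theorem continuousOn_pts : ContinuousOn (pts D.φ) (polydisc D) := by
  apply continuousOn_pi.mpr
  intro i
  exact (D.φ i).continuousOn.comp (continuous_apply i).continuousOn (fun a ha => ha i)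

/-! ### the atlas and easy Abel -/

section Atlas

variable {N : ℕ} (𝔅 : Fin N → Chart H)

/-- the atlas: the special charts, then a finite cover. -/
def atlas : Fin (genusFF ℂ F) ⊕ Fin N → Chart H := Sum.elim D.φ 𝔅

theorem abelSum_eq_sum_primVec (a : Fin (genusFF ℂ F) → ℂ) :
    abelSum D a = ∑ i, primVec (atlas D 𝔅) (ωb hx) (Sum.inl i) (a i) := by
  funext j
  simp only [abelSum, Finset.sum_apply, primVec, atlas, Sum.elim_inl]

theorem FbarDiv_sumPts {Q : Fin (genusFF ℂ F) → Place ℂ F} (hQ : Q ∈ box D) :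
    FbarDiv (atlas D 𝔅) (ωb hx) (sumPts Q) =
      ((abelSum D (coords D Q) : Fin (genusFF ℂ F) → ℂ) :
        (Fin (genusFF ℂ F) → ℂ) ⧸ Lam (atlas D 𝔅) (ωb hx)) := by
  unfold sumPts
  rw [map_sum, abelSum_eq_sum_primVec D 𝔅, QuotientAddGroup.mk_sum]
  refine Finset.sum_congr rfl fun i _ => ?_
  rw [FbarDiv_single, one_smul]
  have h1 : Q i = (atlas D 𝔅 (Sum.inl i)).c (coords D Q i) := by
    have := congrFun (pts_coords D hQ) i
    exact this.symm
  have h2 : coords D Q i ∈ ball (0 : ℂ) (atlas D 𝔅 (Sum.inl i)).r := coords_mem_polydisc D hQ i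
  conv_lhs => rw [h1]
  exact Fbar_chart (atlas D 𝔅) (ωb hx) (Sum.inl i) h2

end Atlas

/-- **the data (E1)**: the Abel sum is a local homeomorphism at the non-special `P₀`, and satisfies
the easy half of Abel's theorem modulo a countable group. -/
theorem exists_abelData {F : Type*} [Field F] [Algebra ℂ F] {x : F} (hx : IsGen ℂ x)
    (H : LHyp ℂ F) [TopologicalSpace (Place ℂ F)] (S : IsRSurface H) :
    ∃ (P₀ : Fin (genusFF ℂ F) → Place ℂ F) (U : Fin (genusFF ℂ F) → Set (Place ℂ F))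
      (W₀ : Set (Fin (genusFF ℂ F) → Place ℂ F))
      (A : (Fin (genusFF ℂ F) → Place ℂ F) → (Fin (genusFF ℂ F) → ℂ))
      (s : (Fin (genusFF ℂ F) → ℂ) → (Fin (genusFF ℂ F) → Place ℂ F))
      (V : Set (Fin (genusFF ℂ F) → ℂ)) (Lam : AddSubgroup (Fin (genusFF ℂ F) → ℂ)),
      finrank ℂ ↥(riemannRochSpace (sumPts P₀)) = 1 ∧
      Pairwise (Function.onFun Disjoint U) ∧
      IsOpen W₀ ∧ (∀ Q ∈ W₀, ∀ i, Q i ∈ U i) ∧ P₀ ∈ W₀ ∧
      IsOpen V ∧ A P₀ = 0 ∧ (∀ Q ∈ W₀, A Q ∈ V) ∧ (∀ v ∈ V, s v ∈ W₀) ∧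
      (∀ Q ∈ W₀, s (A Q) = Q) ∧ (∀ v ∈ V, A (s v) = v) ∧
      ContinuousOn A W₀ ∧ ContinuousOn s V ∧
      (Lam : Set (Fin (genusFF ℂ F) → ℂ)).Countable ∧
      ∀ Q ∈ W₀, ∀ Q' ∈ W₀, ∀ T ∈ W₀,
        sumPts T + sumPts P₀ - (sumPts Q + sumPts Q') ∈ Divisor.principal (K := ℂ) (F := F) →
        A T - A Q - A Q' ∈ Lam := by
  obtain ⟨D⟩ := exists_abelSetup hx S
  obtain ⟨N₀, V₀, s₀, hN₀, hV₀, h0N, h0V, hNg, hsV, hAN, hsc, hAc, hAs, hsA⟩ :=
    exists_local_inverse D
  obtain ⟨N, 𝔅, hcov⟩ := Chart.exists_finite_atlas S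
  have hNp : N₀ ⊆ polydisc D := fun a ha => (hNg ha).1
  have hcov' : ∀ P : Place ℂ F, ∃ α, P ∈ (atlas D 𝔅 α).dom := fun P => by
    obtain ⟨β, hβ⟩ := hcov P
    exact ⟨Sum.inr β, hβ⟩
  refine ⟨D.P₀, fun i => (D.φ i).dom, {Q | Q ∈ box D ∧ coords D Q ∈ N₀},
    fun Q => abelSum D (coords D Q), fun v => pts D.φ (s₀ v), V₀, Lam (atlas D 𝔅) (ωb hx),
    D.nonspecial, ?_, ?_, ?_, ?_, hV₀, ?_, ?_, ?_, ?_, ?_, ?_, ?_, ?_, ?_⟩
  · intro i j hij
    exact D.disj i j hij
  · exact (continuousOn_coords D).isOpen_inter_preimage (isOpen_box D) hN₀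
  · exact fun Q hQ i => hQ.1 i
  · exact ⟨P₀_mem_box D, by rw [coords_P₀]; exact h0N⟩
  · show abelSum D (coords D D.P₀) = 0
    rw [coords_P₀, abelSum_zero]
  · exact fun Q hQ => hAN hQ.2
  · intro v hv
    have h1 : s₀ v ∈ N₀ := hsV hv
    exact ⟨pts_mem_box D (hNp h1), by rw [coords_pts D (hNp h1)]; exact h1⟩
  · intro Q hQ
    show pts D.φ (s₀ (abelSum D (coords D Q))) = Q
    rw [hsA _ hQ.2, pts_coords D hQ.1]
  · intro v hv
    show abelSum D (coords D (pts D.φ (s₀ v))) = v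
    rw [coords_pts D (hNp (hsV hv)), hAs v hv]
  · exact hAc.comp ((continuousOn_coords D).mono fun Q hQ => hQ.1) fun Q hQ => hQ.2
  · exact (continuousOn_pts D).comp hsc fun v hv => hNp (hsV hv)
  · exact countable_Lam hx (atlas D 𝔅) (isRegular_ωb hx)
  · intro Q hQ Q' hQ' T hT hp
    have h := abel_divisor S hx (atlas D 𝔅) hcov' (isRegular_ωb hx) hp
    rw [map_sub, map_add, map_add, FbarDiv_sumPts D 𝔅 hT.1, FbarDiv_sumPts D 𝔅 hQ.1,
      FbarDiv_sumPts D 𝔅 hQ'.1, FbarDiv_sumPts D 𝔅 (P₀_mem_box D), coords_P₀, abelSum_zero,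
      QuotientAddGroup.mk_zero, add_zero, ← QuotientAddGroup.mk_add, ← QuotientAddGroup.mk_sub,
      QuotientAddGroup.eq_zero_iff] at h
    have e : abelSum D (coords D T) - abelSum D (coords D Q) - abelSum D (coords D Q') =
        abelSum D (coords D T) - (abelSum D (coords D Q) + abelSum D (coords D Q')) := by abel
    rw [e]
    exact h

end Fermat.Agent.M27.AbelData2
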