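/-
Programme M27 (target S27), chapter E, generic analytic block (E1) (helper5): **the inverse function
theorem for a sum of one-variable holomorphic maps** (the local inverse of the Abel sum).
Mathlib only.

`U i : ℂ → (Fin g → ℂ)` holomorphic on `ball 0 (r i)`, `A b := ∑ i, U i (b i)`. If the columns
`deriv (U i) 0` are linearly independent then `A` is an open partial homeomorphism near `0` whose
source is contained in the polydisc `∏ ball 0 (r i)`.
-/
import Mathlib

set_option autoImplicit false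
set_option linter.unusedSectionVars false
set_option linter.unusedVariables false
set_option linter.style.longLine false

noncomputable section

namespace Fermat.Agent.M27.AbelIFT5

open Metric Topology Set Filter

variable {g : ℕ}

/-- the sum of one-variable maps. -/
def abelSum (U : Fin g → ℂ → (Fin g → ℂ)) (b : Fin g → ℂ) : Fin g → ℂ := ∑ i, U i (b i)

/-- the Jacobian of `abelSum U` at `0`. -/
def jac (U : Fin g → ℂ → (Fin g → ℂ)) : (Fin g → ℂ) →L[ℂ] (Fin g → ℂ) :=
  ∑ i, (fderiv ℂ (U i) 0).comp (ContinuousLinearMap.proj (R := ℂ) (φ := fun _ : Fin g => ℂ) i)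

theorem jac_apply (U : Fin g → ℂ → (Fin g → ℂ)) (v : Fin g → ℂ) :
    jac U v = ∑ i, v i • deriv (U i) 0 := by
  simp only [jac, ContinuousLinearMap.sum_apply, ContinuousLinearMap.comp_apply,
    ContinuousLinearMap.proj_apply]
  refine Finset.sum_congr rfl fun i _ => ?_
  rw [fderiv_eq_smul_deriv]

/-- the polydisc. -/
def polydisc (r : Fin g → ℝ) : Set (Fin g → ℂ) := {b | ∀ i, b i ∈ ball (0 : ℂ) (r i)}

theorem isOpen_polydisc (r : Fin g → ℝ) : IsOpen (polydisc r) := by
  have : polydisc r = ⋂ i, (fun b : Fin g → ℂ => b i) ⁻¹' ball (0 : ℂ) (r i) := by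
    ext b; simp [polydisc]
  rw [this]
  exact isOpen_iInter_of_finite fun i => isOpen_ball.preimage (continuous_apply i)

theorem zero_mem_polydisc {r : Fin g → ℝ} (hr : ∀ i, 0 < r i) : (0 : Fin g → ℂ) ∈ polydisc r :=
  fun i => mem_ball_self (hr i)

variable {U : Fin g → ℂ → (Fin g → ℂ)} {r : Fin g → ℝ}

theorem hasStrictFDerivAt_abelSum (hr : ∀ i, 0 < r i)
    (hU : ∀ i, DifferentiableOn ℂ (U i) (ball (0 : ℂ) (r i))) :
    HasStrictFDerivAt (abelSum U) (jac U) 0 := by
  have h1 : ∀ i, HasStrictFDerivAt (fun b : Fin g → ℂ => U i (b i))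
      ((fderiv ℂ (U i) 0).comp
        (ContinuousLinearMap.proj (R := ℂ) (φ := fun _ : Fin g => ℂ) i)) 0 := by
    intro i
    have hA : AnalyticAt ℂ (U i) 0 := (hU i).analyticAt (ball_mem_nhds 0 (hr i))
    have h2 : HasStrictFDerivAt (U i) (fderiv ℂ (U i) 0) ((0 : Fin g → ℂ) i) := hA.hasStrictFDerivAt
    exact h2.comp (0 : Fin g → ℂ)
      (ContinuousLinearMap.proj (R := ℂ) (φ := fun _ : Fin g => ℂ) i).hasStrictFDerivAt
  have h3 := HasStrictFDerivAt.fun_sum (u := Finset.univ) fun i _ => h1 i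
  unfold abelSum jac
  convert h3 using 1

/-- **the local inverse of the Abel sum.** -/
theorem exists_openPartialHomeomorph (hr : ∀ i, 0 < r i)
    (hU : ∀ i, DifferentiableOn ℂ (U i) (ball (0 : ℂ) (r i)))
    (hinj : ∀ v : Fin g → ℂ, ∑ i, v i • deriv (U i) 0 = 0 → v = 0) :
    ∃ e : OpenPartialHomeomorph (Fin g → ℂ) (Fin g → ℂ), (0 : Fin g → ℂ) ∈ e.source ∧
      e.source ⊆ polydisc r ∧ ∀ b ∈ e.source, e b = abelSum U b := by
  have hker : (jac U).ker = ⊥ := by
    rw [LinearMap.ker_eq_bot']
    intro v hv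
    exact hinj v (by rw [← jac_apply]; exact hv)
  have hrange : (jac U).range = ⊤ := by
    rw [LinearMap.range_eq_top]
    exact (LinearMap.injective_iff_surjective (f := (jac U).toLinearMap)).mp
      (LinearMap.ker_eq_bot.mp hker)
  set eq := ContinuousLinearEquiv.ofBijective (jac U) hker hrange with heq
  have hstrict : HasStrictFDerivAt (abelSum U) (eq : (Fin g → ℂ) →L[ℂ] (Fin g → ℂ)) 0 := by
    rw [heq, ContinuousLinearEquiv.coe_ofBijective]
    exact hasStrictFDerivAt_abelSum hr hU
  refine ⟨(hstrict.toOpenPartialHomeomorph (abelSum U)).restrOpen (polydisc r) (isOpen_polydisc r),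
    ?_, ?_, ?_⟩
  · rw [OpenPartialHomeomorph.restrOpen_source]
    exact ⟨hstrict.mem_toOpenPartialHomeomorph_source, zero_mem_polydisc hr⟩
  · rw [OpenPartialHomeomorph.restrOpen_source]
    exact inter_subset_right
  · intro b _
    rfl

end Fermat.Agent.M27.AbelIFT5
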