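/-
Programme M27 (target S27), leaf (LAT) (helper2): **the lattice endgame**, pure Mathlib.

`E` a finite dimensional real normed space, `G` an abelian group, `ψ : E → G` with
* (a) `ψ (v + w) = ψ v + ψ w` whenever `v, w, v + w` are in the ball of radius `ρ`,
* (b) `ψ` injective on that ball,
* (c) every element of `G` is a sum of at most `M` elements of `ψ (ball ρ)`.
Then `ψ` extends to a surjective homomorphism `exp : E →+ G` (`expHom`) whose kernel is discrete and
cocompact, hence a full lattice (`ZLattice.rank`), and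
`card_torsion` : `#{y : G | n • y = 0} = n ^ finrank ℝ E`.
-/
import Mathlib

set_option autoImplicit false
set_option linter.unusedSectionVars false
set_option linter.unusedVariables false
set_option linter.style.longLine false

noncomputable section

namespace Fermat.Agent.M27.Lattice2

open Metric Set Filter Topology Module

variable {E : Type*} [NormedAddCommGroup E] [NormedSpace ℝ E]
  {G : Type*} [AddCommGroup G]

/-- the hypotheses (a), (b), (c). -/
structure LocalHom (ψ : E → G) (ρ : ℝ) (M : ℕ) : Prop where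
  pos : 0 < ρ
  add : ∀ v w : E, ‖v‖ < ρ → ‖w‖ < ρ → ‖v + w‖ < ρ → ψ (v + w) = ψ v + ψ w
  inj : ∀ v w : E, ‖v‖ < ρ → ‖w‖ < ρ → ψ v = ψ w → v = w
  gen : ∀ y : G, ∃ l : List E, l.length ≤ M ∧ (∀ v ∈ l, ‖v‖ < ρ) ∧ y = (l.map ψ).sum

variable {ψ : E → G} {ρ : ℝ} {M : ℕ}

namespace LocalHom

theorem psi_zero (h : LocalHom ψ ρ M) : ψ 0 = 0 := by
  have := h.add 0 0 (by simpa using h.pos) (by simpa using h.pos) (by simpa using h.pos)
  rw [add_zero] at this
  exact left_eq_add.mp this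

/-- `ψ (k x) = k ψ x` as long as `k x` stays in the ball. -/
theorem psi_nsmul (h : LocalHom ψ ρ M) (k : ℕ) (x : E) (hx : ‖(k : ℝ) • x‖ < ρ) (hk : 0 < k) :
    ψ ((k : ℝ) • x) = k • ψ x := by
  induction k with
  | zero => exact absurd hk (lt_irrefl _)
  | succ k ih =>
    rcases Nat.eq_zero_or_pos k with rfl | hkpos
    · simp
    · have hnorm : ∀ j : ℕ, ‖((j : ℝ)) • x‖ = j * ‖x‖ := by
        intro j; rw [norm_smul]; simp
      have h1 : ‖((k : ℝ)) • x‖ < ρ := by
        rw [hnorm] at hx ⊢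
        push_cast at hx
        nlinarith [norm_nonneg x]
      have h2 : ‖x‖ < ρ := by
        rw [hnorm] at hx
        push_cast at hx
        have : (1 : ℝ) ≤ k := by exact_mod_cast hkpos
        nlinarith [norm_nonneg x]
      have hsplit : ((k + 1 : ℕ) : ℝ) • x = (k : ℝ) • x + x := by
        push_cast; rw [add_smul, one_smul]
      rw [hsplit, h.add _ _ h1 h2 (by rwa [← hsplit]), ih h1 hkpos, succ_nsmul]

/-- the key independence lemma. -/
theorem nsmul_map_inv_smul (h : LocalHom ψ ρ M) (v : E) {a b : ℕ} (ha : 0 < a) (hb : 0 < b)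
    (hva : ‖v‖ < a * ρ) (hvb : ‖v‖ < b * ρ) :
    a • ψ ((a : ℝ)⁻¹ • v) = b • ψ ((b : ℝ)⁻¹ • v) := by
  have ha' : (0 : ℝ) < a := by exact_mod_cast ha
  have hb' : (0 : ℝ) < b := by exact_mod_cast hb
  set x : E := ((a : ℝ) * b)⁻¹ • v with hx
  have e1 : (a : ℝ)⁻¹ • v = (b : ℝ) • x := by
    rw [hx, smul_smul]; congr 1; field_simp
  have e2 : (b : ℝ)⁻¹ • v = (a : ℝ) • x := by
    rw [hx, smul_smul]; congr 1; field_simp
  have n1 : ‖(b : ℝ) • x‖ < ρ := by
    rw [← e1, norm_smul, norm_inv, Real.norm_of_nonneg ha'.le, inv_mul_lt_iff₀ ha']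
    exact hva
  have n2 : ‖(a : ℝ) • x‖ < ρ := by
    rw [← e2, norm_smul, norm_inv, Real.norm_of_nonneg hb'.le, inv_mul_lt_iff₀ hb']
    exact hvb
  rw [e1, e2, h.psi_nsmul b x n1 hb, h.psi_nsmul a x n2 ha, ← mul_nsmul, ← mul_nsmul, mul_comm]

/-- a denominator that works for `v`. -/
def den (ρ : ℝ) (v : E) : ℕ := ⌊‖v‖ / ρ⌋₊ + 1

theorem den_pos (v : E) : 0 < den ρ v := Nat.succ_pos _

theorem norm_lt_den (h : LocalHom ψ ρ M) (v : E) : ‖v‖ < den ρ v * ρ := by
  have := Nat.lt_floor_add_one (‖v‖ / ρ)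
  rw [div_lt_iff₀ h.pos] at this
  simpa [den] using this

/-- the exponential as a function. -/
def expFun (ψ : E → G) (ρ : ℝ) (v : E) : G := den ρ v • ψ ((den ρ v : ℝ)⁻¹ • v)

theorem expFun_eq (h : LocalHom ψ ρ M) (v : E) {a : ℕ} (ha : 0 < a) (hva : ‖v‖ < a * ρ) :
    expFun ψ ρ v = a • ψ ((a : ℝ)⁻¹ • v) :=
  h.nsmul_map_inv_smul v (den_pos v) ha (h.norm_lt_den v) hva

theorem expFun_of_lt (h : LocalHom ψ ρ M) {v : E} (hv : ‖v‖ < ρ) : expFun ψ ρ v = ψ v := by
  rw [h.expFun_eq v one_pos (by simpa using hv)]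
  simp

theorem expFun_add (h : LocalHom ψ ρ M) (v w : E) :
    expFun ψ ρ (v + w) = expFun ψ ρ v + expFun ψ ρ w := by
  set a : ℕ := den ρ v + den ρ w + den ρ (v + w) with ha
  have hapos : 0 < a := by have := den_pos (ρ := ρ) v; omega
  have hρ := h.pos
  have hmono : ∀ u : E, den ρ u ≤ a → ‖u‖ < a * ρ := by
    intro u hu
    have h1 := h.norm_lt_den u
    have h2 : (den ρ u : ℝ) ≤ a := by exact_mod_cast hu
    nlinarith
  have hv := hmono v (by omega)
  have hw := hmono w (by omega)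
  have hvw := hmono (v + w) (by omega)
  rw [h.expFun_eq _ hapos hv, h.expFun_eq _ hapos hw, h.expFun_eq _ hapos hvw, smul_add,
    ← nsmul_add]
  congr 1
  have ha' : (0 : ℝ) < a := by exact_mod_cast hapos
  have hsm : ∀ u : E, ‖u‖ < a * ρ → ‖(a : ℝ)⁻¹ • u‖ < ρ := by
    intro u hu
    rw [norm_smul, norm_inv, Real.norm_of_nonneg ha'.le, inv_mul_lt_iff₀ ha']
    exact hu
  exact h.add _ _ (hsm v hv) (hsm w hw) (by rw [← smul_add]; exact hsm _ hvw)

/-- **the exponential homomorphism.** -/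
def expHom (h : LocalHom ψ ρ M) : E →+ G :=
  AddMonoidHom.mk' (expFun ψ ρ) h.expFun_add

theorem expHom_of_lt (h : LocalHom ψ ρ M) {v : E} (hv : ‖v‖ < ρ) : h.expHom v = ψ v :=
  h.expFun_of_lt hv

theorem expHom_smul_inv (h : LocalHom ψ ρ M) (v : E) {n : ℕ} (hn : 0 < n) :
    n • h.expHom ((n : ℝ)⁻¹ • v) = h.expHom v := by
  have hn0 : (n : ℝ) ≠ 0 := by exact_mod_cast hn.ne'
  have hv : n • ((n : ℝ)⁻¹ • v) = v := by
    rw [← Nat.cast_smul_eq_nsmul ℝ n, smul_smul, mul_inv_cancel₀ hn0, one_smul]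
  rw [← map_nsmul, hv]

/-- every element of `G` is `exp` of a vector of norm `≤ M ρ`. -/
theorem exists_expHom_eq (h : LocalHom ψ ρ M) (y : G) :
    ∃ v : E, ‖v‖ ≤ M * ρ ∧ h.expHom v = y := by
  obtain ⟨l, hl, hlρ, rfl⟩ := h.gen y
  refine ⟨l.sum, ?_, ?_⟩
  · have h1 : ‖l.sum‖ ≤ l.length * ρ := by
      clear hl
      induction l with
      | nil => simp
      | cons a l ih =>
        rw [List.sum_cons, List.length_cons]
        have ha : ‖a‖ < ρ := hlρ a List.mem_cons_self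
        have := ih (fun v hv => hlρ v (List.mem_cons_of_mem _ hv))
        push_cast
        calc ‖a + l.sum‖ ≤ ‖a‖ + ‖l.sum‖ := norm_add_le _ _
          _ ≤ ρ + l.length * ρ := add_le_add ha.le this
          _ = (l.length + 1) * ρ := by ring
    have h2 : (l.length : ℝ) ≤ M := by exact_mod_cast hl
    calc ‖l.sum‖ ≤ l.length * ρ := h1
      _ ≤ M * ρ := mul_le_mul_of_nonneg_right h2 h.pos.le
  · clear hl
    induction l with
    | nil => simp
    | cons a l ih =>
      rw [List.sum_cons, map_add, List.map_cons, List.sum_cons,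
        ih (fun v hv => hlρ v (List.mem_cons_of_mem _ hv)),
        h.expHom_of_lt (hlρ a List.mem_cons_self)]

theorem expHom_surjective (h : LocalHom ψ ρ M) : Function.Surjective h.expHom := fun y =>
  let ⟨v, _, hv⟩ := h.exists_expHom_eq y
  ⟨v, hv⟩

/-- the kernel of `exp`, as a `ℤ`-submodule. -/
def ker (h : LocalHom ψ ρ M) : Submodule ℤ E := AddSubgroup.toIntSubmodule h.expHom.ker

theorem mem_ker (h : LocalHom ψ ρ M) {v : E} : v ∈ h.ker ↔ h.expHom v = 0 := Iff.rfl

theorem eq_zero_of_mem_ker_of_lt (h : LocalHom ψ ρ M) {v : E} (hv : v ∈ h.ker) (hvρ : ‖v‖ < ρ) :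
    v = 0 := by
  rw [mem_ker, h.expHom_of_lt hvρ, ← h.psi_zero] at hv
  exact h.inj v 0 hvρ (by simpa using h.pos) hv

instance discreteTopology_ker (h : LocalHom ψ ρ M) : DiscreteTopology h.ker := by
  rw [discreteTopology_iff_isOpen_singleton_zero]
  have : ({0} : Set h.ker) = (fun x : h.ker => (x : E)) ⁻¹' ball 0 ρ := by
    ext x
    simp only [mem_singleton_iff, mem_preimage, mem_ball_zero_iff]
    constructor
    · rintro rfl
      simpa using h.pos
    · intro hx
      exact Subtype.ext (h.eq_zero_of_mem_ker_of_lt x.2 hx)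
  rw [this]
  exact isOpen_ball.preimage continuous_subtype_val

variable [FiniteDimensional ℝ E]

theorem span_ker (h : LocalHom ψ ρ M) : Submodule.span ℝ (h.ker : Set E) = ⊤ := by
  by_contra hne
  have hlt : Submodule.span ℝ (h.ker : Set E) < ⊤ := lt_top_iff_ne_top.mpr hne
  obtain ⟨f, hf0, hfker⟩ := Submodule.exists_le_ker_of_lt_top _ hlt
  -- `f` is bounded on `E`
  have hfc : Continuous f := LinearMap.continuous_of_finiteDimensional f
  let f' : E →L[ℝ] ℝ := ⟨f, hfc⟩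
  have hbound : ∀ v : E, |f v| ≤ ‖f'‖ * (M * ρ) := by
    intro v
    obtain ⟨v', hv', hvv'⟩ := h.exists_expHom_eq (h.expHom v)
    have hmem : v - v' ∈ h.ker := by
      rw [mem_ker, map_sub, hvv', sub_self]
    have hzero : f (v - v') = 0 := hfker (Submodule.subset_span hmem)
    have hfv : f v = f v' := by
      rw [map_sub, sub_eq_zero] at hzero; exact hzero
    rw [hfv]
    calc |f v'| = ‖f' v'‖ := rfl
      _ ≤ ‖f'‖ * ‖v'‖ := f'.le_opNorm v'
      _ ≤ ‖f'‖ * (M * ρ) := mul_le_mul_of_nonneg_left hv' (norm_nonneg _)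
  -- but a nonzero functional is unbounded
  obtain ⟨v, hv⟩ : ∃ v, f v ≠ 0 := by
    by_contra hall
    exact hf0 (LinearMap.ext fun v => by
      by_contra hv
      exact hall ⟨v, hv⟩)
  set B := ‖f'‖ * (M * ρ) with hB
  have hB0 : 0 ≤ B := le_trans (abs_nonneg _) (hbound 0)
  have := hbound (((B + 1) / f v) • v)
  rw [map_smul, smul_eq_mul, div_mul_cancel₀ _ hv, abs_of_nonneg (by linarith)] at this
  linarith

instance isZLattice_ker (h : LocalHom ψ ρ M) : IsZLattice ℝ h.ker := ⟨h.span_ker⟩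

theorem finrank_ker (h : LocalHom ψ ρ M) : finrank ℤ h.ker = finrank ℝ E :=
  ZLattice.rank ℝ h.ker

/-! ### the count -/

/-- `λ ↦ exp (λ / n)` on the kernel lattice. -/
def divHom (h : LocalHom ψ ρ M) (n : ℕ) : h.ker →ₗ[ℤ] G :=
  AddMonoidHom.toIntLinearMap
    (AddMonoidHom.mk' (fun x : h.ker => h.expHom ((n : ℝ)⁻¹ • (x : E))) (fun x y => by
      simp only [Submodule.coe_add, smul_add, _root_.map_add]))

theorem divHom_apply (h : LocalHom ψ ρ M) (n : ℕ) (x : h.ker) :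
    h.divHom n x = h.expHom ((n : ℝ)⁻¹ • (x : E)) := rfl

theorem nsmul_divHom (h : LocalHom ψ ρ M) {n : ℕ} (hn : 0 < n) (x : h.ker) :
    n • h.divHom n x = 0 := by
  rw [divHom_apply, h.expHom_smul_inv _ hn]
  exact x.2

theorem range_divHom (h : LocalHom ψ ρ M) {n : ℕ} (hn : 0 < n) (y : G) :
    y ∈ LinearMap.range (h.divHom n) ↔ n • y = 0 := by
  constructor
  · rintro ⟨x, rfl⟩
    exact h.nsmul_divHom hn x
  · intro hy
    obtain ⟨v, rfl⟩ := h.expHom_surjective y
    have hmem : (n : ℝ) • v ∈ h.ker := by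
      rw [mem_ker, Nat.cast_smul_eq_nsmul ℝ n, _root_.map_nsmul]
      exact hy
    refine ⟨⟨(n : ℝ) • v, hmem⟩, ?_⟩
    rw [divHom_apply]
    congr 1
    have hn0 : (n : ℝ) ≠ 0 := by exact_mod_cast hn.ne'
    simp only
    rw [smul_smul, inv_mul_cancel₀ hn0, one_smul]

theorem mem_ker_divHom (h : LocalHom ψ ρ M) {n : ℕ} (hn : 0 < n) (x : h.ker) :
    x ∈ LinearMap.ker (h.divHom n) ↔ ∃ y : h.ker, x = (n : ℤ) • y := by
  have hn0 : (n : ℝ) ≠ 0 := by exact_mod_cast hn.ne'
  rw [LinearMap.mem_ker, divHom_apply]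
  constructor
  · intro hx
    refine ⟨⟨(n : ℝ)⁻¹ • (x : E), hx⟩, ?_⟩
    apply Subtype.ext
    simp only [Submodule.coe_smul]
    rw [← Int.cast_smul_eq_zsmul ℝ (n : ℤ)]
    push_cast
    rw [smul_smul, mul_inv_cancel₀ hn0, one_smul]
  · rintro ⟨y, rfl⟩
    have : (n : ℝ)⁻¹ • (((n : ℤ) • y : h.ker) : E) = (y : E) := by
      simp only [Submodule.coe_smul]
      rw [← Int.cast_smul_eq_zsmul ℝ (n : ℤ)]
      push_cast
      rw [smul_smul, inv_mul_cancel₀ hn0, one_smul]
    rw [this]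
    exact y.2

/-- **the count.** -/
theorem card_torsion (h : LocalHom ψ ρ M) {n : ℕ} (hn : 0 < n) :
    Nat.card {y : G // n • y = 0} = n ^ finrank ℝ E := by
  classical
  have : Module.Finite ℤ h.ker := ZLattice.module_finite ℝ h.ker
  have : Module.Free ℤ h.ker := ZLattice.module_free ℝ h.ker
  have hn0 : (n : ℤ) ≠ 0 := by exact_mod_cast hn.ne'
  set N : Submodule ℤ h.ker := LinearMap.ker (h.divHom n) with hN
  -- `x ↦ n x` is an isomorphism `L ≃ N`
  let e₀ : h.ker →ₗ[ℤ] N :=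
    LinearMap.codRestrict N (LinearMap.lsmul ℤ h.ker (n : ℤ)) (fun x => by
      rw [hN, h.mem_ker_divHom hn]
      exact ⟨x, rfl⟩)
  have he₀inj : Function.Injective e₀ := by
    intro x y hxy
    have h1 : (n : ℤ) • x = (n : ℤ) • y := congrArg (fun z : N => (z : h.ker)) hxy
    have h2 : (n : ℤ) • (x - y) = 0 := by rw [smul_sub, h1, sub_self]
    have h3 : ((n : ℤ) • (x - y) : h.ker) = (0 : h.ker) := h2
    have h4 : (n : ℝ) • ((x - y : h.ker) : E) = 0 := by
      have := congrArg (fun z : h.ker => (z : E)) h3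
      simp only [Submodule.coe_smul, Submodule.coe_zero] at this
      rw [← Int.cast_smul_eq_zsmul ℝ (n : ℤ)] at this
      exact_mod_cast this
    have hn0' : (n : ℝ) ≠ 0 := by exact_mod_cast hn.ne'
    rcases smul_eq_zero.mp h4 with h5 | h5
    · exact absurd h5 hn0'
    · exact sub_eq_zero.mp (Subtype.ext h5)
  have he₀surj : Function.Surjective e₀ := by
    rintro ⟨x, hx⟩
    rw [hN, h.mem_ker_divHom hn] at hx
    obtain ⟨y, rfl⟩ := hx
    exact ⟨y, rfl⟩
  let e : h.ker ≃ₗ[ℤ] N := LinearEquiv.ofBijective e₀ ⟨he₀inj, he₀surj⟩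
  have hdet := Submodule.natAbs_det_equiv N e.toAddEquiv
  have hcomp : N.subtype ∘ₗ AddMonoidHom.toIntLinearMap ((e.toAddEquiv : h.ker ≃+ N) : h.ker →+ N) =
      (n : ℤ) • (LinearMap.id : h.ker →ₗ[ℤ] h.ker) := by
    ext x
    rfl
  rw [hcomp, LinearMap.det_smul, LinearMap.det_id, mul_one, h.finrank_ker, Int.natAbs_pow,
    Int.natAbs_natCast] at hdet
  rw [hdet]
  -- first isomorphism theorem
  have e₁ : (h.ker ⧸ N) ≃ₗ[ℤ] LinearMap.range (h.divHom n) := (h.divHom n).quotKerEquivRange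
  have e₂ : LinearMap.range (h.divHom n) ≃ {y : G // n • y = 0} :=
    Equiv.subtypeEquivRight fun y => h.range_divHom hn y
  exact (Nat.card_congr (e₁.toEquiv.trans e₂)).symm

end LocalHom

end Fermat.Agent.M27.Lattice2
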