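/-
Programme M27 (target S27), chapter D/F glue — helper9: the two consequences of Riemann's
inequality used by chapter F, in the tree's generic Riemann–Roch vocabulary.

* `exists_sumPts_eq`      : an effective divisor of degree `n` is `P_1 + ⋯ + P_n` for a tuple;
* `exists_ne_zero_mem_L`  : `g ≤ deg D ⇒ L(D) ≠ 0`;
* `exists_effective_rep`  : **(D1)** `deg D = n ≥ g ⇒ D ∼ P_1 + ⋯ + P_n`;
* `exists_single_pole`    : **(D2)** for every place `Q` there is a non-constant function whose
                            only pole is `Q`;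
* `eq_of_sub_mem_principal_of_finrank_L_eq_one` : if `l(D₀) = 1` (`D₀ ≥ 0`) the only effective
                            divisor linearly equivalent to `D₀` is `D₀`;
* the `IsGen` forms (`K` algebraically closed of characteristic `0`).
-/
import Mathlib
import Fermat.Agent.M17.GenericRR2

set_option autoImplicit false
set_option linter.unusedSectionVars false
set_option linter.unusedVariables false
set_option linter.style.longLine false

noncomputable section

namespace Fermat.Agent.M27.RRGlue9

open AlgebraicCurve Module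
open Fermat.Agent.RR.LSpace Fermat.Agent.RR.Final Fermat.Agent.M17.GenericRR2
open Fermat.Agent.X0.FF

variable {K F : Type*} [Field K] [Field F] [Algebra K F]

/-! ### effective divisors are sums of points -/

/-- an effective divisor of degree `n` is the sum of the points of an `n`-tuple. -/
theorem exists_sumPts_eq (H : LHyp K F) :
    ∀ (n : ℕ) (D : Divisor K F), 0 ≤ D → Divisor.degree D = n →
      ∃ Q : Fin n → Place K F, sumPts Q = D := by
  intro n
  induction n with
  | zero =>
    intro D hD hdeg
    refine ⟨Fin.elim0, ?_⟩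
    have h0 : D = 0 := eq_zero_of_degree_eq_zero H hD (by simpa using hdeg)
    rw [h0]
    unfold sumPts
    simp
  | succ n ih =>
    intro D hD hdeg
    have hne : D ≠ 0 := by
      rintro rfl
      rw [map_zero] at hdeg
      have : (0 : ℤ) = ((n + 1 : ℕ) : ℤ) := hdeg
      omega
    obtain ⟨v, hv⟩ : ∃ v, D v ≠ 0 := by
      by_contra hcon
      push Not at hcon
      exact hne (Finsupp.ext hcon)
    have hvpos : 1 ≤ D v := by
      have := hD v
      simp only [Finsupp.coe_zero, Pi.zero_apply] at this
      omega
    have hD' : 0 ≤ D - Finsupp.single v 1 := by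
      classical
      intro w
      simp only [Finsupp.coe_zero, Pi.zero_apply, Finsupp.coe_sub, Pi.sub_apply]
      by_cases hw : w = v
      · subst hw
        simp only [Finsupp.single_eq_same]
        omega
      · rw [Finsupp.single_eq_of_ne hw]
        have := hD w
        simpa using this
    have hdeg' : Divisor.degree (D - Finsupp.single v 1) = n := by
      rw [map_sub, hdeg, degree_single H]
      push_cast
      ring
    obtain ⟨Q, hQ⟩ := ih _ hD' hdeg'
    refine ⟨Fin.snoc Q v, ?_⟩
    rw [sumPts_snoc, hQ]
    abel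

/-! ### Riemann's inequality -/

/-- `g ≤ deg D ⇒ L(D) ≠ 0`. -/
theorem exists_ne_zero_mem_L (X : RRData K F) (D : Divisor K F)
    (hdeg : (genusFF K F : ℤ) ≤ Divisor.degree D) :
    ∃ f : F, f ≠ 0 ∧ f ∈ riemannRochSpace D := by
  by_contra hcon
  push Not at hcon
  have hbot : riemannRochSpace D = ⊥ := by
    rw [eq_bot_iff]
    intro f hf
    rw [Submodule.mem_bot]
    by_contra hf0
    exact hcon f hf0 hf
  have h := X.heuler D
  rw [hbot, finrank_bot] at h
  have h2 : (0 : ℤ) ≤ (Module.finrank K (H1 D) : ℤ) := Int.natCast_nonneg _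
  push_cast at h
  omega

/-- **(D1)** a divisor of degree `n ≥ g` is linearly equivalent to a sum of `n` points. -/
theorem exists_effective_rep (X : RRData K F) (D : Divisor K F) (n : ℕ)
    (hn : Divisor.degree D = n) (hg : genusFF K F ≤ n) :
    ∃ Q : Fin n → Place K F, D - sumPts Q ∈ Divisor.principal (K := K) (F := F) := by
  have H := X.HL
  obtain ⟨f, hf0, hf⟩ := exists_ne_zero_mem_L X D (by rw [hn]; exact_mod_cast hg)
  have hE : 0 ≤ D + divOf H hf0 := by
    intro v
    have := (mem_L_iff hf0).mp hf v
    rw [Finsupp.add_apply, divOf_apply]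
    simp only [Finsupp.coe_zero, Pi.zero_apply]
    omega
  have hdegE : Divisor.degree (D + divOf H hf0) = n := by
    rw [map_add, degree_divOf, add_zero, hn]
  obtain ⟨Q, hQ⟩ := exists_sumPts_eq H n _ hE hdegE
  refine ⟨Q, f⁻¹, inv_ne_zero hf0, fun v => ?_⟩
  rw [hQ, Finsupp.sub_apply, Finsupp.add_apply, divOf_apply, v.ord_inv]
  ring

/-- **(D2)** for every place `Q` there is a non-constant function regular outside `Q`. -/
theorem exists_single_pole (X : RRData K F) (Q : Place K F) :
    ∃ f : F, (∀ c : K, f ≠ algebraMap K F c) ∧ ∀ P : Place K F, P ≠ Q → 0 ≤ P.ord f := by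
  classical
  have H := X.HL
  set D : Divisor K F := Finsupp.single Q ((genusFF K F : ℤ) + 1) with hD
  have hdegD : Divisor.degree D = (genusFF K F : ℤ) + 1 := degree_single H Q _
  -- `l(D) ≥ 2`
  have h2 : 2 ≤ Module.finrank K (riemannRochSpace D) := by
    have h := X.heuler D
    rw [hdegD] at h
    have h2 : (0 : ℤ) ≤ (Module.finrank K (H1 D) : ℤ) := Int.natCast_nonneg _
    have : (2 : ℤ) ≤ (Module.finrank K (riemannRochSpace D) : ℤ) := by omega
    exact_mod_cast this
  -- hence `L(D)` is not contained in the constants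
  have hnot : ¬ riemannRochSpace D ≤ Submodule.span K {(1 : F)} := by
    intro hle
    have h1 : Module.finrank K (riemannRochSpace D) ≤
        Module.finrank K (Submodule.span K {(1 : F)}) := Submodule.finrank_mono hle
    have h3 : Module.finrank K (Submodule.span K {(1 : F)}) ≤ 1 :=
      (finrank_span_le_card ({(1 : F)} : Set F)).trans (by simp)
    omega
  obtain ⟨f, hfL, hfc⟩ := Set.not_subset.mp hnot
  have hf0 : f ≠ 0 := by
    rintro rfl
    exact hfc (Submodule.zero_mem _)
  refine ⟨f, ?_, ?_⟩
  · intro c hc
    apply hfc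
    rw [hc, Algebra.algebraMap_eq_smul_one]
    exact Submodule.smul_mem _ _ (Submodule.subset_span rfl)
  · intro P hP
    have := (mem_L_iff hf0).mp hfL P
    rw [hD, Finsupp.single_eq_of_ne hP] at this
    simpa using this

/-! ### uniqueness of the effective representative when `l(D₀) = 1` -/

/-- if `D₀ ≥ 0` and `l(D₀) = 1`, every effective divisor linearly equivalent to `D₀` is `D₀`. -/
theorem eq_of_sub_mem_principal_of_finrank_L_eq_one (H : LHyp K F) {D₀ D : Divisor K F}
    (hD₀ : 0 ≤ D₀) (h1 : finrank K (riemannRochSpace D₀) = 1) (hD : 0 ≤ D)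
    (hp : D - D₀ ∈ Divisor.principal (K := K) (F := F)) : D = D₀ := by
  obtain ⟨f, hf0, hf⟩ := hp
  have hfL : f ∈ riemannRochSpace D₀ := by
    rw [mem_L_iff hf0]
    intro v
    rw [← hf v, Finsupp.sub_apply]
    have := hD v
    simp only [Finsupp.coe_zero, Pi.zero_apply] at this
    omega
  have h1L : (1 : F) ∈ riemannRochSpace D₀ := by
    rw [mem_L_iff one_ne_zero]
    intro v
    rw [Place.ord_one]
    have := hD₀ v
    simp only [Finsupp.coe_zero, Pi.zero_apply] at this
    omega
  have hne : (⟨1, h1L⟩ : riemannRochSpace D₀) ≠ 0 := by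
    intro h
    exact one_ne_zero (congrArg Subtype.val h)
  obtain ⟨c, hc⟩ := (finrank_eq_one_iff_of_nonzero' (⟨1, h1L⟩ : riemannRochSpace D₀) hne).mp h1
    ⟨f, hfL⟩
  have hfc : f = algebraMap K F c := by
    have := congrArg Subtype.val hc
    simp only [Submodule.coe_smul] at this
    rw [← this, Algebra.algebraMap_eq_smul_one]
  ext v
  have h3 := hf v
  rw [hfc, ffp_ord_algebraMap, Finsupp.sub_apply] at h3
  omega

/-! ### the `IsGen` forms -/

section Concrete

variable [IsAlgClosed K] [CharZero K] {x : F}

theorem exists_effective_rep_isGen (hx : IsGen K x) (D : Divisor K F) (n : ℕ)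
    (hn : Divisor.degree D = n) (hg : genusFF K F ≤ n) :
    ∃ Q : Fin n → Place K F, D - sumPts Q ∈ Divisor.principal (K := K) (F := F) :=
  exists_effective_rep (Fermat.Agent.M15.ThirdKind0.rrDataGen hx) D n hn hg

theorem exists_single_pole_isGen (hx : IsGen K x) (Q : Place K F) :
    ∃ f : F, (∀ c : K, f ≠ algebraMap K F c) ∧ ∀ P : Place K F, P ≠ Q → 0 ≤ P.ord f :=
  exists_single_pole (Fermat.Agent.M15.ThirdKind0.rrDataGen hx) Q

end Concrete

end Fermat.Agent.M27.RRGlue9
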