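/-
Programme M27 (target S27), chapters E/F, generic topological leaves — helper9.

* **(G1) `tendsto_of_closed_rel`** : a selection of a closed relation `R ⊆ X × Y` with `Y` compact
  converges to `y₀` along any filter along which the first coordinate tends to `x₀`, as soon as
  `y₀` is the ONLY point related to `x₀` ("closed graph into a compact set ⇒ continuity").
  `continuousAt_of_closed_rel`, `continuousWithinAt_of_closed_rel`.
* **(G4) `eq_of_mapsTo_countable`** : a map continuous on a preconnected set with values in a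
  countable subset of a metric space is constant there.
* **(G5) `exists_uniform_chain`** : in a compact preconnected space, for every open neighbourhood
  `N` of the diagonal there is `K` such that any two points are joined by a chain of `K` steps
  in `N` (`reach N k x` = points reached from `x` in `k` steps; monotone in `k` because `N`
  contains the diagonal).

Mathlib only.  Imported by no statement.
-/
import Mathlib

set_option autoImplicit false
set_option linter.unusedSectionVars false

open Filter Topology Set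

namespace Fermat.Agent.M27.TopoGen9

/-! ### (G1) closed relation into a compact space -/

section ClosedRel

variable {X Y α : Type*} [TopologicalSpace X] [TopologicalSpace Y] [CompactSpace Y]

/-- **Closed graph into a compact set.** -/
theorem tendsto_of_closed_rel {R : Set (X × Y)} (hR : IsClosed R) {x₀ : X} {y₀ : Y}
    (huniq : ∀ y, (x₀, y) ∈ R → y = y₀) {l : Filter α} {g : α → X} {f : α → Y}
    (hg : Tendsto g l (𝓝 x₀)) (hf : ∀ᶠ a in l, (g a, f a) ∈ R) : Tendsto f l (𝓝 y₀) := by
  refine tendsto_nhds_of_unique_mapClusterPt fun y hy => huniq y ?_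
  -- `(x₀, y)` is a cluster point of `a ↦ (g a, f a)` along `l`
  have hcl : MapClusterPt (x₀, y) l fun a => (g a, f a) := by
    rw [mapClusterPt_iff_frequently]
    intro s hs
    rw [nhds_prod_eq] at hs
    obtain ⟨u, hu, v, hv, huv⟩ := Filter.mem_prod_iff.mp hs
    have h1 : ∀ᶠ a in l, g a ∈ u := hg hu
    have h2 : ∃ᶠ a in l, f a ∈ v := (mapClusterPt_iff_frequently.mp hy) v hv
    exact (h2.and_eventually h1).mono fun a ha => huv (Set.mk_mem_prod ha.2 ha.1)
  have hmem : (x₀, y) ∈ closure R := by
    rw [mem_closure_iff_clusterPt]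
    exact hcl.clusterPt.mono (le_principal_iff.mpr (mem_map.mpr hf))
  rwa [hR.closure_eq] at hmem

theorem continuousWithinAt_of_closed_rel {R : Set (X × Y)} (hR : IsClosed R) {S : Set X}
    {x₀ : X} {f : X → Y} (huniq : ∀ y, (x₀, y) ∈ R → y = f x₀)
    (hf : ∀ᶠ x in 𝓝[S] x₀, (x, f x) ∈ R) : ContinuousWithinAt f S x₀ :=
  tendsto_of_closed_rel hR huniq (tendsto_id.mono_left nhdsWithin_le_nhds) hf

theorem continuousAt_of_closed_rel {R : Set (X × Y)} (hR : IsClosed R) {x₀ : X} {f : X → Y}
    (huniq : ∀ y, (x₀, y) ∈ R → y = f x₀) (hf : ∀ᶠ x in 𝓝 x₀, (x, f x) ∈ R) :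
    ContinuousAt f x₀ :=
  tendsto_of_closed_rel hR huniq tendsto_id hf

end ClosedRel

/-! ### (G4) continuous maps into countable sets -/

section Countable

variable {α M : Type*} [TopologicalSpace α] [MetricSpace M]

/-- A map continuous on a preconnected set with values in a countable set is constant. -/
theorem eq_of_mapsTo_countable {S : Set α} (hS : IsPreconnected S) {f : α → M}
    (hf : ContinuousOn f S) {T : Set M} (hT : T.Countable) (hm : MapsTo f S T) {x y : α}
    (hx : x ∈ S) (hy : y ∈ S) : f x = f y :=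
  hT.isTotallyDisconnected (f '' S) (image_subset_iff.mpr hm) (hS.image f hf)
    (mem_image_of_mem f hx) (mem_image_of_mem f hy)

end Countable

/-! ### (G5) uniform chains -/

section Chains

variable {X : Type*}

/-- the points reached from `x` in `k` steps in `N`. -/
def reach (N : Set (X × X)) : ℕ → X → Set X
  | 0, x => {x}
  | k + 1, x => {z | ∃ y ∈ reach N k x, (y, z) ∈ N}

theorem reach_zero (N : Set (X × X)) (x : X) : reach N 0 x = {x} := rfl

theorem mem_reach_succ {N : Set (X × X)} {k : ℕ} {x z : X} :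
    z ∈ reach N (k + 1) x ↔ ∃ y ∈ reach N k x, (y, z) ∈ N := Iff.rfl

theorem self_mem_reach_zero (N : Set (X × X)) (x : X) : x ∈ reach N 0 x := rfl

theorem reach_mono_rel {N N' : Set (X × X)} (h : N ⊆ N') (k : ℕ) (x : X) :
    reach N k x ⊆ reach N' k x := by
  induction k with
  | zero => exact subset_rfl
  | succ k ih =>
    rintro z ⟨y, hy, hyz⟩
    exact ⟨y, ih hy, h hyz⟩

theorem reach_succ_of_diag {N : Set (X × X)} (hd : ∀ x, (x, x) ∈ N) (k : ℕ) (x : X) :
    reach N k x ⊆ reach N (k + 1) x := fun z hz => ⟨z, hz, hd z⟩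

theorem reach_mono {N : Set (X × X)} (hd : ∀ x, (x, x) ∈ N) {k m : ℕ} (hkm : k ≤ m) (x : X) :
    reach N k x ⊆ reach N m x := by
  induction hkm with
  | refl => exact subset_rfl
  | step _ ih => exact ih.trans (reach_succ_of_diag hd _ x)

theorem reach_trans {N : Set (X × X)} {k m : ℕ} {x y z : X} (hy : y ∈ reach N k x)
    (hz : z ∈ reach N m y) : z ∈ reach N (k + m) x := by
  induction m generalizing z with
  | zero =>
    have : z = y := hz
    rw [this]; exact hy
  | succ m ih =>
    obtain ⟨w, hw, hwz⟩ := hz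
    exact ⟨w, ih hw, hwz⟩

/-- one step. -/
theorem mem_reach_one {N : Set (X × X)} {x z : X} (h : (x, z) ∈ N) : z ∈ reach N 1 x :=
  ⟨x, rfl, h⟩

theorem reach_symm {N : Set (X × X)} (hs : ∀ x y, (x, y) ∈ N → (y, x) ∈ N) {k : ℕ} {x y : X}
    (hy : y ∈ reach N k x) : x ∈ reach N k y := by
  induction k generalizing y with
  | zero =>
    have : y = x := hy
    rw [this]; rfl
  | succ k ih =>
    obtain ⟨w, hw, hwy⟩ := hy
    have h1 : w ∈ reach N 1 y := mem_reach_one (hs _ _ hwy)
    have h2 := reach_trans h1 (ih hw)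
    rwa [add_comm] at h2

variable [TopologicalSpace X]

theorem isOpen_reach_succ {N : Set (X × X)} (hN : IsOpen N) (k : ℕ) (x : X) :
    IsOpen (reach N (k + 1) x) := by
  have : reach N (k + 1) x = ⋃ y ∈ reach N k x, {z | (y, z) ∈ N} := by
    ext z
    simp only [mem_iUnion, exists_prop]
    exact Iff.rfl
  rw [this]
  refine isOpen_biUnion fun y _ => ?_
  exact hN.preimage (Continuous.prodMk_right y)

/-- **Uniform chains** in a compact preconnected space. -/
theorem exists_uniform_chain [CompactSpace X] [PreconnectedSpace X] {N : Set (X × X)}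
    (hN : IsOpen N) (hd : ∀ x, (x, x) ∈ N) : ∃ K : ℕ, ∀ x y : X, y ∈ reach N K x := by
  classical
  rcases isEmpty_or_nonempty X with hX | ⟨⟨x₀⟩⟩
  · exact ⟨0, fun x => (hX.false x).elim⟩
  -- symmetrise
  set Ns : Set (X × X) := N ∩ Prod.swap ⁻¹' N with hNs
  have hNso : IsOpen Ns := hN.inter (hN.preimage continuous_swap)
  have hNsd : ∀ x, (x, x) ∈ Ns := fun x => ⟨hd x, hd x⟩
  have hNss : ∀ x y, (x, y) ∈ Ns → (y, x) ∈ Ns := fun x y h => ⟨h.2, h.1⟩
  set U : Set X := ⋃ k : ℕ, reach Ns (k + 1) x₀ with hU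
  have hUo : IsOpen U := isOpen_iUnion fun k => isOpen_reach_succ hNso k x₀
  have hUc : IsClosed U := by
    rw [← closure_subset_iff_isClosed]
    intro z hz
    have hnb : {w | (z, w) ∈ Ns} ∈ 𝓝 z :=
      (hNso.preimage (Continuous.prodMk_right z)).mem_nhds (hNsd z)
    obtain ⟨w, hw1, hw2⟩ := mem_closure_iff_nhds.mp hz _ hnb
    obtain ⟨k, hk⟩ := mem_iUnion.mp hw2
    exact mem_iUnion.mpr ⟨k + 1, ⟨w, hk, hNss _ _ hw1⟩⟩
  have hx₀ : x₀ ∈ U := mem_iUnion.mpr ⟨0, ⟨x₀, rfl, hNsd x₀⟩⟩
  have hUuniv : U = univ := IsClopen.eq_univ ⟨hUc, hUo⟩ ⟨x₀, hx₀⟩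
  -- compactness: one `k` suffices
  obtain ⟨K, hK⟩ := isCompact_univ.elim_directed_cover (fun k : ℕ => reach Ns (k + 1) x₀)
    (fun k => isOpen_reach_succ hNso k x₀) (by rw [← hU, hUuniv])
    (directed_of_isDirected_le fun a b hab => reach_mono hNsd (Nat.succ_le_succ hab) x₀)
  refine ⟨(K + 1) + (K + 1), fun x y => ?_⟩
  have h1 : x₀ ∈ reach Ns (K + 1) x := reach_symm hNss (hK (mem_univ x))
  have h2 : y ∈ reach Ns (K + 1) x₀ := hK (mem_univ y)
  exact reach_mono_rel inter_subset_left _ _ (reach_trans h1 h2)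

end Chains

end Fermat.Agent.M27.TopoGen9
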