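/-
Programme M27 (target S27), chapter F, leaves (F2)-(F4) — helper9: **from the local Abel map to
the torsion count**, with the outputs of chapters B (closedness of linear equivalence), D (effective
representatives) and E (the locally additive, locally injective `ψ` and the inverse function
neighbourhood `W` of `D₀ = P₀ 1 + ⋯ + P₀ g`) as explicit hypotheses.

`X := Place ℂ F`, `cls Q Q' := [Q - Q'] ∈ Pic⁰`.

* `exists_perm_of_sumPts_eq` : tuples with the same sum-divisor differ by a permutation;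
* `diagNbhd P₀ W` : the pairs `(Q, Q')` such that every `T ∈ X^g` with
  `T + Q' ∼ D₀ + Q` is, up to a permutation, in `W`; it is OPEN (complement = projection along the
  compact `X^g` of a closed set, by (CL) with `m = g + 1`), contains the DIAGONAL (`l(D₀) = 1`), and
  on it `[Q - Q'] ∈ ψ (ball ρ)`;
* uniform chains (`TopoGen9.exists_uniform_chain`) ⇒ every `[Q - Q']` is a sum of at most `K`
  elements of `ψ (ball ρ)`, every class is a sum of at most `g * K` of them: `Lattice2.LocalHom`;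
* `card_torsion_of_inputs` : `#Pic⁰[n] = n ^ (2 g)`.
-/
import Mathlib
import Fermat.Agent.M27.Iface2
import Fermat.Agent.M27.RRGlue9
import Fermat.Agent.M27.TopoGen9
import Fermat.Agent.M27.Lattice2

set_option autoImplicit false
set_option linter.unusedSectionVars false
set_option linter.unusedVariables false
set_option linter.style.longLine false

noncomputable section

namespace Fermat.Agent.M27.ChainF9

open AlgebraicCurve Metric Topology Filter Set Module
open Fermat.Agent.RR.LSpace Fermat.Agent.M17.GenericRR2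
open Fermat.Agent.M27.TopoGen9 Fermat.Agent.M27.Lattice2

/-! ### tuples up to permutation -/

section Perm

/-- two tuples with the same fibre cardinalities differ by a permutation of the indices. -/
theorem exists_perm_comp_eq {ι α : Type*} [Fintype ι] [DecidableEq α] {f g : ι → α}
    (h : ∀ a, Fintype.card {i // f i = a} = Fintype.card {i // g i = a}) :
    ∃ σ : Equiv.Perm ι, f ∘ σ = g := by
  let e : ∀ a, {i // g i = a} ≃ {i // f i = a} := fun a => Fintype.equivOfCardEq (h a).symm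
  refine ⟨(Equiv.sigmaFiberEquiv g).symm.trans
    ((Equiv.sigmaCongrRight e).trans (Equiv.sigmaFiberEquiv f)), ?_⟩
  funext i
  exact (e (g i) ⟨i, rfl⟩).2

variable {K F : Type*} [Field K] [Field F] [Algebra K F]

open Classical in
theorem sumPts_apply {n : ℕ} (T : Fin n → Place K F) (a : Place K F) :
    sumPts T a = (Fintype.card {i // T i = a} : ℤ) := by
  unfold sumPts
  rw [Finsupp.finsetSum_apply, Fintype.card_subtype]
  simp only [Finsupp.single_apply]
  rw [Finset.sum_boole]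

theorem exists_perm_of_sumPts_eq {n : ℕ} {T P : Fin n → Place K F} (h : sumPts T = sumPts P) :
    ∃ σ : Equiv.Perm (Fin n), T ∘ σ = P := by
  classical
  refine exists_perm_comp_eq fun a => ?_
  have := congrArg (fun D : Divisor K F => D a) h
  simp only [sumPts_apply] at this
  exact_mod_cast this

theorem sumPts_comp_perm {n : ℕ} (T : Fin n → Place K F) (σ : Equiv.Perm (Fin n)) :
    sumPts (T ∘ σ) = sumPts T := by
  unfold sumPts
  exact Equiv.sum_comp σ fun i => Finsupp.single (T i) (1 : ℤ)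

/-! ### classes of degree zero divisors -/

/-- the class of a divisor of degree zero. -/
def mkD (D : Divisor K F) (h : Divisor.degree D = 0) : Pic0 K F := Pic0.mk ⟨D, h⟩

theorem mkD_eq_mkD_iff {D D' : Divisor K F} {h : Divisor.degree D = 0}
    {h' : Divisor.degree D' = 0} :
    mkD D h = mkD D' h' ↔ D - D' ∈ Divisor.principal (K := K) (F := F) := by
  unfold mkD Pic0.mk
  rw [QuotientAddGroup.eq, AddSubgroup.mem_addSubgroupOf]
  have : ((-(⟨D, h⟩ : Divisor.degZero (K := K) (F := F)) + ⟨D', h'⟩ :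
      Divisor.degZero (K := K) (F := F)) : Divisor K F) = -(D - D') := by
    simp only [AddSubgroup.coe_add, AddSubgroup.coe_neg]
    abel
  rw [this, neg_mem_iff]

theorem mkD_add {D D' : Divisor K F} (h : Divisor.degree D = 0) (h' : Divisor.degree D' = 0) :
    mkD D h + mkD D' h' = mkD (D + D') (by rw [map_add, h, h', add_zero]) := rfl

theorem mkD_zero : mkD (0 : Divisor K F) (map_zero _) = 0 := rfl

theorem exists_mkD (y : Pic0 K F) : ∃ (D : Divisor K F) (h : Divisor.degree D = 0), y = mkD D h := by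
  obtain ⟨⟨D, h⟩, rfl⟩ := Pic0.mk_surjective y
  exact ⟨D, h, rfl⟩

/-- the class `[Q - Q']`. -/
def cls (H : LHyp K F) (Q Q' : Place K F) : Pic0 K F :=
  mkD (Finsupp.single Q 1 - Finsupp.single Q' 1)
    (by rw [map_sub, degree_single H, degree_single H, sub_self])

theorem cls_self (H : LHyp K F) (Q : Place K F) : cls H Q Q = 0 := by
  unfold cls
  rw [← mkD_zero, mkD_eq_mkD_iff]
  simp

theorem cls_add_cls (H : LHyp K F) (Q Q' Q'' : Place K F) :
    cls H Q Q' + cls H Q' Q'' = cls H Q Q'' := by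
  unfold cls
  rw [mkD_add, mkD_eq_mkD_iff]
  have : Finsupp.single Q (1 : ℤ) - Finsupp.single Q' 1 + (Finsupp.single Q' 1 - Finsupp.single Q'' 1) -
      (Finsupp.single Q 1 - Finsupp.single Q'' 1) = (0 : Divisor K F) := by abel
  rw [this]
  exact zero_mem _

theorem sum_mkD {ι : Type*} (s : Finset ι) (D : ι → Divisor K F)
    (h : ∀ i, Divisor.degree (D i) = 0) :
    ∑ i ∈ s, mkD (D i) (h i) = mkD (∑ i ∈ s, D i)
      (by rw [map_sum]; exact Finset.sum_eq_zero fun i _ => h i) := by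
  unfold mkD
  have h1 := map_sum (QuotientAddGroup.mk' ((Divisor.principal (K := K) (F := F)).addSubgroupOf
    (Divisor.degZero (K := K) (F := F))))
    (fun i => (⟨D i, h i⟩ : Divisor.degZero (K := K) (F := F))) s
  refine h1.symm.trans ?_
  show Pic0.mk _ = Pic0.mk _
  congr 1
  apply Subtype.ext
  simp

/-- `[ΣT - ΣP] = Σ [T i - P i]`. -/
theorem mkD_sumPts_sub (H : LHyp K F) {n : ℕ} (T P : Fin n → Place K F) :
    mkD (sumPts T - sumPts P) (by rw [map_sub, degree_sumPts H, degree_sumPts H, sub_self]) =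
      ∑ i, cls H (T i) (P i) := by
  unfold cls
  rw [sum_mkD, mkD_eq_mkD_iff]
  have : sumPts T - sumPts P -
      ∑ i, (Finsupp.single (T i) (1 : ℤ) - Finsupp.single (P i) 1 : Divisor K F) = 0 := by
    unfold sumPts
    rw [Finset.sum_sub_distrib, sub_self]
  rw [this]
  exact zero_mem _

end Perm

/-! ### the neighbourhood of the diagonal -/

section Diag

variable {F : Type*} [Field F] [Algebra ℂ F] [TopologicalSpace (Place ℂ F)] {g : ℕ}

/-- tuples which are in `W` up to a permutation of the indices. -/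
def permNbhd (W : Set (Fin g → Place ℂ F)) : Set (Fin g → Place ℂ F) :=
  {T | ∃ σ : Equiv.Perm (Fin g), T ∘ σ ∈ W}

theorem isOpen_permNbhd {W : Set (Fin g → Place ℂ F)} (hW : IsOpen W) : IsOpen (permNbhd W) := by
  have : permNbhd W = ⋃ σ : Equiv.Perm (Fin g), (fun T : Fin g → Place ℂ F => T ∘ σ) ⁻¹' W := by
    ext T
    simp only [permNbhd, Set.mem_ofPred_eq, mem_iUnion, mem_preimage]
  rw [this]
  refine isOpen_iUnion fun σ => hW.preimage ?_
  exact continuous_pi fun i => continuous_apply (σ i)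

/-- the relation of linear equivalence on `(g+1)`-tuples, (CL). -/
def linEqSet (F : Type*) [Field F] [Algebra ℂ F] (m : ℕ) :
    Set ((Fin m → Place ℂ F) × (Fin m → Place ℂ F)) :=
  {p | sumPts p.1 - sumPts p.2 ∈ Divisor.principal (K := ℂ) (F := F)}

/-- the neighbourhood of the diagonal. -/
def diagNbhd (P₀ : Fin g → Place ℂ F) (W : Set (Fin g → Place ℂ F)) :
    Set (Place ℂ F × Place ℂ F) :=
  {p | ∀ T : Fin g → Place ℂ F,
    ((Fin.snoc T p.2 : Fin (g + 1) → Place ℂ F), (Fin.snoc P₀ p.1 : Fin (g + 1) → Place ℂ F)) ∈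
      linEqSet F (g + 1) → T ∈ permNbhd W}

theorem isOpen_diagNbhd [CompactSpace (Place ℂ F)] (hCL : IsClosed (linEqSet F (g + 1)))
    (P₀ : Fin g → Place ℂ F) {W : Set (Fin g → Place ℂ F)} (hW : IsOpen W) :
    IsOpen (diagNbhd P₀ W) := by
  set C : Set ((Place ℂ F × Place ℂ F) × (Fin g → Place ℂ F)) :=
    {q | ((Fin.snoc q.2 q.1.2 : Fin (g + 1) → Place ℂ F),
        (Fin.snoc P₀ q.1.1 : Fin (g + 1) → Place ℂ F)) ∈ linEqSet F (g + 1) ∧
      q.2 ∈ (permNbhd W)ᶜ} with hC
  have hcont : Continuous fun q : (Place ℂ F × Place ℂ F) × (Fin g → Place ℂ F) =>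
      ((Fin.snoc q.2 q.1.2 : Fin (g + 1) → Place ℂ F),
        (Fin.snoc P₀ q.1.1 : Fin (g + 1) → Place ℂ F)) := by
    refine Continuous.prodMk ?_ ?_
    · exact Continuous.finSnoc (A := fun _ => Place ℂ F) continuous_snd
        (continuous_snd.comp continuous_fst)
    · exact Continuous.finSnoc (A := fun _ => Place ℂ F) continuous_const
        (continuous_fst.comp continuous_fst)
  have hCclosed : IsClosed C :=
    (hCL.preimage hcont).inter ((isOpen_permNbhd hW).isClosed_compl.preimage continuous_snd)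
  have hproj : IsClosed (Prod.fst '' C) := isClosedMap_fst_of_compactSpace C hCclosed
  have : diagNbhd P₀ W = (Prod.fst '' C)ᶜ := by
    ext p
    simp only [diagNbhd, Set.mem_ofPred_eq, mem_compl_iff, mem_image, not_exists, not_and, hC,
      Prod.forall]
    constructor
    · rintro h a b T ⟨h1, h2⟩ heq
      cases heq
      exact h2 (h T h1)
    · intro h T hT
      by_contra hn
      exact h p.1 p.2 T ⟨hT, hn⟩ rfl
  rw [this]
  exact hproj.isOpen_compl

theorem diag_mem_diagNbhd (H : LHyp ℂ F) {P₀ : Fin g → Place ℂ F}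
    (h1 : finrank ℂ (riemannRochSpace (sumPts P₀)) = 1) {W : Set (Fin g → Place ℂ F)}
    (hP₀ : P₀ ∈ W) (P : Place ℂ F) : (P, P) ∈ diagNbhd P₀ W := by
  intro T hT
  simp only [linEqSet, Set.mem_ofPred_eq, sumPts_snoc] at hT
  have hT' : sumPts T - sumPts P₀ ∈ Divisor.principal (K := ℂ) (F := F) := by
    have : sumPts T + Finsupp.single P 1 - (sumPts P₀ + Finsupp.single P 1) =
        sumPts T - sumPts P₀ := by abel
    rwa [this] at hT
  have heq := RRGlue9.eq_of_sub_mem_principal_of_finrank_L_eq_one H (sumPts_nonneg P₀) h1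
    (sumPts_nonneg T) hT'
  obtain ⟨σ, hσ⟩ := exists_perm_of_sumPts_eq heq
  exact ⟨σ, hσ ▸ hP₀⟩

/-- on the neighbourhood of the diagonal, `[Q - Q']` is a value of `ψ` on the ball. -/
theorem exists_psi_eq_cls (H : LHyp ℂ F)
    (hrep : ∀ D : Divisor ℂ F, Divisor.degree D = g →
      ∃ T : Fin g → Place ℂ F, D - sumPts T ∈ Divisor.principal (K := ℂ) (F := F))
    {P₀ : Fin g → Place ℂ F} {W : Set (Fin g → Place ℂ F)} {ρ : ℝ}
    {ψ : (Fin g → ℂ) → Pic0 ℂ F}
    (hW : ∀ Q ∈ W, ∀ D : Divisor.degZero (K := ℂ) (F := F),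
      (D : Divisor ℂ F) = sumPts Q - sumPts P₀ → ∃ v, ‖v‖ < ρ ∧ ψ v = Pic0.mk D)
    {p : Place ℂ F × Place ℂ F} (hp : p ∈ diagNbhd P₀ W) :
    ∃ v, ‖v‖ < ρ ∧ ψ v = cls H p.1 p.2 := by
  obtain ⟨Q, Q'⟩ := p
  have hdeg : Divisor.degree (sumPts P₀ + Finsupp.single Q 1 - Finsupp.single Q' 1 :
      Divisor ℂ F) = g := by
    rw [map_sub, map_add, degree_sumPts H, degree_single H, degree_single H]
    ring
  obtain ⟨T, hT⟩ := hrep _ hdeg
  have hTO : T ∈ permNbhd W := by
    apply hp T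
    simp only [linEqSet, Set.mem_ofPred_eq, sumPts_snoc]
    have : sumPts T + Finsupp.single Q' 1 - (sumPts P₀ + Finsupp.single Q 1) =
        -(sumPts P₀ + Finsupp.single Q 1 - Finsupp.single Q' 1 - sumPts T) := by abel
    rw [this]
    exact neg_mem hT
  obtain ⟨σ, hσ⟩ := hTO
  have hd0 : Divisor.degree (sumPts (T ∘ σ) - sumPts P₀ : Divisor ℂ F) = 0 := by
    rw [map_sub, degree_sumPts H, degree_sumPts H, sub_self]
  obtain ⟨v, hv, hψ⟩ := hW _ hσ ⟨_, hd0⟩ rfl
  refine ⟨v, hv, ?_⟩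
  rw [hψ]
  show mkD _ hd0 = cls H Q Q'
  unfold cls
  rw [mkD_eq_mkD_iff, sumPts_comp_perm]
  have : sumPts T - sumPts P₀ - (Finsupp.single Q 1 - Finsupp.single Q' 1) =
      -(sumPts P₀ + Finsupp.single Q 1 - Finsupp.single Q' 1 - sumPts T) := by abel
  rw [this]
  exact neg_mem hT

end Diag

/-! ### chains and the generation property -/

section Gen

variable {F : Type*} [Field F] [Algebra ℂ F] {g : ℕ} {ρ : ℝ} {ψ : (Fin g → ℂ) → Pic0 ℂ F}

/-- sums of at most `k` values of `ψ` on the ball. -/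
def IsSumOf (ψ : (Fin g → ℂ) → Pic0 ℂ F) (ρ : ℝ) (k : ℕ) (y : Pic0 ℂ F) : Prop :=
  ∃ l : List (Fin g → ℂ), l.length ≤ k ∧ (∀ v ∈ l, ‖v‖ < ρ) ∧ y = (l.map ψ).sum

theorem isSumOf_zero : IsSumOf ψ ρ 0 0 := ⟨[], le_rfl, by simp, by simp⟩

theorem IsSumOf.add {k m : ℕ} {y z : Pic0 ℂ F} (hy : IsSumOf ψ ρ k y) (hz : IsSumOf ψ ρ m z) :
    IsSumOf ψ ρ (k + m) (y + z) := by
  obtain ⟨l, hl1, hl2, rfl⟩ := hy
  obtain ⟨l', hl'1, hl'2, rfl⟩ := hz
  refine ⟨l ++ l', ?_, ?_, ?_⟩
  · rw [List.length_append]; omega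
  · intro v hv
    rcases List.mem_append.mp hv with h | h
    · exact hl2 v h
    · exact hl'2 v h
  · rw [List.map_append, List.sum_append]

theorem isSumOf_finset_sum {ι : Type*} (s : Finset ι) {K : ℕ} (y : ι → Pic0 ℂ F)
    (hy : ∀ i ∈ s, IsSumOf ψ ρ K (y i)) : IsSumOf ψ ρ (s.card * K) (∑ i ∈ s, y i) := by
  classical
  induction s using Finset.induction_on with
  | empty => simpa using isSumOf_zero
  | insert a s ha ih =>
    rw [Finset.sum_insert ha, Finset.card_insert_of_notMem ha]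
    have h1 := hy a (Finset.mem_insert_self a s)
    have h2 := ih fun i hi => hy i (Finset.mem_insert_of_mem hi)
    have := h1.add h2
    rwa [show K + s.card * K = (s.card + 1) * K by ring] at this

variable [TopologicalSpace (Place ℂ F)]

theorem isSumOf_of_reach (H : LHyp ℂ F) {N : Set (Place ℂ F × Place ℂ F)}
    (hN : ∀ p ∈ N, ∃ v, ‖v‖ < ρ ∧ ψ v = cls H p.1 p.2) :
    ∀ (k : ℕ) (Q Q' : Place ℂ F), Q' ∈ reach N k Q → IsSumOf ψ ρ k (cls H Q Q') := by
  intro k
  induction k with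
  | zero =>
    intro Q Q' h
    have : Q' = Q := h
    rw [this, cls_self]
    exact isSumOf_zero
  | succ k ih =>
    intro Q Q' h
    obtain ⟨R, hR, hRQ'⟩ := h
    obtain ⟨v, hv, hψ⟩ := hN _ hRQ'
    have h1 : IsSumOf ψ ρ k (cls H Q R) := ih Q R hR
    have h2 : IsSumOf ψ ρ 1 (cls H R Q') :=
      ⟨[v], le_rfl, by simpa using hv, by simpa using hψ.symm⟩
    have := h1.add h2
    rwa [cls_add_cls] at this

end Gen

/-! ### the local homomorphism and the count -/

section Main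

variable {F : Type*} [Field F] [Algebra ℂ F] [TopologicalSpace (Place ℂ F)]
  [CompactSpace (Place ℂ F)] [PreconnectedSpace (Place ℂ F)] {g : ℕ}

/-- **`ψ` is a `Lattice2.LocalHom`** (local additivity and injectivity from chapter E, generation
from compactness and connectedness of the Riemann surface). -/
theorem exists_localHom (H : LHyp ℂ F) (hCL : IsClosed (linEqSet F (g + 1)))
    (hrep : ∀ D : Divisor ℂ F, Divisor.degree D = g →
      ∃ T : Fin g → Place ℂ F, D - sumPts T ∈ Divisor.principal (K := ℂ) (F := F))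
    {P₀ : Fin g → Place ℂ F} (h1 : finrank ℂ (riemannRochSpace (sumPts P₀)) = 1)
    {ρ : ℝ} (hρ : 0 < ρ) {ψ : (Fin g → ℂ) → Pic0 ℂ F}
    (hadd : ∀ v w, ‖v‖ < ρ → ‖w‖ < ρ → ‖v + w‖ < ρ → ψ (v + w) = ψ v + ψ w)
    (hinj : ∀ v w, ‖v‖ < ρ → ‖w‖ < ρ → ψ v = ψ w → v = w)
    {W : Set (Fin g → Place ℂ F)} (hWo : IsOpen W) (hP₀ : P₀ ∈ W)
    (hW : ∀ Q ∈ W, ∀ D : Divisor.degZero (K := ℂ) (F := F),
      (D : Divisor ℂ F) = sumPts Q - sumPts P₀ → ∃ v, ‖v‖ < ρ ∧ ψ v = Pic0.mk D) :
    ∃ M : ℕ, LocalHom ψ ρ M := by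
  obtain ⟨K, hK⟩ := exists_uniform_chain (isOpen_diagNbhd hCL P₀ hWo)
    (diag_mem_diagNbhd H h1 hP₀)
  refine ⟨g * K, hρ, hadd, hinj, ?_⟩
  intro y
  obtain ⟨D, hD, rfl⟩ := exists_mkD y
  have hdeg : Divisor.degree (D + sumPts P₀) = g := by
    rw [map_add, hD, zero_add, degree_sumPts H]
  obtain ⟨T, hT⟩ := hrep _ hdeg
  have hy : mkD D hD = ∑ i, cls H (T i) (P₀ i) := by
    rw [← mkD_sumPts_sub H, mkD_eq_mkD_iff]
    have : D - (sumPts T - sumPts P₀) = D + sumPts P₀ - sumPts T := by abel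
    rwa [this]
  have hsum := isSumOf_finset_sum (ψ := ψ) (ρ := ρ) (K := K) Finset.univ
    (fun i => cls H (T i) (P₀ i))
    (fun i _ => isSumOf_of_reach H (fun p hp => exists_psi_eq_cls H hrep hW hp) K _ _
      (hK (T i) (P₀ i)))
  rw [Finset.card_univ, Fintype.card_fin] at hsum
  rw [hy]
  exact hsum

theorem finrank_real_pi_complex (g : ℕ) : finrank ℝ (Fin g → ℂ) = 2 * g := by
  rw [Module.finrank_pi_fintype]
  simp [Complex.finrank_real_complex, mul_comm]

/-- **the count**, from the inputs of chapters B, D, E. -/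
theorem card_torsion_of_inputs (H : LHyp ℂ F) (hCL : IsClosed (linEqSet F (g + 1)))
    (hrep : ∀ D : Divisor ℂ F, Divisor.degree D = g →
      ∃ T : Fin g → Place ℂ F, D - sumPts T ∈ Divisor.principal (K := ℂ) (F := F))
    {P₀ : Fin g → Place ℂ F} (h1 : finrank ℂ (riemannRochSpace (sumPts P₀)) = 1)
    {ρ : ℝ} (hρ : 0 < ρ) {ψ : (Fin g → ℂ) → Pic0 ℂ F}
    (hadd : ∀ v w, ‖v‖ < ρ → ‖w‖ < ρ → ‖v + w‖ < ρ → ψ (v + w) = ψ v + ψ w)
    (hinj : ∀ v w, ‖v‖ < ρ → ‖w‖ < ρ → ψ v = ψ w → v = w)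
    {W : Set (Fin g → Place ℂ F)} (hWo : IsOpen W) (hP₀ : P₀ ∈ W)
    (hW : ∀ Q ∈ W, ∀ D : Divisor.degZero (K := ℂ) (F := F),
      (D : Divisor ℂ F) = sumPts Q - sumPts P₀ → ∃ v, ‖v‖ < ρ ∧ ψ v = Pic0.mk D)
    {n : ℕ} (hn : 0 < n) : Nat.card ↥(Pic0.torsion ℂ F n) = n ^ (2 * g) := by
  obtain ⟨M, hM⟩ := exists_localHom H hCL hrep h1 hρ hadd hinj hWo hP₀ hW
  have h := hM.card_torsion hn
  rw [finrank_real_pi_complex] at h
  rw [← h]
  refine Nat.card_congr (Equiv.subtypeEquivRight fun y => ?_)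
  rw [Pic0.mem_torsion, natCast_zsmul]

end Main

end Fermat.Agent.M27.ChainF9
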