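/-
Programme M27 (target S27), chapter F, leaf (F1) — helper9: **the Riemann surface of `F / ℂ` is
connected**, from the interface `Iface2.IsRSurface` and Riemann's inequality, by the open mapping
theorem (no fibre counting).

* `preconnectedSpace_of_poles` (Mathlib only): a compact space `X` such that for every `Q` there is
  a continuous `f : X → OnePoint ℂ`, finite outside `Q` and locally open at every point where it is
  finite, is preconnected (for `A ∋ Q` clopen, `f '' Aᶜ` is clopen in the Riemann sphere and misses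
  `∞`, hence empty).
* `sval_image_mem_nhds` : a non-constant `f ∈ F` regular at `P` is locally open at `P`
  (chart centred at `P` + `AnalyticAt.eventually_constant_or_nhds_le_map_nhds`; non-constancy
  of `f̂` from `Chart.order_eq`).
* `preconnectedSpace_place` : `IsRSurface H → PreconnectedSpace (Place ℂ F)`.
-/
import Mathlib
import Fermat.Agent.M27.Iface2
import Fermat.Agent.M27.RRGlue9

set_option autoImplicit false
set_option linter.unusedSectionVars false
set_option linter.unusedVariables false
set_option linter.style.longLine false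

noncomputable section

namespace Fermat.Agent.M27.Conn9

open AlgebraicCurve Metric Topology Filter Set
open Fermat.Agent.RR.LSpace Fermat.Agent.M15.DivDefs4 Fermat.Agent.M27.Iface2
open Fermat.Agent.X0.FF

/-! ### the abstract argument -/

section Abstract

variable {X : Type*} [TopologicalSpace X] [CompactSpace X]

open OnePoint in
/-- a compact space carrying, for each point `Q`, a continuous map to the Riemann sphere which is
finite outside `Q` and locally open where finite, is preconnected. -/
theorem preconnectedSpace_of_poles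
    (h : ∀ Q : X, ∃ f : X → OnePoint ℂ, Continuous f ∧ (∀ P, f P = ∞ → P = Q) ∧
      ∀ P, f P ≠ ∞ → ∀ U ∈ 𝓝 P, f '' U ∈ 𝓝 (f P)) : PreconnectedSpace X := by
  rw [preconnectedSpace_iff_clopen]
  intro s hs
  rcases s.eq_empty_or_nonempty with hempty | ⟨Q, hQ⟩
  · exact Or.inl hempty
  right
  obtain ⟨f, hfc, hfQ, hfo⟩ := h Q
  have hBclopen : IsClopen sᶜ := hs.compl
  have hclosed : IsClosed (f '' sᶜ) :=
    (hBclopen.1.isCompact.image hfc).isClosed
  have hfin : ∀ P ∈ sᶜ, f P ≠ ∞ := by
    intro P hP hinf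
    exact hP (hfQ P hinf ▸ hQ)
  have hopen : IsOpen (f '' sᶜ) := by
    rw [isOpen_iff_mem_nhds]
    rintro y ⟨P, hP, rfl⟩
    exact hfo P (hfin P hP) _ (hBclopen.2.mem_nhds hP)
  rcases isClopen_iff.mp (⟨hclosed, hopen⟩ : IsClopen (f '' sᶜ)) with h0 | h1
  · rw [image_eq_empty] at h0
    exact compl_empty_iff.mp h0
  · exfalso
    have : (∞ : OnePoint ℂ) ∈ f '' sᶜ := by rw [h1]; exact mem_univ _
    obtain ⟨P, hP, hPinf⟩ := this
    exact hfin P hP hPinf

end Abstract

/-! ### local openness of `sval` -/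

variable {F : Type*} [Field F] [Algebra ℂ F]

section Local

variable {H : LHyp ℂ F} [TopologicalSpace (Place ℂ F)]

/-- the set where `f` is regular is open. -/
theorem isOpen_setOf_mem (S : IsRSurface H) (f : F) :
    IsOpen {P : Place ℂ F | f ∈ P.toValuationSubring} := by
  have h1 : {P : Place ℂ F | f ∈ P.toValuationSubring} =
      (sval H f) ⁻¹' {(OnePoint.infty : OnePoint ℂ)}ᶜ := by
    ext P
    simp only [Set.mem_ofPred_eq, mem_preimage, mem_compl_iff, mem_singleton_iff]
    constructor
    · intro h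
      rw [sval_of_mem H h]
      exact OnePoint.coe_ne_infty _
    · intro h
      by_contra hn
      exact h (sval_of_not_mem H hn)
  rw [h1]
  exact isOpen_compl_singleton.preimage (S.continuous_sval f)

/-- **local openness**: a non-constant function regular at `P` maps neighbourhoods of `P` to
neighbourhoods of its value. -/
theorem sval_image_mem_nhds (S : IsRSurface H) {f : F}
    (hf : ∀ c : ℂ, f ≠ algebraMap ℂ F c) {P : Place ℂ F} (hP : f ∈ P.toValuationSubring)
    {U : Set (Place ℂ F)} (hU : U ∈ 𝓝 P) : sval H f '' U ∈ 𝓝 (sval H f P) := by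
  obtain ⟨φ, hφ⟩ := S.exists_chart P
  have h0 : (0 : ℂ) ∈ ball (0 : ℂ) φ.r := φ.zero_mem_ball
  have hball : ball (0 : ℂ) φ.r ∈ 𝓝 (0 : ℂ) := isOpen_ball.mem_nhds h0
  have hcont : ContinuousAt φ.c 0 := φ.continuousOn.continuousAt hball
  -- the good neighbourhood of `0`
  set V : Set ℂ := {b | b ∈ ball (0 : ℂ) φ.r ∧ φ.c b ∈ U ∧ f ∈ (φ.c b).toValuationSubring} with hV
  have hVmem : V ∈ 𝓝 (0 : ℂ) := by
    have hU' : φ.c ⁻¹' U ∈ 𝓝 (0 : ℂ) := hcont (by rw [hφ]; exact hU)
    have hreg : φ.c ⁻¹' {P' : Place ℂ F | f ∈ P'.toValuationSubring} ∈ 𝓝 (0 : ℂ) :=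
      hcont ((isOpen_setOf_mem S f).mem_nhds (by rw [hφ]; exact hP))
    filter_upwards [hball, hU', hreg] with b hb1 hb2 hb3
    exact ⟨hb1, hb2, hb3⟩
  -- the function in the chart
  set c0 : ℂ := valAt H P f with hc0
  set f' : F := f - algebraMap ℂ F c0 with hf'
  have hf'0 : f' ≠ 0 := sub_ne_zero.mpr (hf c0)
  have hordf : 0 ≤ (φ.c 0).ord f := by rw [hφ]; exact ffp_ord_nonneg_of_mem P hP
  have hmem' : ∀ P' : Place ℂ F, f ∈ P'.toValuationSubring → f' ∈ P'.toValuationSubring :=
    fun P' h => P'.toValuationSubring.sub_mem h (P'.algebraMap_mem' c0)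
  have hordf' : 0 ≤ (φ.c 0).ord f' := by
    rw [hφ]; exact ffp_ord_nonneg_of_mem P (hmem' P hP)
  have han : AnalyticAt ℂ (φ.hat f) 0 := φ.analyticAt f 0 h0 hordf
  have hrel : ∀ b ∈ V, φ.hat f b = φ.hat f' b + c0 := by
    intro b hb
    have hb3 := hb.2.2
    have : f = f' + algebraMap ℂ F c0 := by rw [hf']; ring
    rw [Chart.hat_apply, Chart.hat_apply]
    conv_lhs => rw [this]
    rw [valAt_add H (φ.c b) (hmem' _ hb3) ((φ.c b).algebraMap_mem' c0), valAt_algebraMap]
  have hval0 : φ.hat f 0 = c0 := by rw [Chart.hat_apply, hφ]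
  rcases han.eventually_constant_or_nhds_le_map_nhds with hconst | hle
  · -- impossible: `f̂'` would vanish identically near `0`
    exfalso
    have hzero : ∀ᶠ b in 𝓝 (0 : ℂ), φ.hat f' b = 0 := by
      filter_upwards [hconst, hVmem] with b hb1 hb2
      have := hrel b hb2
      rw [hb1, hval0] at this
      linear_combination -this
    have htop : analyticOrderAt (φ.hat f') 0 = ⊤ := analyticOrderAt_eq_top.mpr hzero
    have hfin := φ.order_eq f' 0 hf'0 h0 hordf'
    rw [show (fun b => valAt H (φ.c b) f') = φ.hat f' from rfl, htop] at hfin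
    exact ENat.top_ne_natCast _ hfin
  · have h1 : φ.hat f '' V ∈ 𝓝 (φ.hat f 0) := hle (image_mem_map hVmem)
    have h2 : ((↑) : ℂ → OnePoint ℂ) '' (φ.hat f '' V) ∈ 𝓝 ((φ.hat f 0 : ℂ) : OnePoint ℂ) :=
      OnePoint.isOpenEmbedding_coe.isOpenMap.image_mem_nhds h1
    have h3 : sval H f P = ((φ.hat f 0 : ℂ) : OnePoint ℂ) := by
      rw [sval_of_mem H hP, hval0]
    rw [h3]
    refine mem_of_superset h2 ?_
    rintro _ ⟨_, ⟨b, hb, rfl⟩, rfl⟩
    refine ⟨φ.c b, hb.2.1, ?_⟩
    rw [sval_of_mem H hb.2.2, Chart.hat_apply]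

end Local

/-! ### connectedness -/

/-- **the Riemann surface of a function field over `ℂ` is connected.** -/
theorem preconnectedSpace_place {x : F} (hx : IsGen ℂ x) (H : LHyp ℂ F)
    [TopologicalSpace (Place ℂ F)] (S : IsRSurface H) : PreconnectedSpace (Place ℂ F) := by
  have := S.compactSpace
  refine preconnectedSpace_of_poles fun Q => ?_
  obtain ⟨f, hfc, hfreg⟩ := RRGlue9.exists_single_pole_isGen hx Q
  refine ⟨sval H f, S.continuous_sval f, ?_, ?_⟩
  · intro P hP
    by_contra hne
    have hmem : f ∈ P.toValuationSubring := ffp_mem_of_ord_nonneg P (hfreg P hne)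
    rw [sval_of_mem H hmem] at hP
    exact OnePoint.coe_ne_infty _ hP
  · intro P hP U hU
    have hmem : f ∈ P.toValuationSubring := by
      by_contra hn
      exact hP (sval_of_not_mem H hn)
    exact sval_image_mem_nhds S hfc hmem hU

end Fermat.Agent.M27.Conn9
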