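/-
Programme M27 (target S27), chapter F, assembly (dry) — helper9: the count over `ℂ` from the END
LITERALS of chapters A (`exists_isRSurface`), B ((CL)) and E (`AbelOutput`), stated as hypotheses
in exactly the agreed shapes.  `CountC9` plugs the landed theorems in.
-/
import Mathlib
import Fermat.Agent.RR.LHypGen
import Fermat.Agent.M27.Conn9
import Fermat.Agent.M27.ChainF9

set_option autoImplicit false
set_option linter.unusedSectionVars false
set_option linter.unusedVariables false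
set_option linter.style.longLine false

noncomputable section

namespace Fermat.Agent.M27.CountPre9

open AlgebraicCurve Metric Topology Filter Set Module
open Fermat.Agent.RR.LSpace Fermat.Agent.M17.GenericRR2 Fermat.Agent.X0.FF
open Fermat.Agent.M27.Iface2 Fermat.Agent.M27.ChainF9

universe u

variable {F : Type u} [Field F] [Algebra ℂ F]

/-- **the END LITERAL of chapter E** (helper9's wish list 1501, accepted by helper2 in 1505). -/
def AbelOutput (F : Type u) [Field F] [Algebra ℂ F] [TopologicalSpace (Place ℂ F)] : Prop :=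
  ∃ (P₀ : Fin (genusFF ℂ F) → Place ℂ F) (ρ : ℝ) (ψ : (Fin (genusFF ℂ F) → ℂ) → Pic0 ℂ F)
    (W : Set (Fin (genusFF ℂ F) → Place ℂ F)),
    finrank ℂ ↥(riemannRochSpace (sumPts P₀)) = 1 ∧ 0 < ρ ∧
    (∀ v w, ‖v‖ < ρ → ‖w‖ < ρ → ‖v + w‖ < ρ → ψ (v + w) = ψ v + ψ w) ∧
    (∀ v w, ‖v‖ < ρ → ‖w‖ < ρ → ψ v = ψ w → v = w) ∧ IsOpen W ∧ P₀ ∈ W ∧
    ∀ Q ∈ W, ∀ D : Divisor.degZero (K := ℂ) (F := F),
      (D : Divisor ℂ F) = sumPts Q - sumPts P₀ → ∃ v, ‖v‖ < ρ ∧ ψ v = Pic0.mk D

/-- the count over `ℂ` on a given Riemann surface structure. -/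
theorem card_torsion_of_isRSurface {x : F} (hx : IsGen ℂ x) (H : LHyp ℂ F)
    [TopologicalSpace (Place ℂ F)] (S : IsRSurface H)
    (hCL : IsClosed (linEqSet F (genusFF ℂ F + 1))) (hE : AbelOutput F) {n : ℕ} (hn : 0 < n) :
    Nat.card ↥(Pic0.torsion ℂ F n) = n ^ (2 * genusFF ℂ F) := by
  have hc := S.compactSpace
  have hp := Conn9.preconnectedSpace_place hx H S
  obtain ⟨P₀, ρ, ψ, W, h1, hρ, hadd, hinj, hWo, hP₀, hW⟩ := hE
  exact card_torsion_of_inputs H hCL
    (fun D hD => RRGlue9.exists_effective_rep_isGen hx D _ hD le_rfl) h1 hρ hadd hinj hWo hP₀ hW hn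

/-- **the count over `ℂ`**, from the end literals of chapters A, B, E. -/
theorem card_torsion_complex_of {x : F} (hx : IsGen ℂ x)
    (hA : ∀ H : LHyp ℂ F, ∃ τ : TopologicalSpace (Place ℂ F), @IsRSurface F _ _ H τ)
    (hB : ∀ (H : LHyp ℂ F) [TopologicalSpace (Place ℂ F)], IsRSurface H →
      ∀ m : ℕ, IsClosed (linEqSet F m))
    (hE : ∀ (H : LHyp ℂ F) [TopologicalSpace (Place ℂ F)], IsRSurface H → AbelOutput F)
    {n : ℕ} (hn : 0 < n) : Nat.card ↥(Pic0.torsion ℂ F n) = n ^ (2 * genusFF ℂ F) := by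
  have H : LHyp ℂ F := Fermat.Agent.RR.LHypGen.lHyp_of_isGen hx
  obtain ⟨τ, S⟩ := hA H
  let _ : TopologicalSpace (Place ℂ F) := τ
  exact card_torsion_of_isRSurface hx H S (hB H S _) (hE H S) hn

end Fermat.Agent.M27.CountPre9
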