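/-
Programme M27 (target S27), chapter E, two generic leaves — helper9 (only (CL) as hypothesis).

* `finrank_L_sumPts_ne_one_iff` : for `Q ∈ X^(m+1)`:  `l(ΣQ) ≠ 1` iff for EVERY place `P` there is
  `T ∈ X^m` with `ΣQ ∼ ΣT + P`  (if `l ≥ 2` then `L(ΣQ - P) ≠ 0`; if `l = 1` the only effective
  divisor linearly equivalent to `ΣQ` is `ΣQ` itself, and `P` may be taken off its support);
* `isOpen_setOf_finrank_eq_one` : **the non-special tuples form an open set** of `X^n` (closedness
  of linear equivalence + compactness of `X^m`; no determinants);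
* `eq_of_sumPts_eq_of_disjoint` : a tuple in a product of pairwise disjoint sets is determined by
  its sum-divisor.
-/
import Mathlib
import Fermat.Agent.FF.GaussOv1D
import Fermat.Agent.M27.ChainF9

set_option autoImplicit false
set_option linter.unusedSectionVars false
set_option linter.unusedVariables false
set_option linter.style.longLine false

noncomputable section

namespace Fermat.Agent.M27.NonSpecial9

open AlgebraicCurve Metric Topology Filter Set Module
open Fermat.Agent.RR.LSpace Fermat.Agent.M17.GenericRR2
open Fermat.Agent.M27.ChainF9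

section Alg

variable {K F : Type*} [Field K] [Field F] [Algebra K F]

theorem one_mem_L_sumPts {n : ℕ} (Q : Fin n → Place K F) :
    (1 : F) ∈ riemannRochSpace (sumPts Q) := by
  rw [mem_L_iff one_ne_zero]
  intro v
  rw [Place.ord_one]
  have := sumPts_nonneg Q v
  simp only [Finsupp.coe_zero, Pi.zero_apply] at this
  omega

theorem one_le_finrank_L_sumPts (H : LHyp K F) {n : ℕ} (Q : Fin n → Place K F) :
    1 ≤ finrank K ↥(riemannRochSpace (sumPts Q)) := by
  have := finiteDimensional_L H (sumPts Q)
  rw [Nat.one_le_iff_ne_zero, Ne, Submodule.finrank_eq_zero]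
  intro hbot
  have := one_mem_L_sumPts Q
  rw [hbot, Submodule.mem_bot] at this
  exact one_ne_zero this

theorem sumPts_snoc_apply_self_pos {m : ℕ} (T : Fin m → Place K F) (P : Place K F) :
    1 ≤ sumPts (Fin.snoc T P : Fin (m + 1) → Place K F) P := by
  rw [sumPts_snoc, Finsupp.add_apply, Finsupp.single_eq_same]
  have := sumPts_nonneg T P
  simp only [Finsupp.coe_zero, Pi.zero_apply] at this
  omega

theorem sumPts_apply_eq_zero {n : ℕ} (Q : Fin n → Place K F) {P : Place K F}
    (hP : P ∉ Set.range Q) : sumPts Q P = 0 := by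
  classical
  unfold sumPts
  rw [Finsupp.finsetSum_apply]
  refine Finset.sum_eq_zero fun i _ => ?_
  rw [Finsupp.single_apply, if_neg]
  intro h
  exact hP ⟨i, h⟩

/-- the characterisation of special tuples through linear equivalence. -/
theorem finrank_L_sumPts_ne_one_iff (H : LHyp K F) [Infinite K] {m : ℕ}
    (Q : Fin (m + 1) → Place K F) :
    finrank K ↥(riemannRochSpace (sumPts Q)) ≠ 1 ↔
      ∀ P : Place K F, ∃ T : Fin m → Place K F,
        sumPts Q - sumPts (Fin.snoc T P : Fin (m + 1) → Place K F) ∈
          Divisor.principal (K := K) (F := F) := by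
  constructor
  · intro hne P
    have h2 : 2 ≤ finrank K ↥(riemannRochSpace (sumPts Q)) := by
      have := one_le_finrank_L_sumPts H Q
      omega
    -- `L(ΣQ - P) ≠ 0`
    have := finiteDimensional_L H (sumPts Q - Finsupp.single P 1)
    have h3 := (finrank_L_add_single_le H (sumPts Q - Finsupp.single P 1) P).2
    rw [sub_add_cancel] at h3
    have h4 : 1 ≤ finrank K ↥(riemannRochSpace (sumPts Q - Finsupp.single P 1)) := by omega
    obtain ⟨f, hfL, hf0⟩ : ∃ f ∈ riemannRochSpace (sumPts Q - Finsupp.single P 1), f ≠ 0 := by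
      by_contra hcon
      push Not at hcon
      have hbot : riemannRochSpace (sumPts Q - Finsupp.single P 1) = ⊥ := by
        rw [eq_bot_iff]
        intro f hf
        exact (Submodule.mem_bot K).mpr (hcon f hf)
      rw [hbot, finrank_bot] at h4
      omega
    have hE : 0 ≤ sumPts Q - Finsupp.single P 1 + divOf H hf0 := by
      intro v
      have := (mem_L_iff hf0).mp hfL v
      rw [Finsupp.add_apply, divOf_apply]
      simp only [Finsupp.coe_zero, Pi.zero_apply]
      omega
    have hdegE : Divisor.degree (sumPts Q - Finsupp.single P 1 + divOf H hf0) = m := by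
      rw [map_add, degree_divOf, add_zero, map_sub, degree_sumPts H, degree_single H]
      push_cast
      ring
    obtain ⟨T, hT⟩ := RRGlue9.exists_sumPts_eq H m _ hE hdegE
    refine ⟨T, f⁻¹, inv_ne_zero hf0, fun v => ?_⟩
    rw [sumPts_snoc, hT, v.ord_inv, Finsupp.sub_apply, Finsupp.add_apply, Finsupp.add_apply,
      Finsupp.sub_apply, divOf_apply]
    ring
  · intro hall h1
    have : Infinite (Place K F) := Fermat.Agent.FF.GaussOv1.infinite_place_of_lHyp H
    obtain ⟨P, hP⟩ := (Set.finite_range Q).infinite_compl.nonempty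
    obtain ⟨T, hT⟩ := hall P
    have hT' : sumPts (Fin.snoc T P : Fin (m + 1) → Place K F) - sumPts Q ∈
        Divisor.principal (K := K) (F := F) := by
      have := neg_mem hT
      rwa [neg_sub] at this
    have heq := RRGlue9.eq_of_sub_mem_principal_of_finrank_L_eq_one H (sumPts_nonneg Q) h1
      (sumPts_nonneg _) hT'
    have h5 := sumPts_snoc_apply_self_pos T P
    rw [heq, sumPts_apply_eq_zero Q hP] at h5
    omega

/-- a tuple in a product of pairwise disjoint sets is determined by its sum-divisor. -/
theorem eq_of_sumPts_eq_of_disjoint {n : ℕ} {U : Fin n → Set (Place K F)}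
    (hU : Pairwise (Function.onFun Disjoint U)) {Q Q' : Fin n → Place K F}
    (hQ : ∀ i, Q i ∈ U i) (hQ' : ∀ i, Q' i ∈ U i) (h : sumPts Q = sumPts Q') : Q = Q' := by
  obtain ⟨σ, hσ⟩ := exists_perm_of_sumPts_eq h
  funext i
  have h1 : Q (σ i) = Q' i := congrFun hσ i
  have h2 : σ i = i := by
    by_contra hne
    have hd := hU hne
    exact Set.disjoint_left.mp hd (hQ (σ i)) (h1 ▸ hQ' i)
  rw [← h1, h2]

end Alg

section Top

variable {F : Type*} [Field F] [Algebra ℂ F] [TopologicalSpace (Place ℂ F)]
  [CompactSpace (Place ℂ F)]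

/-- **the non-special tuples form an open set.** -/
theorem isOpen_setOf_finrank_eq_one (H : LHyp ℂ F) (n : ℕ) (hCL : IsClosed (linEqSet F n)) :
    IsOpen {Q : Fin n → Place ℂ F | finrank ℂ ↥(riemannRochSpace (sumPts Q)) = 1} := by
  cases n with
  | zero =>
    have : {Q : Fin 0 → Place ℂ F | finrank ℂ ↥(riemannRochSpace (sumPts Q)) = 1} = univ := by
      ext Q
      simp only [Set.mem_ofPred_eq, mem_univ, iff_true]
      have : sumPts Q = 0 := by unfold sumPts; simp
      rw [this]
      exact finrank_L_zero H
    rw [this]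
    exact isOpen_univ
  | succ m =>
    rw [← isClosed_compl_iff]
    have : {Q : Fin (m + 1) → Place ℂ F | finrank ℂ ↥(riemannRochSpace (sumPts Q)) = 1}ᶜ =
        ⋂ P : Place ℂ F, Prod.fst '' {q : (Fin (m + 1) → Place ℂ F) × (Fin m → Place ℂ F) |
          (q.1, (Fin.snoc q.2 P : Fin (m + 1) → Place ℂ F)) ∈ linEqSet F (m + 1)} := by
      ext Q
      simp only [mem_compl_iff, Set.mem_ofPred_eq, mem_iInter, mem_image, Prod.exists,
        exists_and_right, exists_eq_right]
      exact finrank_L_sumPts_ne_one_iff H Q
    rw [this]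
    refine isClosed_iInter fun P => ?_
    refine isClosedMap_fst_of_compactSpace _ (hCL.preimage ?_)
    exact Continuous.prodMk continuous_fst
      (Continuous.finSnoc (A := fun _ => Place ℂ F) continuous_snd continuous_const)

end Top

end Fermat.Agent.M27.NonSpecial9
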