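/-
Programme M27 (target S27), chapter E, second half — helper9: **the end literal of chapter E
(`CountPre9.AbelOutput`) from a local homeomorphism and the `Λ`-relation**; no charts, no
differentials inside.

Data (produced by the first half of E): a non-special `P₀ ∈ X^g`; pairwise disjoint sets `U i`;
an open `W₀ ⊆ ∏ U i` containing `P₀`; the Abel sum `A : W₀ → V ⊆ ℂ^g` with continuous inverse
`s : V → W₀`, `A P₀ = 0`; a countable subgroup `Λ` with `A T - A Q - A Q' ∈ Λ` whenever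
`ΣT + ΣP₀ ∼ ΣQ + ΣQ'` (easy Abel).

Then `ψ v := [Σ s v - ΣP₀]` is additive and injective on a small ball and takes all the values
`[ΣQ - ΣP₀]`, `Q` in the open set `W := W₀ ∩ A⁻¹ (ball ρ)`.
-/
import Mathlib
import Fermat.Agent.M27.NonSpecial9
import Fermat.Agent.M27.CountPre9

set_option autoImplicit false
set_option linter.unusedSectionVars false
set_option linter.unusedVariables false
set_option linter.style.longLine false

noncomputable section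

namespace Fermat.Agent.M27.AbelOut9

open AlgebraicCurve Metric Topology Filter Set Module
open Fermat.Agent.RR.LSpace Fermat.Agent.M17.GenericRR2
open Fermat.Agent.M27.TopoGen9 Fermat.Agent.M27.ChainF9 Fermat.Agent.M27.NonSpecial9

/-! ### generic topology: universal quantification along a compact factor -/

section Generic

variable {Z Y : Type*} [TopologicalSpace Z] [TopologicalSpace Y] [CompactSpace Y]

/-- for a closed relation `R ⊆ Z × Y` with `Y` compact and `O ⊆ Y` open, the set of `z` all of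
whose relatives lie in `O` is open. -/
theorem isOpen_setOf_forall_rel {R : Set (Z × Y)} (hR : IsClosed R) {O : Set Y} (hO : IsOpen O) :
    IsOpen {z : Z | ∀ y, (z, y) ∈ R → y ∈ O} := by
  have hC : IsClosed (R ∩ Prod.snd ⁻¹' Oᶜ) := hR.inter (hO.isClosed_compl.preimage continuous_snd)
  have hproj : IsClosed (Prod.fst '' (R ∩ Prod.snd ⁻¹' Oᶜ)) :=
    isClosedMap_fst_of_compactSpace _ hC
  have : {z : Z | ∀ y, (z, y) ∈ R → y ∈ O} = (Prod.fst '' (R ∩ Prod.snd ⁻¹' Oᶜ))ᶜ := by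
    ext z
    simp only [Set.mem_ofPred_eq, mem_compl_iff, mem_image, mem_inter_iff, mem_preimage,
      Prod.exists, exists_and_right, exists_eq_right, not_exists, not_and, not_not]
  rw [this]
  exact hproj.isOpen_compl

end Generic

/-! ### tuples -/

section Tuples

variable {K F : Type*} [Field K] [Field F] [Algebra K F]

theorem sumPts_append {m n : ℕ} (a : Fin m → Place K F) (b : Fin n → Place K F) :
    sumPts (Fin.append a b) = sumPts a + sumPts b := by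
  unfold sumPts
  rw [Fin.sum_univ_add]
  simp only [Fin.append_left, Fin.append_right]

/-- if `T ∘ σ` and `T` both lie in a product of pairwise disjoint sets, then `σ = 1`. -/
theorem comp_perm_eq_self_of_disjoint {n : ℕ} {α : Type*} {U : Fin n → Set α}
    (hU : Pairwise (Function.onFun Disjoint U)) {T : Fin n → α} {σ : Equiv.Perm (Fin n)}
    (hT : ∀ i, T i ∈ U i) (hTσ : ∀ i, (T ∘ σ) i ∈ U i) : T ∘ σ = T := by
  funext i
  have h2 : σ i = i := by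
    by_contra hne
    exact Set.disjoint_left.mp (hU hne) (hT (σ i)) (hTσ i)
  simp [h2]

end Tuples

/-! ### the data -/

/-- **the output of the first half of chapter E**: the Abel sum as a local homeomorphism at a
non-special tuple, with the easy Abel relation modulo a countable group. -/
structure LocalAbel (F : Type*) [Field F] [Algebra ℂ F] [TopologicalSpace (Place ℂ F)]
    (g : ℕ) where
  /-- the non-special base tuple `D₀ = ΣP₀` -/
  P₀ : Fin g → Place ℂ F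
  /-- pairwise disjoint sets (the chart discs) -/
  U : Fin g → Set (Place ℂ F)
  /-- the neighbourhood of `P₀` in `X^g` on which the Abel sum is a homeomorphism -/
  W₀ : Set (Fin g → Place ℂ F)
  /-- the Abel sum -/
  A : (Fin g → Place ℂ F) → (Fin g → ℂ)
  /-- its local inverse -/
  s : (Fin g → ℂ) → (Fin g → Place ℂ F)
  /-- the image of the Abel sum -/
  V : Set (Fin g → ℂ)
  /-- the countable group of periods and transition constants -/
  Lam : AddSubgroup (Fin g → ℂ)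
  h1 : finrank ℂ ↥(riemannRochSpace (sumPts P₀)) = 1
  hU : Pairwise (Function.onFun Disjoint U)
  hW₀ : IsOpen W₀
  hW₀U : ∀ Q ∈ W₀, ∀ i, Q i ∈ U i
  hP₀ : P₀ ∈ W₀
  hV : IsOpen V
  hA0 : A P₀ = 0
  hAV : ∀ Q ∈ W₀, A Q ∈ V
  hsW : ∀ v ∈ V, s v ∈ W₀
  hsA : ∀ Q ∈ W₀, s (A Q) = Q
  hAs : ∀ v ∈ V, A (s v) = v
  hAc : ContinuousOn A W₀
  hsc : ContinuousOn s V
  hLam : (Lam : Set (Fin g → ℂ)).Countable
  habel : ∀ Q ∈ W₀, ∀ Q' ∈ W₀, ∀ T ∈ W₀,
    sumPts T + sumPts P₀ - (sumPts Q + sumPts Q') ∈ Divisor.principal (K := ℂ) (F := F) →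
      A T - A Q - A Q' ∈ Lam

namespace LocalAbel

variable {F : Type*} [Field F] [Algebra ℂ F] [TopologicalSpace (Place ℂ F)] {g : ℕ}
  (L : LocalAbel F g)

theorem zero_mem_V : (0 : Fin g → ℂ) ∈ L.V := L.hA0 ▸ L.hAV _ L.hP₀

theorem s_zero : L.s 0 = L.P₀ := by
  rw [← L.hA0]
  exact L.hsA _ L.hP₀

/-- the non-special tuples of `W₀`. -/
def G₀ : Set (Fin g → Place ℂ F) :=
  L.W₀ ∩ {Q | finrank ℂ ↥(riemannRochSpace (sumPts Q)) = 1}

theorem P₀_mem_G₀ : L.P₀ ∈ L.G₀ := ⟨L.hP₀, L.h1⟩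

/-- the relation `ΣT + ΣP₀ ∼ ΣQ + ΣQ'` on `(X^g × X^g) × X^g`. -/
def Rel : Set (((Fin g → Place ℂ F) × (Fin g → Place ℂ F)) × (Fin g → Place ℂ F)) :=
  {q | (Fin.append q.2 L.P₀, Fin.append q.1.1 q.1.2) ∈ linEqSet F (g + g)}

theorem mem_Rel {Q Q' T : Fin g → Place ℂ F} :
    ((Q, Q'), T) ∈ L.Rel ↔
      sumPts T + sumPts L.P₀ - (sumPts Q + sumPts Q') ∈
        Divisor.principal (K := ℂ) (F := F) := by
  simp only [Rel, linEqSet, Set.mem_ofPred_eq, sumPts_append]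

theorem isClosed_Rel (hCL : IsClosed (linEqSet F (g + g))) : IsClosed L.Rel := by
  refine hCL.preimage ?_
  refine Continuous.prodMk ?_ ?_
  · exact (Fin.continuous_append g g).comp (Continuous.prodMk continuous_snd continuous_const)
  · exact (Fin.continuous_append g g).comp continuous_fst

/-- relatives of the same pair have the same sum-divisor as soon as one of them is non-special. -/
theorem sumPts_eq_of_Rel (H : LHyp ℂ F) {z : (Fin g → Place ℂ F) × (Fin g → Place ℂ F)}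
    {T T' : Fin g → Place ℂ F} (hT' : finrank ℂ ↥(riemannRochSpace (sumPts T')) = 1)
    (h : (z, T) ∈ L.Rel) (h' : (z, T') ∈ L.Rel) : sumPts T = sumPts T' := by
  obtain ⟨Q, Q'⟩ := z
  rw [mem_Rel] at h h'
  refine RRGlue9.eq_of_sub_mem_principal_of_finrank_L_eq_one H (sumPts_nonneg T') hT'
    (sumPts_nonneg T) ?_
  have := sub_mem h h'
  have e : sumPts T + sumPts L.P₀ - (sumPts Q + sumPts Q') -
      (sumPts T' + sumPts L.P₀ - (sumPts Q + sumPts Q')) = sumPts T - sumPts T' := by abel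
  rwa [e] at this

/-- the neighbourhood of `(P₀, P₀)` on which `μ` is defined. -/
def N' : Set ((Fin g → Place ℂ F) × (Fin g → Place ℂ F)) :=
  {z | ∀ T, (z, T) ∈ L.Rel → T ∈ permNbhd L.G₀}

end LocalAbel

namespace LocalAbel

variable {F : Type*} [Field F] [Algebra ℂ F] [TopologicalSpace (Place ℂ F)]
  [CompactSpace (Place ℂ F)] {g : ℕ} (L : LocalAbel F g)

theorem isOpen_G₀ (H : LHyp ℂ F) (hCLg : IsClosed (linEqSet F g)) : IsOpen L.G₀ :=
  L.hW₀.inter (isOpen_setOf_finrank_eq_one H g hCLg)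

theorem isOpen_N' (H : LHyp ℂ F) (hCLg : IsClosed (linEqSet F g))
    (hCL2 : IsClosed (linEqSet F (g + g))) : IsOpen L.N' :=
  isOpen_setOf_forall_rel (L.isClosed_Rel hCL2) (isOpen_permNbhd (L.isOpen_G₀ H hCLg))

theorem base_mem_Rel : ((L.P₀, L.P₀), L.P₀) ∈ L.Rel := by
  rw [mem_Rel, sub_self]
  exact zero_mem _

theorem base_mem_N' (H : LHyp ℂ F) : (L.P₀, L.P₀) ∈ L.N' := by
  intro T hT
  have := L.sumPts_eq_of_Rel H L.h1 hT L.base_mem_Rel
  obtain ⟨σ, hσ⟩ := exists_perm_of_sumPts_eq this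
  exact ⟨σ, hσ ▸ L.P₀_mem_G₀⟩

theorem exists_rel_of_mem_N' (H : LHyp ℂ F)
    (hrep : ∀ D : Divisor ℂ F, Divisor.degree D = g →
      ∃ T : Fin g → Place ℂ F, D - sumPts T ∈ Divisor.principal (K := ℂ) (F := F))
    {z : (Fin g → Place ℂ F) × (Fin g → Place ℂ F)} (hz : z ∈ L.N') :
    ∃ T ∈ L.G₀, (z, T) ∈ L.Rel := by
  obtain ⟨Q, Q'⟩ := z
  have hdeg : Divisor.degree (sumPts Q + sumPts Q' - sumPts L.P₀) = g := by
    rw [map_sub, map_add, degree_sumPts H, degree_sumPts H, degree_sumPts H]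
    ring
  obtain ⟨T₁, hT₁⟩ := hrep _ hdeg
  have hrel : ((Q, Q'), T₁) ∈ L.Rel := by
    rw [mem_Rel]
    have := neg_mem hT₁
    have e : -(sumPts Q + sumPts Q' - sumPts L.P₀ - sumPts T₁) =
        sumPts T₁ + sumPts L.P₀ - (sumPts Q + sumPts Q') := by abel
    rwa [e] at this
  obtain ⟨σ, hσ⟩ := hz T₁ hrel
  refine ⟨T₁ ∘ σ, hσ, ?_⟩
  rw [mem_Rel, sumPts_comp_perm]
  rwa [mem_Rel] at hrel

open Classical in
/-- the non-special tuple `μ (Q, Q') ∈ W₀` with `Σμ + ΣP₀ ∼ ΣQ + ΣQ'`. -/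
def mu (z : (Fin g → Place ℂ F) × (Fin g → Place ℂ F)) : Fin g → Place ℂ F :=
  if h : ∃ T ∈ L.G₀, (z, T) ∈ L.Rel then h.choose else L.P₀

theorem mu_spec_of_exists {z : (Fin g → Place ℂ F) × (Fin g → Place ℂ F)}
    (h : ∃ T ∈ L.G₀, (z, T) ∈ L.Rel) : L.mu z ∈ L.G₀ ∧ (z, L.mu z) ∈ L.Rel := by
  unfold mu
  rw [dif_pos h]
  exact h.choose_spec

theorem mu_spec (H : LHyp ℂ F)
    (hrep : ∀ D : Divisor ℂ F, Divisor.degree D = g →
      ∃ T : Fin g → Place ℂ F, D - sumPts T ∈ Divisor.principal (K := ℂ) (F := F))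
    {z : (Fin g → Place ℂ F) × (Fin g → Place ℂ F)} (hz : z ∈ L.N') :
    L.mu z ∈ L.G₀ ∧ (z, L.mu z) ∈ L.Rel :=
  L.mu_spec_of_exists (L.exists_rel_of_mem_N' H hrep hz)

theorem mu_unique (H : LHyp ℂ F) {z : (Fin g → Place ℂ F) × (Fin g → Place ℂ F)}
    {T : Fin g → Place ℂ F} (hT : T ∈ L.G₀) (hrel : (z, T) ∈ L.Rel) : L.mu z = T := by
  obtain ⟨hμG, hμR⟩ := L.mu_spec_of_exists ⟨T, hT, hrel⟩
  have := L.sumPts_eq_of_Rel H hT.2 hμR hrel
  exact eq_of_sumPts_eq_of_disjoint L.hU (L.hW₀U _ hμG.1) (L.hW₀U _ hT.1) this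

theorem mu_base (H : LHyp ℂ F) : L.mu (L.P₀, L.P₀) = L.P₀ :=
  L.mu_unique H L.P₀_mem_G₀ L.base_mem_Rel

/-- **`μ` is continuous** (closed relation + compactness; the disjointness of the `U i` removes the
permutation ambiguity). -/
theorem continuousAt_mu (H : LHyp ℂ F)
    (hrep : ∀ D : Divisor ℂ F, Divisor.degree D = g →
      ∃ T : Fin g → Place ℂ F, D - sumPts T ∈ Divisor.principal (K := ℂ) (F := F))
    (hCLg : IsClosed (linEqSet F g)) (hCL2 : IsClosed (linEqSet F (g + g)))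
    {z₀ : (Fin g → Place ℂ F) × (Fin g → Place ℂ F)} (hz₀ : z₀ ∈ L.N') :
    ContinuousAt L.mu z₀ := by
  rw [ContinuousAt, _root_.tendsto_nhds]
  intro O hO hmem
  have hO' : IsOpen (O ∩ L.G₀) := hO.inter (L.isOpen_G₀ H hCLg)
  have hM : IsOpen {z : (Fin g → Place ℂ F) × (Fin g → Place ℂ F) |
      ∀ T, (z, T) ∈ L.Rel → T ∈ permNbhd (O ∩ L.G₀)} :=
    isOpen_setOf_forall_rel (L.isClosed_Rel hCL2) (isOpen_permNbhd hO')
  have hz₀M : z₀ ∈ {z : (Fin g → Place ℂ F) × (Fin g → Place ℂ F) |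
      ∀ T, (z, T) ∈ L.Rel → T ∈ permNbhd (O ∩ L.G₀)} := by
    intro T hT
    obtain ⟨hμG, hμR⟩ := L.mu_spec H hrep hz₀
    have := L.sumPts_eq_of_Rel H hμG.2 hT hμR
    obtain ⟨σ, hσ⟩ := exists_perm_of_sumPts_eq this
    exact ⟨σ, hσ ▸ ⟨hmem, hμG⟩⟩
  filter_upwards [hM.mem_nhds hz₀M, (L.isOpen_N' H hCLg hCL2).mem_nhds hz₀] with z hzM hzN
  obtain ⟨hμG, hμR⟩ := L.mu_spec H hrep hzN
  obtain ⟨σ, hσ⟩ := hzM _ hμR
  have hfix : L.mu z ∘ σ = L.mu z :=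
    comp_perm_eq_self_of_disjoint L.hU (L.hW₀U _ hμG.1) (L.hW₀U _ hσ.2.1)
  rw [hfix] at hσ
  exact hσ.1

/-! ### the addition map `m (v, w) = A (μ (s v, s w))` -/

/-- `(v, w) ↦ (s v, s w)`. -/
def ss (p : (Fin g → ℂ) × (Fin g → ℂ)) : (Fin g → Place ℂ F) × (Fin g → Place ℂ F) :=
  (L.s p.1, L.s p.2)

theorem continuousOn_ss : ContinuousOn L.ss (L.V ×ˢ L.V) := by
  refine ContinuousOn.prodMk ?_ ?_
  · exact L.hsc.comp continuousOn_fst fun p hp => hp.1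
  · exact L.hsc.comp continuousOn_snd fun p hp => hp.2

/-- the domain of `m`. -/
def B : Set ((Fin g → ℂ) × (Fin g → ℂ)) := (L.V ×ˢ L.V) ∩ L.ss ⁻¹' L.N'

theorem isOpen_B (H : LHyp ℂ F) (hCLg : IsClosed (linEqSet F g))
    (hCL2 : IsClosed (linEqSet F (g + g))) : IsOpen L.B :=
  L.continuousOn_ss.isOpen_inter_preimage (L.hV.prod L.hV) (L.isOpen_N' H hCLg hCL2)

theorem zero_mem_B (H : LHyp ℂ F) : ((0, 0) : (Fin g → ℂ) × (Fin g → ℂ)) ∈ L.B := by
  refine ⟨⟨L.zero_mem_V, L.zero_mem_V⟩, ?_⟩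
  show (L.s 0, L.s 0) ∈ L.N'
  rw [L.s_zero]
  exact L.base_mem_N' H

/-- the addition map in the coordinates of the Abel sum. -/
def m (p : (Fin g → ℂ) × (Fin g → ℂ)) : Fin g → ℂ := L.A (L.mu (L.ss p))

theorem continuousOn_m (H : LHyp ℂ F)
    (hrep : ∀ D : Divisor ℂ F, Divisor.degree D = g →
      ∃ T : Fin g → Place ℂ F, D - sumPts T ∈ Divisor.principal (K := ℂ) (F := F))
    (hCLg : IsClosed (linEqSet F g)) (hCL2 : IsClosed (linEqSet F (g + g))) :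
    ContinuousOn L.m L.B := by
  intro p hp
  refine ContinuousAt.continuousWithinAt ?_
  have h1 : ContinuousAt L.ss p :=
    L.continuousOn_ss.continuousAt ((L.hV.prod L.hV).mem_nhds hp.1)
  have h2 : ContinuousAt L.mu (L.ss p) := L.continuousAt_mu H hrep hCLg hCL2 hp.2
  have h3 : ContinuousAt L.A (L.mu (L.ss p)) :=
    L.hAc.continuousAt (L.hW₀.mem_nhds (L.mu_spec H hrep hp.2).1.1)
  have h23 : ContinuousAt (L.mu ∘ L.ss) p := h2.comp h1
  exact ContinuousAt.comp (g := L.A) (f := L.mu ∘ L.ss) h3 h23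

theorem m_sub_mem_Lam (H : LHyp ℂ F)
    (hrep : ∀ D : Divisor ℂ F, Divisor.degree D = g →
      ∃ T : Fin g → Place ℂ F, D - sumPts T ∈ Divisor.principal (K := ℂ) (F := F))
    {p : (Fin g → ℂ) × (Fin g → ℂ)} (hp : p ∈ L.B) : L.m p - p.1 - p.2 ∈ L.Lam := by
  obtain ⟨hμG, hμR⟩ := L.mu_spec H hrep hp.2
  have h := L.habel (L.s p.1) (L.hsW _ hp.1.1) (L.s p.2) (L.hsW _ hp.1.2) _ hμG.1
    (L.mem_Rel.mp hμR)
  rwa [L.hAs _ hp.1.1, L.hAs _ hp.1.2] at h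

theorem m_zero (H : LHyp ℂ F) : L.m (0, 0) = 0 := by
  show L.A (L.mu (L.s 0, L.s 0)) = 0
  rw [L.s_zero, L.mu_base H, L.hA0]

/-- **`m (v, w) = v + w`** on a ball around the origin. -/
theorem m_eq_add (H : LHyp ℂ F)
    (hrep : ∀ D : Divisor ℂ F, Divisor.degree D = g →
      ∃ T : Fin g → Place ℂ F, D - sumPts T ∈ Divisor.principal (K := ℂ) (F := F))
    (hCLg : IsClosed (linEqSet F g)) (hCL2 : IsClosed (linEqSet F (g + g)))
    {ρ₁ : ℝ} (hball : ball ((0, 0) : (Fin g → ℂ) × (Fin g → ℂ)) ρ₁ ⊆ L.B)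
    {p : (Fin g → ℂ) × (Fin g → ℂ)} (hp : p ∈ ball ((0, 0) : (Fin g → ℂ) × (Fin g → ℂ)) ρ₁) :
    L.m p = p.1 + p.2 := by
  have hρ₁ : 0 < ρ₁ := lt_of_le_of_lt dist_nonneg (mem_ball.mp hp)
  have hcont : ContinuousOn (fun q : (Fin g → ℂ) × (Fin g → ℂ) => L.m q - q.1 - q.2)
      (ball ((0, 0) : (Fin g → ℂ) × (Fin g → ℂ)) ρ₁) :=
    (((L.continuousOn_m H hrep hCLg hCL2).mono hball).sub continuousOn_fst).sub continuousOn_snd
  have hconn : IsPreconnected (ball ((0, 0) : (Fin g → ℂ) × (Fin g → ℂ)) ρ₁) :=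
    (convex_ball _ _).isPreconnected
  have hmaps : MapsTo (fun q : (Fin g → ℂ) × (Fin g → ℂ) => L.m q - q.1 - q.2)
      (ball ((0, 0) : (Fin g → ℂ) × (Fin g → ℂ)) ρ₁) (L.Lam : Set (Fin g → ℂ)) :=
    fun q hq => L.m_sub_mem_Lam H hrep (hball hq)
  have h := eq_of_mapsTo_countable hconn hcont L.hLam hmaps hp (mem_ball_self hρ₁)
  simp only [L.m_zero H, sub_zero] at h
  have : L.m p = L.m p - p.1 - p.2 + p.1 + p.2 := by abel
  rw [this, h]
  simp

end LocalAbel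

/-! ### the end literal of chapter E -/

namespace LocalAbel

variable {F : Type*} [Field F] [Algebra ℂ F] [TopologicalSpace (Place ℂ F)]
  [CompactSpace (Place ℂ F)] {g : ℕ} (L : LocalAbel F g)

/-- the class `[Σ s v - ΣP₀]`. -/
def psi (H : LHyp ℂ F) (v : Fin g → ℂ) : Pic0 ℂ F :=
  mkD (sumPts (L.s v) - sumPts L.P₀)
    (by rw [map_sub, degree_sumPts H, degree_sumPts H, sub_self])

/-- **the end literal of chapter E** for the base tuple `L.P₀`. -/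
theorem abelOutput (H : LHyp ℂ F) (hCL : ∀ m : ℕ, IsClosed (linEqSet F m))
    (hrep : ∀ D : Divisor ℂ F, Divisor.degree D = g →
      ∃ T : Fin g → Place ℂ F, D - sumPts T ∈ Divisor.principal (K := ℂ) (F := F)) :
    ∃ (ρ : ℝ) (ψ : (Fin g → ℂ) → Pic0 ℂ F) (W : Set (Fin g → Place ℂ F)),
      0 < ρ ∧ (∀ v w, ‖v‖ < ρ → ‖w‖ < ρ → ‖v + w‖ < ρ → ψ (v + w) = ψ v + ψ w) ∧
      (∀ v w, ‖v‖ < ρ → ‖w‖ < ρ → ψ v = ψ w → v = w) ∧ IsOpen W ∧ L.P₀ ∈ W ∧
      ∀ Q ∈ W, ∀ D : Divisor.degZero (K := ℂ) (F := F),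
        (D : Divisor ℂ F) = sumPts Q - sumPts L.P₀ → ∃ v, ‖v‖ < ρ ∧ ψ v = Pic0.mk D := by
  have hCLg := hCL g
  have hCL2 := hCL (g + g)
  -- the two radii
  obtain ⟨ρ₁, hρ₁, hball₁⟩ := Metric.isOpen_iff.mp (L.isOpen_B H hCLg hCL2) _ (L.zero_mem_B H)
  have hS₂o : IsOpen (L.V ∩ L.s ⁻¹' {Q | finrank ℂ ↥(riemannRochSpace (sumPts Q)) = 1}) :=
    L.hsc.isOpen_inter_preimage L.hV (isOpen_setOf_finrank_eq_one H g hCLg)
  have h0S₂ : (0 : Fin g → ℂ) ∈ L.V ∩ L.s ⁻¹' {Q | finrank ℂ ↥(riemannRochSpace (sumPts Q)) = 1} := by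
    refine ⟨L.zero_mem_V, ?_⟩
    show finrank ℂ ↥(riemannRochSpace (sumPts (L.s 0))) = 1
    rw [L.s_zero]
    exact L.h1
  obtain ⟨ρ₂, hρ₂, hball₂⟩ := Metric.isOpen_iff.mp hS₂o _ h0S₂
  have hsmall : ∀ v : Fin g → ℂ, ‖v‖ < min ρ₁ ρ₂ →
      v ∈ L.V ∧ finrank ℂ ↥(riemannRochSpace (sumPts (L.s v))) = 1 := by
    intro v hv
    have : v ∈ ball (0 : Fin g → ℂ) ρ₂ := by
      rw [mem_ball_zero_iff]
      exact lt_of_lt_of_le hv (min_le_right _ _)
    exact hball₂ this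
  have hpair : ∀ v w : Fin g → ℂ, ‖v‖ < min ρ₁ ρ₂ → ‖w‖ < min ρ₁ ρ₂ →
      (v, w) ∈ ball ((0, 0) : (Fin g → ℂ) × (Fin g → ℂ)) ρ₁ := by
    intro v w hv hw
    rw [mem_ball, Prod.dist_eq, dist_zero_right, dist_zero_right]
    exact max_lt (lt_of_lt_of_le hv (min_le_left _ _)) (lt_of_lt_of_le hw (min_le_left _ _))
  refine ⟨min ρ₁ ρ₂, L.psi H, L.W₀ ∩ L.A ⁻¹' ball (0 : Fin g → ℂ) (min ρ₁ ρ₂), lt_min hρ₁ hρ₂,
    ?_, ?_, L.hAc.isOpen_inter_preimage L.hW₀ isOpen_ball, ⟨L.hP₀, ?_⟩, ?_⟩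
  · -- additivity
    intro v w hv hw _
    have hp := hpair v w hv hw
    have hm := L.m_eq_add H hrep hCLg hCL2 hball₁ hp
    obtain ⟨hμG, hμR⟩ := L.mu_spec H hrep (hball₁ hp).2
    have hAμ : L.A (L.mu (L.ss (v, w))) = v + w := hm
    have hsvw : L.s (v + w) = L.mu (L.ss (v, w)) := by
      rw [← hAμ]
      exact L.hsA _ hμG.1
    have hrel := L.mem_Rel.mp hμR
    rw [← hsvw] at hrel
    unfold psi
    rw [mkD_add, mkD_eq_mkD_iff]
    have e : sumPts (L.s (v + w)) - sumPts L.P₀ -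
        (sumPts (L.s v) - sumPts L.P₀ + (sumPts (L.s w) - sumPts L.P₀)) =
        sumPts (L.s (v + w)) + sumPts L.P₀ - (sumPts (L.s v) + sumPts (L.s w)) := by abel
    rw [e]
    exact hrel
  · -- injectivity
    intro v w hv hw hψ
    obtain ⟨hvV, hv1⟩ := hsmall v hv
    obtain ⟨hwV, hw1⟩ := hsmall w hw
    unfold psi at hψ
    rw [mkD_eq_mkD_iff] at hψ
    have e : sumPts (L.s v) - sumPts L.P₀ - (sumPts (L.s w) - sumPts L.P₀) =
        sumPts (L.s v) - sumPts (L.s w) := by abel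
    rw [e] at hψ
    have heq := RRGlue9.eq_of_sub_mem_principal_of_finrank_L_eq_one H (sumPts_nonneg _) hw1
      (sumPts_nonneg _) hψ
    have hs : L.s v = L.s w :=
      eq_of_sumPts_eq_of_disjoint L.hU (L.hW₀U _ (L.hsW _ hvV)) (L.hW₀U _ (L.hsW _ hwV)) heq
    rw [← L.hAs v hvV, ← L.hAs w hwV, hs]
  · -- `P₀ ∈ W`
    show L.A L.P₀ ∈ ball (0 : Fin g → ℂ) (min ρ₁ ρ₂)
    rw [L.hA0]
    exact mem_ball_self (lt_min hρ₁ hρ₂)
  · -- every `Q ∈ W` is `s v`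
    rintro Q ⟨hQW, hQA⟩ D hD
    have hQA' : ‖L.A Q‖ < min ρ₁ ρ₂ := mem_ball_zero_iff.mp hQA
    refine ⟨L.A Q, hQA', ?_⟩
    obtain ⟨D, hD0⟩ := D
    simp only at hD
    subst hD
    have hD0' : Divisor.degree (sumPts Q - sumPts L.P₀) = 0 := hD0
    show mkD _ _ = mkD _ hD0'
    rw [mkD_eq_mkD_iff, L.hsA Q hQW, sub_self]
    exact zero_mem _

end LocalAbel

/-- the end literal of chapter E in the `CountPre9` form (`g = genusFF ℂ F`). -/
theorem abelOutput_of_localAbel {F : Type*} [Field F] [Algebra ℂ F] [TopologicalSpace (Place ℂ F)]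
    [CompactSpace (Place ℂ F)] (L : LocalAbel F (genusFF ℂ F)) (H : LHyp ℂ F)
    (hCL : ∀ m : ℕ, IsClosed (linEqSet F m))
    (hrep : ∀ D : Divisor ℂ F, Divisor.degree D = genusFF ℂ F →
      ∃ T : Fin (genusFF ℂ F) → Place ℂ F, D - sumPts T ∈ Divisor.principal (K := ℂ) (F := F)) :
    CountPre9.AbelOutput F := by
  obtain ⟨ρ, ψ, W, h⟩ := L.abelOutput H hCL hrep
  exact ⟨L.P₀, ρ, ψ, W, L.h1, h⟩

/-- **the END LITERAL of the first half of chapter E** (`AbelData2.exists_abelData`, helper2's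
1520), as a proposition: the conjuncts are the fields of `LocalAbel` in order. -/
def AbelData (F : Type*) [Field F] [Algebra ℂ F] [TopologicalSpace (Place ℂ F)] : Prop :=
  ∃ (P₀ : Fin (genusFF ℂ F) → Place ℂ F) (U : Fin (genusFF ℂ F) → Set (Place ℂ F))
    (W₀ : Set (Fin (genusFF ℂ F) → Place ℂ F))
    (A : (Fin (genusFF ℂ F) → Place ℂ F) → (Fin (genusFF ℂ F) → ℂ))
    (s : (Fin (genusFF ℂ F) → ℂ) → (Fin (genusFF ℂ F) → Place ℂ F))
    (V : Set (Fin (genusFF ℂ F) → ℂ)) (Lam : AddSubgroup (Fin (genusFF ℂ F) → ℂ)),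
    finrank ℂ ↥(riemannRochSpace (sumPts P₀)) = 1 ∧ Pairwise (Function.onFun Disjoint U) ∧
    IsOpen W₀ ∧ (∀ Q ∈ W₀, ∀ i, Q i ∈ U i) ∧ P₀ ∈ W₀ ∧ IsOpen V ∧ A P₀ = 0 ∧
    (∀ Q ∈ W₀, A Q ∈ V) ∧ (∀ v ∈ V, s v ∈ W₀) ∧ (∀ Q ∈ W₀, s (A Q) = Q) ∧
    (∀ v ∈ V, A (s v) = v) ∧ ContinuousOn A W₀ ∧ ContinuousOn s V ∧
    (Lam : Set (Fin (genusFF ℂ F) → ℂ)).Countable ∧
    ∀ Q ∈ W₀, ∀ Q' ∈ W₀, ∀ T ∈ W₀,
      sumPts T + sumPts P₀ - (sumPts Q + sumPts Q') ∈ Divisor.principal (K := ℂ) (F := F) →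
        A T - A Q - A Q' ∈ Lam

/-- **chapter E**: from the data of its first half and (CL) to its end literal. -/
theorem abelOutput_of_abelData {F : Type*} [Field F] [Algebra ℂ F] {x : F}
    (hx : Fermat.Agent.X0.FF.IsGen ℂ x) (H : LHyp ℂ F)
    [TopologicalSpace (Place ℂ F)] [CompactSpace (Place ℂ F)] (hdata : AbelData F)
    (hCL : ∀ m : ℕ, IsClosed (linEqSet F m)) : CountPre9.AbelOutput F := by
  obtain ⟨P₀, U, W₀, A, s, V, Lam, h1, hU, hW₀, hW₀U, hP₀, hV, hA0, hAV, hsW, hsA, hAs, hAc, hsc,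
    hLam, habel⟩ := hdata
  exact abelOutput_of_localAbel
    { P₀ := P₀, U := U, W₀ := W₀, A := A, s := s, V := V, Lam := Lam, h1 := h1, hU := hU,
      hW₀ := hW₀, hW₀U := hW₀U, hP₀ := hP₀, hV := hV, hA0 := hA0, hAV := hAV, hsW := hsW,
      hsA := hsA, hAs := hAs, hAc := hAc, hsc := hsc, hLam := hLam, habel := habel }
    H hCL (fun D hD => RRGlue9.exists_effective_rep_isGen hx D _ hD le_rfl)

end Fermat.Agent.M27.AbelOut9
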