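/-
Programme M27 (S27), chapter G (Lefschetz), leaf (G2), lead: **every field `K₀` of characteristic 0 with
at most continuum many elements embeds into an algebraically closed field `BigField K₀` (same universe)
that is ring-isomorphic to `ℂ`.**

`BigField K₀ := AlgebraicClosure (FractionRing (MvPolynomial (ULift ℝ) K₀))`; cardinality `𝔠` by
Mathlib's cardinal lemmas for `MvPolynomial`, `FractionRing` and algebraic extensions; Steinitz
(`IsAlgClosed.ringEquiv_of_equiv_of_charZero`) gives the isomorphism with `ℂ`.

Mathlib only.  Imported by no statement.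
-/
import Mathlib

set_option autoImplicit false

open Cardinal

noncomputable section

namespace Fermat.Agent.M27.BigField0

universe u

/-- The purely transcendental extension of `K₀` in continuum many variables. -/
abbrev Rat (K₀ : Type u) [Field K₀] : Type u :=
  FractionRing (MvPolynomial (ULift.{u} ℝ) K₀)

/-- An algebraically closed extension of `K₀` of cardinality (at least) the continuum. -/
def BigField (K₀ : Type u) [Field K₀] : Type u := AlgebraicClosure (Rat K₀)

variable (K₀ : Type u) [Field K₀]

instance : Field (BigField K₀) := inferInstanceAs (Field (AlgebraicClosure (Rat K₀)))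

instance : IsAlgClosed (BigField K₀) := inferInstanceAs (IsAlgClosed (AlgebraicClosure (Rat K₀)))

instance : Algebra (Rat K₀) (BigField K₀) :=
  inferInstanceAs (Algebra (Rat K₀) (AlgebraicClosure (Rat K₀)))

instance : Algebra.IsAlgebraic (Rat K₀) (BigField K₀) :=
  inferInstanceAs (Algebra.IsAlgebraic (Rat K₀) (AlgebraicClosure (Rat K₀)))

instance : Algebra K₀ (BigField K₀) :=
  ((algebraMap (Rat K₀) (BigField K₀)).comp (algebraMap K₀ (Rat K₀))).toAlgebra

instance [CharZero K₀] : CharZero (BigField K₀) :=
  charZero_of_injective_algebraMap (algebraMap K₀ (BigField K₀)).injective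

theorem mk_ulift_real : #(ULift.{u} ℝ) = 𝔠 := by
  rw [← Cardinal.lift_id'.{0, u} #(ULift.{u} ℝ)]
  simp [Cardinal.mk_real]

theorem mk_rat (h : #K₀ ≤ 𝔠) : #(Rat K₀) = 𝔠 := by
  rw [Cardinal.mk_fractionRing, MvPolynomial.cardinalMk_eq_max, mk_ulift_real]
  apply le_antisymm
  · exact max_le (max_le h le_rfl) aleph0_le_continuum
  · exact le_trans (le_max_right _ _) (le_max_left _ _)

theorem mk_bigField (h : #K₀ ≤ 𝔠) : #(BigField K₀) = 𝔠 := by
  apply le_antisymm
  · have h1 := Algebra.IsAlgebraic.cardinalMk_le_max (Rat K₀) (BigField K₀)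
    rw [mk_rat K₀ h] at h1
    exact h1.trans (max_le le_rfl aleph0_le_continuum)
  · rw [← mk_rat K₀ h]
    exact Cardinal.mk_le_of_injective (algebraMap (Rat K₀) (BigField K₀)).injective

/-- **`BigField K₀ ≃+* ℂ`** for a field `K₀` of characteristic zero with at most continuum many
elements. -/
theorem nonempty_ringEquiv_complex [CharZero K₀] (h : #K₀ ≤ 𝔠) :
    Nonempty (BigField K₀ ≃+* ℂ) := by
  have hc : #(BigField K₀) = 𝔠 := mk_bigField K₀ h
  have hlt : ℵ₀ < #(BigField K₀) := by
    rw [hc]
    exact aleph0_lt_continuum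
  have heq : Nonempty (BigField K₀ ≃ ℂ) := by
    rw [← Cardinal.lift_mk_eq', hc, Cardinal.mk_complex]
    simp
  exact IsAlgClosed.ringEquiv_of_equiv_of_charZero hlt heq

omit [Field K₀] in
/-- A countable type has at most continuum many elements. -/
theorem mk_le_continuum_of_countable [Countable K₀] : #K₀ ≤ 𝔠 :=
  (Cardinal.mk_le_aleph0).trans aleph0_le_continuum

end Fermat.Agent.M27.BigField0
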