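/-
Programme M27 (target S27), chapter A, leaf (A3), interface-free half (helper8):
**the holomorphic branch of a plane curve at a smooth point.**

For `G : ℂ[X][Y]` with `G(0,0) = 0`, `G_Y(0,0) ≠ 0` there are `r ε > 0` and `η : ℂ → ℂ`, holomorphic
on `ball 0 r`, with `η 0 = 0`, `G(a, η a) = 0`, `G_Y(a, η a) ≠ 0`, `|η a| < ε` on `ball 0 r`, and
`η a` is the ONLY zero of `G(a, ·)` in `ball 0 ε` (for `a ∈ ball 0 r`).
Mathlib only (`ContDiffAt.implicitFunction`).  Imported by no statement.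
-/
import Mathlib

set_option autoImplicit false

open Polynomial Metric Filter Topology
open scoped Polynomial.Bivariate ContDiff

namespace Fermat.Agent.M27.Branch8

/-- `G(a,b)` as a finite sum of monomials in `b` with polynomial coefficients in `a`. -/
theorem evalEval_eq_sum (G : ℂ[X][Y]) (a b : ℂ) :
    G.evalEval a b = ∑ j ∈ G.support, (G.coeff j).eval a * b ^ j := by
  have h : eval (C b) G = ∑ j ∈ G.support, G.coeff j * (C b) ^ j := by
    rw [eval_eq_sum, Polynomial.sum]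
  rw [evalEval, h, eval_finsetSum]
  refine Finset.sum_congr rfl fun j _ => ?_
  rw [eval_mul, eval_pow, eval_C]

/-- `(a,b) ↦ G(a,b)` is smooth (over `ℂ`). -/
theorem contDiff_evalEval (G : ℂ[X][Y]) (n : ℕ∞ω) :
    ContDiff ℂ n (fun p : ℂ × ℂ => G.evalEval p.1 p.2) := by
  have h : (fun p : ℂ × ℂ => G.evalEval p.1 p.2) =
      fun p : ℂ × ℂ => ∑ j ∈ G.support, (G.coeff j).eval p.1 * p.2 ^ j := by
    funext p
    exact evalEval_eq_sum G p.1 p.2
  rw [h]
  refine ContDiff.sum fun j _ => ?_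
  refine ContDiff.mul ?_ (contDiff_snd.pow j)
  exact (Polynomial.contDiff_aeval (G.coeff j) n).comp contDiff_fst

/-- the partial derivative in the second variable. -/
theorem hasDerivAt_evalEval_snd (G : ℂ[X][Y]) (a b : ℂ) :
    HasDerivAt (fun b' => G.evalEval a b') ((derivative G).evalEval a b) b := by
  have h : (fun b' => G.evalEval a b') = fun b' => (G.map (evalRingHom a)).eval b' := by
    funext b'
    exact (map_evalRingHom_eval a b' G).symm
  rw [h, ← map_evalRingHom_eval a b (derivative G), ← derivative_map]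
  exact Polynomial.hasDerivAt _ _

/-- a nonzero scalar is an invertible continuous linear map `ℂ →L[ℂ] ℂ`. -/
theorem isInvertible_of_apply_one_ne_zero (L : ℂ →L[ℂ] ℂ) (h : L 1 ≠ 0) : L.IsInvertible := by
  refine ⟨ContinuousLinearEquiv.unitsEquivAut ℂ (Units.mk0 (L 1) h), ?_⟩
  apply ContinuousLinearMap.ext_ring
  simp

/-- **the holomorphic branch at a smooth point.** -/
theorem exists_branch (G : ℂ[X][Y]) (h0 : G.evalEval 0 0 = 0)
    (h1 : (derivative G).evalEval 0 0 ≠ 0) :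
    ∃ (r ε : ℝ) (η : ℂ → ℂ), 0 < r ∧ 0 < ε ∧ η 0 = 0 ∧ DifferentiableOn ℂ η (ball 0 r) ∧
      (∀ a ∈ ball (0 : ℂ) r, η a ∈ ball (0 : ℂ) ε ∧ G.evalEval a (η a) = 0 ∧
        (derivative G).evalEval a (η a) ≠ 0) ∧
      ∀ a ∈ ball (0 : ℂ) r, ∀ b ∈ ball (0 : ℂ) ε, G.evalEval a b = 0 → b = η a := by
  set f : ℂ × ℂ → ℂ := fun p => G.evalEval p.1 p.2 with hf
  have cdf : ContDiffAt ℂ 1 f ((0 : ℂ), (0 : ℂ)) := (contDiff_evalEval G 1).contDiffAt
  have pn : (1 : ℕ∞ω) ≠ 0 := one_ne_zero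
  have hfu : f ((0 : ℂ), (0 : ℂ)) = 0 := h0
  -- the partial derivative in the second variable
  have hpart : (fderiv ℂ f ((0 : ℂ), (0 : ℂ)) ∘L ContinuousLinearMap.inr ℂ ℂ ℂ) 1 =
      (derivative G).evalEval 0 0 := by
    have hd : HasFDerivAt f (fderiv ℂ f ((0 : ℂ), (0 : ℂ))) ((0 : ℂ), (0 : ℂ)) :=
      (cdf.differentiableAt pn).hasFDerivAt
    have hg : HasDerivAt (fun b : ℂ => ((0 : ℂ), b)) ((0 : ℂ), (1 : ℂ)) 0 :=
      (hasDerivAt_const (0 : ℂ) (0 : ℂ)).prodMk (hasDerivAt_id (0 : ℂ))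
    have hcomp : HasDerivAt (fun b : ℂ => f ((0 : ℂ), b))
        ((fderiv ℂ f ((0 : ℂ), (0 : ℂ))) ((0 : ℂ), (1 : ℂ))) 0 :=
      HasFDerivAt.comp_hasDerivAt (0 : ℂ) hd hg
    have h2 := hasDerivAt_evalEval_snd G 0 0
    have h3 := hcomp.unique h2
    simpa using h3
  have if₂ : (fderiv ℂ f ((0 : ℂ), (0 : ℂ)) ∘L ContinuousLinearMap.inr ℂ ℂ ℂ).IsInvertible :=
    isInvertible_of_apply_one_ne_zero _ (by rw [hpart]; exact h1)
  set ψ : ℂ → ℂ := cdf.implicitFunction pn if₂ with hψ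
  have hψ0 : ψ 0 = 0 := cdf.implicitFunction_apply_self pn if₂
  have hE1 : ∀ᶠ x in 𝓝 (0 : ℂ), f (x, ψ x) = 0 := by
    have := cdf.eventually_apply_implicitFunction pn if₂
    simpa [hfu] using this
  have hE2 : ∀ᶠ v in 𝓝 ((0 : ℂ), (0 : ℂ)), f v = 0 ↔ ψ v.1 = v.2 := by
    have := cdf.eventually_apply_eq_iff_implicitFunction pn if₂
    simpa [hfu] using this
  have hcd : ContDiffAt ℂ 1 ψ 0 := cdf.contDiffAt_implicitFunction pn if₂
  have hdiff : ∀ᶠ x in 𝓝 (0 : ℂ), DifferentiableAt ℂ ψ x := by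
    have := hcd.eventually (by simp)
    filter_upwards [this] with x hx
    exact hx.differentiableAt pn
  have hcont : ContinuousAt ψ 0 := hcd.continuousAt
  -- the uniqueness box
  obtain ⟨ε, hε, hbox⟩ := Metric.eventually_nhds_iff.mp hE2
  have hsmall : ∀ᶠ x in 𝓝 (0 : ℂ), ψ x ∈ ball (0 : ℂ) ε := by
    have : ball (0 : ℂ) ε ∈ 𝓝 (ψ 0) := by rw [hψ0]; exact ball_mem_nhds _ hε
    exact hcont this
  have hder : ∀ᶠ x in 𝓝 (0 : ℂ), (derivative G).evalEval x (ψ x) ≠ 0 := by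
    have hc : ContinuousAt (fun x : ℂ => (derivative G).evalEval x (ψ x)) 0 := by
      have h5 : ContinuousAt (fun x : ℂ => (x, ψ x)) 0 := continuousAt_id.prodMk hcont
      exact ((contDiff_evalEval (derivative G) 0).continuous.continuousAt).comp h5
    have : {z : ℂ | z ≠ 0} ∈ 𝓝 ((derivative G).evalEval 0 (ψ 0)) := by
      rw [hψ0]; exact isOpen_ne.mem_nhds h1
    exact hc this
  obtain ⟨r₀, hr₀, hball⟩ := Metric.eventually_nhds_iff.mp
    (hE1.and (hdiff.and (hsmall.and hder)))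
  refine ⟨min r₀ ε, ε, ψ, lt_min hr₀ hε, hε, hψ0, ?_, ?_, ?_⟩
  · intro a ha
    have ha' : dist a 0 < r₀ := lt_of_lt_of_le (mem_ball.mp ha) (min_le_left _ _)
    exact (hball ha').2.1.differentiableWithinAt
  · intro a ha
    have ha' : dist a 0 < r₀ := lt_of_lt_of_le (mem_ball.mp ha) (min_le_left _ _)
    obtain ⟨h6, -, h7, h8⟩ := hball ha'
    exact ⟨h7, h6, h8⟩
  · intro a ha b hb hab
    have hv : dist ((a, b) : ℂ × ℂ) ((0 : ℂ), (0 : ℂ)) < ε := by
      rw [Prod.dist_eq]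
      exact max_lt (lt_of_lt_of_le (mem_ball.mp ha) (min_le_right _ _)) (mem_ball.mp hb)
    exact ((hbox hv).mp hab).symm

end Fermat.Agent.M27.Branch8
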