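/-
Programme M27 (target S27), chapter B, leaf "(CL) from (ZC)" (helper4): **linear equivalence of
effective divisors is a closed relation**, from the closedness lemma (ZC) for zeros of sections.

`X := Place ℂ F` compact, `hx : IsGen ℂ x`, `g = genusFF ℂ F`.

* `zcSet B e M`, `ZC F` : the set and the statement of (ZC): for `e_1, …, e_l ∈ L(B)` the set of
  `(λ, T) ∈ ℂ^l × X^M` with `u_λ := ∑ λ_j e_j = 0` or `T_1 + ⋯ + T_M ≤ div u_λ + B` is closed;
* `isClosed_linEqSet` : (ZC) implies that `{(Q, R) ∈ X^m × X^m | ∑ Q_i ∼ ∑ R_i}` is closed, for every `m`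
  (`B₀` of degree `m + g`, `e` a basis of `L(B₀)`; `∑ Q ∼ ∑ R` iff there are `λ, μ` on the unit sphere of
  `ℂ^l` and `T ∈ X^g` with `∑ Q + ∑ T = div u_λ + B₀` and `∑ R + ∑ T = div u_μ + B₀`; projection along a
  compact factor is a closed map).

Imported by no statement.
-/
import Mathlib
import Fermat.Agent.M27.ChainF9

set_option autoImplicit false
set_option linter.unusedSectionVars false
set_option linter.style.longLine false
set_option linter.unusedVariables false
set_option linter.style.haveILetI false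

open AlgebraicCurve Metric Topology Filter Set Module

noncomputable section

namespace Fermat.Agent.M27.LinEqClosed4

open Fermat.Agent.X0.FF Fermat.Agent.RR.LSpace Fermat.Agent.RR.Final
open Fermat.Agent.M17.GenericRR2 Fermat.Agent.M27.ChainF9

variable {F : Type*} [Field F] [Algebra ℂ F] {x : F}

/-- the set of (ZC). -/
def zcSet (B : Divisor ℂ F) {l : ℕ} (e : Fin l → F) (M : ℕ) :
    Set ((Fin l → ℂ) × (Fin M → Place ℂ F)) :=
  {p | (∑ j, p.1 j • e j = 0) ∨
    ∀ P : Place ℂ F, sumPts p.2 P ≤ P.ord (∑ j, p.1 j • e j) + B P}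

/-- **the statement (ZC)**: zeros of sections cannot disappear in a limit. -/
def ZC (F : Type*) [Field F] [Algebra ℂ F] [TopologicalSpace (Place ℂ F)] : Prop :=
  ∀ (B : Divisor ℂ F) (l : ℕ) (e : Fin l → F), (∀ j, e j ∈ riemannRochSpace B) →
    ∀ M : ℕ, IsClosed (zcSet B e M)

/-! ### divisors -/

theorem eq_of_le_of_degree_eq (H : LHyp ℂ F) {D D' : Divisor ℂ F} (hle : ∀ P, D P ≤ D' P)
    (hdeg : Divisor.degree D = Divisor.degree D') : D = D' := by
  have hE : 0 ≤ D' - D := by
    intro P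
    have := hle P
    simp only [Finsupp.coe_zero, Pi.zero_apply, Finsupp.coe_sub, Pi.sub_apply]
    omega
  have h0 := eq_zero_of_degree_eq_zero H hE (by rw [map_sub, hdeg, sub_self])
  exact (sub_eq_zero.mp h0).symm

theorem sumPts_append {m n : ℕ} (Q : Fin m → Place ℂ F) (T : Fin n → Place ℂ F) :
    sumPts (Fin.append Q T) = sumPts Q + sumPts T := by
  unfold sumPts
  rw [Fin.sum_univ_add]
  simp only [Fin.append_left, Fin.append_right]

/-- the degree count: an effective divisor of the right degree below `div u + B₀` is equal to it. -/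
theorem eq_of_le_div (H : LHyp ℂ F) {B₀ : Divisor ℂ F} {M : ℕ} (hB₀ : Divisor.degree B₀ = M)
    {u : F} (hu : u ≠ 0) (T : Fin M → Place ℂ F)
    (hle : ∀ P : Place ℂ F, sumPts T P ≤ P.ord u + B₀ P) (P : Place ℂ F) :
    sumPts T P = P.ord u + B₀ P := by
  have h := eq_of_le_of_degree_eq H (D := sumPts T) (D' := divOf H hu + B₀)
    (fun P => by rw [Finsupp.add_apply, divOf_apply]; exact hle P)
    (by rw [degree_sumPts H, map_add, degree_divOf, zero_add, hB₀])
  have := congrArg (fun D : Divisor ℂ F => D P) h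
  simpa [Finsupp.add_apply, divOf_apply] using this

theorem ord_smul_const (P : Place ℂ F) {c : ℂ} (hc : c ≠ 0) {u : F} (hu : u ≠ 0) :
    P.ord (c • u) = P.ord u := by
  rw [Algebra.smul_def, P.ord_mul ((map_ne_zero _).mpr hc) hu, ffp_ord_algebraMap, zero_add]

/-! ### the basis of `L(B₀)` and the unit sphere -/

section Basis

variable {B₀ : Divisor ℂ F} {l : ℕ} (b : Basis (Fin l) ℂ (riemannRochSpace B₀))

theorem sum_smul_coe (lam : Fin l → ℂ) :
    ∑ j, lam j • ((b j : riemannRochSpace B₀) : F) =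
      ((∑ j, lam j • b j : riemannRochSpace B₀) : F) := by
  rw [Submodule.coe_sum]
  rfl

theorem sum_smul_ne_zero {lam : Fin l → ℂ} (hlam : lam ≠ 0) :
    ∑ j, lam j • ((b j : riemannRochSpace B₀) : F) ≠ 0 := by
  intro h0
  rw [sum_smul_coe] at h0
  have h1 : (∑ j, lam j • b j : riemannRochSpace B₀) = 0 := Subtype.ext h0
  exact hlam (funext (Fintype.linearIndependent_iff.mp b.linearIndependent lam h1))

/-- every nonzero element of `L(B₀)` is, up to a nonzero constant, `u_λ` with `λ` on the unit sphere. -/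
theorem exists_sphere_rep {w : F} (hw : w ∈ riemannRochSpace B₀) (hw0 : w ≠ 0) :
    ∃ lam ∈ sphere (0 : Fin l → ℂ) 1, ∃ c : ℂ, c ≠ 0 ∧
      ∑ j, lam j • ((b j : riemannRochSpace B₀) : F) = c • w := by
  set lam₀ : Fin l → ℂ := b.equivFun ⟨w, hw⟩ with hlam₀
  have hsum : ∑ j, lam₀ j • b j = ⟨w, hw⟩ := b.sum_equivFun _
  have hne : lam₀ ≠ 0 := by
    intro h0
    rw [h0] at hsum
    simp only [Pi.zero_apply, zero_smul, Finset.sum_const_zero] at hsum
    exact hw0 (congrArg Subtype.val hsum).symm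
  have hnorm : 0 < ‖lam₀‖ := norm_pos_iff.mpr hne
  set c : ℂ := ((‖lam₀‖⁻¹ : ℝ) : ℂ) with hc
  have hc0 : c ≠ 0 := by
    rw [hc]
    exact_mod_cast (inv_pos.mpr hnorm).ne'
  refine ⟨c • lam₀, ?_, c, hc0, ?_⟩
  · rw [mem_sphere_zero_iff_norm, norm_smul, hc, Complex.norm_real, Real.norm_eq_abs,
      abs_of_pos (inv_pos.mpr hnorm), inv_mul_cancel₀ hnorm.ne']
  · have h1 : ∑ j, (c • lam₀) j • ((b j : riemannRochSpace B₀) : F) =
        c • ∑ j, lam₀ j • ((b j : riemannRochSpace B₀) : F) := by
      rw [Finset.smul_sum]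
      refine Finset.sum_congr rfl fun j _ => ?_
      rw [Pi.smul_apply, smul_eq_mul, mul_smul]
    rw [h1, sum_smul_coe, hsum]

end Basis

/-! ### (CL) from (ZC) -/

variable [TopologicalSpace (Place ℂ F)]

/-- **(CL)**: linear equivalence of effective divisors of degree `m` is a closed relation on `X^m × X^m`. -/
theorem isClosed_linEqSet (hx : IsGen ℂ x) [CompactSpace (Place ℂ F)] (hZC : ZC F) (m : ℕ) :
    IsClosed (linEqSet F m) := by
  classical
  set XR := Fermat.Agent.M15.ThirdKind0.rrDataGen hx with hXR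
  have H : LHyp ℂ F := XR.HL
  set g : ℕ := genusFF ℂ F with hg
  obtain ⟨P₁⟩ := H.nonempty
  -- the auxiliary divisor `B₀` of degree `m + g`
  set B₀ : Divisor ℂ F := Finsupp.single P₁ ((m + g : ℕ) : ℤ) with hB₀
  have hdegB₀ : Divisor.degree B₀ = ((m + g : ℕ) : ℤ) := degree_single H P₁ _
  haveI := finiteDimensional_L H B₀
  set l : ℕ := finrank ℂ (riemannRochSpace B₀) with hl
  let b : Basis (Fin l) ℂ (riemannRochSpace B₀) := Module.finBasis ℂ (riemannRochSpace B₀)
  set e : Fin l → F := fun j => ((b j : riemannRochSpace B₀) : F) with he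
  have heL : ∀ j, e j ∈ riemannRochSpace B₀ := fun j => (b j).2
  have hclosed := hZC B₀ l e heL (m + g)
  -- the compact parameter space
  haveI : CompactSpace (sphere (0 : Fin l → ℂ) 1) :=
    isCompact_iff_compactSpace.mp (isCompact_sphere 0 1)
  set Z : Set (((Fin m → Place ℂ F) × (Fin m → Place ℂ F)) ×
      ((sphere (0 : Fin l → ℂ) 1 × sphere (0 : Fin l → ℂ) 1) × (Fin g → Place ℂ F))) :=
    {q | ((q.2.1.1 : Fin l → ℂ), Fin.append q.1.1 q.2.2) ∈ zcSet B₀ e (m + g) ∧
      ((q.2.1.2 : Fin l → ℂ), Fin.append q.1.2 q.2.2) ∈ zcSet B₀ e (m + g)} with hZ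
  have hZclosed : IsClosed Z := by
    have hc1 : Continuous fun q : ((Fin m → Place ℂ F) × (Fin m → Place ℂ F)) ×
        ((sphere (0 : Fin l → ℂ) 1 × sphere (0 : Fin l → ℂ) 1) × (Fin g → Place ℂ F)) =>
        ((q.2.1.1 : Fin l → ℂ), (Fin.append q.1.1 q.2.2 : Fin (m + g) → Place ℂ F)) := by
      refine Continuous.prodMk ?_ ?_
      · exact continuous_subtype_val.comp (continuous_fst.comp (continuous_fst.comp continuous_snd))
      · exact (Fin.continuous_append m g).comp
          ((continuous_fst.comp continuous_fst).prodMk (continuous_snd.comp continuous_snd))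
    have hc2 : Continuous fun q : ((Fin m → Place ℂ F) × (Fin m → Place ℂ F)) ×
        ((sphere (0 : Fin l → ℂ) 1 × sphere (0 : Fin l → ℂ) 1) × (Fin g → Place ℂ F)) =>
        ((q.2.1.2 : Fin l → ℂ), (Fin.append q.1.2 q.2.2 : Fin (m + g) → Place ℂ F)) := by
      refine Continuous.prodMk ?_ ?_
      · exact continuous_subtype_val.comp (continuous_snd.comp (continuous_fst.comp continuous_snd))
      · exact (Fin.continuous_append m g).comp
          ((continuous_snd.comp continuous_fst).prodMk (continuous_snd.comp continuous_snd))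
    exact (hclosed.preimage hc1).inter (hclosed.preimage hc2)
  have hproj : IsClosed (Prod.fst '' Z) := isClosedMap_fst_of_compactSpace Z hZclosed
  have hsphere_ne : ∀ lam : sphere (0 : Fin l → ℂ) 1, (lam : Fin l → ℂ) ≠ 0 := by
    intro lam h0
    have := lam.2
    rw [mem_sphere_zero_iff_norm, h0, norm_zero] at this
    exact zero_ne_one this
  suffices hEq : linEqSet F m = Prod.fst '' Z by rw [hEq]; exact hproj
  ext ⟨Q, R⟩
  constructor
  · -- from a linear equivalence to parameters
    rintro ⟨f, hf0, hf⟩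
    have hf' : ∀ v : Place ℂ F, sumPts Q v - sumPts R v = v.ord f := fun v => by
      have := hf v
      rwa [Finsupp.sub_apply] at this
    -- Riemann's inequality: a section of `L(B₀ - ∑ Q)`
    have hdeg1 : (genusFF ℂ F : ℤ) ≤ Divisor.degree (B₀ - sumPts Q) := by
      rw [map_sub, hdegB₀, degree_sumPts H]
      push_cast
      omega
    obtain ⟨u, hu0, huL⟩ := RRGlue9.exists_ne_zero_mem_L XR (B₀ - sumPts Q) hdeg1
    have hu1 : ∀ v : Place ℂ F, sumPts Q v ≤ v.ord u + B₀ v := fun v => by
      have := (mem_L_iff hu0).mp huL v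
      rw [Finsupp.sub_apply] at this
      omega
    -- the residual divisor `E = div u + B₀ - ∑ Q` is a sum of `g` points
    have hE : 0 ≤ divOf H hu0 + B₀ - sumPts Q := by
      intro v
      simp only [Finsupp.coe_zero, Pi.zero_apply, Finsupp.coe_sub, Finsupp.coe_add, Pi.sub_apply,
        Pi.add_apply, divOf_apply]
      have := hu1 v
      omega
    have hdegE : Divisor.degree (divOf H hu0 + B₀ - sumPts Q) = (g : ℕ) := by
      rw [map_sub, map_add, degree_divOf, hdegB₀, degree_sumPts H]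
      push_cast
      ring
    obtain ⟨T, hT⟩ := RRGlue9.exists_sumPts_eq H g _ hE hdegE
    have hT' : ∀ v : Place ℂ F, sumPts T v = v.ord u + B₀ v - sumPts Q v := fun v => by
      have := congrArg (fun D : Divisor ℂ F => D v) hT
      simpa [Finsupp.sub_apply, Finsupp.add_apply, divOf_apply] using this
    have hTnn : ∀ v : Place ℂ F, 0 ≤ sumPts T v := fun v => by
      have := sumPts_nonneg T v
      simpa using this
    have hQnn : ∀ v : Place ℂ F, 0 ≤ sumPts Q v := fun v => by
      have := sumPts_nonneg Q v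
      simpa using this
    have hRnn : ∀ v : Place ℂ F, 0 ≤ sumPts R v := fun v => by
      have := sumPts_nonneg R v
      simpa using this
    -- `u ∈ L(B₀)` and `u' := u / f ∈ L(B₀)`
    have huB : u ∈ riemannRochSpace B₀ := by
      rw [mem_L_iff hu0]
      intro v
      have := hu1 v
      have := hQnn v
      omega
    set u' : F := u * f⁻¹ with hu'
    have hu'0 : u' ≠ 0 := mul_ne_zero hu0 (inv_ne_zero hf0)
    have hordu' : ∀ v : Place ℂ F, v.ord u' = v.ord u - v.ord f := fun v => by
      rw [hu', v.ord_mul hu0 (inv_ne_zero hf0), v.ord_inv]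
      ring
    have hu'B : u' ∈ riemannRochSpace B₀ := by
      rw [mem_L_iff hu'0]
      intro v
      rw [hordu' v, ← hf' v]
      have := hT' v
      have := hTnn v
      have := hRnn v
      omega
    obtain ⟨lam, hlam, c, hc0, hlamu⟩ := exists_sphere_rep b huB hu0
    obtain ⟨mu, hmu, c', hc'0, hmuu⟩ := exists_sphere_rep b hu'B hu'0
    refine ⟨((Q, R), ((⟨lam, hlam⟩, ⟨mu, hmu⟩), T)), ⟨?_, ?_⟩, rfl⟩
    · right
      intro v
      show sumPts (Fin.append Q T) v ≤ v.ord (∑ j, lam j • e j) + B₀ v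
      rw [sumPts_append, Finsupp.add_apply, hlamu, ord_smul_const v hc0 hu0, hT' v]
      omega
    · right
      intro v
      show sumPts (Fin.append R T) v ≤ v.ord (∑ j, mu j • e j) + B₀ v
      rw [sumPts_append, Finsupp.add_apply, hmuu, ord_smul_const v hc'0 hu'0, hordu' v, hT' v,
        ← hf' v]
      omega
  · -- from parameters to a linear equivalence
    rintro ⟨⟨⟨Q', R'⟩, ⟨⟨lam, mu⟩, T⟩⟩, ⟨h1, h2⟩, hqr⟩
    obtain ⟨rfl, rfl⟩ : Q' = Q ∧ R' = R := by
      have := Prod.mk.inj hqr
      exact this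
    have hu0 : ∑ j, (lam : Fin l → ℂ) j • e j ≠ 0 := sum_smul_ne_zero b (hsphere_ne lam)
    have hu'0 : ∑ j, (mu : Fin l → ℂ) j • e j ≠ 0 := sum_smul_ne_zero b (hsphere_ne mu)
    have h1' := h1.resolve_left hu0
    have h2' := h2.resolve_left hu'0
    have e1 := eq_of_le_div H hdegB₀ hu0 (Fin.append Q' T) h1'
    have e2 := eq_of_le_div H hdegB₀ hu'0 (Fin.append R' T) h2'
    refine ⟨(∑ j, (lam : Fin l → ℂ) j • e j) * (∑ j, (mu : Fin l → ℂ) j • e j)⁻¹,
      mul_ne_zero hu0 (inv_ne_zero hu'0), fun v => ?_⟩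
    rw [v.ord_mul hu0 (inv_ne_zero hu'0), v.ord_inv]
    show (sumPts Q' - sumPts R') v = _
    rw [Finsupp.sub_apply]
    have a1 := e1 v
    have a2 := e2 v
    rw [sumPts_append, Finsupp.add_apply] at a1 a2
    omega

end Fermat.Agent.M27.LinEqClosed4
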