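/-
Programme M27 (target S27), leaf (HB) (helper2): **the Hurwitz-type bound**, pure Mathlib.

* `norm_le_prod_of_vanish` : if `g` is holomorphic on `ball 0 r`, vanishes on the list `l` of points of
  `closedBall 0 (ρ/2)` WITH MULTIPLICITY (`count w l ≤ analyticOrderAt g w`), and `‖g‖ ≤ C` on the
  circle `‖ζ‖ = ρ < r`, then `‖g z‖ ≤ (2/ρ)^|l| · C · ∏_{a ∈ l} ‖z - a‖` on `closedBall 0 ρ`
  (`dslope` factorisation + maximum modulus);
* `le_analyticOrderAt_of_norm_le` : `‖g z‖ ≤ C ‖z - z₀‖^k` near `z₀` implies `k ≤ ord_{z₀} g`.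

Together: zeros cannot disappear in a limit (used for the closedness of linear equivalence).
-/
import Mathlib

set_option autoImplicit false
set_option linter.unusedSectionVars false
set_option linter.unusedVariables false
set_option linter.style.longLine false

noncomputable section

namespace Fermat.Agent.M27.Hurwitz2

open Metric Set Filter Topology

/-- `‖g z‖ ≤ C ‖z - z₀‖^k` near `z₀` implies `k ≤ ord_{z₀} g`. -/
theorem le_analyticOrderAt_of_norm_le {g : ℂ → ℂ} {z₀ : ℂ} (hg : AnalyticAt ℂ g z₀) {k : ℕ} {C : ℝ}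
    (h : ∀ᶠ z in 𝓝 z₀, ‖g z‖ ≤ C * ‖z - z₀‖ ^ k) : (k : ℕ∞) ≤ analyticOrderAt g z₀ := by
  by_contra hlt
  rw [not_le] at hlt
  have hne : analyticOrderAt g z₀ ≠ ⊤ := ne_top_of_lt hlt
  obtain ⟨n, hn⟩ := ENat.ne_top_iff_exists.mp hne
  rw [← hn] at hlt
  have hnk : n < k := by exact_mod_cast hlt
  obtain ⟨h', hh', hh'0, hgh⟩ := (hg.analyticOrderAt_eq_natCast).mp hn.symm
  -- `‖h' z‖ ≤ C ‖z - z₀‖^(k-n)` on a punctured neighbourhood
  have hbound : ∀ᶠ z in 𝓝[≠] z₀, ‖h' z‖ ≤ C * ‖z - z₀‖ ^ (k - n) := by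
    have h1 : ∀ᶠ z in 𝓝[≠] z₀, z ≠ z₀ := eventually_mem_nhdsWithin
    filter_upwards [h.filter_mono nhdsWithin_le_nhds, hgh.filter_mono nhdsWithin_le_nhds, h1]
      with z hz1 hz2 hz3
    have hpos : 0 < ‖z - z₀‖ := norm_pos_iff.mpr (sub_ne_zero.mpr hz3)
    rw [hz2, norm_smul, norm_pow] at hz1
    have hsplit : ‖z - z₀‖ ^ k = ‖z - z₀‖ ^ n * ‖z - z₀‖ ^ (k - n) := by
      rw [← pow_add, Nat.add_sub_cancel' hnk.le]
    rw [hsplit] at hz1
    have hpn : 0 < ‖z - z₀‖ ^ n := pow_pos hpos n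
    have : ‖z - z₀‖ ^ n * ‖h' z‖ ≤ ‖z - z₀‖ ^ n * (C * ‖z - z₀‖ ^ (k - n)) := by
      calc ‖z - z₀‖ ^ n * ‖h' z‖ ≤ C * (‖z - z₀‖ ^ n * ‖z - z₀‖ ^ (k - n)) := hz1
        _ = ‖z - z₀‖ ^ n * (C * ‖z - z₀‖ ^ (k - n)) := by ring
    exact le_of_mul_le_mul_left this hpn
  have hlim1 : Tendsto (fun z => ‖h' z‖) (𝓝[≠] z₀) (𝓝 ‖h' z₀‖) :=
    (hh'.continuousAt.norm).tendsto.mono_left nhdsWithin_le_nhds
  have hlim2 : Tendsto (fun z : ℂ => C * ‖z - z₀‖ ^ (k - n)) (𝓝[≠] z₀) (𝓝 0) := by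
    have hc : ContinuousAt (fun z : ℂ => C * ‖z - z₀‖ ^ (k - n)) z₀ := by fun_prop
    have h0 : (fun z : ℂ => C * ‖z - z₀‖ ^ (k - n)) z₀ = 0 := by
      have : k - n ≠ 0 := by omega
      simp [this]
    have := hc.tendsto
    simp only [] at h0
    have h0' : C * ‖z₀ - z₀‖ ^ (k - n) = 0 := h0
    rw [h0'] at this
    exact this.mono_left nhdsWithin_le_nhds
  have hle : ‖h' z₀‖ ≤ 0 := le_of_tendsto_of_tendsto hlim1 hlim2 hbound
  exact hh'0 (norm_le_zero_iff.mp hle)

/-- order of `z ↦ z - a` at `w`. -/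
theorem analyticOrderAt_sub_const (a w : ℂ) :
    analyticOrderAt (fun z : ℂ => z - a) w = if w = a then 1 else 0 := by
  split_ifs with h
  · subst h
    have := analyticOrderAt_id_sub_const_self (𝕜 := ℂ) (c := w)
    simpa [Function.comp_def] using this
  · have := analyticOrderAt_id_sub_const_of_ne (𝕜 := ℂ) (c := a) (x := w) h
    simpa [Function.comp_def] using this

/-- **the Hurwitz-type bound.** -/
theorem norm_le_prod_of_vanish {r ρ : ℝ} (hρ : 0 < ρ) (hρr : ρ < r) :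
    ∀ (l : List ℂ) (g : ℂ → ℂ) (C : ℝ), DifferentiableOn ℂ g (ball 0 r) →
      (∀ a ∈ l, ‖a‖ ≤ ρ / 2) → (∀ w, ((l.count w : ℕ) : ℕ∞) ≤ analyticOrderAt g w) →
      (∀ ζ, ‖ζ‖ = ρ → ‖g ζ‖ ≤ C) →
      ∀ z, ‖z‖ ≤ ρ → ‖g z‖ ≤ (2 / ρ) ^ l.length * C * (l.map fun a => ‖z - a‖).prod := by
  intro l
  induction l with
  | nil =>
    intro g C hg _ _ hC z hz
    simp only [List.length_nil, pow_zero, one_mul, List.map_nil, List.prod_nil, mul_one]
    have hd : DiffContOnCl ℂ g (ball 0 ρ) := by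
      have : DifferentiableOn ℂ g (closedBall 0 ρ) :=
        hg.mono (closedBall_subset_ball hρr)
      exact this.diffContOnCl_ball (le_refl _)
    refine Complex.norm_le_of_forall_mem_frontier_norm_le isBounded_ball hd ?_ ?_
    · intro ζ hζ
      rw [frontier_ball (0 : ℂ) hρ.ne'] at hζ
      exact hC ζ (by simpa using hζ)
    · rw [closure_ball (0 : ℂ) hρ.ne']
      simpa using hz
  | cons a₀ l ih =>
    intro g C hg ha hv hC z hz
    have ha₀ : ‖a₀‖ ≤ ρ / 2 := ha a₀ (List.mem_cons_self)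
    have ha₀r : a₀ ∈ ball (0 : ℂ) r := by
      rw [mem_ball_zero_iff]; linarith
    have hopen : ball (0 : ℂ) r ∈ 𝓝 a₀ := isOpen_ball.mem_nhds ha₀r
    -- `g a₀ = 0`
    have hga₀ : g a₀ = 0 := by
      have h1 := hv a₀
      rw [List.count_cons_self] at h1
      have h2 : analyticOrderAt g a₀ ≠ 0 := by
        intro h0
        rw [h0] at h1
        simp at h1
      exact apply_eq_zero_of_analyticOrderAt_ne_zero h2
    set g₁ : ℂ → ℂ := dslope g a₀ with hg₁
    have hg₁d : DifferentiableOn ℂ g₁ (ball 0 r) :=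
      (Complex.differentiableOn_dslope hopen).mpr hg
    have hfac : ∀ z, g z = (z - a₀) * g₁ z := by
      intro z
      have := sub_smul_dslope g a₀ z
      rw [hga₀, sub_zero, smul_eq_mul] at this
      exact this.symm
    -- orders
    have hv₁ : ∀ w, ((l.count w : ℕ) : ℕ∞) ≤ analyticOrderAt g₁ w := by
      intro w
      by_cases hw : w ∈ ball (0 : ℂ) r
      · have hA₁ : AnalyticAt ℂ g₁ w := hg₁d.analyticAt (isOpen_ball.mem_nhds hw)
        have hA₀ : AnalyticAt ℂ (fun z : ℂ => z - a₀) w := by fun_prop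
        have hmul : analyticOrderAt g w =
            analyticOrderAt (fun z : ℂ => z - a₀) w + analyticOrderAt g₁ w := by
          have hge : g = fun z => (z - a₀) * g₁ z := funext hfac
          conv_lhs => rw [hge]
          exact analyticOrderAt_mul hA₀ hA₁
        have h1 := hv w
        rw [hmul, analyticOrderAt_sub_const] at h1
        by_cases hwa : w = a₀
        · subst hwa
          rw [List.count_cons_self, if_pos rfl] at h1
          push_cast at h1
          rw [add_comm] at h1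
          exact (ENat.add_le_add_iff_left (by simp)).mp h1
        · rw [List.count_cons_of_ne (Ne.symm hwa), if_neg hwa, zero_add] at h1
          exact h1
      · -- outside the ball the count is zero
        have : l.count w = 0 := by
          rw [List.count_eq_zero]
          intro hmem
          apply hw
          have := ha w (List.mem_cons_of_mem _ hmem)
          rw [mem_ball_zero_iff]; linarith
        rw [this]; simp
    have hC₁ : ∀ ζ, ‖ζ‖ = ρ → ‖g₁ ζ‖ ≤ 2 / ρ * C := by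
      intro ζ hζ
      have hd : ρ / 2 ≤ ‖ζ - a₀‖ := by
        have := norm_sub_norm_le ζ a₀
        rw [hζ] at this
        linarith
      have hdpos : 0 < ‖ζ - a₀‖ := by linarith
      have h1 : ‖g ζ‖ = ‖ζ - a₀‖ * ‖g₁ ζ‖ := by rw [hfac ζ, norm_mul]
      have h2 := hC ζ hζ
      rw [h1] at h2
      have hC0 : 0 ≤ C := le_trans (by positivity) h2
      have h3 : ρ / 2 * ‖g₁ ζ‖ ≤ C := le_trans (mul_le_mul_of_nonneg_right hd (norm_nonneg _)) h2
      have h4 : ‖g₁ ζ‖ ≤ C / (ρ / 2) := by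
        rw [le_div_iff₀ (by positivity)]
        linarith
      calc ‖g₁ ζ‖ ≤ C / (ρ / 2) := h4
        _ = 2 / ρ * C := by field_simp
    have hih := ih g₁ (2 / ρ * C) hg₁d (fun a ha' => ha a (List.mem_cons_of_mem _ ha')) hv₁ hC₁ z hz
    rw [hfac z, norm_mul, List.length_cons, List.map_cons, List.prod_cons]
    calc ‖z - a₀‖ * ‖g₁ z‖
        ≤ ‖z - a₀‖ * ((2 / ρ) ^ l.length * (2 / ρ * C) * (l.map fun a => ‖z - a‖).prod) :=
          mul_le_mul_of_nonneg_left hih (norm_nonneg _)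
      _ = (2 / ρ) ^ (l.length + 1) * C * (‖z - a₀‖ * (l.map fun a => ‖z - a‖).prod) := by ring

end Fermat.Agent.M27.Hurwitz2
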