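/-
M27 (target S27), chapter B (helper7), planar core of the closedness lemma (ZC), Mathlib +
`Hurwitz2` only: **zeros cannot disappear in a limit, with multiplicities and moving
coefficients.**

`h_1, …, h_l` holomorphic on `ball 0 r`; along a filter `𝓕` the coefficient vectors `lam n` tend to
`lam₀` and `k` points `a n i` (`i : Fin k`) tend to `0`; if eventually `g_n = ∑ lam n j • h_j`
vanishes at the points `a n i` with multiplicities (`#{i | a n i = w} ≤ ord_w g_n` for all `w`),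
then `k ≤ ord_0 (∑ lam₀ j • h_j)`.

Imported by no statement.
-/
import Mathlib
import Fermat.Agent.M27.Hurwitz2

set_option autoImplicit false
set_option linter.unusedSectionVars false
set_option linter.unusedVariables false
set_option linter.style.longLine false

noncomputable section

namespace Fermat.Agent.M27.ZCPlanar7

open Metric Set Filter Topology

/-- the linear combination `∑ lam j * h j z`. -/
def comb {l : ℕ} (h : Fin l → ℂ → ℂ) (lam : Fin l → ℂ) : ℂ → ℂ := fun z => ∑ j, lam j * h j z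

theorem comb_differentiableOn {l : ℕ} {h : Fin l → ℂ → ℂ} {s : Set ℂ}
    (hh : ∀ j, DifferentiableOn ℂ (h j) s) (lam : Fin l → ℂ) :
    DifferentiableOn ℂ (comb h lam) s := by
  unfold comb
  exact DifferentiableOn.fun_sum fun j _ => (hh j).const_mul (lam j)

theorem count_ofFn_eq_card {k : ℕ} (a : Fin k → ℂ) (w : ℂ) :
    (List.ofFn a).count w = (Finset.univ.filter fun i => a i = w).card := by
  classical
  induction k with
  | zero => simp
  | succ k ih =>
    rw [List.ofFn_succ, List.count_cons, ih (fun i => a i.succ), Fin.card_filter_univ_succ]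
    by_cases h0 : a 0 = w <;> simp [h0]

/-- **Planar (ZC).** -/
theorem le_analyticOrderAt_of_tendsto {ι : Type*} {𝓕 : Filter ι} [𝓕.NeBot] {r : ℝ} (hr : 0 < r)
    {l k : ℕ} (h : Fin l → ℂ → ℂ) (hh : ∀ j, DifferentiableOn ℂ (h j) (ball 0 r))
    (lam : ι → Fin l → ℂ) (lam₀ : Fin l → ℂ) (hlam : Tendsto lam 𝓕 (𝓝 lam₀))
    (a : ι → Fin k → ℂ) (ha : ∀ i, Tendsto (fun n => a n i) 𝓕 (𝓝 0))
    (hv : ∀ᶠ n in 𝓕, ∀ w : ℂ,
      (((Finset.univ.filter fun i => a n i = w).card : ℕ) : ℕ∞) ≤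
        analyticOrderAt (comb h (lam n)) w) :
    (k : ℕ∞) ≤ analyticOrderAt (comb h lam₀) 0 := by
  classical
  set ρ : ℝ := r / 2 with hρdef
  have hρ : 0 < ρ := by positivity
  have hρr : ρ < r := by rw [hρdef]; linarith
  -- bounds of the `h j` on the circle
  have hcont : ∀ j, ContinuousOn (h j) (sphere (0 : ℂ) ρ) := fun j =>
    (hh j).continuousOn.mono fun z hz => by
      rw [mem_sphere_zero_iff_norm] at hz
      rw [mem_ball_zero_iff, hz]; exact hρr
  have hbd : ∀ j, ∃ Bj : ℝ, ∀ ζ : ℂ, ‖ζ‖ = ρ → ‖h j ζ‖ ≤ Bj := by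
    intro j
    obtain ⟨Bj, hBj⟩ := (isCompact_sphere (0 : ℂ) ρ).exists_bound_of_continuousOn (hcont j)
    exact ⟨Bj, fun ζ hζ => hBj ζ (by rw [mem_sphere_zero_iff_norm]; exact hζ)⟩
  choose Bd hBd using hbd
  set C : ℝ := ∑ j, (‖lam₀ j‖ + 1) * Bd j with hC
  -- eventually the coefficients are bounded
  have hlamj : ∀ j, ∀ᶠ n in 𝓕, ‖lam n j‖ ≤ ‖lam₀ j‖ + 1 := by
    intro j
    have h1 : Tendsto (fun n => lam n j) 𝓕 (𝓝 (lam₀ j)) := (tendsto_pi_nhds.mp hlam) j
    have h2 : Tendsto (fun n => ‖lam n j‖) 𝓕 (𝓝 ‖lam₀ j‖) := h1.norm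
    exact h2.eventually_le_const (by linarith)
  have hlam_all : ∀ᶠ n in 𝓕, ∀ j, ‖lam n j‖ ≤ ‖lam₀ j‖ + 1 := eventually_all.mpr hlamj
  have ha_all : ∀ᶠ n in 𝓕, ∀ i, ‖a n i‖ ≤ ρ / 2 := by
    refine eventually_all.mpr fun i => ?_
    have h2 : Tendsto (fun n => ‖a n i‖) 𝓕 (𝓝 ‖(0 : ℂ)‖) := (ha i).norm
    rw [norm_zero] at h2
    exact h2.eventually_le_const (by positivity)
  -- the bound for every index in the eventual set
  have hmain : ∀ᶠ n in 𝓕, ∀ z : ℂ, ‖z‖ ≤ ρ →
      ‖comb h (lam n) z‖ ≤ (2 / ρ) ^ k * C * ∏ i, ‖z - a n i‖ := by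
    filter_upwards [hv, hlam_all, ha_all] with n hvn hln han z hz
    have hB0 : ∀ j, 0 ≤ Bd j := fun j => by
      have hmem : ((ρ : ℝ) : ℂ) ∈ {ζ : ℂ | ‖ζ‖ = ρ} := by
        show ‖((ρ : ℝ) : ℂ)‖ = ρ
        rw [Complex.norm_real, Real.norm_eq_abs, abs_of_pos hρ]
      exact le_trans (norm_nonneg _) (hBd j _ hmem)
    have hcirc : ∀ ζ : ℂ, ‖ζ‖ = ρ → ‖comb h (lam n) ζ‖ ≤ C := by
      intro ζ hζ
      unfold comb
      refine le_trans (norm_sum_le _ _) ?_
      rw [hC]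
      refine Finset.sum_le_sum fun j _ => ?_
      rw [norm_mul]
      exact mul_le_mul (hln j) (hBd j ζ hζ) (norm_nonneg _) (by positivity)
    have hcount : ∀ w : ℂ, (((List.ofFn (a n)).count w : ℕ) : ℕ∞) ≤
        analyticOrderAt (comb h (lam n)) w := by
      intro w
      rw [count_ofFn_eq_card]
      exact hvn w
    have hmem : ∀ x ∈ List.ofFn (a n), ‖x‖ ≤ ρ / 2 := by
      intro x hx
      obtain ⟨i, rfl⟩ := (List.mem_ofFn' _ _).mp hx
      exact han i
    have := Fermat.Agent.M27.Hurwitz2.norm_le_prod_of_vanish hρ hρr (List.ofFn (a n))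
      (comb h (lam n)) C (comb_differentiableOn hh (lam n)) hmem hcount hcirc z hz
    rw [List.length_ofFn] at this
    refine le_trans this (le_of_eq ?_)
    congr 1
    rw [List.map_ofFn, List.prod_ofFn]
    rfl
  -- pass to the limit
  have hlim : ∀ z : ℂ, ‖z‖ ≤ ρ → ‖comb h lam₀ z‖ ≤ (2 / ρ) ^ k * C * ‖z‖ ^ k := by
    intro z hz
    have h1 : Tendsto (fun n => ‖comb h (lam n) z‖) 𝓕 (𝓝 ‖comb h lam₀ z‖) := by
      apply Tendsto.norm
      unfold comb
      refine tendsto_finsetSum _ fun j _ => ?_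
      exact ((tendsto_pi_nhds.mp hlam) j).mul_const _
    have h2 : Tendsto (fun n => (2 / ρ) ^ k * C * ∏ i, ‖z - a n i‖) 𝓕
        (𝓝 ((2 / ρ) ^ k * C * ‖z‖ ^ k)) := by
      apply Tendsto.const_mul
      have h3 : Tendsto (fun n => ∏ i : Fin k, ‖z - a n i‖) 𝓕 (𝓝 (∏ _i : Fin k, ‖z‖)) := by
        refine tendsto_finsetProd _ fun i _ => ?_
        have h4 : Tendsto (fun n => z - a n i) 𝓕 (𝓝 (z - 0)) := (ha i).const_sub z
        rw [sub_zero] at h4
        exact h4.norm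
      rw [Finset.prod_const, Finset.card_univ, Fintype.card_fin] at h3
      exact h3
    exact le_of_tendsto_of_tendsto h1 h2 (hmain.mono fun n hn => hn z hz)
  have hA : AnalyticAt ℂ (comb h lam₀) 0 :=
    (comb_differentiableOn hh lam₀).analyticAt (isOpen_ball.mem_nhds (mem_ball_self hr))
  apply Fermat.Agent.M27.Hurwitz2.le_analyticOrderAt_of_norm_le hA (C := (2 / ρ) ^ k * C)
  have hball : closedBall (0 : ℂ) ρ ∈ 𝓝 (0 : ℂ) := closedBall_mem_nhds _ hρ
  filter_upwards [hball] with z hz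
  rw [sub_zero]
  exact hlim z (by simpa using hz)

end Fermat.Agent.M27.ZCPlanar7
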