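/-
Programme M27 (target S27), chapter B (helper7), file 2: **(ZC) zeros cannot disappear in a limit**,
on the Riemann surface `X = Place ℂ F` of the interface `Iface2`.

For a divisor `B`, functions `e_1, …, e_l ∈ L(B)` and `M : ℕ`, the set of all
`(λ, T) ∈ ℂ^l × X^M` with `∑ λ_j e_j ∈ L(B - (T_1 + ⋯ + T_M))` is CLOSED
(`isClosed_zc`).  The proof reads everything in ONE chart around each point `Q` of the limit tuple
(shrunk so that it meets the support of `B` only at its centre) and applies the planar statement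
`ZCPlanar7.le_analyticOrderAt_of_tendsto` to the holomorphic functions `t^{B(Q)} e_j`.
-/
import Mathlib
import Fermat.Agent.M27.Iface2
import Fermat.Agent.M27.ZCPlanar7
import Fermat.Agent.M17.GenericRR2

set_option autoImplicit false
set_option linter.unusedSectionVars false
set_option linter.unusedVariables false
set_option linter.style.longLine false

noncomputable section

namespace Fermat.Agent.M27.ZCSurf7

open AlgebraicCurve Metric Topology Filter
open Fermat.Agent.RR.LSpace Fermat.Agent.M15.DivDefs4 Fermat.Agent.M27.Iface2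
open Fermat.Agent.M17.GenericRR2 Fermat.Agent.X0

variable {F : Type*} [Field F] [Algebra ℂ F]

/-! ### divisors of tuples -/

open Classical in
theorem sumPts_apply {M : ℕ} (T : Fin M → Place ℂ F) (Q : Place ℂ F) :
    sumPts T Q = ((Finset.univ.filter fun i => T i = Q).card : ℤ) := by
  unfold sumPts
  rw [Finsupp.finsetSum_apply]
  simp [Finsupp.single_apply, Finset.sum_boole]

/-! ### values of linear combinations -/

theorem valAt_sum_smul (H : LHyp ℂ F) (P : Place ℂ F) {l : ℕ} (lam : Fin l → ℂ) (g : Fin l → F)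
    (hg : ∀ j, g j ∈ P.toValuationSubring) :
    valAt H P (∑ j, lam j • g j) = ∑ j, lam j * valAt H P (g j) := by
  classical
  have key : ∀ s : Finset (Fin l), (∑ j ∈ s, lam j • g j) ∈ P.toValuationSubring ∧
      valAt H P (∑ j ∈ s, lam j • g j) = ∑ j ∈ s, lam j * valAt H P (g j) := by
    intro s
    induction s using Finset.induction_on with
    | empty =>
      refine ⟨by simp [zero_mem], ?_⟩
      simp only [Finset.sum_empty]
      have := valAt_algebraMap H P (0 : ℂ)
      simpa using this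
    | insert j s hj ih =>
      have h1 : lam j • g j ∈ P.toValuationSubring := by
        rw [Algebra.smul_def]
        exact mul_mem (P.algebraMap_mem' _) (hg j)
      rw [Finset.sum_insert hj, Finset.sum_insert hj]
      refine ⟨add_mem h1 ih.1, ?_⟩
      rw [valAt_add H P h1 ih.1, ih.2, Algebra.smul_def,
        valAt_mul H P (P.algebraMap_mem' _) (hg j), valAt_algebraMap]
  exact (key Finset.univ).2

/-! ### complements on charts -/

section Chart

variable {H : LHyp ℂ F} [TopologicalSpace (Place ℂ F)] (φ : Chart H)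

/-- the coordinate `P ↦ t(P)` is continuous at every point of the chart. -/
theorem tendsto_valAt_t {a : ℂ} (ha : a ∈ ball (0 : ℂ) φ.r) :
    Tendsto (fun P => valAt H P φ.t) (𝓝 (φ.c a)) (𝓝 a) := by
  have h := φ.emb.map_nhds_eq ⟨a, ha⟩
  rw [← h, tendsto_map'_iff]
  have h2 : ((fun P => valAt H P φ.t) ∘ fun b : ball (0 : ℂ) φ.r => φ.c b) = Subtype.val := by
    funext b
    exact φ.valAt_t b.2
  rw [h2]
  exact continuous_subtype_val.continuousAt

theorem ord_t_zero : (φ.c 0).ord φ.t = 1 := by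
  have := φ.ord_t 0 φ.zero_mem_ball
  simpa using this

theorem ord_t_of_ne {a : ℂ} (ha : a ∈ ball (0 : ℂ) φ.r) (ha0 : a ≠ 0) : (φ.c a).ord φ.t = 0 := by
  have h1 : φ.t = algebraMap ℂ F a + (φ.t - algebraMap ℂ F a) := by ring
  have h2 : algebraMap ℂ F a ≠ 0 := by
    simpa using ha0
  have h3 : (φ.c a).ord (algebraMap ℂ F a) < (φ.c a).ord (φ.t - algebraMap ℂ F a) := by
    rw [FF.ord_algebraMap, φ.ord_t a ha]
    exact one_pos
  have h4 := FF.ord_add_eq_of_lt (φ.c a) h2 h3
  rw [← h1, FF.ord_algebraMap] at h4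
  exact h4

theorem t_ne_zero : φ.t ≠ 0 := by
  intro h
  have := ord_t_zero φ
  rw [h] at this
  simp at this

/-- a chart can be shrunk so as to meet a given finite set of places at most in its centre. -/
theorem exists_radius (Sg : Set (Place ℂ F)) (hSg : Sg.Finite) :
    ∃ r' : ℝ, 0 < r' ∧ r' ≤ φ.r ∧ ∀ a ∈ ball (0 : ℂ) r', a ≠ 0 → φ.c a ∉ Sg := by
  set A : Set ℂ := {a | a ∈ ball (0 : ℂ) φ.r ∧ a ≠ 0 ∧ φ.c a ∈ Sg} with hA
  have hAfin : A.Finite := by
    apply Set.Finite.of_finite_image (f := φ.c)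
    · refine hSg.subset ?_
      rintro _ ⟨a, ha, rfl⟩
      exact ha.2.2
    · exact φ.injOn.mono fun a ha => ha.1
  have hopen : IsOpen Aᶜ := hAfin.isClosed.isOpen_compl
  have h0 : (0 : ℂ) ∈ Aᶜ := fun h => h.2.1 rfl
  obtain ⟨ε, hε, hsub⟩ := Metric.isOpen_iff.mp hopen 0 h0
  refine ⟨min ε φ.r, lt_min hε φ.r_pos, min_le_right _ _, ?_⟩
  intro a ha ha0 hmem
  have h1 : a ∈ ball (0 : ℂ) ε := ball_subset_ball (min_le_left _ _) ha
  have h2 : a ∈ ball (0 : ℂ) φ.r := ball_subset_ball (min_le_right _ _) ha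
  exact hsub h1 ⟨h2, ha0, hmem⟩

end Chart

/-! ### the closedness statement -/

variable {H : LHyp ℂ F} [TopologicalSpace (Place ℂ F)]

/-- **(ZC)**: zeros of a moving function `∑ λ_j e_j ∈ L(B)` cannot disappear in a limit:
the set of `(λ, T) ∈ ℂ^l × X^M` with `∑ λ_j e_j ∈ L(B - ∑ T_i)` is closed. -/
theorem isClosed_zc (S : IsRSurface H) (B : Divisor ℂ F) {l : ℕ} (e : Fin l → F)
    (he : ∀ j, e j ∈ riemannRochSpace B) (M : ℕ) :
    IsClosed {p : (Fin l → ℂ) × (Fin M → Place ℂ F) |
      ∑ j, p.1 j • e j ∈ riemannRochSpace (B - sumPts p.2)} := by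
  classical
  rw [isClosed_iff_forall_filter]
  rintro ⟨lam₀, T₀⟩ 𝓕 h𝓕 hle hlim
  rw [Set.mem_ofPred_eq, mem_riemannRochSpace_iff]
  intro Q
  by_cases hu₀ : ∑ j, lam₀ j • e j = 0
  · left; exact hu₀
  right
  -- notation
  set u : (Fin l → ℂ) → F := fun lam => ∑ j, lam j • e j with hu
  have hu₀' : u lam₀ ≠ 0 := hu₀
  have huL : ∀ lam, u lam ∈ riemannRochSpace B := fun lam =>
    Submodule.sum_mem _ fun j _ => Submodule.smul_mem _ _ (he j)
  -- the convergence data
  have hlam : Tendsto (fun p : (Fin l → ℂ) × (Fin M → Place ℂ F) => p.1) 𝓕 (𝓝 lam₀) :=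
    (continuous_fst.tendsto (lam₀, T₀)).mono_left hlim
  have hT : ∀ i, Tendsto (fun p : (Fin l → ℂ) × (Fin M → Place ℂ F) => p.2 i) 𝓕 (𝓝 (T₀ i)) :=
    fun i => (((continuous_apply i).comp continuous_snd).tendsto (lam₀, T₀)).mono_left hlim
  have hmem : ∀ᶠ p in 𝓕, u p.1 ∈ riemannRochSpace (B - sumPts p.2) :=
    Filter.le_principal_iff.mp hle
  -- eventually `u ≠ 0`
  have hne : ∀ᶠ p in 𝓕, u p.1 ≠ 0 := by
    set Lu : (Fin l → ℂ) →ₗ[ℂ] F := Fintype.linearCombination ℂ e with hLu
    have hLu' : ∀ lam, Lu lam = u lam := fun lam => by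
      rw [hLu, Fintype.linearCombination_apply]
    have hcl : IsClosed ((LinearMap.ker Lu : Submodule ℂ (Fin l → ℂ)) : Set (Fin l → ℂ)) :=
      Submodule.closed_of_finiteDimensional _
    have h0 : lam₀ ∉ ((LinearMap.ker Lu : Submodule ℂ (Fin l → ℂ)) : Set (Fin l → ℂ)) := by
      intro h
      apply hu₀
      have := LinearMap.mem_ker.mp h
      rwa [hLu'] at this
    have := hlam.eventually (hcl.isOpen_compl.mem_nhds h0)
    filter_upwards [this] with p hp hzero
    apply hp
    show p.1 ∈ LinearMap.ker Lu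
    rw [LinearMap.mem_ker, hLu']
    exact hzero
  -- the chart at `Q`
  obtain ⟨φ, hφQ⟩ := S.exists_chart Q
  obtain ⟨r', hr', hr'φ, hsupp⟩ := exists_radius φ (B.support : Set (Place ℂ F))
    (Finset.finite_toSet _)
  have hball : ball (0 : ℂ) r' ⊆ ball (0 : ℂ) φ.r := ball_subset_ball hr'φ
  set b : ℤ := B Q with hb
  set w : F := φ.t ^ b with hw
  have hw0 : w ≠ 0 := zpow_ne_zero _ (t_ne_zero φ)
  -- the order of `w` along the chart
  have hordw : ∀ a ∈ ball (0 : ℂ) r', (φ.c a).ord w = B (φ.c a) := by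
    intro a ha
    rw [hw, Place.ord_zpow]
    by_cases ha0 : a = 0
    · subst ha0
      rw [ord_t_zero φ, mul_one, hφQ]
    · rw [ord_t_of_ne φ (hball ha) ha0, mul_zero]
      have h := hsupp a ha ha0
      rw [Finset.mem_coe, Finsupp.mem_support_iff, not_not] at h
      exact h.symm
  -- orders of `w * g` for `g ∈ L(B)`
  have hordwg : ∀ g : F, g ≠ 0 → ∀ a ∈ ball (0 : ℂ) r',
      (φ.c a).ord (w * g) = (φ.c a).ord g + B (φ.c a) := by
    intro g hg a ha
    rw [Place.ord_mul _ hw0 hg, hordw a ha, add_comm]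
  have hreg : ∀ g : F, g ∈ riemannRochSpace B → ∀ a ∈ ball (0 : ℂ) r',
      0 ≤ (φ.c a).ord (w * g) := by
    intro g hg a ha
    by_cases hg0 : g = 0
    · rw [hg0, mul_zero, Place.ord_zero]
    · rw [hordwg g hg0 a ha]
      have := (mem_L_iff hg0).mp hg (φ.c a)
      omega
  -- the holomorphic functions
  set h : Fin l → ℂ → ℂ := fun j => φ.hat (w * e j) with hh
  have hhdiff : ∀ j, DifferentiableOn ℂ (h j) (ball (0 : ℂ) r') := by
    intro j a ha
    exact (φ.analyticAt (w * e j) a (hball ha)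
      (hreg _ (he j) a ha)).differentiableAt.differentiableWithinAt
  have hcomb : ∀ lam : Fin l → ℂ, ∀ a ∈ ball (0 : ℂ) r',
      ZCPlanar7.comb h lam a = φ.hat (w * u lam) a := by
    intro lam a ha
    have h1 : w * u lam = ∑ j, lam j • (w * e j) := by
      rw [hu]
      simp only
      rw [Finset.mul_sum]
      exact Finset.sum_congr rfl fun j _ => (mul_smul_comm _ _ _)
    rw [Chart.hat_apply, h1, valAt_sum_smul H (φ.c a) lam (fun j => w * e j)
      (fun j => FF.mem_of_ord_nonneg _ (hreg _ (he j) a ha))]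
    rfl
  have horder : ∀ lam : Fin l → ℂ, u lam ≠ 0 → ∀ a ∈ ball (0 : ℂ) r',
      analyticOrderAt (ZCPlanar7.comb h lam) a
        = ((((φ.c a).ord (u lam) + B (φ.c a)).toNat : ℕ) : ℕ∞) := by
    intro lam hlam0 a ha
    have h1 : ZCPlanar7.comb h lam =ᶠ[𝓝 a] φ.hat (w * u lam) := by
      filter_upwards [isOpen_ball.mem_nhds ha] with a' ha'
      exact hcomb lam a' ha'
    rw [analyticOrderAt_congr h1]
    have h2 := φ.order_eq (w * u lam) a (mul_ne_zero hw0 hlam0) (hball ha)
      (hreg _ (huL lam) a ha)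
    rw [hordwg _ hlam0 a ha] at h2
    exact h2
  -- the indices of the points converging to `Q`
  set I : Type := {i : Fin M // T₀ i = Q} with hI
  set k : ℕ := Fintype.card I with hk
  set σ : Fin k ≃ I := (Fintype.equivFin I).symm with hσ
  set a : (Fin l → ℂ) × (Fin M → Place ℂ F) → Fin k → ℂ :=
    fun p i => valAt H (p.2 (σ i).1) φ.t with ha
  have hTσ : ∀ i : Fin k, Tendsto (fun p : (Fin l → ℂ) × (Fin M → Place ℂ F) => p.2 (σ i).1) 𝓕
      (𝓝 (φ.c 0)) := by
    intro i
    have h2 : T₀ (σ i).1 = φ.c 0 := (σ i).2.trans hφQ.symm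
    have := hT (σ i).1
    rwa [h2] at this
  have hatend : ∀ i, Tendsto (fun p => a p i) 𝓕 (𝓝 0) := by
    intro i
    exact (tendsto_valAt_t φ φ.zero_mem_ball).comp (hTσ i)
  have hdom : ∀ᶠ p in 𝓕, ∀ i : Fin k, p.2 (σ i).1 ∈ φ.dom ∧ a p i ∈ ball (0 : ℂ) r' := by
    rw [Filter.eventually_all]
    intro i
    have h1 : ∀ᶠ p in 𝓕, p.2 (σ i).1 ∈ φ.dom :=
      (hTσ i).eventually (φ.isOpen_dom.mem_nhds ⟨0, φ.zero_mem_ball, rfl⟩)
    have h2 : ∀ᶠ p in 𝓕, a p i ∈ ball (0 : ℂ) r' :=
      (hatend i).eventually (isOpen_ball.mem_nhds (mem_ball_self hr'))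
    filter_upwards [h1, h2] with p hp1 hp2
    exact ⟨hp1, hp2⟩
  -- the planar hypothesis
  have hv : ∀ᶠ p in 𝓕, ∀ z : ℂ,
      (((Finset.univ.filter fun i => a p i = z).card : ℕ) : ℕ∞) ≤
        analyticOrderAt (ZCPlanar7.comb h p.1) z := by
    filter_upwards [hmem, hne, hdom] with p hp1 hp2 hp3 z
    by_cases hz : z ∈ ball (0 : ℂ) r'
    · rw [horder p.1 hp2 z hz]
      have h1 := (mem_L_iff hp2).mp hp1 (φ.c z)
      rw [Finsupp.sub_apply, sumPts_apply] at h1
      have h2 : (Finset.univ.filter fun i : Fin k => a p i = z).card ≤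
          (Finset.univ.filter fun i : Fin M => p.2 i = φ.c z).card := by
        apply Finset.card_le_card_of_injOn (fun i => (σ i).1)
        · intro i hi
          have hi' : a p i = z := by simpa using hi
          obtain ⟨a', ha', hca'⟩ := (hp3 i).1
          have h3 : a p i = a' := by
            show valAt H (p.2 (σ i).1) φ.t = a'
            rw [← hca', φ.valAt_t ha']
          simp only [Finset.coe_filter, Finset.mem_univ, true_and, Set.mem_ofPred_eq]
          rw [← hca', ← h3, hi']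
        · intro i _ i' _ hii
          exact σ.injective (Subtype.ext hii)
      have h3 : ((Finset.univ.filter fun i : Fin k => a p i = z).card : ℤ) ≤
          (φ.c z).ord (u p.1) + B (φ.c z) := by
        have : ((Finset.univ.filter fun i : Fin k => a p i = z).card : ℤ) ≤
            ((Finset.univ.filter fun i : Fin M => p.2 i = φ.c z).card : ℤ) := by
          exact_mod_cast h2
        omega
      have h4 : (Finset.univ.filter fun i : Fin k => a p i = z).card ≤
          ((φ.c z).ord (u p.1) + B (φ.c z)).toNat := by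
        omega
      exact_mod_cast h4
    · have h1 : (Finset.univ.filter fun i : Fin k => a p i = z) = ∅ := by
        apply Finset.filter_eq_empty_iff.mpr
        intro i _ hi
        exact hz (hi ▸ (hp3 i).2)
      rw [h1]
      simp
  -- conclusion
  have hfinal := ZCPlanar7.le_analyticOrderAt_of_tendsto hr' h hhdiff
    (fun p : (Fin l → ℂ) × (Fin M → Place ℂ F) => p.1) lam₀ hlam a hatend hv
  rw [horder lam₀ hu₀' 0 (mem_ball_self hr'), hφQ] at hfinal
  have hfinal' : k ≤ (Q.ord (u lam₀) + B Q).toNat := by exact_mod_cast hfinal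
  have hkcard : sumPts T₀ Q = (k : ℤ) := by
    rw [sumPts_apply, hk, Fintype.card_subtype]
  have hnn : 0 ≤ Q.ord (u lam₀) + B Q := by
    have := (mem_L_iff hu₀').mp (huL lam₀) Q
    omega
  show -((B - sumPts T₀) Q) ≤ Q.ord (u lam₀)
  rw [Finsupp.sub_apply, hkcard]
  omega

end Fermat.Agent.M27.ZCSurf7
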