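/-
Programme M27 (target S27), chapter B, the glue (helper2): **(CL) on the Riemann surface of `F / ℂ`**.

`ZCSurf7.isClosed_zc` (helper7: zeros cannot disappear in a limit, `L(B - ΣT)` form) is the statement
`LinEqClosed4.ZC F` (helper4's `zcSet` form), hence by `LinEqClosed4.isClosed_linEqSet` linear equivalence
of effective divisors of degree `m` is a closed relation on `X^m × X^m`.
-/
import Mathlib
import Fermat.Agent.M27.ZCSurf7
import Fermat.Agent.M27.LinEqClosed4

set_option autoImplicit false
set_option linter.unusedSectionVars false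
set_option linter.unusedVariables false
set_option linter.style.longLine false

noncomputable section

namespace Fermat.Agent.M27.CLSurf2

open AlgebraicCurve Topology
open Fermat.Agent.RR.LSpace Fermat.Agent.M27.Iface2 Fermat.Agent.X0.FF
open Fermat.Agent.M17.GenericRR2

variable {F : Type*} [Field F] [Algebra ℂ F] {x : F} {H : LHyp ℂ F} [TopologicalSpace (Place ℂ F)]

/-- the two shapes of the set of (ZC) agree. -/
theorem zcSet_eq (B : Divisor ℂ F) {l : ℕ} (e : Fin l → F) (M : ℕ) :
    LinEqClosed4.zcSet B e M = {p : (Fin l → ℂ) × (Fin M → Place ℂ F) |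
      ∑ j, p.1 j • e j ∈ riemannRochSpace (B - sumPts p.2)} := by
  ext p
  simp only [LinEqClosed4.zcSet, Set.mem_setOf_eq]
  by_cases h0 : ∑ j, p.1 j • e j = 0
  · simp only [h0, true_or, true_iff]
    exact Submodule.zero_mem _
  · rw [mem_L_iff h0]
    simp only [h0, false_or]
    refine forall_congr' fun P => ?_
    simp only [Finsupp.coe_sub, Pi.sub_apply]
    constructor <;> intro h <;> linarith

/-- **(ZC)** holds on the Riemann surface. -/
theorem zc_of_surface (S : IsRSurface H) : LinEqClosed4.ZC F := by
  intro B l e he M
  rw [zcSet_eq]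
  exact ZCSurf7.isClosed_zc S B e he M

/-- **(CL)**: linear equivalence of effective divisors of degree `m` is a closed relation. -/
theorem isClosed_linEqSet (hx : IsGen ℂ x) (S : IsRSurface H) (m : ℕ) :
    IsClosed (ChainF9.linEqSet F m) := by
  haveI := S.compactSpace
  exact LinEqClosed4.isClosed_linEqSet hx (zc_of_surface S) m

end Fermat.Agent.M27.CLSurf2
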