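/-
Programme M27 (target S27), chapter A, leaf (A4) (helper4): **(N4) is a THEOREM**: for a chart
`c : ball 0 r → Place ℂ F` with coordinate `t` satisfying (N2) injectivity + `ord_t` and the first half
of (N3) (`analyticAt`), the algebraic derivative is the analytic derivative:

  `D f = g • D t`, `f` regular at `c a`  ⇒  `HasDerivAt (fun b => valAt H (c b) f) (valAt H (c a) g) a`.

Proof (no power series): `u = t - a` is a uniformiser at `P = c a`, `f = f(P) + u f₁` with `f₁` regular at
`P`, `D f₁ = g₁ • D t` with `g₁` regular at `P` (tree: `X0/FFDeriv.ffv_deriv_mem`), so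
`g = f₁ + u g₁` and `g(P) = f₁(P)`; analytically `f^(b) = f(P) + (b - a) f₁^(b)` near `a` with `f₁^`
continuous at `a`.

* `eventually_regular` : a function regular at `c a` is regular at `c b` for `b` near `a`;
* `hasDerivAt_of_chart` : (N4) from (N2), (N3a);
* `mkChart` : the `Iface2.Chart` structure from (N2), (N3) alone.

Imported by no statement.
-/
import Mathlib
import Fermat.Agent.M27.Iface2
import Fermat.Agent.X0.FFDiff
import Fermat.Agent.X0.FFConst

set_option autoImplicit false
set_option linter.unusedSectionVars false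
set_option linter.style.haveILetI false
set_option linter.unusedVariables false

open AlgebraicCurve Metric Topology KaehlerDifferential Filter

noncomputable section

namespace Fermat.Agent.M27.ChartDeriv4

open Fermat.Agent.X0.FF Fermat.Agent.RR.LSpace Fermat.Agent.M15.DivDefs4
open Fermat.Agent.M27.Iface2

variable {F : Type*} [Field F] [Algebra ℂ F] (H : LHyp ℂ F) {x : F} (hx : IsGen ℂ x)

include H in
/-- the poles of a function are finitely many. -/
theorem finite_poles (f : F) : {v : Place ℂ F | v.ord f < 0}.Finite := by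
  rcases eq_or_ne f 0 with rfl | hf
  · simp
  · obtain ⟨D, hD, -⟩ := H.principal f hf
    refine D.support.finite_toSet.subset fun v hv => ?_
    rw [Finset.mem_coe, Finsupp.mem_support_iff, hD v]
    have : v.ord f < 0 := hv
    omega

variable (t : F) (r : ℝ) (c : ℂ → Place ℂ F)

include H in
/-- a function regular at `c a` is regular at `c b` for all `b` near `a`. -/
theorem eventually_regular (inj : Set.InjOn c (ball (0 : ℂ) r)) (f : F) {a : ℂ}
    (ha : a ∈ ball (0 : ℂ) r) (hf : 0 ≤ (c a).ord f) :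
    ∀ᶠ b in 𝓝 a, b ∈ ball (0 : ℂ) r ∧ 0 ≤ (c b).ord f := by
  have hfin : {b : ℂ | b ∈ ball (0 : ℂ) r ∧ (c b).ord f < 0}.Finite := by
    have h1 : {b : ℂ | b ∈ ball (0 : ℂ) r ∧ (c b).ord f < 0} ⊆
        (ball (0 : ℂ) r) ∩ c ⁻¹' {v : Place ℂ F | v.ord f < 0} := fun b hb => ⟨hb.1, hb.2⟩
    refine Set.Finite.subset ?_ h1
    have h2 : (ball (0 : ℂ) r) ∩ c ⁻¹' {v : Place ℂ F | v.ord f < 0} =
        Subtype.val '' ((fun b : ball (0 : ℂ) r => c b) ⁻¹' {v : Place ℂ F | v.ord f < 0}) := by
      ext b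
      constructor
      · rintro ⟨hb1, hb2⟩
        exact ⟨⟨b, hb1⟩, hb2, rfl⟩
      · rintro ⟨⟨b', hb1⟩, hb2, rfl⟩
        exact ⟨hb1, hb2⟩
    rw [h2]
    refine Set.Finite.image _ ((finite_poles H f).preimage ?_)
    intro b _ b' _ h
    exact Subtype.ext (inj b.2 b'.2 h)
  have ha' : a ∉ {b : ℂ | b ∈ ball (0 : ℂ) r ∧ (c b).ord f < 0} := by
    rintro ⟨-, h⟩
    omega
  filter_upwards [isOpen_ball.mem_nhds ha, hfin.isClosed.isOpen_compl.mem_nhds ha'] with b hb1 hb2
  refine ⟨hb1, ?_⟩
  by_contra h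
  exact hb2 ⟨hb1, not_le.mp h⟩

/-- an element of order one is irreducible in the valuation ring. -/
theorem irreducible_of_ord_eq_one (P : Place ℂ F) {u : F} (hu : P.ord u = 1) :
    Irreducible (⟨u, ffp_mem_of_ord_nonneg P (by omega)⟩ : P.toValuationSubring) := by
  obtain ⟨π, hπ⟩ := ffp_exists_irreducible P
  have hu0 : u ≠ 0 := by
    rintro rfl
    simp at hu
  obtain ⟨w, hw⟩ := P.exists_unit_mul_zpow hu0 hπ
  rw [hu, zpow_one] at hw
  have h1 : (⟨u, ffp_mem_of_ord_nonneg P (by omega)⟩ : P.toValuationSubring) =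
      (w : P.toValuationSubring) * π := Subtype.ext hw
  rw [h1]
  exact (irreducible_units_mul w).mpr hπ

include hx in
/-- **(N4)**: the algebraic derivative with respect to the coordinate is the analytic derivative. -/
theorem hasDerivAt_of_chart (inj : Set.InjOn c (ball (0 : ℂ) r))
    (ord_t : ∀ a ∈ ball (0 : ℂ) r, (c a).ord (t - algebraMap ℂ F a) = 1)
    (analyticAt : ∀ (f : F) (a : ℂ), a ∈ ball (0 : ℂ) r → 0 ≤ (c a).ord f →
      AnalyticAt ℂ (fun b => valAt H (c b) f) a)
    (f g : F) (a : ℂ) (ha : a ∈ ball (0 : ℂ) r) (hf : 0 ≤ (c a).ord f)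
    (hD : D ℂ F f = g • D ℂ F t) :
    HasDerivAt (fun b => valAt H (c b) f) (valAt H (c a) g) a := by
  set P := c a with hP
  set u : F := t - algebraMap ℂ F a with hu
  have hu1 : P.ord u = 1 := ord_t a ha
  have hu0 : u ≠ 0 := by
    intro h
    rw [h, Place.ord_zero] at hu1
    exact zero_ne_one hu1
  have hfm : f ∈ P.toValuationSubring := ffp_mem_of_ord_nonneg P hf
  set p0 : ℂ := valAt H P f with hp0
  have hspec : f - algebraMap ℂ F p0 = 0 ∨ 0 < P.ord (f - algebraMap ℂ F p0) :=
    valAt_spec H P hfm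
  -- the first difference quotient
  set f1 : F := (f - algebraMap ℂ F p0) / u with hf1def
  have hf1 : 0 ≤ P.ord f1 := by
    rcases hspec with h | h
    · rw [hf1def, h, zero_div, Place.ord_zero]
    · have hne : f - algebraMap ℂ F p0 ≠ 0 := by
        intro h0
        rw [h0, Place.ord_zero] at h
        exact lt_irrefl _ h
      rw [hf1def, div_eq_mul_inv, P.ord_mul hne (inv_ne_zero hu0), P.ord_inv, hu1]
      omega
  have hfeq : f = algebraMap ℂ F p0 + u * f1 := by
    rw [hf1def, mul_div_cancel₀ _ hu0]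
    ring
  -- `t` and `u` generate
  have htr : Transcendental ℂ u := ffp_transcendental_of_ord_ne_zero P (by rw [hu1]; exact one_ne_zero)
  have hgen : IsGen ℂ u := hx.of_transcendental htr
  have hDu : D ℂ F u = D ℂ F t := by
    rw [hu, map_sub, Derivation.map_algebraMap, sub_zero]
  have hDu0 : D ℂ F u ≠ 0 := D_ne_zero hgen
  -- the derivative of `f1` is regular at `P`
  obtain ⟨g1, hg1⟩ : ∃ g1 : F, D ℂ F f1 = g1 • D ℂ F u := by
    have := span_D_eq_top hgen
    have h1 : D ℂ F f1 ∈ Submodule.span F {D ℂ F u} := by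
      rw [this]
      exact Submodule.mem_top
    obtain ⟨g1, hg1⟩ := Submodule.mem_span_singleton.mp h1
    exact ⟨g1, hg1.symm⟩
  have hg1m : g1 ∈ P.toValuationSubring := by
    obtain ⟨b, hb⟩ := ffv_deriv_mem (K := ℂ) (O := P.toValuationSubring) (F := F)
      (irreducible_of_ord_eq_one P hu1)
      (fun a => ffp_exists_sub_mem_maximalIdeal P x (ffg_isAlgebraic hx) a)
      ⟨f1, ffp_mem_of_ord_nonneg P hf1⟩ g1 hg1
    rw [← hb]
    exact b.2
  -- `g = f1 + u g1`
  have hg : g = f1 + u * g1 := by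
    have h1 : D ℂ F f = (f1 + u * g1) • D ℂ F u := by
      rw [hfeq, map_add, Derivation.map_algebraMap, zero_add, Derivation.leibniz, hg1, smul_smul,
        add_smul, add_comm]
    rw [hD, ← hDu] at h1
    have h2 : (g - (f1 + u * g1)) • D ℂ F u = 0 := by rw [sub_smul, h1, sub_self]
    rcases smul_eq_zero.mp h2 with h3 | h3
    · exact sub_eq_zero.mp h3
    · exact absurd h3 hDu0
  have hum : u ∈ P.toValuationSubring := ffp_mem_of_ord_nonneg P (by rw [hu1]; exact zero_le_one)
  have hf1m : f1 ∈ P.toValuationSubring := ffp_mem_of_ord_nonneg P hf1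
  have hvu : valAt H P u = 0 :=
    (valAt_eq_zero_iff H P hum).mpr (Or.inr (by rw [hu1]; exact one_pos))
  have hvg : valAt H P g = valAt H P f1 := by
    rw [hg, valAt_add H P hf1m (mul_mem hum hg1m), valAt_mul H P hum hg1m, hvu, zero_mul, add_zero]
  rw [hvg]
  -- the analytic side
  have han1 : AnalyticAt ℂ (fun b => valAt H (c b) f1) a := analyticAt f1 a ha hf1
  have hev1 := eventually_regular H r c inj f1 ha hf1
  have hfun : (fun b => valAt H (c b) f) =ᶠ[𝓝 a]
      fun b => p0 + (b - a) * valAt H (c b) f1 := by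
    filter_upwards [hev1] with b hb
    obtain ⟨hb1, hb2⟩ := hb
    have hub : (c b).ord (t - algebraMap ℂ F b) = 1 := ord_t b hb1
    have htm : t ∈ (c b).toValuationSubring := by
      have h1 : t - algebraMap ℂ F b ∈ (c b).toValuationSubring :=
        ffp_mem_of_ord_nonneg _ (by rw [hub]; exact zero_le_one)
      have := add_mem h1 ((c b).algebraMap_mem' b)
      rwa [sub_add_cancel] at this
    have hvt : valAt H (c b) t = b :=
      valAt_eq_of H (c b) (Or.inr (by rw [hub]; exact one_pos))
    have hum' : u ∈ (c b).toValuationSubring := by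
      rw [hu]
      exact sub_mem htm ((c b).algebraMap_mem' a)
    have hvu' : valAt H (c b) u = b - a := by
      have h1 : u = t + algebraMap ℂ F (-a) := by rw [hu, map_neg, sub_eq_add_neg]
      rw [h1, valAt_add H (c b) htm ((c b).algebraMap_mem' _), hvt, valAt_algebraMap,
        sub_eq_add_neg]
    have hf1b : f1 ∈ (c b).toValuationSubring := ffp_mem_of_ord_nonneg _ hb2
    show valAt H (c b) f = p0 + (b - a) * valAt H (c b) f1
    rw [hfeq, valAt_add H (c b) ((c b).algebraMap_mem' p0) (mul_mem hum' hf1b),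
      valAt_algebraMap, valAt_mul H (c b) hum' hf1b, hvu']
  have hderiv : HasDerivAt (fun b => p0 + (b - a) * valAt H (c b) f1)
      (valAt H (c a) f1) a := by
    have h1 : HasDerivAt (fun b : ℂ => b - a) 1 a := (hasDerivAt_id a).sub_const a
    have h2 := han1.differentiableAt.hasDerivAt
    have h3 := (h1.mul h2).const_add p0
    simp only [sub_self, zero_mul, add_zero, one_mul] at h3
    exact h3
  exact hderiv.congr_of_eventuallyEq hfun

/-- **the `Iface2.Chart` structure from (N2) and (N3) alone.** -/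
def mkChart [TopologicalSpace (Place ℂ F)] (r_pos : 0 < r)
    (emb : IsOpenEmbedding (fun a : ball (0 : ℂ) r => c a))
    (ord_t : ∀ a ∈ ball (0 : ℂ) r, (c a).ord (t - algebraMap ℂ F a) = 1)
    (analyticAt : ∀ (f : F) (a : ℂ), a ∈ ball (0 : ℂ) r → 0 ≤ (c a).ord f →
      AnalyticAt ℂ (fun b => valAt H (c b) f) a)
    (order_eq : ∀ (f : F) (a : ℂ), f ≠ 0 → a ∈ ball (0 : ℂ) r → 0 ≤ (c a).ord f →
      analyticOrderAt (fun b => valAt H (c b) f) a = (((c a).ord f).toNat : ℕ∞)) : Chart H where
  t := t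
  r := r
  r_pos := r_pos
  c := c
  emb := emb
  ord_t := ord_t
  analyticAt := analyticAt
  order_eq := order_eq
  hasDerivAt := fun f g a ha hf hD =>
    hasDerivAt_of_chart H hx t r c
      (fun a ha b hb h => congrArg Subtype.val (emb.injective (a₁ := ⟨a, ha⟩) (a₂ := ⟨b, hb⟩) h))
      ord_t analyticAt f g a ha hf hD

end Fermat.Agent.M27.ChartDeriv4
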