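/-
Programme M27 (target S27), chapter A, leaf (A4) (helper4): **the `emb` field of a chart is a THEOREM
up to the openness of the image.**

For `c : ℂ → Place ℂ F`, a coordinate `t` and a radius `r` with `ord_t` (`t - a` is a uniformiser at
`c a`) and the first half of (N3) (`analyticAt`), with respect to the topology `SurfTopo4.topo hx`:

* `valAt_t`, `injOn` : `t (c a) = a`, so `c` is injective on the disc;
* `tendsto_sval_chart` : every sphere value `b ↦ sval H f (c b)` is continuous on the disc (regular case: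
  analyticity; pole case: `1/f` is analytic with a zero);
* `continuous_chart` : `c` is continuous on the disc;
* `isOpenEmbedding_chart` : if moreover `c '' ball 0 r` is open then `c` is an open embedding of the disc
  (the inverse is `sval t`);
* `mkChart'` : the `Iface2.Chart` structure from `ord_t`, `analyticAt`, `order_eq` and the openness of the
  image (`hasDerivAt` from `ChartDeriv4`).

Imported by no statement.
-/
import Mathlib
import Fermat.Agent.M27.ChartDeriv4
import Fermat.Agent.M27.SurfIface4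

set_option autoImplicit false
set_option linter.unusedSectionVars false
set_option linter.style.haveILetI false
set_option linter.unusedVariables false

open AlgebraicCurve Metric Topology KaehlerDifferential Filter

noncomputable section

namespace Fermat.Agent.M27.ChartEmb4

open Fermat.Agent.X0.FF Fermat.Agent.RR.LSpace Fermat.Agent.M15.DivDefs4
open Fermat.Agent.M27.Iface2 Fermat.Agent.M27.SurfTopo4 Fermat.Agent.M27.SurfIface4
  Fermat.Agent.M27.ChartDeriv4

variable {F : Type*} [Field F] [Algebra ℂ F] (H : LHyp ℂ F) {x : F} (hx : IsGen ℂ x)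
variable (t : F) (r : ℝ) (c : ℂ → Place ℂ F)
  (ord_t : ∀ a ∈ ball (0 : ℂ) r, (c a).ord (t - algebraMap ℂ F a) = 1)
  (analyticAt : ∀ (f : F) (a : ℂ), a ∈ ball (0 : ℂ) r → 0 ≤ (c a).ord f →
    AnalyticAt ℂ (fun b => valAt H (c b) f) a)

include ord_t in
theorem t_mem {a : ℂ} (ha : a ∈ ball (0 : ℂ) r) : t ∈ (c a).toValuationSubring := by
  have h1 : t - algebraMap ℂ F a ∈ (c a).toValuationSubring :=
    ffp_mem_of_ord_nonneg _ (by rw [ord_t a ha]; exact zero_le_one)
  have := add_mem h1 ((c a).algebraMap_mem' a)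
  rwa [sub_add_cancel] at this

include ord_t in
/-- `t` takes the value `a` at `c a`. -/
theorem valAt_t {a : ℂ} (ha : a ∈ ball (0 : ℂ) r) : valAt H (c a) t = a :=
  valAt_eq_of H (c a) (Or.inr (by rw [ord_t a ha]; exact one_pos))

include ord_t in
theorem sval_t {a : ℂ} (ha : a ∈ ball (0 : ℂ) r) : sval H t (c a) = ((a : ℂ) : OnePoint ℂ) := by
  rw [sval_of_mem H (t_mem t r c ord_t ha), valAt_t H t r c ord_t ha]

include H ord_t in
theorem injOn : Set.InjOn c (ball (0 : ℂ) r) := by
  intro a ha b hb h
  rw [← valAt_t H t r c ord_t ha, h, valAt_t H t r c ord_t hb]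

include ord_t analyticAt in
/-- every sphere value is continuous along the chart. -/
theorem tendsto_sval_chart (f : F) {a : ℂ} (ha : a ∈ ball (0 : ℂ) r) :
    Tendsto (fun b => sval H f (c b)) (𝓝 a) (𝓝 (sval H f (c a))) := by
  have inj := injOn H t r c ord_t
  by_cases hf : 0 ≤ (c a).ord f
  · -- the regular case
    have hev := eventually_regular H r c inj f ha hf
    have hcont : ContinuousAt (fun b => valAt H (c b) f) a := (analyticAt f a ha hf).continuousAt
    rw [sval_of_mem H (ffp_mem_of_ord_nonneg _ hf)]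
    have h1 : Tendsto (fun b => ((valAt H (c b) f : ℂ) : OnePoint ℂ)) (𝓝 a)
        (𝓝 ((valAt H (c a) f : ℂ) : OnePoint ℂ)) :=
      (OnePoint.continuous_coe.tendsto _).comp hcont
    refine h1.congr' ?_
    filter_upwards [hev] with b hb
    exact (sval_of_mem H (ffp_mem_of_ord_nonneg _ hb.2)).symm
  · -- the pole case
    rw [not_le] at hf
    have hf0 : f ≠ 0 := by
      rintro rfl
      simp at hf
    have hfa : f ∉ (c a).toValuationSubring := by
      rw [ffp_mem_iff_ord_nonneg, not_le]
      exact hf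
    rw [sval_of_not_mem H hfa]
    have hg : 0 ≤ (c a).ord f⁻¹ := by
      rw [(c a).ord_inv]
      omega
    have hev := eventually_regular H r c inj f⁻¹ ha hg
    have hcont : ContinuousAt (fun b => valAt H (c b) f⁻¹) a :=
      (analyticAt f⁻¹ a ha hg).continuousAt
    have hga : valAt H (c a) f⁻¹ = 0 := by
      rw [valAt_eq_zero_iff H (c a) (ffp_mem_of_ord_nonneg _ hg)]
      right
      rw [(c a).ord_inv]
      omega
    rw [OnePoint.hasBasis_nhds_infty.tendsto_right_iff]
    rintro s ⟨-, hs⟩
    obtain ⟨R, hR⟩ := hs.isBounded.subset_closedBall (0 : ℂ)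
    set R' : ℝ := max R 1 with hR'
    have hR'pos : 0 < R' := lt_of_lt_of_le one_pos (le_max_right _ _)
    have hsmall : ∀ᶠ b in 𝓝 a, ‖valAt H (c b) f⁻¹‖ < R'⁻¹ := by
      have h1 : Tendsto (fun b => ‖valAt H (c b) f⁻¹‖) (𝓝 a) (𝓝 0) := by
        have := hcont.norm
        simpa [ContinuousAt, hga] using this
      exact h1.eventually (gt_mem_nhds (inv_pos.mpr hR'pos))
    filter_upwards [hev, hsmall] with b hb hbs
    by_cases hfb : f ∈ (c b).toValuationSubring
    · left
      have hgb : f⁻¹ ∈ (c b).toValuationSubring := ffp_mem_of_ord_nonneg _ hb.2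
      have hmul : valAt H (c b) f * valAt H (c b) f⁻¹ = 1 := by
        rw [← valAt_mul H (c b) hfb hgb, mul_inv_cancel₀ hf0]
        have := valAt_algebraMap H (c b) (1 : ℂ)
        rwa [map_one] at this
      have hgne : valAt H (c b) f⁻¹ ≠ 0 := by
        intro h0
        rw [h0, mul_zero] at hmul
        exact zero_ne_one hmul
      have hval : valAt H (c b) f = (valAt H (c b) f⁻¹)⁻¹ := eq_inv_of_mul_eq_one_left hmul
      rw [sval_of_mem H hfb]
      refine ⟨_, ?_, rfl⟩
      intro hmem
      have h1 : ‖valAt H (c b) f‖ ≤ R := by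
        have := hR hmem
        simpa using this
      rw [hval, norm_inv] at h1
      have h2 : R'⁻¹ ≤ ‖valAt H (c b) f⁻¹‖ := by
        have hpos : 0 < ‖valAt H (c b) f⁻¹‖ := norm_pos_iff.mpr hgne
        rw [inv_le_comm₀ hR'pos hpos]
        exact h1.trans (le_max_left _ _)
      exact absurd hbs (not_lt.mpr h2)
    · right
      rw [sval_of_not_mem H hfb]
      rfl

include ord_t analyticAt in
/-- **the chart map is continuous on the disc.** -/
theorem continuous_chart :
    @Continuous _ _ _ (topo hx) (fun a : ball (0 : ℂ) r => c a) := by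
  letI := topo hx
  rw [continuous_iff_continuousAt]
  intro a
  show Tendsto (fun a : ball (0 : ℂ) r => c a) (𝓝 a) (𝓝 (c a))
  rw [tendsto_iff_sval H hx]
  intro f
  exact (tendsto_sval_chart H t r c ord_t analyticAt f a.2).comp
    (continuous_subtype_val.tendsto a)

include ord_t analyticAt in
/-- **the chart map is an open embedding of the disc**, if its image is open. -/
theorem isOpenEmbedding_chart (hopen : @IsOpen _ (topo hx) (c '' ball (0 : ℂ) r)) :
    @IsOpenEmbedding _ _ _ (topo hx) (fun a : ball (0 : ℂ) r => c a) := by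
  letI := topo hx
  have inj := injOn H t r c ord_t
  refine IsOpenEmbedding.of_continuous_injective_isOpenMap
    (continuous_chart H hx t r c ord_t analyticAt)
    (fun a b h => Subtype.ext (inj a.2 b.2 h)) ?_
  intro V hV
  obtain ⟨V', hV', rfl⟩ := isOpen_induced_iff.mp hV
  have hV'' : IsOpen (V' ∩ ball (0 : ℂ) r) := hV'.inter isOpen_ball
  have himg : (fun a : ball (0 : ℂ) r => c a) '' (Subtype.val ⁻¹' V') =
      (c '' ball (0 : ℂ) r) ∩ (sval H t) ⁻¹' (((↑) : ℂ → OnePoint ℂ) '' (V' ∩ ball (0 : ℂ) r)) := by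
    ext Q
    constructor
    · rintro ⟨a, ha, rfl⟩
      refine ⟨⟨a.1, a.2, rfl⟩, ?_⟩
      show sval H t (c a.1) ∈ ((↑) : ℂ → OnePoint ℂ) '' (V' ∩ ball (0 : ℂ) r)
      rw [sval_t H t r c ord_t a.2]
      exact ⟨a.1, ⟨ha, a.2⟩, rfl⟩
    · rintro ⟨⟨b, hb, rfl⟩, hQ⟩
      have hQ' : sval H t (c b) ∈ ((↑) : ℂ → OnePoint ℂ) '' (V' ∩ ball (0 : ℂ) r) := hQ
      rw [sval_t H t r c ord_t hb] at hQ'
      obtain ⟨b', hb', hbb⟩ := hQ'
      have : b' = b := OnePoint.coe_injective hbb
      subst this
      exact ⟨⟨b', hb⟩, hb'.1, rfl⟩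
  rw [himg]
  exact hopen.inter
    ((OnePoint.isOpenEmbedding_coe.isOpenMap _ hV'').preimage (continuous_sval H hx t))

/-- **the `Iface2.Chart` structure** for the topology `topo hx` from `ord_t`, (N3) and the openness of
the image. -/
def mkChart' (r_pos : 0 < r) (order_eq : ∀ (f : F) (a : ℂ), f ≠ 0 → a ∈ ball (0 : ℂ) r →
      0 ≤ (c a).ord f →
      analyticOrderAt (fun b => valAt H (c b) f) a = (((c a).ord f).toNat : ℕ∞))
    (hopen : @IsOpen _ (topo hx) (c '' ball (0 : ℂ) r)) : @Chart F _ _ H (topo hx) :=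
  letI := topo hx
  mkChart H hx t r c r_pos (isOpenEmbedding_chart H hx t r c ord_t analyticAt hopen) ord_t
    analyticAt order_eq

end Fermat.Agent.M27.ChartEmb4
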