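/-
Programme M27 (target S27), chapter A, leaf (A3), algebraic half (helper8): **polynomial identities
for a plane curve `G(X,Y) = 0`**, Mathlib only.

* `exists_eq_mul_add_map` : `q = (X - a) q₁ + q(a, Y)`;
* `exists_div_step` : if `G(a,b) = 0 = p(a,b)` then `p · H₀(Y) = (X - a) p' + s G` with
  `H₀ := G(a,Y) / (Y - b)` (so `H₀(b) = G_Y(a,b)`): the step of "one place at a smooth point";
* `exists_bezout` : if `G` is monic and irreducible and `G ∤ p` then `A p + B G = c(X) ≠ 0`.
Imported by no statement.
-/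
import Mathlib

set_option autoImplicit false

open Polynomial
open scoped Polynomial.Bivariate

namespace Fermat.Agent.M27.PlaneAlg8

variable {K : Type*} [Field K]

/-- `q = (X - a) q₁ + q(a, Y)`. -/
theorem exists_eq_mul_add_map (q : K[X][Y]) (a : K) :
    ∃ q₁ : K[X][Y], q = C (X - C a) * q₁ + (q.map (evalRingHom a)).map C := by
  have h : C (X - C a) ∣ q - (q.map (evalRingHom a)).map C := by
    rw [Polynomial.C_dvd_iff_dvd_coeff]
    intro j
    rw [coeff_sub, coeff_map, coeff_map, coe_evalRingHom]
    exact X_sub_C_dvd_sub_C_eval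
  obtain ⟨q₁, hq₁⟩ := h
  exact ⟨q₁, by rw [← hq₁]; ring⟩

/-- the cofactor `H₀ = G(a,Y) / (Y - b)`. -/
noncomputable def cof (G : K[X][Y]) (a b : K) : K[X] := (G.map (evalRingHom a)) /ₘ (X - C b)

theorem mul_cof (G : K[X][Y]) {a b : K} (hG : G.evalEval a b = 0) :
    (X - C b) * cof G a b = G.map (evalRingHom a) := by
  rw [cof, mul_divByMonic_eq_iff_isRoot, IsRoot.def, map_evalRingHom_eval]
  exact hG

/-- `H₀(b) = G_Y(a,b)`. -/
theorem eval_cof (G : K[X][Y]) {a b : K} (hG : G.evalEval a b = 0) :
    (cof G a b).eval b = (derivative G).evalEval a b := by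
  have h := congrArg (fun q : K[X] => (derivative q).eval b) (mul_cof G hG)
  simp only [derivative_mul, derivative_sub, derivative_X, derivative_C, sub_zero, one_mul,
    eval_add, eval_mul, eval_sub, eval_X, eval_C, sub_self, zero_mul, add_zero] at h
  rw [h, derivative_map, map_evalRingHom_eval]

/-- **the division step**: `p · H₀(Y) = (X - a) p' + s G` when `p(a,b) = 0 = G(a,b)`. -/
theorem exists_div_step (G p : K[X][Y]) {a b : K} (hG : G.evalEval a b = 0)
    (hp : p.evalEval a b = 0) :
    ∃ p' s : K[X][Y], p * (cof G a b).map C = C (X - C a) * p' + s * G := by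
  obtain ⟨p₁, h1⟩ := exists_eq_mul_add_map p a
  obtain ⟨G₁, h2⟩ := exists_eq_mul_add_map G a
  have h4 : (G.map (evalRingHom a)).map C = ((X - C b : K[X]).map C) * (cof G a b).map C := by
    rw [← Polynomial.map_mul, mul_cof G hG]
  have h3 : (p.map (evalRingHom a)).map C =
      ((X - C b : K[X]).map C) * ((p.map (evalRingHom a)) /ₘ (X - C b)).map C := by
    rw [← Polynomial.map_mul]
    congr 1
    symm
    rw [mul_divByMonic_eq_iff_isRoot, IsRoot.def, map_evalRingHom_eval]
    exact hp
  refine ⟨p₁ * (cof G a b).map C - ((p.map (evalRingHom a)) /ₘ (X - C b)).map C * G₁,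
    ((p.map (evalRingHom a)) /ₘ (X - C b)).map C, ?_⟩
  linear_combination (cof G a b).map C * h1
    - ((p.map (evalRingHom a)) /ₘ (X - C b)).map C * h2
    + (cof G a b).map C * h3 - ((p.map (evalRingHom a)) /ₘ (X - C b)).map C * h4

/-- **Bezout over `K[X]`** for a monic irreducible `G` and `p` not divisible by `G`. -/
theorem exists_bezout (G p : K[X][Y]) (hGm : G.Monic) (hirr : Irreducible G) (hnd : ¬ G ∣ p) :
    ∃ (A B : K[X][Y]) (c : K[X]), c ≠ 0 ∧ A * p + B * G = C c := by
  classical
  let L := FractionRing K[X]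
  have hinj : Function.Injective (algebraMap K[X] L) := IsFractionRing.injective K[X] L
  have hGirr : Irreducible (G.map (algebraMap K[X] L)) :=
    (Monic.irreducible_iff_irreducible_map_fraction_map (K := L) hGm).mp hirr
  have hnd' : ¬ G.map (algebraMap K[X] L) ∣ p.map (algebraMap K[X] L) := by
    intro hd
    apply hnd
    rw [← modByMonic_eq_zero_iff_dvd hGm]
    apply Polynomial.map_injective _ hinj
    rw [Polynomial.map_zero, map_modByMonic _ hGm]
    exact (modByMonic_eq_zero_iff_dvd (hGm.map _)).mpr hd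
  have hcop : IsCoprime (G.map (algebraMap K[X] L)) (p.map (algebraMap K[X] L)) :=
    (Irreducible.coprime_iff_not_dvd hGirr).mpr hnd'
  obtain ⟨B₀, A₀, hAB⟩ := hcop
  obtain ⟨bA, hbA, hA⟩ := IsLocalization.integerNormalization_spec (nonZeroDivisors K[X]) A₀
  obtain ⟨bB, hbB, hB⟩ := IsLocalization.integerNormalization_spec (nonZeroDivisors K[X]) B₀
  refine ⟨C bB * IsLocalization.integerNormalization (nonZeroDivisors K[X]) A₀,
    C bA * IsLocalization.integerNormalization (nonZeroDivisors K[X]) B₀, bA * bB,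
    mul_ne_zero (nonZeroDivisors.ne_zero hbA) (nonZeroDivisors.ne_zero hbB), ?_⟩
  apply Polynomial.map_injective _ hinj
  simp only [Polynomial.map_add, Polynomial.map_mul, Polynomial.map_C, hA, hB, map_mul]
  rw [Algebra.smul_def, Algebra.smul_def]
  simp only [Polynomial.algebraMap_apply]
  linear_combination (C (algebraMap K[X] L bA) * C (algebraMap K[X] L bB)) * hAB

end Fermat.Agent.M27.PlaneAlg8
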