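/-
Programme M27 (target S27), chapter A, leaf (A3) (helper8): **polynomials read along the branch.**

Data: a plane model `(t, y, G)` of `F / ℂ` at a place (`PlaneModel`, the output of leaf (A2)) and a
holomorphic branch `η` of `G = 0` on `ball 0 r` (`BranchData`, from `Branch8.exists_branch`).
`hatP p b := p(b, η b)`.

* `hatP` is a ring hom into functions, holomorphic on the disc, killing `G`;
* `analyticOrderAt_hatP_ne_top` : if `p(t,y) ≠ 0` then `hatP p` has finite order at every point of the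
  disc (Bezout over `ℂ[X]`);
* `exists_reduction` : `p · H^k = (X - a)^k p_k + s G` with `p_k(a, η a) ≠ 0`, `k` the order of
  `hatP p` at `a` and `H = G(a,Y)/(Y - η a)`, `H(η a) = G_Y(a, η a) ≠ 0`.
Imported by no statement.
-/
import Mathlib
import Fermat.Prelude.Def_AlgebraicCurve_DivisorClassGroup
import Fermat.Agent.M27.Branch8
import Fermat.Agent.M27.PlaneAlg8

set_option autoImplicit false

open Polynomial Metric Filter Topology AlgebraicCurve
open scoped Polynomial.Bivariate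

namespace Fermat.Agent.M27.ChartHat8

open Fermat.Agent.M27.PlaneAlg8

variable {F : Type*} [Field F] [Algebra ℂ F]

/-- **the plane model at a place** (output of leaf (A2)). -/
structure PlaneModel (P : Place ℂ F) where
  t : F
  y : F
  G : ℂ[X][Y]
  ord_t : P.ord t = 1
  ord_y : 0 < P.ord y
  monic : G.Monic
  root : G.aevalAeval t y = 0
  G00 : G.evalEval 0 0 = 0
  GY00 : (derivative G).evalEval 0 0 ≠ 0
  ker : ∀ p : ℂ[X][Y], p.aevalAeval t y = 0 → G ∣ p
  frac : ∀ f : F, ∃ p q : ℂ[X][Y], q.aevalAeval t y ≠ 0 ∧ f = p.aevalAeval t y / q.aevalAeval t y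

/-- **a holomorphic branch** of `G = 0` through `(0,0)`. -/
structure BranchData (G : ℂ[X][Y]) where
  r : ℝ
  ε : ℝ
  η : ℂ → ℂ
  r_pos : 0 < r
  ε_pos : 0 < ε
  η_zero : η 0 = 0
  diff : DifferentiableOn ℂ η (ball (0 : ℂ) r)
  spec : ∀ a ∈ ball (0 : ℂ) r, η a ∈ ball (0 : ℂ) ε ∧ G.evalEval a (η a) = 0 ∧
    (derivative G).evalEval a (η a) ≠ 0
  uniq : ∀ a ∈ ball (0 : ℂ) r, ∀ b ∈ ball (0 : ℂ) ε, G.evalEval a b = 0 → b = η a

/-- a branch exists at a smooth point. -/
theorem nonempty_branchData (G : ℂ[X][Y]) (h0 : G.evalEval 0 0 = 0)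
    (h1 : (derivative G).evalEval 0 0 ≠ 0) : Nonempty (BranchData G) := by
  obtain ⟨r, ε, η, hr, hε, h0', hd, hs, hu⟩ := Branch8.exists_branch G h0 h1
  exact ⟨⟨r, ε, η, hr, hε, h0', hd, hs, hu⟩⟩

namespace PlaneModel

variable {P : Place ℂ F} (M : PlaneModel P)

theorem dvd_iff (p : ℂ[X][Y]) : M.G ∣ p ↔ p.aevalAeval M.t M.y = 0 := by
  refine ⟨?_, M.ker p⟩
  rintro ⟨q, rfl⟩
  rw [map_mul, M.root, zero_mul]

theorem not_isUnit_G : ¬ IsUnit M.G := by
  intro hu
  obtain ⟨v, hv⟩ := hu.exists_right_inv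
  have := congrArg (evalEval (0 : ℂ) 0) hv
  rw [evalEval_mul, M.G00, zero_mul, evalEval_one] at this
  exact zero_ne_one this

theorem prime_G : Prime M.G := by
  refine ⟨M.monic.ne_zero, M.not_isUnit_G, ?_⟩
  intro a b hab
  rw [M.dvd_iff, map_mul, mul_eq_zero] at hab
  rcases hab with h | h
  · exact Or.inl ((M.dvd_iff a).mpr h)
  · exact Or.inr ((M.dvd_iff b).mpr h)

theorem irreducible_G : Irreducible M.G := M.prime_G.irreducible

end PlaneModel

namespace BranchData

variable {G : ℂ[X][Y]} (B : BranchData G)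

/-- a polynomial read along the branch. -/
noncomputable def hatP (p : ℂ[X][Y]) : ℂ → ℂ := fun b => p.evalEval b (B.η b)

theorem hatP_apply (p : ℂ[X][Y]) (b : ℂ) : B.hatP p b = p.evalEval b (B.η b) := rfl

theorem hatP_add (p q : ℂ[X][Y]) : B.hatP (p + q) = B.hatP p + B.hatP q := by
  funext b; simp [hatP, evalEval_add]

theorem hatP_mul (p q : ℂ[X][Y]) : B.hatP (p * q) = B.hatP p * B.hatP q := by
  funext b; simp [hatP, evalEval_mul]

theorem hatP_pow (p : ℂ[X][Y]) (n : ℕ) : B.hatP (p ^ n) = B.hatP p ^ n := by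
  funext b; simp [hatP, evalEval_pow]

theorem hatP_C (c : ℂ[X]) (b : ℂ) : B.hatP (C c) b = c.eval b := by
  simp [hatP, evalEval_C]

theorem hatP_map_C (h : ℂ[X]) (b : ℂ) : B.hatP (h.map C) b = h.eval (B.η b) := by
  simp [hatP, evalEval_map_C]

theorem hatP_G {b : ℂ} (hb : b ∈ ball (0 : ℂ) B.r) : B.hatP G b = 0 := (B.spec b hb).2.1

theorem differentiableOn_hatP (p : ℂ[X][Y]) : DifferentiableOn ℂ (B.hatP p) (ball (0 : ℂ) B.r) := by
  intro b hb
  have h1 : DifferentiableAt ℂ (fun q : ℂ × ℂ => p.evalEval q.1 q.2) (b, B.η b) :=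
    ((Branch8.contDiff_evalEval p 1).differentiable one_ne_zero).differentiableAt
  have h2 : DifferentiableWithinAt ℂ (fun b' : ℂ => (b', B.η b')) (ball (0 : ℂ) B.r) b :=
    differentiableWithinAt_id.prodMk (B.diff b hb)
  exact h1.comp_differentiableWithinAt b h2

theorem analyticAt_hatP (p : ℂ[X][Y]) {a : ℂ} (ha : a ∈ ball (0 : ℂ) B.r) :
    AnalyticAt ℂ (B.hatP p) a :=
  (B.differentiableOn_hatP p).analyticAt (isOpen_ball.mem_nhds ha)

theorem analyticOnNhd_hatP (p : ℂ[X][Y]) : AnalyticOnNhd ℂ (B.hatP p) (ball (0 : ℂ) B.r) :=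
  fun _ ha => B.analyticAt_hatP p ha

/-- divisibility by `G` makes `hatP` vanish on the disc. -/
theorem hatP_eq_zero_of_dvd {p : ℂ[X][Y]} (h : G ∣ p) {b : ℂ} (hb : b ∈ ball (0 : ℂ) B.r) :
    B.hatP p b = 0 := by
  obtain ⟨q, rfl⟩ := h
  rw [hatP_mul, Pi.mul_apply, B.hatP_G hb, zero_mul]

/-- a nonzero polynomial function has finite analytic order everywhere. -/
theorem analyticOrderAt_eval_ne_top {c : ℂ[X]} (hc : c ≠ 0) (a : ℂ) :
    analyticOrderAt (fun b => c.eval b) a ≠ ⊤ := by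
  intro h
  rw [analyticOrderAt_eq_top] at h
  apply hc
  apply Polynomial.eq_zero_of_infinite_isRoot
  have h2 : {b : ℂ | c.eval b = 0} ∈ 𝓝 a := h
  exact infinite_of_mem_nhds a h2

end BranchData

section WithModel

variable {P : Place ℂ F} (M : PlaneModel P) (B : BranchData M.G)

/-- **finite order**: a polynomial that does not vanish at `(t,y)` has finite analytic order along
the branch, at every point of the disc. -/
theorem analyticOrderAt_hatP_ne_top {p : ℂ[X][Y]} (hp : p.aevalAeval M.t M.y ≠ 0) {a : ℂ}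
    (ha : a ∈ ball (0 : ℂ) B.r) : analyticOrderAt (B.hatP p) a ≠ ⊤ := by
  have hnd : ¬ M.G ∣ p := fun h => hp ((M.dvd_iff p).mp h)
  obtain ⟨A, B', c, hc, hAB⟩ := exists_bezout M.G p M.monic M.irreducible_G hnd
  intro htop
  have h1 : ∀ b ∈ ball (0 : ℂ) B.r, B.hatP A b * B.hatP p b = c.eval b := by
    intro b hb
    have := congrArg (fun q => B.hatP q b) hAB
    simp only [BranchData.hatP_add, BranchData.hatP_mul, Pi.add_apply, Pi.mul_apply,
      B.hatP_G hb, mul_zero, add_zero, BranchData.hatP_C] at this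
    exact this
  have h2 : analyticOrderAt (fun b => c.eval b) a = ⊤ := by
    rw [analyticOrderAt_eq_top] at htop ⊢
    filter_upwards [htop, isOpen_ball.mem_nhds ha] with b hb hb'
    rw [← h1 b hb', hb, mul_zero]
  exact BranchData.analyticOrderAt_eval_ne_top hc a h2

/-- the order along the branch, as a natural number. -/
noncomputable def ordP (p : ℂ[X][Y]) (a : ℂ) : ℕ := analyticOrderNatAt (B.hatP p) a

theorem coe_ordP {p : ℂ[X][Y]} (hp : p.aevalAeval M.t M.y ≠ 0) {a : ℂ}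
    (ha : a ∈ ball (0 : ℂ) B.r) : (ordP M B p a : ℕ∞) = analyticOrderAt (B.hatP p) a :=
  ENat.natCast_toNat (analyticOrderAt_hatP_ne_top M B hp ha)

theorem ordP_eq_zero_iff {p : ℂ[X][Y]} (hp : p.aevalAeval M.t M.y ≠ 0) {a : ℂ}
    (ha : a ∈ ball (0 : ℂ) B.r) : ordP M B p a = 0 ↔ p.evalEval a (B.η a) ≠ 0 := by
  have h1 : (ordP M B p a = 0) ↔ ((ordP M B p a : ℕ∞) = 0) := by
    rw [Nat.cast_eq_zero]
  rw [h1, coe_ordP M B hp ha, (B.analyticAt_hatP p ha).analyticOrderAt_eq_zero,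
    BranchData.hatP_apply]

theorem ordP_mul {p q : ℂ[X][Y]} (hp : p.aevalAeval M.t M.y ≠ 0) (hq : q.aevalAeval M.t M.y ≠ 0)
    {a : ℂ} (ha : a ∈ ball (0 : ℂ) B.r) : ordP M B (p * q) a = ordP M B p a + ordP M B q a := by
  unfold ordP
  rw [BranchData.hatP_mul]
  exact analyticOrderNatAt_mul (B.analyticAt_hatP p ha) (B.analyticAt_hatP q ha)
    (analyticOrderAt_hatP_ne_top M B hp ha) (analyticOrderAt_hatP_ne_top M B hq ha)

/-- the order depends only on the value at `(t,y)`. -/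
theorem hatP_eq_of_aeval_eq {p q : ℂ[X][Y]}
    (h : p.aevalAeval M.t M.y = q.aevalAeval M.t M.y) {b : ℂ} (hb : b ∈ ball (0 : ℂ) B.r) :
    B.hatP p b = B.hatP q b := by
  have hd : M.G ∣ p - q := (M.dvd_iff _).mpr (by rw [map_sub, h, sub_self])
  have := B.hatP_eq_zero_of_dvd hd hb
  have h2 : B.hatP (p - q) b = B.hatP p b - B.hatP q b := by
    simp [BranchData.hatP_apply, evalEval_sub]
  rw [h2, sub_eq_zero] at this
  exact this

theorem ordP_congr {p q : ℂ[X][Y]} (h : p.aevalAeval M.t M.y = q.aevalAeval M.t M.y) {a : ℂ}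
    (ha : a ∈ ball (0 : ℂ) B.r) : ordP M B p a = ordP M B q a := by
  unfold ordP analyticOrderNatAt
  congr 1
  apply analyticOrderAt_congr
  filter_upwards [isOpen_ball.mem_nhds ha] with b hb
  exact hatP_eq_of_aeval_eq M B h hb

/-- the cofactor polynomial `H(Y) = G(a,Y)/(Y - η a)`, as a bivariate polynomial. -/
noncomputable def Hc (a : ℂ) : ℂ[X][Y] := (cof M.G a (B.η a)).map C

theorem Hc_evalEval {a : ℂ} (ha : a ∈ ball (0 : ℂ) B.r) :
    (Hc M B a).evalEval a (B.η a) ≠ 0 := by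
  rw [Hc, evalEval_map_C, eval_cof M.G (B.spec a ha).2.1]
  exact (B.spec a ha).2.2

theorem Hc_aeval_ne_zero {a : ℂ} (ha : a ∈ ball (0 : ℂ) B.r) :
    (Hc M B a).aevalAeval M.t M.y ≠ 0 := by
  intro h
  have := B.hatP_eq_zero_of_dvd ((M.dvd_iff _).mpr h) ha
  exact Hc_evalEval M B ha this

theorem ordP_Hc {a : ℂ} (ha : a ∈ ball (0 : ℂ) B.r) : ordP M B (Hc M B a) a = 0 :=
  (ordP_eq_zero_iff M B (Hc_aeval_ne_zero M B ha) ha).mpr (Hc_evalEval M B ha)

include B in
theorem t_sub_ne_zero (a : ℂ) : (C (X - C a) : ℂ[X][Y]).aevalAeval M.t M.y ≠ 0 := by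
  intro h
  have hd := (M.dvd_iff _).mpr h
  obtain ⟨b, hb, hba⟩ : ∃ b ∈ ball (0 : ℂ) B.r, b ≠ a := by
    by_cases h : (0 : ℂ) = a
    · refine ⟨(B.r / 2 : ℝ), ?_, ?_⟩
      · rw [mem_ball_zero_iff, Complex.norm_real, Real.norm_eq_abs, abs_of_pos (half_pos B.r_pos)]
        exact half_lt_self B.r_pos
      · rw [← h]
        exact_mod_cast (half_pos B.r_pos).ne'
    · exact ⟨0, mem_ball_self B.r_pos, h⟩
  have := B.hatP_eq_zero_of_dvd hd hb
  rw [BranchData.hatP_C] at this
  simp only [eval_sub, eval_X, eval_C] at this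
  exact hba (sub_eq_zero.mp this)

theorem ordP_t_sub (a : ℂ) : ordP M B (C (X - C a)) a = 1 := by
  unfold ordP analyticOrderNatAt
  have h : B.hatP (C (X - C a)) = (· - a) := by
    funext b
    rw [BranchData.hatP_C]
    simp
  rw [h, analyticOrderAt_id_sub_const_self]
  rfl

/-- **the reduction**: `p · H^k = (X - a)^k p_k + s G` with `p_k(a, η a) ≠ 0`, `k` the order of
`p` along the branch at `a`. -/
theorem exists_reduction {a : ℂ} (ha : a ∈ ball (0 : ℂ) B.r) :
    ∀ (k : ℕ) (p : ℂ[X][Y]), p.aevalAeval M.t M.y ≠ 0 → ordP M B p a = k →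
      ∃ pk s : ℂ[X][Y], p * Hc M B a ^ k = C (X - C a) ^ k * pk + s * M.G ∧
        pk.evalEval a (B.η a) ≠ 0 := by
  intro k
  induction k with
  | zero =>
    intro p hp hk
    exact ⟨p, 0, by ring, (ordP_eq_zero_iff M B hp ha).mp hk⟩
  | succ k ih =>
    intro p hp hk
    have hpa : p.evalEval a (B.η a) = 0 := by
      by_contra h
      rw [(ordP_eq_zero_iff M B hp ha).mpr h] at hk
      exact absurd hk (Nat.succ_ne_zero k).symm
    obtain ⟨p', s, hstep⟩ := exists_div_step M.G p (B.spec a ha).2.1 hpa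
    have hstep' : p * Hc M B a = C (X - C a) * p' + s * M.G := hstep
    -- `p'(t,y) ≠ 0`
    have hval : p.aevalAeval M.t M.y * (Hc M B a).aevalAeval M.t M.y =
        (C (X - C a) : ℂ[X][Y]).aevalAeval M.t M.y * p'.aevalAeval M.t M.y := by
      have := congrArg (aevalAeval M.t M.y) hstep'
      simpa only [map_mul, map_add, M.root, mul_zero, add_zero] using this
    have hp' : p'.aevalAeval M.t M.y ≠ 0 := by
      intro h
      rw [h, mul_zero] at hval
      exact (mul_ne_zero hp (Hc_aeval_ne_zero M B ha)) hval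
    have hord : ordP M B p' a = k := by
      have h1 : ordP M B (p * Hc M B a) a = ordP M B (C (X - C a) * p') a := by
        apply ordP_congr M B _ ha
        rw [map_mul, map_mul, hval]
      rw [ordP_mul M B hp (Hc_aeval_ne_zero M B ha) ha, ordP_mul M B (t_sub_ne_zero M B a) hp' ha,
        ordP_Hc M B ha, ordP_t_sub M B a, hk] at h1
      omega
    obtain ⟨pk, s', hred, hpk⟩ := ih p' hp' hord
    refine ⟨pk, C (X - C a) * s' + s * Hc M B a ^ k, ?_, hpk⟩
    rw [pow_succ, pow_succ]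
    linear_combination (Hc M B a ^ k) * hstep' + C (X - C a) * hred

end WithModel

end Fermat.Agent.M27.ChartHat8
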