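/-
M27 (target S27), chapter A2 (helper1), part 2: **values of bivariate polynomial expressions at a place.**

`F / K` a function field with all places of degree one (`H : LHyp K F`), `v` a place, `t y ∈ O_v`.
* `algHom_aevalAeval` : naturality of `Polynomial.aevalAeval` under algebra homomorphisms;
* `valAlgHom H v : O_v →ₐ[K] K` : the value map as a `K`-algebra homomorphism;
* `aevalAeval_mem`, `valAt_aevalAeval` : `p(t, y) ∈ O_v` and `p(t, y)(v) = p(t(v), y(v))`;
* `exists_decomp` : `p = p(a,b) + (X - a) p₁ + (Y - b) p₂` with `p₂(a,b) = ∂p/∂Y (a,b)`;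
* `ord_aevalAeval_eq_zero` : `p(t(v), y(v)) ≠ 0 ⇒ ord_v p(t,y) = 0`.
-/
import Mathlib
import Fermat.Agent.RR.LSpace
import Fermat.Agent.M15.DivDefs4

set_option autoImplicit false

open Polynomial Polynomial.Bivariate AlgebraicCurve

noncomputable section

namespace Fermat.Agent.M27.PlaneVal1

open Fermat.Agent.RR.LSpace Fermat.Agent.M15.DivDefs4 Fermat.Agent.X0

section Alg

variable {R A A' : Type*} [CommSemiring R] [CommSemiring A] [CommSemiring A'] [Algebra R A]
  [Algebra R A']

/-- naturality of `aevalAeval`. -/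
theorem algHom_aevalAeval (φ : A →ₐ[R] A') (x y : A) (p : R[X][Y]) :
    φ (p.aevalAeval x y) = p.aevalAeval (φ x) (φ y) := by
  have h : φ.comp (aevalAeval x y) = aevalAeval (φ x) (φ y) := by
    apply (aevalAevalEquiv R A').symm.injective
    ext <;> simp
  exact DFunLike.congr_fun h p

end Alg

section Decomp

variable {K : Type*} [Field K]

/-- `p = p(a,b) + (X - a) p₁ + (Y - b) p₂` with `p₂(a,b) = ∂p/∂Y (a,b)`. -/
theorem exists_decomp (p : K[X][Y]) (a b : K) : ∃ (p₁ : K[X]) (p₂ : K[X][Y]),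
    p = CC (p.evalEval a b) + C ((X - C a) * p₁) + (Y - CC b) * p₂ ∧
      p₂.evalEval a b = (derivative p).evalEval a b := by
  obtain ⟨p₂, hp₂⟩ := X_sub_C_dvd_sub_C_eval (a := (C b : K[X])) (p := p)
  obtain ⟨p₁, hp₁⟩ := X_sub_C_dvd_sub_C_eval (a := a) (p := p.eval (C b))
  have h1 : p = CC (p.evalEval a b) + C ((X - C a) * p₁) + (Y - CC b) * p₂ := by
    have e1 : p = C (p.eval (C b)) + (Y - CC b) * p₂ := by
      rw [← hp₂]; ring
    have e2 : p.eval (C b) = C (p.evalEval a b) + (X - C a) * p₁ := by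
      rw [← hp₁]; ring
    conv_lhs => rw [e1, e2]
    rw [C_add]
  refine ⟨p₁, p₂, h1, ?_⟩
  have h2 : derivative p = p₂ + (Y - CC b) * derivative p₂ := by
    conv_lhs => rw [h1]
    simp only [derivative_add, derivative_C, derivative_mul, derivative_sub, derivative_X, zero_add,
      sub_zero, one_mul]
  rw [h2, evalEval_add, evalEval_mul, evalEval_sub, evalEval_X, evalEval_CC, sub_self, zero_mul,
    add_zero]

end Decomp

variable {K F : Type*} [Field K] [Field F] [Algebra K F]

/-- the value map at a place as a `K`-algebra homomorphism. -/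
def valAlgHom (H : LHyp K F) (v : Place K F) : v.toValuationSubring →ₐ[K] K :=
  { valHom H v with commutes' := fun c => valHom_algebraMap H v c }

@[simp] theorem valAlgHom_apply (H : LHyp K F) (v : Place K F) (a : v.toValuationSubring) :
    valAlgHom H v a = valHom H v a := rfl

theorem coe_aevalAeval (v : Place K F) (t y : v.toValuationSubring) (p : K[X][Y]) :
    ((p.aevalAeval t y : v.toValuationSubring) : F) = p.aevalAeval (t : F) (y : F) :=
  algHom_aevalAeval (IsScalarTower.toAlgHom K v.toValuationSubring F) t y p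

/-- `p(t, y) ∈ O_v` for `t, y ∈ O_v`. -/
theorem aevalAeval_mem (v : Place K F) {t y : F} (ht : t ∈ v.toValuationSubring)
    (hy : y ∈ v.toValuationSubring) (p : K[X][Y]) :
    p.aevalAeval t y ∈ v.toValuationSubring := by
  have h := coe_aevalAeval v ⟨t, ht⟩ ⟨y, hy⟩ p
  rw [← h]
  exact Subtype.property _

/-- `p(t, y)(v) = p(t(v), y(v))`. -/
theorem valAt_aevalAeval (H : LHyp K F) (v : Place K F) {t y : F}
    (ht : t ∈ v.toValuationSubring) (hy : y ∈ v.toValuationSubring) (p : K[X][Y]) :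
    valAt H v (p.aevalAeval t y) = p.evalEval (valAt H v t) (valAt H v y) := by
  have h := coe_aevalAeval v ⟨t, ht⟩ ⟨y, hy⟩ p
  have hmem := aevalAeval_mem v ht hy p
  rw [valAt_of_mem H v hmem, valAt_of_mem H v ht, valAt_of_mem H v hy]
  have h1 : (⟨p.aevalAeval t y, hmem⟩ : v.toValuationSubring) =
      p.aevalAeval (⟨t, ht⟩ : v.toValuationSubring) ⟨y, hy⟩ := Subtype.ext h.symm
  rw [h1]
  have h2 := algHom_aevalAeval (valAlgHom H v) (⟨t, ht⟩ : v.toValuationSubring) ⟨y, hy⟩ p
  rw [valAlgHom_apply, valAlgHom_apply, valAlgHom_apply] at h2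
  rw [h2, coe_aevalAeval_eq_evalEval]

/-- value `0` at `v` for `ord_v > 0`. -/
theorem valAt_eq_zero_of_ord_pos (H : LHyp K F) (v : Place K F) {f : F} (hf : 0 < v.ord f) :
    valAt H v f = 0 :=
  valAt_eq_of H v (Or.inr (by rwa [map_zero, sub_zero]))

/-- `ord_v f = 0` when the value of `f ∈ O_v` at `v` is nonzero. -/
theorem ord_eq_zero_of_valAt_ne_zero (H : LHyp K F) (v : Place K F) {f : F}
    (hf : f ∈ v.toValuationSubring) (h : valAt H v f ≠ 0) : v.ord f = 0 := by
  have h1 : 0 ≤ v.ord f := FF.ord_nonneg_of_mem v hf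
  by_contra hne
  have h2 : 0 < v.ord f := lt_of_le_of_ne h1 (Ne.symm hne)
  exact h (valAt_eq_zero_of_ord_pos H v h2)

/-- `p(t(v), y(v)) ≠ 0 ⇒ ord_v p(t,y) = 0`. -/
theorem ord_aevalAeval_eq_zero (H : LHyp K F) (v : Place K F) {t y : F}
    (ht : t ∈ v.toValuationSubring) (hy : y ∈ v.toValuationSubring) (p : K[X][Y])
    (hp : p.evalEval (valAt H v t) (valAt H v y) ≠ 0) : v.ord (p.aevalAeval t y) = 0 :=
  ord_eq_zero_of_valAt_ne_zero H v (aevalAeval_mem v ht hy p)
    (by rwa [valAt_aevalAeval H v ht hy p])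

end Fermat.Agent.M27.PlaneVal1
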