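/-
M27 (target S27), chapter A2 (helper1), part 4: **only one place is centred at a smooth point of a
plane model.**

`F / K` a function field with all places of degree one (`H : LHyp K F`), `t y : F`, `G : K[X][Y]` with
`G(t,y) = 0`, `Q` a place with `t, y ∈ O_Q`, `a := t(Q)`, `b := y(Q)`, and `∂G/∂Y (a,b) ≠ 0`.

* `exists_normalForm` : every `p(t,y) ≠ 0` satisfies `v(t,y) · p(t,y) = (t - a)^k · u(t,y)` with
  `u(a,b) ≠ 0`, `v(a,b) ≠ 0`  (induction on `ord_Q p(t,y)`, using `(y - b) G₂(t,y) = -(t - a) G₁(t,y)`,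
  `G₂(a,b) = ∂G/∂Y (a,b)`);
* `ord_aevalAeval_of_normalForm` : then `ord_{Q'} p(t,y) = k · ord_{Q'} (t - a)` at EVERY place `Q'`
  centred at `(a,b)`;
* `ord_sub_eq_one_of_smooth` : if moreover `F = Frac K[t,y]`, then `ord_Q (t - a) = 1`;
* `ord_eq_of_smooth`, `place_unique_of_smooth` : two places centred at the same smooth point are equal.
-/
import Mathlib
import Fermat.Agent.M27.PlaneVal1

set_option autoImplicit false

open Polynomial Polynomial.Bivariate AlgebraicCurve

noncomputable section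

namespace Fermat.Agent.M27.SmoothPoint1

open Fermat.Agent.RR.LSpace Fermat.Agent.M15.DivDefs4 Fermat.Agent.X0 Fermat.Agent.M27.PlaneVal1

variable {K F : Type*} [Field K] [Field F] [Algebra K F]

/-- `valAt` of `0`. -/
theorem valAt_zero (H : LHyp K F) (Q : Place K F) : valAt H Q (0 : F) = 0 :=
  valAt_eq_of H Q (Or.inl (by simp))

/-- a function with nonzero value is nonzero. -/
theorem ne_zero_of_valAt_ne_zero (H : LHyp K F) (Q : Place K F) {f : F} (h : valAt H Q f ≠ 0) :
    f ≠ 0 := by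
  rintro rfl
  exact h (valAt_zero H Q)

/-- **Normal form at a smooth point.** -/
theorem exists_normalForm (H : LHyp K F) {t y : F} {G : K[X][Y]} (hG : G.aevalAeval t y = 0)
    (Q : Place K F) (ht : t ∈ Q.toValuationSubring) (hy : y ∈ Q.toValuationSubring)
    (hsm : (derivative G).evalEval (valAt H Q t) (valAt H Q y) ≠ 0) (p : K[X][Y])
    (hp : p.aevalAeval t y ≠ 0) :
    ∃ (k : ℕ) (u v : K[X][Y]), u.evalEval (valAt H Q t) (valAt H Q y) ≠ 0 ∧
      v.evalEval (valAt H Q t) (valAt H Q y) ≠ 0 ∧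
      v.aevalAeval t y * p.aevalAeval t y =
        (t - algebraMap K F (valAt H Q t)) ^ k * u.aevalAeval t y := by
  set a : K := valAt H Q t with ha
  set b : K := valAt H Q y with hb
  -- `G(a,b) = 0`
  have hG00 : G.evalEval a b = 0 := by
    have h1 := valAt_aevalAeval H Q ht hy G
    rw [hG, valAt_zero] at h1
    exact h1.symm
  obtain ⟨G₁, G₂, hGd, hG₂⟩ := exists_decomp G a b
  rw [hG00, C_mul] at hGd
  have hCC0 : (CC (0 : K) : K[X][Y]) = 0 := by simp
  rw [hCC0, zero_add] at hGd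
  have hG₂ne : G₂.evalEval a b ≠ 0 := by rw [hG₂]; exact hsm
  set g₂ : F := G₂.aevalAeval t y with hg₂
  have hg₂ord : Q.ord g₂ = 0 := ord_aevalAeval_eq_zero H Q ht hy G₂ hG₂ne
  have hg₂ne : g₂ ≠ 0 := by
    apply ne_zero_of_valAt_ne_zero H Q
    rw [hg₂, valAt_aevalAeval H Q ht hy G₂]
    exact hG₂ne
  set δ : F := t - algebraMap K F a with hδ
  have hδspec : δ = 0 ∨ 0 < Q.ord δ := valAt_spec H Q ht
  -- strong induction on `ord_Q p(t,y)`
  obtain ⟨n, hn⟩ : ∃ n : ℕ, (Q.ord (p.aevalAeval t y)).toNat = n := ⟨_, rfl⟩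
  induction n using Nat.strong_induction_on generalizing p with
  | _ n ih =>
    by_cases h0 : p.evalEval a b = 0
    · obtain ⟨p₁, p₂, hpd, -⟩ := exists_decomp p a b
      rw [h0, C_mul, hCC0, zero_add] at hpd
      set p' : K[X][Y] := C p₁ * G₂ - C G₁ * p₂ with hp'
      have hid : G₂ * p = C (X - C a) * p' + p₂ * G := by
        linear_combination G₂ * hpd - p₂ * hGd
      have heq : g₂ * p.aevalAeval t y = δ * p'.aevalAeval t y := by
        have h1 := congrArg (aevalAeval t y) hid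
        rw [map_mul, map_add, map_mul, map_mul, hG, mul_zero, add_zero, aevalAeval_C] at h1
        rw [h1, hδ]
        simp
      have hprod : δ * p'.aevalAeval t y ≠ 0 := by
        rw [← heq]
        exact mul_ne_zero hg₂ne hp
      have hδne : δ ≠ 0 := left_ne_zero_of_mul hprod
      have hp'ne : p'.aevalAeval t y ≠ 0 := right_ne_zero_of_mul hprod
      have hδpos : 0 < Q.ord δ := hδspec.resolve_left hδne
      have hord : Q.ord g₂ + Q.ord (p.aevalAeval t y) = Q.ord δ + Q.ord (p'.aevalAeval t y) := by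
        rw [← Q.ord_mul hg₂ne hp, ← Q.ord_mul hδne hp'ne, heq]
      have hp'nonneg : 0 ≤ Q.ord (p'.aevalAeval t y) :=
        FF.ord_nonneg_of_mem Q (aevalAeval_mem Q ht hy p')
      have hlt : (Q.ord (p'.aevalAeval t y)).toNat < n := by
        rw [← hn]
        omega
      obtain ⟨k', u', v', hu', hv', hrel'⟩ := ih _ hlt p' hp'ne rfl
      refine ⟨k' + 1, u', v' * G₂, hu', ?_, ?_⟩
      · rw [evalEval_mul]
        exact mul_ne_zero hv' hG₂ne
      · rw [map_mul, mul_assoc, ← hg₂, heq, ← mul_assoc, mul_comm (v'.aevalAeval t y) δ, mul_assoc,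
          hrel', pow_succ]
        ring
    · exact ⟨0, p, 1, h0, by simp, by simp⟩

/-- the order of `p(t,y)` at ANY place centred at `(a,b)`, from a normal form. -/
theorem ord_aevalAeval_of_normalForm (H : LHyp K F) {t y : F} (Q' : Place K F)
    (ht : t ∈ Q'.toValuationSubring) (hy : y ∈ Q'.toValuationSubring) {p u v : K[X][Y]} {k : ℕ}
    (hp : p.aevalAeval t y ≠ 0)
    (hu : u.evalEval (valAt H Q' t) (valAt H Q' y) ≠ 0)
    (hv : v.evalEval (valAt H Q' t) (valAt H Q' y) ≠ 0)
    (hrel : v.aevalAeval t y * p.aevalAeval t y =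
      (t - algebraMap K F (valAt H Q' t)) ^ k * u.aevalAeval t y) :
    Q'.ord (p.aevalAeval t y) = k * Q'.ord (t - algebraMap K F (valAt H Q' t)) := by
  have hu0 : Q'.ord (u.aevalAeval t y) = 0 := ord_aevalAeval_eq_zero H Q' ht hy u hu
  have hv0 : Q'.ord (v.aevalAeval t y) = 0 := ord_aevalAeval_eq_zero H Q' ht hy v hv
  have hune : u.aevalAeval t y ≠ 0 := by
    apply ne_zero_of_valAt_ne_zero H Q'
    rwa [valAt_aevalAeval H Q' ht hy u]
  have hvne : v.aevalAeval t y ≠ 0 := by
    apply ne_zero_of_valAt_ne_zero H Q'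
    rwa [valAt_aevalAeval H Q' ht hy v]
  have hprod : (t - algebraMap K F (valAt H Q' t)) ^ k * u.aevalAeval t y ≠ 0 := by
    rw [← hrel]
    exact mul_ne_zero hvne hp
  have hpow : (t - algebraMap K F (valAt H Q' t)) ^ k ≠ 0 := left_ne_zero_of_mul hprod
  have h1 := congrArg Q'.ord hrel
  rw [Q'.ord_mul hvne hp, Q'.ord_mul hpow hune, hu0, hv0, FF.ord_pow] at h1
  omega

section Frac

variable (H : LHyp K F) {t y : F} {G : K[X][Y]} (hG : G.aevalAeval t y = 0)
  (hfrac : ∀ f : F, ∃ p q : K[X][Y], q.aevalAeval t y ≠ 0 ∧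
    f = p.aevalAeval t y / q.aevalAeval t y)

include hG hfrac

/-- the orders at two places centred at the same smooth point are proportional to `ord (t - a)`. -/
theorem exists_ord_eq_mul (Q : Place K F) (ht : t ∈ Q.toValuationSubring)
    (hy : y ∈ Q.toValuationSubring)
    (hsm : (derivative G).evalEval (valAt H Q t) (valAt H Q y) ≠ 0) (f : F) (hf : f ≠ 0) :
    ∃ m : ℤ, ∀ Q' : Place K F, t ∈ Q'.toValuationSubring → y ∈ Q'.toValuationSubring →
      valAt H Q' t = valAt H Q t → valAt H Q' y = valAt H Q y →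
      Q'.ord f = m * Q'.ord (t - algebraMap K F (valAt H Q t)) := by
  obtain ⟨p, q, hq, rfl⟩ := hfrac f
  have hp : p.aevalAeval t y ≠ 0 := by
    intro h
    rw [h, zero_div] at hf
    exact hf rfl
  obtain ⟨k, u, v, hu, hv, hrel⟩ := exists_normalForm H hG Q ht hy hsm p hp
  obtain ⟨l, u', v', hu', hv', hrel'⟩ := exists_normalForm H hG Q ht hy hsm q hq
  refine ⟨(k : ℤ) - l, fun Q' ht' hy' hta hyb => ?_⟩
  have h1 := ord_aevalAeval_of_normalForm H Q' ht' hy' (p := p) (u := u) (v := v) (k := k) hp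
    (by rwa [hta, hyb]) (by rwa [hta, hyb]) (by rwa [hta])
  have h2 := ord_aevalAeval_of_normalForm H Q' ht' hy' (p := q) (u := u') (v := v') (k := l) hq
    (by rwa [hta, hyb]) (by rwa [hta, hyb]) (by rwa [hta])
  rw [hta] at h1 h2
  rw [div_eq_mul_inv, Q'.ord_mul hp (inv_ne_zero hq), Q'.ord_inv, h1, h2]
  ring

/-- **`t - a` is a uniformiser at a smooth point.** -/
theorem ord_sub_eq_one_of_smooth (Q : Place K F) (ht : t ∈ Q.toValuationSubring)
    (hy : y ∈ Q.toValuationSubring)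
    (hsm : (derivative G).evalEval (valAt H Q t) (valAt H Q y) ≠ 0) :
    Q.ord (t - algebraMap K F (valAt H Q t)) = 1 := by
  obtain ⟨π, hπ⟩ := FF.ffp_exists_irreducible Q
  have hπ1 : Q.ord (π : F) = 1 := Q.ord_coe_irreducible hπ
  have hπ0 : (π : F) ≠ 0 := by
    intro h
    rw [h, Q.ord_zero] at hπ1
    exact zero_ne_one hπ1
  obtain ⟨m, hm⟩ := exists_ord_eq_mul H hG hfrac Q ht hy hsm (π : F) hπ0
  have h1 := hm Q ht hy rfl rfl
  rw [hπ1] at h1
  have h2 : 0 ≤ Q.ord (t - algebraMap K F (valAt H Q t)) := by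
    rcases valAt_spec H Q ht with h | h
    · rw [h, Q.ord_zero]
    · exact h.le
  have h3 : Q.ord (t - algebraMap K F (valAt H Q t)) ∣ 1 := ⟨m, by rw [h1]; ring⟩
  exact Int.eq_one_of_dvd_one h2 h3

/-- two places centred at the same smooth point have the same order function. -/
theorem ord_eq_of_smooth {Q Q' : Place K F} (ht : t ∈ Q.toValuationSubring)
    (hy : y ∈ Q.toValuationSubring) (ht' : t ∈ Q'.toValuationSubring)
    (hy' : y ∈ Q'.toValuationSubring) (hta : valAt H Q' t = valAt H Q t)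
    (hyb : valAt H Q' y = valAt H Q y)
    (hsm : (derivative G).evalEval (valAt H Q t) (valAt H Q y) ≠ 0) (f : F) :
    Q'.ord f = Q.ord f := by
  rcases eq_or_ne f 0 with rfl | hf
  · rw [Q.ord_zero, Q'.ord_zero]
  have hsm' : (derivative G).evalEval (valAt H Q' t) (valAt H Q' y) ≠ 0 := by rwa [hta, hyb]
  have e1 := ord_sub_eq_one_of_smooth H hG hfrac Q ht hy hsm
  have e2 := ord_sub_eq_one_of_smooth H hG hfrac Q' ht' hy' hsm'
  rw [hta] at e2
  obtain ⟨m, hm⟩ := exists_ord_eq_mul H hG hfrac Q ht hy hsm f hf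
  rw [hm Q ht hy rfl rfl, hm Q' ht' hy' hta hyb, e1, e2]

/-- **Only one place is centred at a smooth point.** -/
theorem place_unique_of_smooth {Q Q' : Place K F} (ht : t ∈ Q.toValuationSubring)
    (hy : y ∈ Q.toValuationSubring) (ht' : t ∈ Q'.toValuationSubring)
    (hy' : y ∈ Q'.toValuationSubring) (hta : valAt H Q' t = valAt H Q t)
    (hyb : valAt H Q' y = valAt H Q y)
    (hsm : (derivative G).evalEval (valAt H Q t) (valAt H Q y) ≠ 0) : Q' = Q := by
  apply Place.ext
  ext f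
  rw [FF.mem_iff_ord_nonneg, FF.mem_iff_ord_nonneg,
    ord_eq_of_smooth H hG hfrac ht hy ht' hy' hta hyb hsm f]

end Frac

end Fermat.Agent.M27.SmoothPoint1
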