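/-
Programme M27 (target S27), chapter A, leaf (A3), assembly (helper4): **the chart of a plane model from
the order function.**

`M : PlaneModel P` a plane model `(t, y, G)` at `P`, `B : BranchData M.G` a holomorphic branch `η` of
`G = 0`, and `c : ℂ → Place ℂ F` with
  `hord : (c a).ord (p(t,y)) = ordP M B p a`  for all `a` in the disc and all `p` with `p(t,y) ≠ 0`
(the output of (P1)).  Then:

* `valAt_t`, `valAt_y` : `t(c a) = a`, `y(c a) = η a`;
* `ord_t` : `t - a` is a uniformiser at `c a`;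
* `exists_rep` : (REP) a function regular at `c a` is `P'(t,y)/Q'(t,y)` with `Q'(a, η a) ≠ 0`, and its value
  at `c b` is `P'(b, η b)/Q'(b, η b)` near `a`;
* `analyticAt`, `order_eq` : (N3);
* `c_zero` : `c 0 = P`; `hone` : `c a` is the only place with `t ↦ a`, `y ↦ η a`;
* `exists_chart_of_ord` : a chart of `SurfTopo4.topo hx` centred at `P`.

Imported by no statement.
-/
import Mathlib
import Fermat.Agent.M27.ChartHat8
import Fermat.Agent.M27.ChartEmb4
import Fermat.Agent.M27.ChartOpen4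
import Fermat.Agent.M27.SmoothPoint1

set_option autoImplicit false
set_option linter.unusedSectionVars false
set_option linter.style.longLine false
set_option linter.unusedVariables false
set_option linter.style.haveILetI false

open AlgebraicCurve Metric Topology Polynomial Filter
open scoped Polynomial.Bivariate

noncomputable section

namespace Fermat.Agent.M27.ChartAsm4

open Fermat.Agent.X0.FF Fermat.Agent.RR.LSpace Fermat.Agent.M15.DivDefs4
open Fermat.Agent.M27.Iface2 Fermat.Agent.M27.SurfTopo4 Fermat.Agent.M27.SurfIface4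
open Fermat.Agent.M27.ChartHat8 Fermat.Agent.M27.PlaneVal1

variable {F : Type*} [Field F] [Algebra ℂ F] (H : LHyp ℂ F) {P : Place ℂ F}
  (M : PlaneModel P) (B : BranchData M.G) (c : ℂ → Place ℂ F)
  (hord : ∀ a ∈ ball (0 : ℂ) B.r, ∀ p : ℂ[X][Y], p.aevalAeval M.t M.y ≠ 0 →
    (c a).ord (p.aevalAeval M.t M.y) = (ordP M B p a : ℤ))

/-! ### values of `t` and `y` along `c` -/

theorem aeval_t_sub (a : ℂ) :
    (C (X - C a) : ℂ[X][Y]).aevalAeval M.t M.y = M.t - algebraMap ℂ F a := by
  rw [aevalAeval_C, map_sub, aeval_X, aeval_C]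

theorem aeval_y_sub (b : ℂ) :
    (Y - CC b : ℂ[X][Y]).aevalAeval M.t M.y = M.y - algebraMap ℂ F b := by
  rw [map_sub, aevalAeval_Y, aevalAeval_C, aeval_C]

include hord in
theorem ord_t {a : ℂ} (ha : a ∈ ball (0 : ℂ) B.r) :
    (c a).ord (M.t - algebraMap ℂ F a) = 1 := by
  rw [← aeval_t_sub M a, hord a ha _ (t_sub_ne_zero M B a), ordP_t_sub M B a]
  rfl

include hord in
theorem valAt_t {a : ℂ} (ha : a ∈ ball (0 : ℂ) B.r) : valAt H (c a) M.t = a :=
  valAt_eq_of H (c a) (Or.inr (by rw [ord_t M B c hord ha]; exact one_pos))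

include hord in
theorem t_mem {a : ℂ} (ha : a ∈ ball (0 : ℂ) B.r) : M.t ∈ (c a).toValuationSubring :=
  mem_of_ord_sub_pos (c a) (c := a) (Or.inr (by rw [ord_t M B c hord ha]; exact one_pos))

include hord in
theorem y_sub_spec {a : ℂ} (ha : a ∈ ball (0 : ℂ) B.r) :
    M.y - algebraMap ℂ F (B.η a) = 0 ∨ 0 < (c a).ord (M.y - algebraMap ℂ F (B.η a)) := by
  by_cases h0 : M.y - algebraMap ℂ F (B.η a) = 0
  · exact Or.inl h0
  · right
    have hp : (Y - CC (B.η a) : ℂ[X][Y]).aevalAeval M.t M.y ≠ 0 := by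
      rw [aeval_y_sub]; exact h0
    rw [← aeval_y_sub M (B.η a), hord a ha _ hp]
    have hne : ordP M B (Y - CC (B.η a)) a ≠ 0 := by
      intro h
      have := (ordP_eq_zero_iff M B hp ha).mp h
      apply this
      rw [evalEval_sub, evalEval_X, evalEval_CC, sub_self]
    exact_mod_cast Nat.pos_of_ne_zero hne

include hord in
theorem valAt_y {a : ℂ} (ha : a ∈ ball (0 : ℂ) B.r) : valAt H (c a) M.y = B.η a :=
  valAt_eq_of H (c a) (y_sub_spec M B c hord ha)

include hord in
theorem y_mem {a : ℂ} (ha : a ∈ ball (0 : ℂ) B.r) : M.y ∈ (c a).toValuationSubring :=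
  mem_of_ord_sub_pos (c a) (y_sub_spec M B c hord ha)

include hord in
/-- the value of a polynomial expression along `c`. -/
theorem valAt_aeval {a : ℂ} (ha : a ∈ ball (0 : ℂ) B.r) (p : ℂ[X][Y]) :
    valAt H (c a) (p.aevalAeval M.t M.y) = B.hatP p a := by
  rw [valAt_aevalAeval H (c a) (t_mem M B c hord ha) (y_mem M B c hord ha) p,
    valAt_t H M B c hord ha, valAt_y H M B c hord ha]
  rfl

/-! ### (REP): the local representation of a regular function -/

include hord in
/-- **(REP)**: a nonzero function regular at `c a` is `(t - a)^n u(t,y)/v(t,y)` with `u, v` nonvanishing at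
`(a, η a)` and `n` its order. -/
theorem exists_rep {a : ℂ} (ha : a ∈ ball (0 : ℂ) B.r) {f : F} (hf0 : f ≠ 0)
    (hf : 0 ≤ (c a).ord f) :
    ∃ (n : ℕ) (u v : ℂ[X][Y]), (c a).ord f = (n : ℤ) ∧ u.evalEval a (B.η a) ≠ 0 ∧
      v.evalEval a (B.η a) ≠ 0 ∧
      f * v.aevalAeval M.t M.y = (C (X - C a) ^ n * u : ℂ[X][Y]).aevalAeval M.t M.y := by
  obtain ⟨p, q, hq, rfl⟩ := M.frac f
  have hp : p.aevalAeval M.t M.y ≠ 0 := by
    intro h
    rw [h, zero_div] at hf0
    exact hf0 rfl
  set k := ordP M B p a with hk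
  set l := ordP M B q a with hl
  have hordf : (c a).ord (p.aevalAeval M.t M.y / q.aevalAeval M.t M.y) = (k : ℤ) - (l : ℤ) := by
    rw [div_eq_mul_inv, (c a).ord_mul hp (inv_ne_zero hq), (c a).ord_inv, hord a ha p hp,
      hord a ha q hq]
    ring
  have hlk : l ≤ k := by
    rw [hordf] at hf
    omega
  obtain ⟨pk, s, hred, hpk⟩ := exists_reduction M B ha k p hp rfl
  obtain ⟨ql, s', hred', hql⟩ := exists_reduction M B ha l q hq rfl
  have e1 : p.aevalAeval M.t M.y * (Hc M B a).aevalAeval M.t M.y ^ k =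
      (C (X - C a) : ℂ[X][Y]).aevalAeval M.t M.y ^ k * pk.aevalAeval M.t M.y := by
    have := congrArg (aevalAeval M.t M.y) hred
    simpa only [map_mul, map_add, map_pow, M.root, mul_zero, add_zero] using this
  have e2 : q.aevalAeval M.t M.y * (Hc M B a).aevalAeval M.t M.y ^ l =
      (C (X - C a) : ℂ[X][Y]).aevalAeval M.t M.y ^ l * ql.aevalAeval M.t M.y := by
    have := congrArg (aevalAeval M.t M.y) hred'
    simpa only [map_mul, map_add, map_pow, M.root, mul_zero, add_zero] using this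
  have hT : (C (X - C a) : ℂ[X][Y]).aevalAeval M.t M.y ≠ 0 := t_sub_ne_zero M B a
  refine ⟨k - l, pk * Hc M B a ^ l, ql * Hc M B a ^ k, ?_, ?_, ?_, ?_⟩
  · rw [hordf, Nat.cast_sub hlk]
  · rw [evalEval_mul, evalEval_pow]
    exact mul_ne_zero hpk (pow_ne_zero _ (Hc_evalEval M B ha))
  · rw [evalEval_mul, evalEval_pow]
    exact mul_ne_zero hql (pow_ne_zero _ (Hc_evalEval M B ha))
  · simp only [map_mul, map_pow]
    rw [div_mul_eq_mul_div, div_eq_iff hq]
    apply mul_right_cancel₀ (pow_ne_zero l hT)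
    have hTk : (C (X - C a) : ℂ[X][Y]).aevalAeval M.t M.y ^ k =
        (C (X - C a) : ℂ[X][Y]).aevalAeval M.t M.y ^ (k - l) *
          (C (X - C a) : ℂ[X][Y]).aevalAeval M.t M.y ^ l := by
      rw [← pow_add, Nat.sub_add_cancel hlk]
    linear_combination (ql.aevalAeval M.t M.y * (C (X - C a) : ℂ[X][Y]).aevalAeval M.t M.y ^ l) * e1
      - ((C (X - C a) : ℂ[X][Y]).aevalAeval M.t M.y ^ k * pk.aevalAeval M.t M.y) * e2
      + (pk.aevalAeval M.t M.y * q.aevalAeval M.t M.y * (Hc M B a).aevalAeval M.t M.y ^ l) * hTk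

include hord in
/-- the value of `f` at `c b` from a representation `f * v(t,y) = w(t,y)` with `v(b, η b) ≠ 0`. -/
theorem valAt_of_rep {b : ℂ} (hb : b ∈ ball (0 : ℂ) B.r) {f : F} {w v : ℂ[X][Y]}
    (hrel : f * v.aevalAeval M.t M.y = w.aevalAeval M.t M.y) (hv : B.hatP v b ≠ 0) :
    f ∈ (c b).toValuationSubring ∧ valAt H (c b) f = B.hatP w b / B.hatP v b := by
  have htm := t_mem M B c hord hb
  have hym := y_mem M B c hord hb
  have hvval : valAt H (c b) (v.aevalAeval M.t M.y) = B.hatP v b := valAt_aeval H M B c hord hb v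
  have hvne : v.aevalAeval M.t M.y ≠ 0 := by
    apply Fermat.Agent.M27.SmoothPoint1.ne_zero_of_valAt_ne_zero H (c b)
    rw [hvval]; exact hv
  have hvord : (c b).ord (v.aevalAeval M.t M.y) = 0 :=
    ord_eq_zero_of_valAt_ne_zero H (c b) (aevalAeval_mem (c b) htm hym v) (by rw [hvval]; exact hv)
  have hfeq : f = w.aevalAeval M.t M.y * (v.aevalAeval M.t M.y)⁻¹ := by
    rw [← hrel, mul_assoc, mul_inv_cancel₀ hvne, mul_one]
  have hinvmem : (v.aevalAeval M.t M.y)⁻¹ ∈ (c b).toValuationSubring := by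
    apply ffp_mem_of_ord_nonneg
    rw [(c b).ord_inv, hvord]
    simp
  have hfmem : f ∈ (c b).toValuationSubring := by
    rw [hfeq]
    exact mul_mem (aevalAeval_mem (c b) htm hym w) hinvmem
  refine ⟨hfmem, ?_⟩
  have h1 := valAt_mul H (c b) hfmem (aevalAeval_mem (c b) htm hym v)
  rw [hrel, valAt_aeval H M B c hord hb w, hvval] at h1
  rw [eq_div_iff hv]
  exact h1.symm

theorem hatP_pow_mul (a : ℂ) (n : ℕ) (u : ℂ[X][Y]) (b : ℂ) :
    B.hatP (C (X - C a) ^ n * u) b = (b - a) ^ n * B.hatP u b := by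
  rw [BranchData.hatP_mul, BranchData.hatP_pow, Pi.mul_apply, Pi.pow_apply, BranchData.hatP_C]
  simp

include hord in
/-- near `a`, the value of `f` at `c b` is `(b - a)^n u(b, η b)/v(b, η b)`. -/
theorem eventually_valAt_eq {a : ℂ} (ha : a ∈ ball (0 : ℂ) B.r) {f : F} {n : ℕ} {u v : ℂ[X][Y]}
    (hv : v.evalEval a (B.η a) ≠ 0)
    (hrel : f * v.aevalAeval M.t M.y = (C (X - C a) ^ n * u : ℂ[X][Y]).aevalAeval M.t M.y) :
    ∀ᶠ b in 𝓝 a, valAt H (c b) f = (b - a) ^ n * B.hatP u b / B.hatP v b := by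
  have hcont : ContinuousAt (B.hatP v) a := (B.analyticAt_hatP v ha).continuousAt
  have hne : ∀ᶠ b in 𝓝 a, B.hatP v b ≠ 0 := hcont.eventually_ne hv
  filter_upwards [hne, isOpen_ball.mem_nhds ha] with b hb hbr
  rw [(valAt_of_rep H M B c hord hbr hrel hb).2, hatP_pow_mul]

/-! ### (N3) -/

include hord in
theorem analyticAt (f : F) (a : ℂ) (ha : a ∈ ball (0 : ℂ) B.r) (hf : 0 ≤ (c a).ord f) :
    AnalyticAt ℂ (fun b => valAt H (c b) f) a := by
  rcases eq_or_ne f 0 with rfl | hf0
  · have : (fun b => valAt H (c b) (0 : F)) = fun _ => (0 : ℂ) := by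
      funext b
      exact Fermat.Agent.M27.SmoothPoint1.valAt_zero H (c b)
    rw [this]
    exact analyticAt_const
  obtain ⟨n, u, v, -, -, hv, hrel⟩ := exists_rep M B c hord ha hf0 hf
  have hev := eventually_valAt_eq H M B c hord ha hv hrel
  have han : AnalyticAt ℂ (fun b => (b - a) ^ n * B.hatP u b / B.hatP v b) a := by
    refine AnalyticAt.div ?_ (B.analyticAt_hatP v ha) hv
    exact ((analyticAt_id.sub analyticAt_const).pow n).mul (B.analyticAt_hatP u ha)
  exact han.congr (hev.mono fun b hb => hb.symm)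

include hord in
theorem order_eq (f : F) (a : ℂ) (hf0 : f ≠ 0) (ha : a ∈ ball (0 : ℂ) B.r)
    (hf : 0 ≤ (c a).ord f) :
    analyticOrderAt (fun b => valAt H (c b) f) a = (((c a).ord f).toNat : ℕ∞) := by
  obtain ⟨n, u, v, hn, hu, hv, hrel⟩ := exists_rep M B c hord ha hf0 hf
  have hev := eventually_valAt_eq H M B c hord ha hv hrel
  rw [hn, Int.toNat_natCast]
  rw [(analyticAt H M B c hord f a ha hf).analyticOrderAt_eq_natCast]
  refine ⟨fun b => B.hatP u b / B.hatP v b,
    (B.analyticAt_hatP u ha).div (B.analyticAt_hatP v ha) hv, div_ne_zero hu hv, ?_⟩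
  filter_upwards [hev] with b hb
  rw [hb, smul_eq_mul, mul_div_assoc]

/-! ### uniqueness of the place, `c 0 = P` -/

include hord in
theorem hone {a : ℂ} (ha : a ∈ ball (0 : ℂ) B.r) (Q : Place ℂ F)
    (ht : M.t ∈ Q.toValuationSubring) (hy : M.y ∈ Q.toValuationSubring)
    (hta : valAt H Q M.t = a) (hya : valAt H Q M.y = B.η a) : Q = c a := by
  refine Fermat.Agent.M27.SmoothPoint1.place_unique_of_smooth H M.root M.frac
    (t_mem M B c hord ha) (y_mem M B c hord ha) ht hy ?_ ?_ ?_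
  · rw [hta, valAt_t H M B c hord ha]
  · rw [hya, valAt_y H M B c hord ha]
  · rw [valAt_t H M B c hord ha, valAt_y H M B c hord ha]
    exact (B.spec a ha).2.2

include H hord in
theorem c_zero : c 0 = P := by
  have h0 : (0 : ℂ) ∈ ball (0 : ℂ) B.r := mem_ball_self B.r_pos
  have htP : 0 < P.ord M.t := by rw [M.ord_t]; exact one_pos
  symm
  refine hone H M B c hord h0 P (ffp_mem_of_ord_nonneg _ htP.le) (ffp_mem_of_ord_nonneg _ M.ord_y.le)
    (valAt_eq_zero_of_ord_pos H P htP) ?_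
  rw [B.η_zero]
  exact valAt_eq_zero_of_ord_pos H P M.ord_y

/-! ### the chart -/

include hord in
/-- **the chart of a plane model**, from the order function (P1). -/
theorem exists_chart_of_ord {x : F} (hx : IsGen ℂ x) :
    ∃ φ : @Chart F _ _ H (topo hx), @Chart.c F _ _ H (topo hx) φ 0 = P := by
  have hopen : @IsOpen _ (topo hx) (c '' ball (0 : ℂ) B.r) :=
    Fermat.Agent.M27.ChartOpen4.isOpen_image_chart H hx M.t M.y M.G M.root B.r B.ε B.η c
      (fun a ha => ⟨t_mem M B c hord ha, y_mem M B c hord ha, valAt_t H M B c hord ha,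
        valAt_y H M B c hord ha⟩)
      (fun a ha => (B.spec a ha).1) B.uniq
      (fun a ha Q ht hy hta hya => hone H M B c hord ha Q ht hy hta hya)
  refine ⟨Fermat.Agent.M27.ChartEmb4.mkChart' H hx M.t B.r c
    (fun a ha => ord_t M B c hord ha) (analyticAt H M B c hord) B.r_pos
    (order_eq H M B c hord) hopen, ?_⟩
  exact c_zero H M B c hord

end Fermat.Agent.M27.ChartAsm4
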