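/-
Programme M27 (target S27), chapter A, leaf of (A3) (helper4, literal of helper8): **the image of the chart
of a plane model is open.**

For a plane model `(t, y, G)` with `G(t, y) = 0`, a branch `η` of `G = 0` on `ball 0 r` with values in
`ball 0 ε`, unique there, and `c a` the ONLY place with `t ↦ a`, `y ↦ η a`:
`c '' ball 0 r = {Q | t(Q) ∈ ball 0 r ∧ y(Q) ∈ ball 0 ε}`, an open set of `SurfTopo4.topo hx`.

Imported by no statement.
-/
import Mathlib
import Fermat.Agent.M27.SurfIface4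
import Fermat.Agent.M27.PlaneVal1

set_option autoImplicit false
set_option linter.unusedSectionVars false
set_option linter.style.longLine false
set_option linter.unusedVariables false

open AlgebraicCurve Metric Topology Polynomial
open scoped Polynomial.Bivariate

noncomputable section

namespace Fermat.Agent.M27.ChartOpen4

open Fermat.Agent.X0.FF Fermat.Agent.RR.LSpace Fermat.Agent.M15.DivDefs4
open Fermat.Agent.M27.Iface2 Fermat.Agent.M27.SurfTopo4 Fermat.Agent.M27.SurfIface4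

variable {F : Type*} [Field F] [Algebra ℂ F]

/-- a finite sphere value: `f` is regular at `Q` and takes the value `a`. -/
theorem mem_and_valAt_of_sval_eq (H : LHyp ℂ F) {f : F} {Q : Place ℂ F} {a : ℂ}
    (h : sval H f Q = ((a : ℂ) : OnePoint ℂ)) : f ∈ Q.toValuationSubring ∧ valAt H Q f = a := by
  by_cases hf : f ∈ Q.toValuationSubring
  · rw [sval_of_mem H hf] at h
    exact ⟨hf, OnePoint.coe_injective h⟩
  · rw [sval_of_not_mem H hf] at h
    exact absurd h.symm (OnePoint.coe_ne_infty a)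

/-- the image of the chart as a set of sphere values. -/
theorem image_chart_eq (H : LHyp ℂ F) (t y : F) (G : ℂ[X][Y])
    (hG : G.aevalAeval t y = 0) (r ε : ℝ) (η : ℂ → ℂ) (c : ℂ → Place ℂ F)
    (hc : ∀ a ∈ ball (0 : ℂ) r, t ∈ (c a).toValuationSubring ∧ y ∈ (c a).toValuationSubring ∧
      valAt H (c a) t = a ∧ valAt H (c a) y = η a)
    (hη : ∀ a ∈ ball (0 : ℂ) r, η a ∈ ball (0 : ℂ) ε)
    (huniq : ∀ a ∈ ball (0 : ℂ) r, ∀ b ∈ ball (0 : ℂ) ε, G.evalEval a b = 0 → b = η a)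
    (hone : ∀ a ∈ ball (0 : ℂ) r, ∀ Q : Place ℂ F, t ∈ Q.toValuationSubring →
      y ∈ Q.toValuationSubring → valAt H Q t = a → valAt H Q y = η a → Q = c a) :
    c '' ball (0 : ℂ) r =
      (sval H t) ⁻¹' (((↑) : ℂ → OnePoint ℂ) '' ball (0 : ℂ) r) ∩
        (sval H y) ⁻¹' (((↑) : ℂ → OnePoint ℂ) '' ball (0 : ℂ) ε) := by
  ext Q
  constructor
  · rintro ⟨a, ha, rfl⟩
    obtain ⟨ht, hy, hta, hya⟩ := hc a ha
    refine ⟨⟨a, ha, ?_⟩, ⟨η a, hη a ha, ?_⟩⟩
    · rw [sval_of_mem H ht, hta]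
    · rw [sval_of_mem H hy, hya]
  · rintro ⟨⟨a, ha, hta⟩, ⟨b, hb, hyb⟩⟩
    obtain ⟨ht, hta'⟩ := mem_and_valAt_of_sval_eq H hta.symm
    obtain ⟨hy, hyb'⟩ := mem_and_valAt_of_sval_eq H hyb.symm
    have h0 : G.evalEval a b = 0 := by
      have h1 := Fermat.Agent.M27.PlaneVal1.valAt_aevalAeval H Q ht hy G
      rw [hG, hta', hyb'] at h1
      rw [← h1]
      have := valAt_algebraMap H Q (0 : ℂ)
      rwa [map_zero] at this
    have hb' : b = η a := huniq a ha b hb h0
    refine ⟨a, ha, ?_⟩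
    exact (hone a ha Q ht hy hta' (by rw [hyb', hb'])).symm

/-- **the image of the chart is open** (literal of helper8, 1521). -/
theorem isOpen_image_chart (H : LHyp ℂ F) {x : F} (hx : IsGen ℂ x) (t y : F) (G : ℂ[X][Y])
    (hG : G.aevalAeval t y = 0) (r ε : ℝ) (η : ℂ → ℂ) (c : ℂ → Place ℂ F)
    (hc : ∀ a ∈ ball (0 : ℂ) r, t ∈ (c a).toValuationSubring ∧ y ∈ (c a).toValuationSubring ∧
      valAt H (c a) t = a ∧ valAt H (c a) y = η a)
    (hη : ∀ a ∈ ball (0 : ℂ) r, η a ∈ ball (0 : ℂ) ε)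
    (huniq : ∀ a ∈ ball (0 : ℂ) r, ∀ b ∈ ball (0 : ℂ) ε, G.evalEval a b = 0 → b = η a)
    (hone : ∀ a ∈ ball (0 : ℂ) r, ∀ Q : Place ℂ F, t ∈ Q.toValuationSubring →
      y ∈ Q.toValuationSubring → valAt H Q t = a → valAt H Q y = η a → Q = c a) :
    @IsOpen _ (topo hx) (c '' ball (0 : ℂ) r) := by
  letI := topo hx
  rw [image_chart_eq H t y G hG r ε η c hc hη huniq hone]
  exact ((OnePoint.isOpenEmbedding_coe.isOpenMap _ isOpen_ball).preimage
      (continuous_sval H hx t)).inter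
    ((OnePoint.isOpenEmbedding_coe.isOpenMap _ isOpen_ball).preimage (continuous_sval H hx y))

end Fermat.Agent.M27.ChartOpen4
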