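/-
Programme M27 (target S27), chapter A, leaf (A3) (helper8): **the place at a point of the branch.**

For a plane model `(t, y, G)` at `P` and a holomorphic branch `η` on `ball 0 r`
(`ChartHat8.PlaneModel`, `ChartHat8.BranchData`):

* `exists_place` : for `a` in the disc there is a place `v` with
  `v.ord (p(t,y)) = ordP p a` (the analytic order of `b ↦ p(b, η b)` at `a`) for every `p` with
  `p(t,y) ≠ 0` (the tree's `FFOrd.exists_place_of_ordFun_fraction` on `ℂ[t,y]`);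
* `Q M B a` : that place; `ord_Q`, `ord_Q_t_sub`, `t_mem_Q`, `y_mem_Q`, `valAt_Q_t`, `valAt_Q_y`;
* `exists_rep` : (REP) every `f` regular at `Q a` is `p(t,y)/q(t,y)` with `q(a, η a) ≠ 0`.
Imported by no statement.
-/
import Mathlib
import Fermat.Agent.X0.FFOrd
import Fermat.Agent.M27.ChartHat8
import Fermat.Agent.M27.PlaneVal1

set_option autoImplicit false

open Polynomial Metric Filter Topology AlgebraicCurve
open scoped Polynomial.Bivariate

namespace Fermat.Agent.M27.ChartPlace8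

open Fermat.Agent.M27.PlaneAlg8 Fermat.Agent.M27.ChartHat8 Fermat.Agent.X0

variable {F : Type*} [Field F] [Algebra ℂ F] {P : Place ℂ F} (M : PlaneModel P)
  (B : BranchData M.G)

/-- the coordinate ring `ℂ[t,y] ⊆ F`. -/
noncomputable def coordRing : Subalgebra ℂ F := (aevalAeval M.t M.y).range

theorem aeval_mem_coordRing (p : ℂ[X][Y]) : p.aevalAeval M.t M.y ∈ coordRing M := ⟨p, rfl⟩

instance isFractionRing_coordRing : IsFractionRing (coordRing M) F := by
  apply IsFractionRing.of_field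
  intro f
  obtain ⟨p, q, -, hf⟩ := M.frac f
  exact ⟨⟨p.aevalAeval M.t M.y, aeval_mem_coordRing M p⟩,
    ⟨q.aevalAeval M.t M.y, aeval_mem_coordRing M q⟩, hf⟩

/-- a polynomial representative of an element of the coordinate ring. -/
noncomputable def rep (g : coordRing M) : ℂ[X][Y] := Classical.choose g.2

theorem rep_spec (g : coordRing M) : (rep M g).aevalAeval M.t M.y = (g : F) :=
  Classical.choose_spec g.2

/-- the order function on the coordinate ring. -/
noncomputable def w0 (a : ℂ) (g : coordRing M) : ℤ := (ordP M B (rep M g) a : ℤ)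

theorem w0_eq {a : ℂ} (ha : a ∈ ball (0 : ℂ) B.r) (g : coordRing M) (p : ℂ[X][Y])
    (hp : p.aevalAeval M.t M.y = (g : F)) : w0 M B a g = ordP M B p a := by
  unfold w0
  congr 1
  exact ordP_congr M B ((rep_spec M g).trans hp.symm) ha

theorem min_ordP_le_ordP_add {p q : ℂ[X][Y]} (hp : p.aevalAeval M.t M.y ≠ 0)
    (hq : q.aevalAeval M.t M.y ≠ 0) (hpq : (p + q).aevalAeval M.t M.y ≠ 0) {a : ℂ}
    (ha : a ∈ ball (0 : ℂ) B.r) :
    min (ordP M B p a) (ordP M B q a) ≤ ordP M B (p + q) a := by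
  have h := le_analyticOrderAt_add (f := B.hatP p) (g := B.hatP q) (z₀ := a)
  rw [← BranchData.hatP_add, ← coe_ordP M B hp ha, ← coe_ordP M B hq ha,
    ← coe_ordP M B hpq ha] at h
  rcases min_le_iff.mp h with h | h
  · exact min_le_iff.mpr (Or.inl (by exact_mod_cast h))
  · exact min_le_iff.mpr (Or.inr (by exact_mod_cast h))

theorem ordP_CC {c : ℂ} (hc : c ≠ 0) (a : ℂ) : ordP M B (CC c) a = 0 := by
  unfold ordP analyticOrderNatAt
  have h : B.hatP (CC c) = fun _ => c := by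
    funext b
    simp [BranchData.hatP_apply]
  rw [h]
  have : analyticOrderAt (fun _ : ℂ => c) a = 0 := by
    rw [(analyticAt_const).analyticOrderAt_eq_zero]
    exact hc
  rw [this]
  rfl

/-- **(P1)** the place of the order function along the branch at `a`. -/
theorem exists_place {a : ℂ} (ha : a ∈ ball (0 : ℂ) B.r) :
    ∃ v : Place ℂ F, ∀ p : ℂ[X][Y], p.aevalAeval M.t M.y ≠ 0 →
      v.ord (p.aevalAeval M.t M.y) = ordP M B p a := by
  have hne : ∀ g : coordRing M, g ≠ 0 → (g : F) ≠ 0 := fun g hg h => hg (Subtype.ext h)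
  have hrne : ∀ g : coordRing M, g ≠ 0 → (rep M g).aevalAeval M.t M.y ≠ 0 := fun g hg => by
    rw [rep_spec]
    exact hne g hg
  have hmul : ∀ g₁ g₂ : coordRing M, g₁ ≠ 0 → g₂ ≠ 0 →
      w0 M B a (g₁ * g₂) = w0 M B a g₁ + w0 M B a g₂ := by
    intro g₁ g₂ h₁ h₂
    rw [w0_eq M B ha (g₁ * g₂) (rep M g₁ * rep M g₂) (by
      rw [map_mul, rep_spec, rep_spec]; rfl),
      ordP_mul M B (hrne g₁ h₁) (hrne g₂ h₂) ha]
    unfold w0
    push_cast
    rfl
  have hadd : ∀ g₁ g₂ : coordRing M, g₁ ≠ 0 → g₂ ≠ 0 → g₁ + g₂ ≠ 0 →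
      min (w0 M B a g₁) (w0 M B a g₂) ≤ w0 M B a (g₁ + g₂) := by
    intro g₁ g₂ h₁ h₂ h₁₂
    have hs : (rep M g₁ + rep M g₂).aevalAeval M.t M.y = ((g₁ + g₂ : coordRing M) : F) := by
      rw [map_add, rep_spec, rep_spec]; rfl
    rw [w0_eq M B ha (g₁ + g₂) (rep M g₁ + rep M g₂) hs]
    have := min_ordP_le_ordP_add M B (hrne g₁ h₁) (hrne g₂ h₂)
      (by rw [hs]; exact hne _ h₁₂) ha
    unfold w0
    exact_mod_cast this
  have hK : ∀ c : ℂ, algebraMap ℂ (coordRing M) c ≠ 0 →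
      w0 M B a (algebraMap ℂ (coordRing M) c) = 0 := by
    intro c hc
    have hc0 : c ≠ 0 := by
      rintro rfl
      exact hc (map_zero _)
    rw [w0_eq M B ha _ (CC c) (by
      show (CC c).aevalAeval M.t M.y = algebraMap ℂ F c
      simp [Polynomial.aevalAeval, Algebra.algebraMap_eq_smul_one]), ordP_CC M B hc0 a]
    rfl
  have htsub : (C (X - C a) : ℂ[X][Y]).aevalAeval M.t M.y = M.t - algebraMap ℂ F a := by
    simp [Polynomial.aevalAeval]
  have hnt : ∃ g : coordRing M, g ≠ 0 ∧ w0 M B a g ≠ 0 := by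
    refine ⟨⟨_, aeval_mem_coordRing M (C (X - C a))⟩, ?_, ?_⟩
    · intro h
      exact t_sub_ne_zero M B a (congrArg Subtype.val h)
    · rw [w0_eq M B ha _ (C (X - C a)) rfl, ordP_t_sub M B a]
      norm_num
  obtain ⟨v, m, hm, hv⟩ := FFOrd.exists_place_of_ordFun_fraction (K := ℂ) (F := F)
    (w0 M B a) hmul hadd hK hnt
  have hm1 : m = 1 := by
    have h1 := hv ⟨_, aeval_mem_coordRing M (C (X - C a))⟩ (by
      intro h
      exact t_sub_ne_zero M B a (congrArg Subtype.val h))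
    rw [w0_eq M B ha _ (C (X - C a)) rfl, ordP_t_sub M B a] at h1
    have h2 : (m : ℤ) ∣ 1 := ⟨_, by exact_mod_cast h1⟩
    have h3 : (m : ℤ) = 1 := Int.eq_one_of_dvd_one (by positivity) h2
    exact_mod_cast h3
  refine ⟨v, fun p hp => ?_⟩
  have h1 := hv ⟨_, aeval_mem_coordRing M p⟩ (by
    intro h
    exact hp (congrArg Subtype.val h))
  rw [w0_eq M B ha _ p rfl, hm1] at h1
  have h2 : algebraMap (coordRing M) F ⟨_, aeval_mem_coordRing M p⟩ = p.aevalAeval M.t M.y := rfl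
  rw [h2] at h1
  push_cast at h1
  rw [one_mul] at h1
  exact h1.symm

/-! ### The place `Q a` -/

open Classical in
/-- the place at the point `(a, η a)` of the branch (`P` outside the disc). -/
noncomputable def Q (a : ℂ) : Place ℂ F :=
  if ha : a ∈ ball (0 : ℂ) B.r then Classical.choose (exists_place M B ha) else P

theorem ord_Q {a : ℂ} (ha : a ∈ ball (0 : ℂ) B.r) {p : ℂ[X][Y]}
    (hp : p.aevalAeval M.t M.y ≠ 0) :
    (Q M B a).ord (p.aevalAeval M.t M.y) = ordP M B p a := by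
  unfold Q
  rw [dif_pos ha]
  exact Classical.choose_spec (exists_place M B ha) p hp

theorem aeval_C_X_sub (a : ℂ) :
    (C (X - C a) : ℂ[X][Y]).aevalAeval M.t M.y = M.t - algebraMap ℂ F a := by
  simp [Polynomial.aevalAeval]

theorem aeval_Y_sub (b : ℂ) :
    (Y - CC b : ℂ[X][Y]).aevalAeval M.t M.y = M.y - algebraMap ℂ F b := by
  simp [Polynomial.aevalAeval, Algebra.algebraMap_eq_smul_one]

/-- `t - a` is a uniformiser at `Q a`. -/
theorem ord_Q_t_sub {a : ℂ} (ha : a ∈ ball (0 : ℂ) B.r) :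
    (Q M B a).ord (M.t - algebraMap ℂ F a) = 1 := by
  rw [← aeval_C_X_sub, ord_Q M B ha (t_sub_ne_zero M B a), ordP_t_sub]
  rfl

theorem y_sub_spec {a : ℂ} (ha : a ∈ ball (0 : ℂ) B.r) :
    M.y - algebraMap ℂ F (B.η a) = 0 ∨ 0 < (Q M B a).ord (M.y - algebraMap ℂ F (B.η a)) := by
  by_cases h : M.y - algebraMap ℂ F (B.η a) = 0
  · exact Or.inl h
  · right
    rw [← aeval_Y_sub] at h ⊢
    rw [ord_Q M B ha h]
    have h0 : ordP M B (Y - CC (B.η a)) a ≠ 0 := by
      rw [Ne, ordP_eq_zero_iff M B h ha, not_not]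
      simp
    have : 0 < ordP M B (Y - CC (B.η a)) a := Nat.pos_of_ne_zero h0
    exact_mod_cast this

section Val

open Fermat.Agent.RR.LSpace Fermat.Agent.M15.DivDefs4

variable (H : LHyp ℂ F)

theorem t_mem_Q {a : ℂ} (ha : a ∈ ball (0 : ℂ) B.r) : M.t ∈ (Q M B a).toValuationSubring :=
  mem_of_ord_sub_pos (Q M B a) (c := a) (Or.inr (by rw [ord_Q_t_sub M B ha]; exact one_pos))

theorem valAt_Q_t {a : ℂ} (ha : a ∈ ball (0 : ℂ) B.r) : valAt H (Q M B a) M.t = a :=
  valAt_eq_of H (Q M B a) (Or.inr (by rw [ord_Q_t_sub M B ha]; exact one_pos))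

theorem y_mem_Q {a : ℂ} (ha : a ∈ ball (0 : ℂ) B.r) : M.y ∈ (Q M B a).toValuationSubring :=
  mem_of_ord_sub_pos (Q M B a) (y_sub_spec M B ha)

theorem valAt_Q_y {a : ℂ} (ha : a ∈ ball (0 : ℂ) B.r) : valAt H (Q M B a) M.y = B.η a :=
  valAt_eq_of H (Q M B a) (y_sub_spec M B ha)

/-- the value of a polynomial expression at `Q b`. -/
theorem valAt_Q_aeval {b : ℂ} (hb : b ∈ ball (0 : ℂ) B.r) (p : ℂ[X][Y]) :
    valAt H (Q M B b) (p.aevalAeval M.t M.y) = B.hatP p b := by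
  rw [PlaneVal1.valAt_aevalAeval H (Q M B b) (t_mem_Q M B hb) (y_mem_Q M B hb) p,
    valAt_Q_t M B H hb, valAt_Q_y M B H hb, BranchData.hatP_apply]

theorem aeval_mem_Q {b : ℂ} (hb : b ∈ ball (0 : ℂ) B.r) (p : ℂ[X][Y]) :
    p.aevalAeval M.t M.y ∈ (Q M B b).toValuationSubring :=
  PlaneVal1.aevalAeval_mem (Q M B b) (t_mem_Q M B hb) (y_mem_Q M B hb) p

/-- **(REP), algebraic part**: a function regular at `Q a` is `p(t,y)/q(t,y)` with
`q(a, η a) ≠ 0`. -/
theorem exists_rep {a : ℂ} (ha : a ∈ ball (0 : ℂ) B.r) {f : F} (hf : 0 ≤ (Q M B a).ord f) :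
    ∃ p q : ℂ[X][Y], q.evalEval a (B.η a) ≠ 0 ∧
      f * q.aevalAeval M.t M.y = p.aevalAeval M.t M.y := by
  by_cases hf0 : f = 0
  · exact ⟨0, 1, by simp, by simp [hf0]⟩
  obtain ⟨p, q, hq, hfpq⟩ := M.frac f
  have hp : p.aevalAeval M.t M.y ≠ 0 := by
    intro h
    rw [h, zero_div] at hfpq
    exact hf0 hfpq
  have hkm : ordP M B q a ≤ ordP M B p a := by
    have h1 : (Q M B a).ord f = (ordP M B p a : ℤ) - ordP M B q a := by
      rw [hfpq, div_eq_mul_inv, (Q M B a).ord_mul hp (inv_ne_zero hq), (Q M B a).ord_inv,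
        ord_Q M B ha hp, ord_Q M B ha hq]
      ring
    rw [h1] at hf
    omega
  obtain ⟨pm, s, hpm, hpm0⟩ := exists_reduction M B ha _ p hp rfl
  obtain ⟨qk, s', hqk, hqk0⟩ := exists_reduction M B ha _ q hq rfl
  refine ⟨C (X - C a) ^ (ordP M B p a - ordP M B q a) * pm * Hc M B a ^ ordP M B q a,
    qk * Hc M B a ^ ordP M B p a, ?_, ?_⟩
  · rw [evalEval_mul, evalEval_pow]
    exact mul_ne_zero hqk0 (pow_ne_zero _ (Hc_evalEval M B ha))
  · have e1 := congrArg (aevalAeval M.t M.y) hpm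
    have e2 := congrArg (aevalAeval M.t M.y) hqk
    simp only [map_mul, map_add, map_pow, M.root, mul_zero, add_zero] at e1 e2
    have hT : (C (X - C a) : ℂ[X][Y]).aevalAeval M.t M.y ≠ 0 := t_sub_ne_zero M B a
    have hcancel : q.aevalAeval M.t M.y *
        (C (X - C a) : ℂ[X][Y]).aevalAeval M.t M.y ^ ordP M B q a ≠ 0 :=
      mul_ne_zero hq (pow_ne_zero _ hT)
    apply mul_right_cancel₀ hcancel
    simp only [map_mul, map_pow]
    have hfq : f * q.aevalAeval M.t M.y = p.aevalAeval M.t M.y := by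
      rw [hfpq]
      field_simp
    have hTm : (C (X - C a) : ℂ[X][Y]).aevalAeval M.t M.y ^ ordP M B p a =
        (C (X - C a) : ℂ[X][Y]).aevalAeval M.t M.y ^ (ordP M B p a - ordP M B q a) *
          (C (X - C a) : ℂ[X][Y]).aevalAeval M.t M.y ^ ordP M B q a := by
      rw [← pow_add, Nat.sub_add_cancel hkm]
    linear_combination
      (qk.aevalAeval M.t M.y * (Hc M B a).aevalAeval M.t M.y ^ ordP M B p a *
        (C (X - C a) : ℂ[X][Y]).aevalAeval M.t M.y ^ ordP M B q a) * hfq +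
      (qk.aevalAeval M.t M.y * (C (X - C a) : ℂ[X][Y]).aevalAeval M.t M.y ^ ordP M B q a) * e1 -
      ((C (X - C a) : ℂ[X][Y]).aevalAeval M.t M.y ^ (ordP M B p a - ordP M B q a) *
        pm.aevalAeval M.t M.y * (C (X - C a) : ℂ[X][Y]).aevalAeval M.t M.y ^ ordP M B q a) * e2 +
      (pm.aevalAeval M.t M.y * qk.aevalAeval M.t M.y *
        (C (X - C a) : ℂ[X][Y]).aevalAeval M.t M.y ^ ordP M B q a) * hTm

/-- the value at `Q b` of a fraction whose denominator does not vanish at `(b, η b)`. -/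
theorem valAt_Q_of_rep {b : ℂ} (hb : b ∈ ball (0 : ℂ) B.r) {f : F} {p q : ℂ[X][Y]}
    (hq : q.evalEval b (B.η b) ≠ 0)
    (hfq : f * q.aevalAeval M.t M.y = p.aevalAeval M.t M.y) :
    f ∈ (Q M B b).toValuationSubring ∧
      valAt H (Q M B b) f = p.evalEval b (B.η b) / q.evalEval b (B.η b) := by
  have hqm := aeval_mem_Q M B hb q
  have hpm := aeval_mem_Q M B hb p
  have hqv : valAt H (Q M B b) (q.aevalAeval M.t M.y) = q.evalEval b (B.η b) :=
    valAt_Q_aeval M B H hb q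
  have hpv : valAt H (Q M B b) (p.aevalAeval M.t M.y) = p.evalEval b (B.η b) :=
    valAt_Q_aeval M B H hb p
  have hq0 : q.aevalAeval M.t M.y ≠ 0 := by
    intro h
    rw [h] at hqv
    have h0 : valAt H (Q M B b) (0 : F) = 0 := by
      have := valAt_algebraMap H (Q M B b) (0 : ℂ)
      rwa [map_zero] at this
    exact hq (hqv.symm.trans h0)
  have hqord : (Q M B b).ord (q.aevalAeval M.t M.y) = 0 :=
    PlaneVal1.ord_eq_zero_of_valAt_ne_zero H (Q M B b) hqm (by rw [hqv]; exact hq)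
  have hqinv : (q.aevalAeval M.t M.y)⁻¹ ∈ (Q M B b).toValuationSubring :=
    FF.ffp_mem_of_ord_nonneg _ (by rw [(Q M B b).ord_inv, hqord, neg_zero])
  have hfeq : f = p.aevalAeval M.t M.y * (q.aevalAeval M.t M.y)⁻¹ := by
    rw [← hfq, mul_assoc, mul_inv_cancel₀ hq0, mul_one]
  have hfm : f ∈ (Q M B b).toValuationSubring := by
    rw [hfeq]
    exact mul_mem hpm hqinv
  refine ⟨hfm, ?_⟩
  have h1 := valAt_mul H (Q M B b) hfm hqm
  rw [hfq, hpv, hqv] at h1
  exact eq_div_of_mul_eq hq h1.symm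

/-- **(N3a)** a function regular at `Q a` is analytic at `a` along the branch. -/
theorem analyticAt_Q (f : F) (a : ℂ) (ha : a ∈ ball (0 : ℂ) B.r) (hf : 0 ≤ (Q M B a).ord f) :
    AnalyticAt ℂ (fun b => valAt H (Q M B b) f) a := by
  obtain ⟨p, q, hq, hfq⟩ := exists_rep M B ha hf
  have hqc : ContinuousAt (B.hatP q) a := (B.analyticAt_hatP q ha).continuousAt
  have hev : ∀ᶠ b in 𝓝 a, b ∈ ball (0 : ℂ) B.r ∧ B.hatP q b ≠ 0 :=
    Filter.Eventually.and (isOpen_ball.mem_nhds ha) (hqc.eventually_ne hq)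
  have han : AnalyticAt ℂ (fun b => B.hatP p b / B.hatP q b) a :=
    (B.analyticAt_hatP p ha).div (B.analyticAt_hatP q ha) hq
  refine han.congr ?_
  filter_upwards [hev] with b hb
  exact ((valAt_Q_of_rep M B H hb.1 hb.2 hfq).2).symm

/-- **(N3b)** algebraic order = analytic order. -/
theorem order_eq_Q (f : F) (a : ℂ) (hf0 : f ≠ 0) (ha : a ∈ ball (0 : ℂ) B.r)
    (hf : 0 ≤ (Q M B a).ord f) :
    analyticOrderAt (fun b => valAt H (Q M B b) f) a = (((Q M B a).ord f).toNat : ℕ∞) := by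
  obtain ⟨p, q, hq, hfq⟩ := exists_rep M B ha hf
  have hqc : ContinuousAt (B.hatP q) a := (B.analyticAt_hatP q ha).continuousAt
  have hev : ∀ᶠ b in 𝓝 a, b ∈ ball (0 : ℂ) B.r ∧ B.hatP q b ≠ 0 :=
    Filter.Eventually.and (isOpen_ball.mem_nhds ha) (hqc.eventually_ne hq)
  have hq0 : q.aevalAeval M.t M.y ≠ 0 := by
    intro h
    have := B.hatP_eq_zero_of_dvd ((M.dvd_iff _).mpr h) ha
    exact hq this
  have hp0 : p.aevalAeval M.t M.y ≠ 0 := by
    rw [← hfq]
    exact mul_ne_zero hf0 hq0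
  have hordq : ordP M B q a = 0 := (ordP_eq_zero_iff M B hq0 ha).mpr hq
  have hordf : (Q M B a).ord f = ordP M B p a := by
    have h1 := (Q M B a).ord_mul hf0 hq0
    rw [hfq, ord_Q M B ha hp0, ord_Q M B ha hq0, hordq] at h1
    push_cast at h1
    rw [add_zero] at h1
    exact h1.symm
  have han : AnalyticAt ℂ (fun b => valAt H (Q M B b) f) a := analyticAt_Q M B H f a ha hf
  have hmul : (fun b => valAt H (Q M B b) f) * B.hatP q =ᶠ[𝓝 a] B.hatP p := by
    filter_upwards [hev] with b hb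
    show valAt H (Q M B b) f * B.hatP q b = B.hatP p b
    rw [(valAt_Q_of_rep M B H hb.1 hb.2 hfq).2]
    exact div_mul_cancel₀ _ hb.2
  have h2 := analyticOrderAt_mul han (B.analyticAt_hatP q ha)
  rw [analyticOrderAt_congr hmul, ← coe_ordP M B hp0 ha, ← coe_ordP M B hq0 ha, hordq] at h2
  rw [hordf]
  simp only [Int.toNat_natCast]
  simpa using h2.symm

end Val

end Fermat.Agent.M27.ChartPlace8
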