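/-
Programme M27 (S27), chapter G (Lefschetz), leaf ISO-TRANSPORT (helper3).

`ConstExt24.IsConstExt` and `SemilinearAut` are stable under composition with algebra
isomorphisms:

* `isConstExt_comp_algEquiv` : precomposition with `e : Fk' ≃ₐ[k] Fk`;
* `isConstExt_algEquiv_comp` : postcomposition with `ψ : FK ≃ₐ[K] FK'`;
* `conjAut ψ : SemilinearAut K FK →* SemilinearAut K FK'` (`conjAut_smul`, `baseAut_conjAut`).
-/
import Mathlib
import Fermat.Prelude.Def_AlgebraicCurve_BaseChangeGalois
import Fermat.Agent.J.DESC.ConstExt24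

set_option autoImplicit false
set_option linter.unusedSectionVars false
set_option linter.style.longLine false

namespace Fermat.Agent.M27.ConstExtIso3

open AlgebraicCurve Fermat.Agent.J.DESC.ConstExt24

noncomputable section

universe u v w x w' x'

variable {k : Type u} {K : Type v} {Fk : Type w} {FK : Type x} [Field k] [Field K] [Field Fk]
  [Field FK] [Algebra k K] [Algebra k Fk] [Algebra K FK]

section Pre

variable {Fk' : Type w'} [Field Fk'] [Algebra k Fk'] {ι : Fk →+* FK}

theorem coordSum_comp (e : Fk' →+* Fk) {I : Type v} (B : I → K) (f : I →₀ Fk') :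
    coordSum (ι.comp e) B f = coordSum ι B (f.mapRange e (map_zero e)) := by
  rw [coordSum_apply, coordSum_apply, Finsupp.sum_mapRange_index (by intro i; simp)]
  rfl

/-- Precomposition with an isomorphism of the small function field. -/
theorem isConstExt_comp_algEquiv (hι : IsConstExt (k := k) (K := K) ι) (e : Fk' ≃ₐ[k] Fk) :
    IsConstExt (k := k) (K := K) (ι.comp (e : Fk' →+* Fk)) where
  comm c := by
    show ι (e (algebraMap k Fk' c)) = _
    rw [e.commutes, hι.comm]
  ld I B hB f h := by
    rw [coordSum_comp] at h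
    have h1 := hι.ld I B hB _ h
    apply Finsupp.ext
    intro i
    have h2 := DFunLike.congr_fun h1 i
    simp only [Finsupp.mapRange_apply, Finsupp.coe_zero, Pi.zero_apply] at h2
    exact (map_eq_zero_iff _ e.injective).mp h2
  gen y := by
    have hr : Set.range (ι.comp (e : Fk' →+* Fk)) = Set.range ι := by
      ext z
      constructor
      · rintro ⟨a, rfl⟩
        exact ⟨e a, rfl⟩
      · rintro ⟨a, rfl⟩
        exact ⟨e.symm a, by simp⟩
    rw [hr]
    exact hι.gen y

end Pre

section Post

variable {FK' : Type x'} [Field FK'] [Algebra K FK'] {ι : Fk →+* FK}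

theorem coordSum_algEquiv_comp (ψ : FK ≃ₐ[K] FK') {I : Type v} (B : I → K) (f : I →₀ Fk) :
    coordSum ((ψ : FK →+* FK').comp ι) B f = ψ (coordSum ι B f) := by
  rw [coordSum_apply, coordSum_apply, map_finsuppSum]
  refine Finsupp.sum_congr fun i _ => ?_
  rw [map_mul, AlgEquiv.commutes]
  rfl

theorem map_mem_span_range (ψ : FK ≃ₐ[K] FK') {a : FK}
    (ha : a ∈ Submodule.span K (Set.range ι)) :
    ψ a ∈ Submodule.span K (Set.range ((ψ : FK →+* FK').comp ι)) := by
  induction ha using Submodule.span_induction with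
  | mem x hx =>
    obtain ⟨f, rfl⟩ := hx
    exact Submodule.subset_span ⟨f, rfl⟩
  | zero => simp
  | add x y _ _ hx hy => rw [map_add]; exact add_mem hx hy
  | smul c x _ hx => rw [map_smul]; exact Submodule.smul_mem _ _ hx

/-- Postcomposition with an isomorphism of the big function field. -/
theorem isConstExt_algEquiv_comp (hι : IsConstExt (k := k) (K := K) ι) (ψ : FK ≃ₐ[K] FK') :
    IsConstExt (k := k) (K := K) ((ψ : FK →+* FK').comp ι) where
  comm c := by
    show ψ (ι (algebraMap k Fk c)) = _
    rw [hι.comm, AlgEquiv.commutes]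
  ld I B hB f h := by
    rw [coordSum_algEquiv_comp] at h
    exact hι.ld I B hB f ((map_eq_zero_iff _ ψ.injective).mp h)
  gen y := by
    obtain ⟨a, ha, b, hb, hb0, hy⟩ := hι.gen (ψ.symm y)
    refine ⟨ψ a, map_mem_span_range ψ ha, ψ b, map_mem_span_range ψ hb, ?_, ?_⟩
    · exact (map_ne_zero_iff _ ψ.injective).mpr hb0
    · rw [← map_div₀, ← hy, AlgEquiv.apply_symm_apply]

/-- Conjugation of a semilinear automorphism by a `K`-algebra isomorphism. -/
def conjAut (ψ : FK ≃ₐ[K] FK') : SemilinearAut K FK →* SemilinearAut K FK' where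
  toFun g := ⟨(((ψ.symm : FK' ≃+* FK).trans ((SemilinearAut.toRingAut g).trans
      (ψ : FK ≃+* FK')) : FK' ≃+* FK'), SemilinearAut.baseAut g), fun a => by
    show ψ (SemilinearAut.toRingAut g (ψ.symm (algebraMap K FK' a))) = _
    rw [AlgEquiv.commutes, SemilinearAut.commutes, AlgEquiv.commutes]⟩
  map_one' := by
    refine Subtype.ext (Prod.ext (RingEquiv.ext fun y => ?_) rfl)
    show ψ (ψ.symm y) = y
    exact ψ.apply_symm_apply y
  map_mul' g h := by
    refine Subtype.ext (Prod.ext (RingEquiv.ext fun y => ?_) rfl)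
    show ψ (SemilinearAut.toRingAut (g * h) (ψ.symm y)) =
      ψ (SemilinearAut.toRingAut g (ψ.symm (ψ (SemilinearAut.toRingAut h (ψ.symm y)))))
    rw [AlgEquiv.symm_apply_apply]
    rfl

theorem conjAut_smul (ψ : FK ≃ₐ[K] FK') (g : SemilinearAut K FK) (y : FK) :
    conjAut ψ g • ψ y = ψ (g • y) := by
  show ψ (SemilinearAut.toRingAut g (ψ.symm (ψ y))) = ψ (SemilinearAut.toRingAut g y)
  rw [AlgEquiv.symm_apply_apply]

theorem conjAut_smul' (ψ : FK ≃ₐ[K] FK') (g : SemilinearAut K FK) (y : FK') :
    conjAut ψ g • y = ψ (g • ψ.symm y) := rfl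

theorem baseAut_conjAut (ψ : FK ≃ₐ[K] FK') (g : SemilinearAut K FK) :
    SemilinearAut.baseAut (conjAut ψ g) = SemilinearAut.baseAut g := rfl

end Post

end

end Fermat.Agent.M27.ConstExtIso3
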