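/-
Programme M27 (S27), chapter G (Lefschetz), leaf by lead: **generators go up and down a constant
field extension**.  From `hι : ConstExt24.IsConstExt (k := k) (K := K) ι` alone (`k`, `K` arbitrary
fields):

* `linearIndependent_map0` / `linearIndependent_of_map0` : a family of `Fk` is `k`-independent iff its
  image is `K`-independent (family form of (LD));
* `transcendental_map0` / `transcendental_of_map0`;
* `adjoin_range_eq_top0` : `K(ι Fk) = FK` (field form of (GEN));
* `finiteDimensional_map0` / `finiteDimensional_of_map0` : `[FK : K(ι x)] < ∞ ↔ [Fk : k(x)] < ∞`;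
* **`isGen_map0 : FF.IsGen k x → FF.IsGen K (ι x)`**, **`isGen_of_map0 : FF.IsGen K (ι x) → FF.IsGen k x`**.
-/
import Mathlib
import Fermat.Agent.J.DESC.ConstExt24

set_option autoImplicit false
set_option linter.unusedSectionVars false
set_option linter.style.longLine false

namespace Fermat.Agent.M27.IsGenMap0

open Fermat.Agent.X0 Fermat.Agent.J.DESC.ConstExt24 IntermediateField Polynomial

noncomputable section

universe u v w x

variable {k : Type u} {K : Type v} {Fk : Type w} {FK : Type x} [Field k] [Field K] [Field Fk]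
  [Field FK] [Algebra k K] [Algebra k Fk] [Algebra K FK] {ι : Fk →+* FK}

/-- (LD), family form: `k`-independent families of `Fk` stay `K`-independent in `FK`. -/
theorem linearIndependent_map0 (hι : IsConstExt (k := k) (K := K) ι) {J : Type*} {v : J → Fk}
    (hv : LinearIndependent k v) : LinearIndependent K (fun j => ι (v j)) := by
  classical
  let B := Module.Free.chooseBasis k K
  rw [linearIndependent_iff]
  intro c hc
  have h1 : coordSum ι B (c.sum fun j cj => coordOf B cj (v j)) = 0 := by
    rw [map_finsuppSum]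
    rw [Finsupp.linearCombination_apply] at hc
    rw [← hc]
    refine Finsupp.sum_congr fun j _ => ?_
    rw [coordSum_coordOf hι, Algebra.smul_def]
  have h2 := hι.ld _ B B.linearIndependent _ h1
  ext j
  apply B.repr.injective
  ext b
  have h3 := DFunLike.congr_fun h2 b
  rw [Finsupp.sum_apply] at h3
  simp only [coordOf_apply] at h3
  have h4 : Finsupp.linearCombination k v
      (c.mapRange (fun cj => B.repr cj b) (by simp)) = 0 := by
    rw [Finsupp.linearCombination_apply, Finsupp.sum_mapRange_index (by intro; simp)]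
    exact h3
  have h5 := (linearIndependent_iff.mp hv) _ h4
  have h6 := DFunLike.congr_fun h5 j
  simpa using h6

/-- Conversely (only `comm` is used). -/
theorem linearIndependent_of_map0 (hι : IsConstExt (k := k) (K := K) ι) {J : Type*} {v : J → Fk}
    (hv : LinearIndependent K (fun j => ι (v j))) : LinearIndependent k v := by
  classical
  rw [linearIndependent_iff]
  intro l hl
  have h1 : Finsupp.linearCombination K (fun j => ι (v j))
      (l.mapRange (algebraMap k K) (map_zero _)) = 0 := by
    rw [Finsupp.linearCombination_apply, Finsupp.sum_mapRange_index (by intro; simp)]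
    rw [Finsupp.linearCombination_apply] at hl
    have := congrArg ι hl
    rw [map_zero, map_finsuppSum] at this
    rw [← this]
    refine Finsupp.sum_congr fun j _ => ?_
    rw [map_smul_const hι, Algebra.smul_def]
  have h2 := (linearIndependent_iff.mp hv) _ h1
  ext j
  have h3 := DFunLike.congr_fun h2 j
  simp only [Finsupp.mapRange_apply, Finsupp.coe_zero, Pi.zero_apply] at h3
  exact (map_eq_zero_iff _ (algebraMap k K).injective).mp h3

theorem transcendental_iff_linearIndependent_pow0 {R A : Type*} [CommRing R] [Ring A] [Algebra R A]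
    (y : A) : Transcendental R y ↔ LinearIndependent R (fun i : ℕ => y ^ i) := by
  rw [transcendental_iff_injective]
  have h : (fun i : ℕ => y ^ i) =
      (Polynomial.aeval y).toLinearMap ∘ (Polynomial.basisMonomials R) := by
    funext i
    simp [Polynomial.coe_basisMonomials]
  rw [h]
  constructor
  · intro hinj
    exact (Polynomial.basisMonomials R).linearIndependent.map' _ (LinearMap.ker_eq_bot.mpr hinj)
  · intro hli
    rw [injective_iff_map_eq_zero]
    intro p hp
    have h1 : Finsupp.linearCombination R
        ((Polynomial.aeval y).toLinearMap ∘ (Polynomial.basisMonomials R))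
        ((Polynomial.basisMonomials R).repr p) = 0 := by
      rw [← LinearMap.map_finsupp_linearCombination, Module.Basis.linearCombination_repr]
      exact hp
    have h2 := (linearIndependent_iff.mp hli) _ h1
    exact (Polynomial.basisMonomials R).repr.map_eq_zero_iff.mp h2

theorem transcendental_map0 (hι : IsConstExt (k := k) (K := K) ι) {x : Fk}
    (hx : Transcendental k x) : Transcendental K (ι x) := by
  rw [transcendental_iff_linearIndependent_pow0] at hx ⊢
  have := linearIndependent_map0 hι hx
  simpa only [map_pow] using this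

theorem transcendental_of_map0 (hι : IsConstExt (k := k) (K := K) ι) {x : Fk}
    (hX : Transcendental K (ι x)) : Transcendental k x := by
  rw [transcendental_iff_linearIndependent_pow0] at hX ⊢
  apply linearIndependent_of_map0 hι
  simpa only [map_pow] using hX

/-- (GEN): `FK` is generated over `K` by `ι Fk`. -/
theorem adjoin_range_eq_top0 (hι : IsConstExt (k := k) (K := K) ι) :
    adjoin K (Set.range ι) = ⊤ := by
  rw [eq_top_iff]
  intro y _
  obtain ⟨a, ha, b, hb, -, rfl⟩ := hι.gen y
  have hle : Submodule.span K (Set.range ι) ≤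
      Subalgebra.toSubmodule (adjoin K (Set.range ι)).toSubalgebra := by
    rw [Submodule.span_le]
    exact subset_adjoin K _
  exact div_mem (hle ha) (hle hb)

/-- `ι` maps `k(x)` into `K(ι x)`. -/
theorem map_mem_adjoin_simple0 (hι : IsConstExt (k := k) (K := K) ι) {x a : Fk}
    (ha : a ∈ k⟮x⟯) : ι a ∈ K⟮ι x⟯ := by
  have h : Subfield.closure (Set.range (algebraMap k Fk) ∪ {x}) ≤
      (K⟮ι x⟯).toSubfield.comap ι := by
    rw [Subfield.closure_le]
    rintro y (⟨c, rfl⟩ | hy)
    · show ι _ ∈ K⟮ι x⟯
      rw [hι.comm]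
      exact IntermediateField.algebraMap_mem _ _
    · rw [Set.mem_singleton_iff] at hy
      subst hy
      exact mem_adjoin_simple_self K (ι y)
  exact h ha

/-- Finiteness goes up: `[FK : K(ι x)] < ∞` if `[Fk : k(x)] < ∞`. -/
theorem finiteDimensional_map0 (hι : IsConstExt (k := k) (K := K) ι) {x : Fk}
    [hfin : FiniteDimensional k⟮x⟯ Fk] : FiniteDimensional K⟮ι x⟯ FK := by
  classical
  let bb := Module.finBasis k⟮x⟯ Fk
  let v : Fin (Module.finrank k⟮x⟯ Fk) → FK := fun i => ι (bb i)
  let W : Submodule K⟮ι x⟯ FK := Submodule.span _ (Set.range v)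
  have hB_W : ∀ y : Fk, ι y ∈ W := by
    intro y
    have h1 : y = ∑ i, bb.repr y i • bb i := (bb.sum_repr y).symm
    have h2 : y = ∑ i, ((bb.repr y i : k⟮x⟯) : Fk) * bb i := by
      conv_lhs => rw [h1]
      refine Finset.sum_congr rfl fun i _ => ?_
      rw [Algebra.smul_def]
      rfl
    rw [h2, map_sum]
    refine Submodule.sum_mem _ fun i _ => ?_
    rw [map_mul]
    have h3 : ι ((bb.repr y i : k⟮x⟯) : Fk) * ι (bb i) =
        (⟨ι ((bb.repr y i : k⟮x⟯) : Fk), map_mem_adjoin_simple0 hι (bb.repr y i).2⟩ :
          K⟮ι x⟯) • v i := by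
      rw [Algebra.smul_def]
      rfl
    rw [h3]
    exact Submodule.smul_mem _ _ (Submodule.subset_span ⟨i, rfl⟩)
  have h1W : (1 : FK) ∈ W := by
    have := hB_W 1
    rwa [map_one] at this
  have hW_mul : ∀ a b : FK, a ∈ W → b ∈ W → a * b ∈ W := by
    have hle : W * W ≤ W := by
      show Submodule.span _ (Set.range v) * Submodule.span _ (Set.range v) ≤ W
      rw [Submodule.span_mul_span, Submodule.span_le]
      rintro _ ⟨_, ⟨i, rfl⟩, _, ⟨j, rfl⟩, rfl⟩
      show ι _ * ι _ ∈ W
      rw [← map_mul]
      exact hB_W _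
    intro a b ha hb
    exact hle (Submodule.mul_mem_mul ha hb)
  let Wa : Subalgebra K⟮ι x⟯ FK := W.toSubalgebra h1W hW_mul
  have hfg : Wa.toSubmodule.FG := by
    have : Wa.toSubmodule = W := Submodule.toSubalgebra_toSubmodule _ _ _
    rw [this]
    exact Submodule.fg_span (Set.finite_range v)
  have hW_inv : ∀ a : FK, a ∈ W → a⁻¹ ∈ W := by
    intro a ha
    have hint : IsIntegral K⟮ι x⟯ a := IsIntegral.of_mem_of_fg Wa hfg a ha
    exact Subalgebra.inv_mem_of_algebraic (A := Wa) (x := ⟨a, ha⟩) hint.isAlgebraic
  let Wf : Subfield FK :=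
    { carrier := W
      mul_mem' := fun {a b} ha hb => hW_mul a b ha hb
      one_mem' := h1W
      add_mem' := fun {a b} ha hb => W.add_mem ha hb
      zero_mem' := W.zero_mem
      neg_mem' := fun {a} ha => W.neg_mem ha
      inv_mem' := hW_inv }
  have htop : ∀ y : FK, y ∈ W := by
    have h : Subfield.closure (Set.range (algebraMap K FK) ∪ Set.range ι) ≤ Wf := by
      rw [Subfield.closure_le]
      rintro y (⟨a, rfl⟩ | ⟨s, rfl⟩)
      · show algebraMap K FK a ∈ W
        have h4 : algebraMap K FK a = (algebraMap K K⟮ι x⟯ a) • (1 : FK) := by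
          rw [Algebra.smul_def, mul_one]
          rfl
        rw [h4]
        exact Submodule.smul_mem _ _ h1W
      · exact hB_W s
    intro y
    have hy : y ∈ adjoin K (Set.range ι) := by
      rw [adjoin_range_eq_top0 hι]
      trivial
    exact h hy
  have hWtop : W = ⊤ := by
    rw [eq_top_iff]
    exact fun y _ => htop y
  rw [FiniteDimensional, Module.finite_def, ← hWtop]
  exact Submodule.fg_span (Set.finite_range v)

/-- Lemma A: if the products `y ^ i * w j` are `K`-independent then `w` is `K(y)`-independent. -/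
theorem linearIndependent_adjoin_simple0 {K : Type*} {FK : Type*} [Field K] [Field FK]
    [Algebra K FK] {y : FK} {n : ℕ} (w : Fin n → FK)
    (h : LinearIndependent K (fun p : ℕ × Fin n => y ^ p.1 * w p.2)) :
    LinearIndependent K⟮y⟯ w := by
  classical
  rw [Fintype.linearIndependent_iff]
  intro g hg j₀
  -- numerators and denominators
  have hex : ∀ j, ∃ r s : K[X], aeval y s ≠ 0 ∧ ((g j : K⟮y⟯) : FK) = aeval y r / aeval y s := by
    intro j
    obtain ⟨r, s, hrs⟩ := (mem_adjoin_simple_iff K ((g j : K⟮y⟯) : FK)).mp (g j).2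
    by_cases hs : aeval y s = 0
    · refine ⟨0, 1, by simp, ?_⟩
      rw [hrs, hs, div_zero, map_zero, zero_div]
    · exact ⟨r, s, hs, hrs⟩
  choose r s hs hrs using hex
  set S : K[X] := ∏ j, s j with hS
  have hS0 : aeval y S ≠ 0 := by
    rw [hS, map_prod]
    exact Finset.prod_ne_zero_iff.mpr fun j _ => hs j
  set q : Fin n → K[X] := fun j => r j * ∏ i ∈ Finset.univ.erase j, s i with hq
  have hgq : ∀ j, ((g j : K⟮y⟯) : FK) * aeval y S = aeval y (q j) := by
    intro j
    have h1 : S = s j * ∏ i ∈ Finset.univ.erase j, s i :=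
      (Finset.mul_prod_erase _ _ (Finset.mem_univ j)).symm
    rw [hrs j, h1, hq, map_mul, map_mul]
    field_simp [hs j]
  -- the relation with polynomial coefficients
  have hrel : ∑ j, aeval y (q j) * w j = 0 := by
    have h1 : ∑ j, ((g j : K⟮y⟯) : FK) * w j = 0 := by
      rw [← hg]
      refine Finset.sum_congr rfl fun j _ => ?_
      rw [Algebra.smul_def]
      rfl
    calc ∑ j, aeval y (q j) * w j = ∑ j, aeval y S * (((g j : K⟮y⟯) : FK) * w j) := by
          refine Finset.sum_congr rfl fun j _ => ?_
          rw [← hgq j]; ring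
      _ = aeval y S * ∑ j, ((g j : K⟮y⟯) : FK) * w j := by rw [Finset.mul_sum]
      _ = 0 := by rw [h1, mul_zero]
  -- a common degree bound
  set N : ℕ := (Finset.univ.sup fun j => (q j).natDegree) + 1 with hN
  have hdeg : ∀ j, (q j).natDegree < N := by
    intro j
    have : (q j).natDegree ≤ Finset.univ.sup fun j => (q j).natDegree :=
      Finset.le_sup (f := fun j => (q j).natDegree) (Finset.mem_univ j)
    omega
  have hrel2 : ∑ p ∈ (Finset.range N ×ˢ (Finset.univ : Finset (Fin n))),
      (q p.2).coeff p.1 • (y ^ p.1 * w p.2) = 0 := by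
    rw [Finset.sum_product, Finset.sum_comm]
    rw [← hrel]
    refine Finset.sum_congr rfl fun j _ => ?_
    rw [aeval_eq_sum_range' (hdeg j), Finset.sum_mul]
    refine Finset.sum_congr rfl fun i _ => ?_
    rw [smul_mul_assoc]
  have hcoef := (linearIndependent_iff'.mp h) _ (fun p : ℕ × Fin n => (q p.2).coeff p.1) hrel2
  have hq0 : q j₀ = 0 := by
    ext i
    rw [coeff_zero]
    by_cases hi : i < N
    · exact hcoef (i, j₀) (Finset.mem_product.mpr ⟨Finset.mem_range.mpr hi, Finset.mem_univ _⟩)
    · exact coeff_eq_zero_of_natDegree_lt (lt_of_lt_of_le (hdeg j₀) (not_lt.mp hi))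
  have h3 := hgq j₀
  rw [hq0, map_zero] at h3
  have h4 : ((g j₀ : K⟮y⟯) : FK) = 0 := by
    rcases mul_eq_zero.mp h3 with h | h
    · exact h
    · exact absurd h hS0
  exact Subtype.ext h4

/-- Lemma B: `x` transcendental over `k`, `e` independent over `k(x)`: the products `x ^ i * e j`
are `k`-independent. -/
theorem linearIndependent_pow_mul0 {k : Type*} {Fk : Type*} [Field k] [Field Fk] [Algebra k Fk]
    {x : Fk} (hx : Transcendental k x) {n : ℕ} (e : Fin n → Fk)
    (he : LinearIndependent k⟮x⟯ e) :
    LinearIndependent k (fun p : ℕ × Fin n => x ^ p.1 * e p.2) := by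
  have hb : LinearIndependent k (fun i : ℕ => (AdjoinSimple.gen k x) ^ i) := by
    have h1 : LinearIndependent k (fun i : ℕ => x ^ i) := (transcendental_iff_linearIndependent_pow0 x).mp hx
    apply LinearIndependent.of_comp (k⟮x⟯).val.toLinearMap
    have h2 : (⇑(k⟮x⟯).val.toLinearMap ∘ fun i : ℕ => (AdjoinSimple.gen k x) ^ i) =
        fun i : ℕ => x ^ i := by
      funext i
      simp [AdjoinSimple.coe_gen]
    rw [h2]
    exact h1
  have h3 := linearIndependent_smul hb he
  have h4 : (fun p : ℕ × Fin n => x ^ p.1 * e p.2) =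
      fun p : ℕ × Fin n => (AdjoinSimple.gen k x) ^ p.1 • e p.2 := by
    funext p
    rw [Algebra.smul_def]
    simp [AdjoinSimple.coe_gen]
  rw [h4]
  exact h3

/-- Finiteness goes down: `[Fk : k(x)] < ∞` if `[FK : K(ι x)] < ∞`. -/
theorem finiteDimensional_of_map0 (hι : IsConstExt (k := k) (K := K) ι) {x : Fk}
    (hX : Transcendental K (ι x)) [hfin : FiniteDimensional K⟮ι x⟯ FK] :
    FiniteDimensional k⟮x⟯ Fk := by
  classical
  have hx := transcendental_of_map0 hι hX
  have hrank : Module.rank k⟮x⟯ Fk ≤ (Module.finrank K⟮ι x⟯ FK : ℕ) := by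
    apply rank_le
    intro s hs
    have h1 : LinearIndependent k⟮x⟯ (fun i : Fin s.card => ((s.equivFin.symm i : ↥s) : Fk)) :=
      hs.comp _ s.equivFin.symm.injective
    have h2 := linearIndependent_pow_mul0 hx _ h1
    have h3 := linearIndependent_map0 hι h2
    have h4 : LinearIndependent K (fun p : ℕ × Fin s.card =>
        (ι x) ^ p.1 * ι ((s.equivFin.symm p.2 : ↥s) : Fk)) := by
      simpa only [map_mul, map_pow] using h3
    have h5 := linearIndependent_adjoin_simple0
      (fun j : Fin s.card => ι ((s.equivFin.symm j : ↥s) : Fk)) h4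
    have h6 := h5.fintype_card_le_finrank
    simpa using h6
  rw [FiniteDimensional, ← Module.rank_lt_aleph0_iff]
  exact lt_of_le_of_lt hrank (Cardinal.natCast_lt_aleph0)

/-- **Generators go up.** -/
theorem isGen_map0 (hι : IsConstExt (k := k) (K := K) ι) {x : Fk} (hx : FF.IsGen k x) :
    FF.IsGen K (ι x) :=
  ⟨transcendental_map0 hι hx.transcendental, by
    have := hx.finite
    exact finiteDimensional_map0 hι⟩

/-- **Generators go down.** -/
theorem isGen_of_map0 (hι : IsConstExt (k := k) (K := K) ι) {x : Fk} (hX : FF.IsGen K (ι x)) :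
    FF.IsGen k x :=
  ⟨transcendental_of_map0 hι hX.transcendental, by
    have := hX.finite
    exact finiteDimensional_of_map0 hι hX.transcendental⟩

end

end Fermat.Agent.M27.IsGenMap0
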