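/-
Programme M27 (S27), chapter G (Lefschetz), leaf LAURENT BASE CHANGE (helper3).

**Generic coefficientwise base change of a subfield of `k((t))`.**  This is `J/DESC/LaurentExt24` +
the action part of `J/DESC/DescentC24` with the modular field `laurentBaseChange k F₀` replaced by
an arbitrary intermediate field `E` of `k((t)) / k`:

* `EK K E : IntermediateField K (LaurentSeries K)` — the field generated over `K` by the
  coefficientwise images of the elements of `E`;
* `bc : ↥E →+* ↥(EK K E)`, `isConstExt_bc : ConstExt24.IsConstExt bc` ((LD) is trivial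
  coefficientwise, (GEN) by `IntermediateField.mem_adjoin_iff_div`);
* the expansion principle `mem_range_bc_iff`: an element of `EK K E` is a base change iff all its
  coefficients lie in `k`;
* `rho : (K ≃ₐ[k] K) →* SemilinearAut K ↥(EK K E)` (coefficientwise), with `baseAut_rho`,
  `rho_smul_bc` (hfix) and, for algebraically closed `k`, `K`, `mem_range_bc_of_fixed` (hinv) —
  exactly the hypotheses `hbase`, `hfix`, `hinv` of `J/DESC/ExtPic22.torsionEquiv`.
-/
import Mathlib
import Fermat.Prelude.Def_ModularCurve_LaurentCoeff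
import Fermat.Prelude.Def_AlgebraicCurve_BaseChangeGalois
import Fermat.Agent.J.DESC.ConstExt24
import Fermat.Agent.ES.GAL.AutTranscendental10

set_option autoImplicit false
set_option linter.unusedSectionVars false
set_option linter.style.longLine false

namespace Fermat.Agent.M27.LaurentBC3

open ModularCurve HahnSeries AlgebraicCurve Fermat.Agent.J.DESC.ConstExt24

noncomputable section

universe u v

variable {k : Type u} {K : Type v} [Field k] [Field K] [Algebra k K]

/-- Coefficientwise base change of Laurent series. -/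
abbrev bcS : LaurentSeries k →+* LaurentSeries K := coeffMap (algebraMap k K)

theorem bcS_injective : Function.Injective (bcS (k := k) (K := K)) := by
  intro y z h
  ext n
  have := congrArg (fun s => HahnSeries.coeff s n) h
  simpa using this

theorem bcS_algebraMap (c : k) :
    bcS (K := K) (algebraMap k (LaurentSeries k) c) =
      algebraMap K (LaurentSeries K) (algebraMap k K c) := by
  rw [algebraMap_laurentSeries_eq_single, algebraMap_laurentSeries_eq_single, coeffMap_single]

theorem coeff_bcS (y : LaurentSeries k) (n : ℤ) :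
    (bcS (K := K) y).coeff n = algebraMap k K (y.coeff n) := by
  simp

variable (K) in
/-- **The base change of `E`**: the subfield of `K((t))` generated by `K` and the coefficientwise
images of the elements of `E`. -/
def EK (E : IntermediateField k (LaurentSeries k)) : IntermediateField K (LaurentSeries K) :=
  IntermediateField.adjoin K (⇑(bcS (k := k) (K := K)) '' (E : Set (LaurentSeries k)))

variable (E : IntermediateField k (LaurentSeries k))

theorem bcS_mem {y : LaurentSeries k} (hy : y ∈ E) : bcS (K := K) y ∈ EK K E :=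
  IntermediateField.subset_adjoin K _ ⟨y, hy, rfl⟩

theorem mem_EK_iff {x : LaurentSeries K} :
    x ∈ EK K E ↔
      x ∈ Subfield.closure
        (Set.range (algebraMap K (LaurentSeries K)) ∪
          (⇑(bcS (k := k) (K := K)) '' (E : Set (LaurentSeries k)))) :=
  Iff.rfl

/-- **Base change of functions** `E → EK`. -/
def bc : ↥E →+* ↥(EK K E) :=
  ((bcS (k := k) (K := K)).comp E.toSubring.subtype).codRestrict
    (EK K E).toSubring fun y => bcS_mem E y.2

@[simp] theorem coe_bc (y : ↥E) :
    ((bc (K := K) E y : ↥(EK K E)) : LaurentSeries K) = bcS (y : LaurentSeries k) := rfl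

theorem bc_injective : Function.Injective (bc (k := k) (K := K) E) :=
  (bc E).injective

theorem bc_algebraMap (c : k) :
    bc (K := K) E (algebraMap k ↥E c) = algebraMap K ↥(EK K E) (algebraMap k K c) :=
  Subtype.ext (bcS_algebraMap c)

/-! ### Linear disjointness, coefficientwise -/

theorem coeff_algebraMap_mul (c : K) (y : LaurentSeries K) (n : ℤ) :
    (algebraMap K (LaurentSeries K) c * y).coeff n = c * y.coeff n := by
  rw [algebraMap_laurentSeries_eq_single, HahnSeries.coeff_single_zero_mul]

/-- (LD) for Laurent series. -/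
theorem ld_series {I : Type v} (B : I → K) (hB : LinearIndependent k B)
    (f : I →₀ LaurentSeries k)
    (h : (f.sum fun i y => algebraMap K (LaurentSeries K) (B i) * bcS y) = 0) : f = 0 := by
  classical
  ext i n
  have hn : (f.sum fun i y => B i * algebraMap k K (y.coeff n)) = 0 := by
    have := congrArg (fun s => HahnSeries.coeff s n) h
    simp only [Finsupp.sum, HahnSeries.coeff_zero] at this
    rw [HahnSeries.coeff_sum] at this
    simp only [coeff_algebraMap_mul, coeffMap_coeff] at this
    exact this
  set c : I →₀ k := f.mapRange (fun y => y.coeff n) (by simp) with hc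
  have hlc : Finsupp.linearCombination k B c = 0 := by
    rw [Finsupp.linearCombination_apply, hc, Finsupp.sum_mapRange_index (by intro i; simp)]
    rw [← hn]
    refine Finsupp.sum_congr fun i _ => ?_
    rw [Algebra.smul_def, mul_comm]
  have hc0 := linearIndependent_iff.mp hB c hlc
  have := DFunLike.congr_fun hc0 i
  simpa [hc] using this

/-- (LD) for Laurent series, `coordSum` form. -/
theorem ld_bcS {I : Type v} (B : I → K) (hB : LinearIndependent k B)
    (f : I →₀ LaurentSeries k) (h : coordSum (bcS (k := k) (K := K)) B f = 0) : f = 0 := by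
  rw [coordSum_apply] at h
  exact ld_series B hB f h

theorem coe_coordSum {I : Type v} (B : I → K) (f : I →₀ ↥E) :
    ((coordSum (bc (K := K) E) B f : ↥(EK K E)) : LaurentSeries K) =
      coordSum (bcS (k := k) (K := K)) B
        (f.mapRange (fun y : ↥E => (y : LaurentSeries k)) rfl) := by
  rw [coordSum_apply, coordSum_apply, Finsupp.sum_mapRange_index (by intro i; simp)]
  rw [Finsupp.sum, Finsupp.sum]
  show (EK K E).val (∑ a ∈ f.support, _) = _
  rw [map_sum]
  rfl

theorem ld_bc {I : Type v} (B : I → K) (hB : LinearIndependent k B)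
    (f : I →₀ ↥E) (h : coordSum (bc (K := K) E) B f = 0) : f = 0 := by
  have h1 := congrArg (fun y : ↥(EK K E) => (y : LaurentSeries K)) h
  simp only [coe_coordSum, ZeroMemClass.coe_zero] at h1
  have h2 := ld_bcS B hB _ h1
  apply Finsupp.ext
  intro i
  apply Subtype.ext
  have := DFunLike.congr_fun h2 i
  simpa using this

/-! ### (GEN) -/

/-- The `K`-span of `range bc` is closed under multiplication. -/
theorem span_range_bc_mul {a b : ↥(EK K E)}
    (ha : a ∈ Submodule.span K (Set.range (bc (k := k) (K := K) E)))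
    (hb : b ∈ Submodule.span K (Set.range (bc (k := k) (K := K) E))) :
    a * b ∈ Submodule.span K (Set.range (bc (k := k) (K := K) E)) := by
  induction ha using Submodule.span_induction with
  | mem x hx =>
    obtain ⟨x0, rfl⟩ := hx
    induction hb using Submodule.span_induction with
    | mem y hy =>
      obtain ⟨y0, rfl⟩ := hy
      rw [← map_mul]
      exact Submodule.subset_span ⟨_, rfl⟩
    | zero => simp
    | add y z _ _ hy hz => rw [mul_add]; exact add_mem hy hz
    | smul c y _ hy => rw [mul_smul_comm]; exact Submodule.smul_mem _ _ hy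
  | zero => simp
  | add x y _ _ hx hy => rw [add_mul]; exact add_mem hx hy
  | smul c x _ hx => rw [smul_mul_assoc]; exact Submodule.smul_mem _ _ hx

theorem one_mem_span_range_bc :
    (1 : ↥(EK K E)) ∈ Submodule.span K (Set.range (bc (k := k) (K := K) E)) :=
  Submodule.subset_span ⟨1, map_one _⟩

/-- Elements of the `K`-algebra generated by `bcS '' E` come from the span of `range bc`. -/
theorem exists_of_mem_adjoin {r : LaurentSeries K}
    (hr : r ∈ Algebra.adjoin K (⇑(bcS (k := k) (K := K)) '' (E : Set (LaurentSeries k)))) :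
    ∃ a ∈ Submodule.span K (Set.range (bc (k := k) (K := K) E)),
      ((a : ↥(EK K E)) : LaurentSeries K) = r := by
  induction hr using Algebra.adjoin_induction with
  | mem x hx =>
    obtain ⟨z, hz, rfl⟩ := hx
    exact ⟨bc E ⟨z, hz⟩, Submodule.subset_span ⟨_, rfl⟩, rfl⟩
  | algebraMap c =>
    refine ⟨algebraMap K _ c, ?_, rfl⟩
    rw [Algebra.algebraMap_eq_smul_one]
    exact Submodule.smul_mem _ _ (one_mem_span_range_bc E)
  | add x y _ _ hx hy =>
    obtain ⟨a, ha, rfl⟩ := hx
    obtain ⟨b, hb, rfl⟩ := hy
    exact ⟨a + b, add_mem ha hb, rfl⟩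
  | mul x y _ _ hx hy =>
    obtain ⟨a, ha, rfl⟩ := hx
    obtain ⟨b, hb, rfl⟩ := hy
    exact ⟨a * b, span_range_bc_mul E ha hb, rfl⟩

theorem gen_bc (y : ↥(EK K E)) :
    ∃ a ∈ Submodule.span K (Set.range (bc (k := k) (K := K) E)),
      ∃ b ∈ Submodule.span K (Set.range (bc (k := k) (K := K) E)), b ≠ 0 ∧ y = a / b := by
  have hy : (y : LaurentSeries K) ∈
      IntermediateField.adjoin K (⇑(bcS (k := k) (K := K)) '' (E : Set (LaurentSeries k))) := y.2
  rw [IntermediateField.mem_adjoin_iff_div] at hy
  obtain ⟨r, hr, s, hs, hrs⟩ := hy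
  obtain ⟨a, ha, har⟩ := exists_of_mem_adjoin E hr
  obtain ⟨b, hb, hbs⟩ := exists_of_mem_adjoin E hs
  by_cases hs0 : s = 0
  · refine ⟨0, zero_mem _, 1, one_mem_span_range_bc E, one_ne_zero, ?_⟩
    apply Subtype.ext
    rw [hrs, hs0, div_zero]
    simp
  · refine ⟨a, ha, b, hb, ?_, ?_⟩
    · intro hb0
      apply hs0
      rw [← hbs, hb0]
      rfl
    · apply Subtype.ext
      rw [hrs, ← har, ← hbs]
      simp

/-- **The base change is a constant field extension.** -/
theorem isConstExt_bc :
    IsConstExt (k := k) (K := K) (bc (k := k) (K := K) E) where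
  comm := bc_algebraMap E
  ld := fun _ B hB f h => ld_bc E B hB f h
  gen := gen_bc E

/-! ### The expansion principle -/

/-- A Laurent series over `K` all of whose coefficients lie in `k` is a base change. -/
theorem exists_bcS_eq {y : LaurentSeries K}
    (h : ∀ n, y.coeff n ∈ Set.range (algebraMap k K)) : ∃ y₀ : LaurentSeries k, bcS y₀ = y := by
  classical
  choose c hc using h
  have hsupp : Function.support c ⊆ y.support := by
    intro n hn
    simp only [Function.mem_support, ne_eq, HahnSeries.mem_support] at hn ⊢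
    intro h0
    apply hn
    apply (algebraMap k K).injective
    rw [hc, h0, map_zero]
  refine ⟨⟨c, y.isPWO_support.mono hsupp⟩, ?_⟩
  ext n
  simp [hc]

/-- **Expansion principle**: a function of `EK` is a base change from `E` iff all its
coefficients lie in `k`. -/
theorem mem_range_bc_iff (y : ↥(EK K E)) :
    y ∈ Set.range (bc (k := k) (K := K) E) ↔
      ∀ n, (y : LaurentSeries K).coeff n ∈ Set.range (algebraMap k K) := by
  classical
  constructor
  · rintro ⟨y₀, rfl⟩ n
    exact ⟨(y₀ : LaurentSeries k).coeff n, (coeff_bcS _ n).symm⟩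
  · intro h
    obtain ⟨y₀, hy₀⟩ := exists_bcS_eq h
    suffices hmem : y₀ ∈ E from ⟨⟨y₀, hmem⟩, Subtype.ext hy₀⟩
    have hι := isConstExt_bc (k := k) (K := K) E
    obtain ⟨a, ha, b, hb, hb0, hyab⟩ := hι.gen y
    let B := Module.Free.chooseBasis k K
    rw [← Set.image_univ, ← Submodule.top_coe (R := k)] at ha hb
    obtain ⟨fa, -, hfa⟩ := exists_coord_of_mem_span hι B ⊤ ha
    obtain ⟨fb, -, hfb⟩ := exists_coord_of_mem_span hι B ⊤ hb
    have hfb0 : fb ≠ 0 := by
      rintro rfl
      exact hb0 (by rw [← hfb, map_zero])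
    obtain ⟨i, hi⟩ : ∃ i, fb i ≠ 0 := by
      by_contra hcon
      push Not at hcon
      exact hfb0 (Finsupp.ext hcon)
    set fa' : Module.Free.ChooseBasisIndex k K →₀ LaurentSeries k :=
      fa.mapRange (fun y : ↥E => (y : LaurentSeries k)) rfl with hfa'
    set fb' : Module.Free.ChooseBasisIndex k K →₀ LaurentSeries k :=
      fb.mapRange (fun y : ↥E => (y : LaurentSeries k)) rfl with hfb'
    have hyb : y * b = a := by
      rw [hyab, div_mul_cancel₀ _ hb0]
    have h1 : bcS y₀ * coordSum (bcS (k := k) (K := K)) B fb' =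
        coordSum (bcS (k := k) (K := K)) B fa' := by
      rw [hfa', hfb', ← coe_coordSum, ← coe_coordSum, hfa, hfb, hy₀, ← hyb]
      rfl
    rw [← coordSum_mul_left] at h1
    have h2 : coordSum (bcS (k := k) (K := K)) B
        (fb'.mapRange (fun a => y₀ * a) (mul_zero y₀) - fa') = 0 := by
      rw [map_sub, h1, sub_self]
    have h3 := ld_bcS (⇑B) B.linearIndependent _ h2
    have h4 := DFunLike.congr_fun h3 i
    simp only [Finsupp.coe_sub, Pi.sub_apply, Finsupp.mapRange_apply, Finsupp.coe_zero,
      Pi.zero_apply, hfa', hfb', sub_eq_zero] at h4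
    have hne : ((fb i : ↥E) : LaurentSeries k) ≠ 0 := by
      intro h0
      exact hi (Subtype.ext h0)
    have : y₀ = (fa i : LaurentSeries k) / (fb i : LaurentSeries k) := by
      rw [eq_div_iff hne, h4]
    rw [this]
    exact div_mem (fa i).2 (fb i).2

/-! ### The coefficientwise action of `Aut(K/k)` -/

theorem coeffMap_algEquiv_bcS (σ : K ≃ₐ[k] K) (x : LaurentSeries k) :
    coeffMap (σ : K →+* K) (bcS (K := K) x) = bcS x := by
  rw [coeffMap_coeffMap]
  exact coeffMap_congr (RingHom.ext fun c => σ.commutes c) x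

theorem coeffMap_mem_EK (σ : K ≃ₐ[k] K) {x : LaurentSeries K} (hx : x ∈ EK K E) :
    coeffMap (σ : K →+* K) x ∈ EK K E := by
  rw [mem_EK_iff] at hx
  induction hx using Subfield.closure_induction with
  | mem y hy =>
      rcases hy with ⟨a, rfl⟩ | ⟨z, hz, rfl⟩
      · rw [coeffMap_algebraMap]
        exact (EK K E).algebraMap_mem _
      · rw [coeffMap_algEquiv_bcS]
        exact bcS_mem E hz
  | one => simp
  | add x y _ _ hx hy => simpa using add_mem hx hy
  | neg x _ hx => simpa using neg_mem hx
  | inv x _ hx => simpa using inv_mem hx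
  | mul x y _ _ hx hy => simpa using mul_mem hx hy

/-- The coefficientwise ring automorphism of `EK` attached to `σ ∈ Aut(K/k)`. -/
def ringAut (σ : K ≃ₐ[k] K) : ↥(EK K E) ≃+* ↥(EK K E) where
  toFun x := ⟨coeffMap (σ : K →+* K) (x : LaurentSeries K), coeffMap_mem_EK E σ x.2⟩
  invFun x := ⟨coeffMap (σ.symm : K →+* K) (x : LaurentSeries K), coeffMap_mem_EK E σ.symm x.2⟩
  left_inv x := Subtype.ext <| by
    show coeffMap (σ.symm : K →+* K) (coeffMap (σ : K →+* K) (x : LaurentSeries K))
      = (x : LaurentSeries K)
    rw [coeffMap_coeffMap,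
      coeffMap_congr (g := RingHom.id K) (RingHom.ext fun a => σ.symm_apply_apply a)
        (x : LaurentSeries K),
      coeffMap_id]
  right_inv x := Subtype.ext <| by
    show coeffMap (σ : K →+* K) (coeffMap (σ.symm : K →+* K) (x : LaurentSeries K))
      = (x : LaurentSeries K)
    rw [coeffMap_coeffMap,
      coeffMap_congr (g := RingHom.id K) (RingHom.ext fun a => σ.apply_symm_apply a)
        (x : LaurentSeries K),
      coeffMap_id]
  map_mul' x y :=
    Subtype.ext (map_mul (coeffMap (σ : K →+* K)) (x : LaurentSeries K) (y : LaurentSeries K))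
  map_add' x y :=
    Subtype.ext (map_add (coeffMap (σ : K →+* K)) (x : LaurentSeries K) (y : LaurentSeries K))

@[simp]
theorem coe_ringAut_apply (σ : K ≃ₐ[k] K) (x : ↥(EK K E)) :
    (ringAut E σ x : LaurentSeries K) = coeffMap (σ : K →+* K) (x : LaurentSeries K) :=
  rfl

theorem ringAut_algebraMap (σ : K ≃ₐ[k] K) (a : K) :
    ringAut E σ (algebraMap K ↥(EK K E) a) = algebraMap K ↥(EK K E) (σ a) :=
  Subtype.ext (coeffMap_algebraMap (σ : K →+* K) a)

/-- **The semilinear action of `Aut(K/k)` on `EK`.** -/
def rho : (K ≃ₐ[k] K) →* SemilinearAut K ↥(EK K E) where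
  toFun σ := ⟨(ringAut E σ, σ.toRingEquiv), fun a => ringAut_algebraMap E σ a⟩
  map_one' := by
    refine Subtype.ext (Prod.ext (RingEquiv.ext fun x => Subtype.ext ?_) rfl)
    show coeffMap ((1 : K ≃ₐ[k] K) : K →+* K) (x : LaurentSeries K) = (x : LaurentSeries K)
    rw [show ((1 : K ≃ₐ[k] K) : K →+* K) = RingHom.id K from RingHom.ext fun _ => rfl,
      coeffMap_id]
  map_mul' σ τ := by
    refine Subtype.ext (Prod.ext (RingEquiv.ext fun x => Subtype.ext ?_) rfl)
    show coeffMap ((σ * τ : K ≃ₐ[k] K) : K →+* K) (x : LaurentSeries K)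
      = coeffMap (σ : K →+* K) (coeffMap (τ : K →+* K) (x : LaurentSeries K))
    rw [coeffMap_coeffMap]
    exact coeffMap_congr (RingHom.ext fun _ => rfl) _

theorem baseAut_rho (σ : K ≃ₐ[k] K) (c : K) : SemilinearAut.baseAut (rho E σ) c = σ c := rfl

theorem coe_rho_smul (σ : K ≃ₐ[k] K) (y : ↥(EK K E)) :
    ((rho E σ • y : ↥(EK K E)) : LaurentSeries K) =
      coeffMap (σ : K →+* K) (y : LaurentSeries K) := rfl

theorem coeff_rho_smul (σ : K ≃ₐ[k] K) (y : ↥(EK K E)) (n : ℤ) :
    ((rho E σ • y : ↥(EK K E)) : LaurentSeries K).coeff n =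
      σ ((y : LaurentSeries K).coeff n) := by
  rw [coe_rho_smul, coeffMap_coeff]
  rfl

/-- (hfix) `Aut(K/k)` fixes the base change pointwise. -/
theorem rho_smul_bc (σ : K ≃ₐ[k] K) (f : ↥E) :
    rho E σ • bc (K := K) E f = bc (K := K) E f := by
  apply Subtype.ext
  ext n
  rw [coeff_rho_smul, coe_bc, coeff_bcS, σ.commutes]

/-- **(hinv)**: the functions of `EK` fixed by `Aut(K/k)` are the base changes from `E`. -/
theorem mem_range_bc_of_fixed [IsAlgClosed k] [IsAlgClosed K] (h : ↥(EK K E))
    (hfix : ∀ σ : K ≃ₐ[k] K, rho E σ • h = h) : h ∈ Set.range (bc (k := k) (K := K) E) := by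
  rw [mem_range_bc_iff]
  intro n
  apply Fermat.Agent.ES.GAL.AutTranscendental10.mem_range_of_fixed
  intro σ
  have := congrArg (fun y : ↥(EK K E) => (y : LaurentSeries K).coeff n) (hfix σ)
  simpa only [coeff_rho_smul] using this

end

end Fermat.Agent.M27.LaurentBC3
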