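/-
Programme M27 (S27), chapter G (Lefschetz), leaf LAURENT EMBEDDING (helper3).

**A function field in one variable over an algebraically closed field embeds into `K((t))`.**
For a place `v` of `F / K` (`K` algebraically closed, `x` a generator) the expansion homomorphism
`X0/FFSeries.expandHom : O_v →ₐ[K] K⟦X⟧` at a uniformizer is injective; it extends to the fraction
field: `emb hx v : F →ₐ[K] LaurentSeries K`.
-/
import Mathlib
import Fermat.Agent.X0.FFSeries
import Fermat.Agent.X0.FFResidue
import Fermat.Agent.X0.FFDefs

set_option autoImplicit false
set_option linter.unusedSectionVars false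
set_option linter.style.longLine false

namespace Fermat.Agent.M27.LaurentEmb3

open AlgebraicCurve IsLocalRing Fermat.Agent.X0.FF

noncomputable section

variable {K F : Type*} [Field K] [Field F] [Algebra K F]

section DVR

variable {O : Type*} [CommRing O] [IsDomain O] [Algebra K O] [IsDiscreteValuationRing O]
  {t : O} (ht : Irreducible t)
  (hres : ∀ a : O, ∃ c : K, a - algebraMap K O c ∈ maximalIdeal O)

/-- The expansion at a uniformizer, with values in Laurent series. -/
def embO : O →ₐ[K] LaurentSeries K :=
  { toRingHom := (HahnSeries.ofPowerSeries ℤ K).comp (expandHom ht hres).toRingHom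
    commutes' := fun c => by
      show HahnSeries.ofPowerSeries ℤ K (expandHom ht hres (algebraMap K O c)) = _
      rw [AlgHom.commutes]
      rfl }

theorem embO_apply (a : O) :
    embO ht hres a = HahnSeries.ofPowerSeries ℤ K (expandHom ht hres a) := rfl

theorem embO_injective : Function.Injective (embO ht hres) := by
  intro a b h
  apply expandHom_injective ht hres
  rw [embO_apply, embO_apply] at h
  exact HahnSeries.ofPowerSeries_injective h

theorem embO_self : embO ht hres t = HahnSeries.single 1 1 := by
  rw [embO_apply, expandHom_self, HahnSeries.ofPowerSeries_X]

variable [Algebra O F] [IsScalarTower K O F] [IsFractionRing O F]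

/-- The extension to the fraction field. -/
def embFrac : F →ₐ[K] LaurentSeries K :=
  IsFractionRing.liftAlgHom (g := embO ht hres) (embO_injective ht hres)

theorem embFrac_algebraMap (a : O) : embFrac (F := F) ht hres (algebraMap O F a) = embO ht hres a := by
  show IsFractionRing.lift (embO_injective ht hres) (algebraMap O F a) = _
  exact IsFractionRing.lift_algebraMap _ a

end DVR

variable [IsAlgClosed K]

/-- A chosen uniformizer of a place. -/
def unif (v : Place K F) : v.toValuationSubring :=
  (IsDiscreteValuationRing.exists_irreducible v.toValuationSubring).choose

theorem unif_irreducible (v : Place K F) : Irreducible (unif v) :=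
  (IsDiscreteValuationRing.exists_irreducible v.toValuationSubring).choose_spec

theorem hresO {x : F} (hx : IsGen K x) (v : Place K F) (a : v.toValuationSubring) :
    ∃ c : K, a - algebraMap K v.toValuationSubring c ∈ maximalIdeal v.toValuationSubring :=
  haveI := hx.finite
  ffp_exists_sub_mem_maximalIdeal v x (Algebra.IsAlgebraic.of_finite _ _) a

/-- **The Laurent embedding of a function field at a place.** -/
def emb {x : F} (hx : IsGen K x) (v : Place K F) : F →ₐ[K] LaurentSeries K :=
  embFrac (O := v.toValuationSubring) (F := F) (unif_irreducible v) (hresO hx v)

theorem emb_injective {x : F} (hx : IsGen K x) (v : Place K F) :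
    Function.Injective (emb hx v) := (emb hx v).toRingHom.injective

theorem emb_unif {x : F} (hx : IsGen K x) (v : Place K F) :
    emb hx v ((unif v : v.toValuationSubring) : F) = HahnSeries.single 1 1 := by
  have := embFrac_algebraMap (F := F) (unif_irreducible v) (hresO hx v) (unif v)
  rw [embO_self] at this
  exact this

end

end Fermat.Agent.M27.LaurentEmb3
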