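/-
Programme M27 (S27), chapter G (Lefschetz), leaf TRANSPORT (helper3).

**Semilinear transport of the Prelude's curve package.**  Data: two pairs `F / K`, `F' / K'` of
fields with algebra structures, ring isomorphisms `e : K ≃+* K'`, `φ : F ≃+* F'` with
`φ (algebraMap K F a) = algebraMap K' F' (e a)` (`Compat e φ`).  Then

* `placeEquiv : Place K F ≃ Place K' F'`, `ord_placeMap`, `deg_placeMap`;
* `divEquiv : Divisor K F ≃+ Divisor K' F'`, degree / principal divisors preserved;
* `pic0Equiv : Pic0 K F ≃+ Pic0 K' F'`, `natCard_torsion_eq`;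
* `genusFF_eq : genusFF K F = genusFF K' F'` (directly on repartitions);
* `hasPrincipalDivisors`, `isCurveOver`, `essFiniteType` are transported.

Use in S27: `e : K ≃+* ℂ` (`#K = 𝔠`), `F' = F`, `φ = RingEquiv.refl F`, with the `ℂ`-algebra
structure `(algebraMap K F).comp e.symm`; or `e = refl`, `φ` a `K`-algebra isomorphism.
Only Mathlib + the three Prelude definition modules are used.
-/
import Mathlib
import Fermat.Prelude.Def_AlgebraicCurve_DivisorClassGroup
import Fermat.Prelude.Def_AlgebraicCurve_IsCurveOver
import Fermat.Prelude.Def_AlgebraicCurve_Repartitions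

set_option autoImplicit false
set_option linter.unusedSectionVars false
set_option linter.style.longLine false
set_option linter.style.haveILetI false

namespace Fermat.Agent.M27.Transport3

open AlgebraicCurve

noncomputable section

universe u v u' v'

variable {K : Type u} {F : Type v} {K' : Type u'} {F' : Type v'}
  [Field K] [Field F] [Algebra K F] [Field K'] [Field F'] [Algebra K' F']

/-- Compatibility of a pair of ring isomorphisms with the algebra structures. -/
def Compat (e : K ≃+* K') (φ : F ≃+* F') : Prop :=
  ∀ a : K, φ (algebraMap K F a) = algebraMap K' F' (e a)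

theorem Compat.symm {e : K ≃+* K'} {φ : F ≃+* F'} (h : Compat e φ) :
    Compat e.symm φ.symm := by
  intro a
  rw [RingEquiv.symm_apply_eq, h, RingEquiv.apply_symm_apply]

theorem Compat.symm_apply {e : K ≃+* K'} {φ : F ≃+* F'} (h : Compat e φ) (a : K') :
    φ.symm (algebraMap K' F' a) = algebraMap K F (e.symm a) := h.symm a

/-! ### Valuation subrings -/

/-- Image of a valuation subring under a ring isomorphism. -/
def vsMap (φ : F ≃+* F') (A : ValuationSubring F) : ValuationSubring F' :=
  A.comap (φ.symm : F' →+* F)

theorem mem_vsMap {φ : F ≃+* F'} {A : ValuationSubring F} {y : F'} :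
    y ∈ vsMap φ A ↔ φ.symm y ∈ A := Iff.rfl

theorem apply_mem_vsMap {φ : F ≃+* F'} {A : ValuationSubring F} {x : F} :
    φ x ∈ vsMap φ A ↔ x ∈ A := by
  rw [mem_vsMap, RingEquiv.symm_apply_apply]

theorem vsMap_symm_vsMap (φ : F ≃+* F') (A : ValuationSubring F) :
    vsMap φ.symm (vsMap φ A) = A := by
  ext x
  rw [mem_vsMap, mem_vsMap]
  simp

theorem vsMap_vsMap_symm (φ : F ≃+* F') (A : ValuationSubring F') :
    vsMap φ (vsMap φ.symm A) = A := by
  ext x
  rw [mem_vsMap, mem_vsMap]
  simp

theorem vsMap_top (φ : F ≃+* F') : vsMap φ (⊤ : ValuationSubring F) = ⊤ := by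
  ext x
  rw [mem_vsMap]
  exact ⟨fun _ => ValuationSubring.mem_top x, fun _ => ValuationSubring.mem_top _⟩

/-- The ring isomorphism `A ≃+* vsMap φ A`. -/
def vsEquiv (φ : F ≃+* F') (A : ValuationSubring F) : A ≃+* vsMap φ A where
  toFun x := ⟨φ x, apply_mem_vsMap.mpr x.2⟩
  invFun y := ⟨φ.symm y, y.2⟩
  left_inv x := by ext; simp
  right_inv y := by ext; simp
  map_mul' x y := by ext; simp
  map_add' x y := by ext; simp

@[simp]
theorem coe_vsEquiv_apply (φ : F ≃+* F') (A : ValuationSubring F) (x : A) :
    ((vsEquiv φ A x : vsMap φ A) : F') = φ x := rfl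

/-! ### Places -/

variable {e : K ≃+* K'} {φ : F ≃+* F'}

/-- Transport of a place. -/
def placeMap (h : Compat e φ) (v : Place K F) : Place K' F' where
  toValuationSubring := vsMap φ v.toValuationSubring
  algebraMap_mem' := fun a => by
    rw [mem_vsMap, h.symm_apply]
    exact v.algebraMap_mem' _
  ne_top' := fun htop => v.ne_top' <| by
    have := congrArg (vsMap φ.symm) htop
    rwa [vsMap_symm_vsMap, vsMap_top] at this
  isPrincipalIdealRing' :=
    IsPrincipalIdealRing.of_surjective
      (vsEquiv φ v.toValuationSubring : _ ≃+* _)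
      (vsEquiv φ v.toValuationSubring).surjective

@[simp]
theorem placeMap_toValuationSubring (h : Compat e φ) (v : Place K F) :
    (placeMap h v).toValuationSubring = vsMap φ v.toValuationSubring := rfl

theorem placeMap_symm_placeMap (h : Compat e φ) (v : Place K F) :
    placeMap h.symm (placeMap h v) = v := by
  apply Place.ext
  simp only [placeMap_toValuationSubring]
  exact vsMap_symm_vsMap φ _

theorem placeMap_placeMap_symm (h : Compat e φ) (w : Place K' F') :
    placeMap h (placeMap h.symm w) = w := by
  apply Place.ext
  simp only [placeMap_toValuationSubring]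
  exact vsMap_vsMap_symm φ _

/-- **Places correspond.** -/
def placeEquiv (h : Compat e φ) : Place K F ≃ Place K' F' where
  toFun := placeMap h
  invFun := placeMap h.symm
  left_inv := placeMap_symm_placeMap h
  right_inv := placeMap_placeMap_symm h

@[simp] theorem placeEquiv_apply (h : Compat e φ) (v : Place K F) :
    placeEquiv h v = placeMap h v := rfl

@[simp] theorem placeEquiv_symm_apply (h : Compat e φ) (w : Place K' F') :
    (placeEquiv h).symm w = placeMap h.symm w := rfl

/-- The ring isomorphism between the valuation rings of `v` and `placeMap h v`. -/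
def placeRingEquiv (h : Compat e φ) (v : Place K F) :
    v.toValuationSubring ≃+* (placeMap h v).toValuationSubring :=
  vsEquiv φ v.toValuationSubring

@[simp]
theorem coe_placeRingEquiv_apply (h : Compat e φ) (v : Place K F) (x : v.toValuationSubring) :
    ((placeRingEquiv h v x : (placeMap h v).toValuationSubring) : F') = φ x := rfl

/-- **Orders are preserved.** -/
theorem ord_placeMap (h : Compat e φ) (v : Place K F) (f : F) :
    (placeMap h v).ord (φ f) = v.ord f := by
  rcases eq_or_ne f 0 with rfl | hf
  · simp
  obtain ⟨π, hπ⟩ := IsDiscreteValuationRing.exists_irreducible v.toValuationSubring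
  obtain ⟨u, hu⟩ := v.exists_unit_mul_zpow hf hπ
  set n := v.ord f with hn
  set E := placeRingEquiv h v with hE
  have hπ' : Irreducible (E π) := (MulEquiv.irreducible_iff E).mpr hπ
  have hu' : IsUnit (E (u : v.toValuationSubring)) := u.isUnit.map E
  have hcoeu : ((hu'.unit : (placeMap h v).toValuationSubring) : F')
      = φ ((u : v.toValuationSubring) : F) := by
    rw [IsUnit.unit_spec]
    rfl
  have hcoeπ : ((E π : (placeMap h v).toValuationSubring) : F') = φ (π : F) := rfl
  have key : φ f = ((hu'.unit : (placeMap h v).toValuationSubring) : F')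
      * (((E π : (placeMap h v).toValuationSubring) : F') ^ n) := by
    rw [hcoeu, hcoeπ, hu, map_mul, map_zpow₀]
  rw [key, (placeMap h v).ord_unit_smul_zpow hu'.unit hπ' n]

theorem ord_placeMap_symm (h : Compat e φ) (w : Place K' F') (f : F') :
    (placeMap h.symm w).ord (φ.symm f) = w.ord f :=
  ord_placeMap h.symm w f

theorem ord_placeMap' (h : Compat e φ) (v : Place K F) (f : F') :
    (placeMap h v).ord f = v.ord (φ.symm f) := by
  rw [← ord_placeMap h v (φ.symm f), RingEquiv.apply_symm_apply]

/-- The residue fields correspond. -/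
def residueEquiv (h : Compat e φ) (v : Place K F) :
    v.ResidueField ≃+* (placeMap h v).ResidueField :=
  IsLocalRing.ResidueField.mapEquiv (placeRingEquiv h v)

theorem residueEquiv_algebraMap (h : Compat e φ) (v : Place K F) (a : K) :
    residueEquiv h v (algebraMap K v.ResidueField a) =
      algebraMap K' (placeMap h v).ResidueField (e a) := by
  have h3 : (placeRingEquiv h v) (algebraMap K v.toValuationSubring a)
      = algebraMap K' (placeMap h v).toValuationSubring (e a) := by
    ext
    rw [coe_placeRingEquiv_apply, Place.coe_algebraMap, h a]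
    rfl
  show IsLocalRing.ResidueField.mapEquiv _ (IsLocalRing.residue _ _) = IsLocalRing.residue _ _
  rw [IsLocalRing.ResidueField.mapEquiv_apply, IsLocalRing.ResidueField.map_residue]
  exact congrArg _ h3

theorem residue_comp (h : Compat e φ) (v : Place K F) :
    (algebraMap K' (placeMap h v).ResidueField).comp e.toRingHom =
      (residueEquiv h v).toRingHom.comp (algebraMap K v.ResidueField) := by
  ext a
  exact (residueEquiv_algebraMap h v a).symm

/-- **Degrees are preserved.** -/
theorem deg_placeMap (h : Compat e φ) (v : Place K F) : (placeMap h v).deg = v.deg :=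
  (Algebra.finrank_eq_of_equiv_equiv e (residueEquiv h v) (residue_comp h v)).symm

/-- Finiteness of residue fields is preserved. -/
theorem finite_residue_placeMap (h : Compat e φ) (v : Place K F)
    [Module.Finite K v.ResidueField] : Module.Finite K' (placeMap h v).ResidueField := by
  let _ : RingHomSurjective (e : K →+* K') := ⟨e.surjective⟩
  let f : v.ResidueField →ₛₗ[(e : K →+* K')] (placeMap h v).ResidueField :=
    { toFun := residueEquiv h v
      map_add' := map_add _
      map_smul' := fun c x => by
        rw [Algebra.smul_def, map_mul, residueEquiv_algebraMap, Algebra.smul_def]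
        rfl }
  exact Module.Finite.of_surjective f (residueEquiv h v).surjective

/-! ### Divisors -/

/-- **Divisors correspond.** -/
def divEquiv (h : Compat e φ) : Divisor K F ≃+ Divisor K' F' :=
  Finsupp.domCongr (placeEquiv h)

@[simp]
theorem divEquiv_apply (h : Compat e φ) (D : Divisor K F) (w : Place K' F') :
    divEquiv h D w = D (placeMap h.symm w) := by
  simp [divEquiv, Finsupp.domCongr_apply, Finsupp.equivMapDomain_apply]

theorem divEquiv_apply_placeMap (h : Compat e φ) (D : Divisor K F) (v : Place K F) :
    divEquiv h D (placeMap h v) = D v := by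
  rw [divEquiv_apply, placeMap_symm_placeMap]

@[simp]
theorem divEquiv_single (h : Compat e φ) (v : Place K F) (n : ℤ) :
    divEquiv h (Finsupp.single v n) = Finsupp.single (placeMap h v) n := by
  simp [divEquiv, Finsupp.domCongr_apply, Finsupp.equivMapDomain_single]

theorem divEquiv_symm_apply (h : Compat e φ) (D : Divisor K' F') (v : Place K F) :
    (divEquiv h).symm D v = D (placeMap h v) := by
  simp [divEquiv, Finsupp.domCongr_symm, Finsupp.domCongr_apply, Finsupp.equivMapDomain_apply]

theorem degree_divEquiv (h : Compat e φ) (D : Divisor K F) :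
    Divisor.degree (divEquiv h D) = Divisor.degree D := by
  induction D using Finsupp.induction with
  | zero => simp
  | single_add v n D _ _ ih =>
      rw [map_add, map_add, map_add, ih, divEquiv_single, Divisor.degree_single,
        Divisor.degree_single, deg_placeMap]

theorem divEquiv_mem_degZero_iff (h : Compat e φ) (D : Divisor K F) :
    divEquiv h D ∈ Divisor.degZero (K := K') (F := F') ↔
      D ∈ Divisor.degZero (K := K) (F := F) := by
  rw [Divisor.mem_degZero, Divisor.mem_degZero, degree_divEquiv]

theorem divEquiv_mem_principal (h : Compat e φ) {D : Divisor K F}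
    (hD : D ∈ Divisor.principal (K := K) (F := F)) :
    divEquiv h D ∈ Divisor.principal (K := K') (F := F') := by
  obtain ⟨f, hf, hD⟩ := hD
  refine ⟨φ f, by simpa using hf, fun w => ?_⟩
  rw [divEquiv_apply, hD, ← ord_placeMap h (placeMap h.symm w) f, placeMap_placeMap_symm]

theorem divEquiv_mem_principal_iff (h : Compat e φ) (D : Divisor K F) :
    divEquiv h D ∈ Divisor.principal (K := K') (F := F') ↔
      D ∈ Divisor.principal (K := K) (F := F) := by
  refine ⟨fun hD => ?_, divEquiv_mem_principal h⟩
  obtain ⟨f, hf, hD⟩ := hD
  refine ⟨φ.symm f, by simpa using hf, fun v => ?_⟩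
  rw [← divEquiv_apply_placeMap h D v, hD, ord_placeMap']

/-! ### `Pic⁰` -/

/-- Degree-zero divisors correspond. -/
def degZeroEquiv (h : Compat e φ) :
    Divisor.degZero (K := K) (F := F) ≃+ Divisor.degZero (K := K') (F := F') where
  toFun D := ⟨divEquiv h D, (divEquiv_mem_degZero_iff h D).mpr D.2⟩
  invFun D := ⟨(divEquiv h).symm D, by
    rw [← divEquiv_mem_degZero_iff h, AddEquiv.apply_symm_apply]; exact D.2⟩
  left_inv D := by ext1; simp
  right_inv D := by ext1; simp
  map_add' D E := by ext1; simp

@[simp]
theorem coe_degZeroEquiv (h : Compat e φ) (D : Divisor.degZero (K := K) (F := F)) :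
    (degZeroEquiv h D : Divisor K' F') = divEquiv h (D : Divisor K F) := rfl

theorem map_degZeroEquiv (h : Compat e φ) :
    AddSubgroup.map ((degZeroEquiv h : _ ≃+ _) : _ →+ _)
      ((Divisor.principal (K := K) (F := F)).addSubgroupOf (Divisor.degZero (K := K) (F := F))) =
      (Divisor.principal (K := K') (F := F')).addSubgroupOf
        (Divisor.degZero (K := K') (F := F')) := by
  ext D
  constructor
  · rintro ⟨D0, hD0, rfl⟩
    rw [SetLike.mem_coe, AddSubgroup.mem_addSubgroupOf] at hD0
    rw [AddSubgroup.mem_addSubgroupOf]
    exact divEquiv_mem_principal h hD0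
  · intro hD
    rw [AddSubgroup.mem_addSubgroupOf] at hD
    refine ⟨(degZeroEquiv h).symm D, ?_, by simp⟩
    rw [SetLike.mem_coe, AddSubgroup.mem_addSubgroupOf, ← divEquiv_mem_principal_iff h,
      ← coe_degZeroEquiv, AddEquiv.apply_symm_apply]
    exact hD

/-- **`Pic⁰` is transported.** -/
def pic0Equiv (h : Compat e φ) : Pic0 K F ≃+ Pic0 K' F' :=
  QuotientAddGroup.congr _ _ (degZeroEquiv h) (map_degZeroEquiv h)

/-- **The `n`-torsion of `Pic⁰` has the same cardinality on both sides.** -/
theorem natCard_torsion_eq (h : Compat e φ) (n : ℕ) :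
    Nat.card (Pic0.torsion K F n) = Nat.card (Pic0.torsion K' F' n) := by
  refine Nat.card_congr
    { toFun := fun x => ⟨pic0Equiv h x.1, ?_⟩
      invFun := fun y => ⟨(pic0Equiv h).symm y.1, ?_⟩
      left_inv := fun x => by ext1; simp
      right_inv := fun y => by ext1; simp }
  · have hx := Pic0.mem_torsion.mp x.2
    rw [Pic0.mem_torsion, ← map_zsmul, hx, map_zero]
  · have hy := Pic0.mem_torsion.mp y.2
    rw [Pic0.mem_torsion, ← map_zsmul, hy, map_zero]

/-! ### `HasPrincipalDivisors` -/

theorem hasPrincipalDivisors (h : Compat e φ) [HasPrincipalDivisors K F] :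
    HasPrincipalDivisors K' F' where
  exists_divisor f hf := by
    obtain ⟨D, hD, hdeg⟩ := HasPrincipalDivisors.exists_divisor (K := K) (φ.symm f)
      (by simpa using hf)
    refine ⟨divEquiv h D, fun w => ?_, by rw [degree_divEquiv, hdeg]⟩
    rw [divEquiv_apply, hD, ord_placeMap_symm h]

/-! ### Repartitions and the genus -/

/-- Pull back functions on places along `p` and push values along `ψ`. -/
def pullFun (p : Place K' F' → Place K F) (ψ : F ≃+* F') :
    (Place K F → F) →+* (Place K' F' → F') where
  toFun α w := ψ (α (p w))
  map_one' := by funext w; simp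
  map_mul' α β := by funext w; simp
  map_zero' := by funext w; simp
  map_add' α β := by funext w; simp

@[simp]
theorem pullFun_apply (p : Place K' F' → Place K F) (ψ : F ≃+* F') (α : Place K F → F)
    (w : Place K' F') : pullFun p ψ α w = ψ (α (p w)) := rfl

theorem pullFun_mem_repartitions {p : Place K' F' → Place K F} {ψ : F ≃+* F'}
    (hp : Function.Injective p) (hord : ∀ (w : Place K' F') (f : F), w.ord (ψ f) = (p w).ord f)
    {α : Place K F → F} (hα : α ∈ repartitions K F) :
    pullFun p ψ α ∈ repartitions K' F' := by
  induction hα using Algebra.adjoin_induction with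
  | mem α hα =>
    apply mem_repartitions_of_finite_ord
    have h1 : {w : Place K' F' | w.ord (pullFun p ψ α w) < 0} =
        p ⁻¹' {v : Place K F | v.ord (α v) < 0} := by
      ext w
      simp [hord]
    rw [h1]
    refine Set.Finite.preimage hp.injOn ?_
    have h2 : {v : Place K F | v.ord (α v) < 0} =
        {v : Place K F | ¬v.adicValuation (α v) ≤ 1} :=
      Set.ext fun v => (v.not_adicValuation_le_one_iff).symm
    rw [h2]
    exact hα
  | algebraMap f =>
    have h1 : pullFun p ψ (algebraMap F (Place K F → F) f) =
        algebraMap F' (Place K' F' → F') (ψ f) := by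
      funext w
      rfl
    rw [h1]
    exact Subalgebra.algebraMap_mem _ _
  | add α β _ _ hα hβ => rw [map_add]; exact add_mem hα hβ
  | mul α β _ _ hα hβ => rw [map_mul]; exact mul_mem hα hβ

theorem placeMap_injective (h : Compat e φ) : Function.Injective (placeMap h) :=
  (placeEquiv h).injective

theorem ord_apply_eq (h : Compat e φ) (w : Place K' F') (f : F) :
    w.ord (φ f) = (placeMap h.symm w).ord f := by
  rw [← ord_placeMap h (placeMap h.symm w) f, placeMap_placeMap_symm]

theorem ord_symm_apply_eq (h : Compat e φ) (v : Place K F) (f : F') :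
    v.ord (φ.symm f) = (placeMap h v).ord f := (ord_placeMap' h v f).symm

/-- **Repartitions correspond** (additively; see `repEquiv_smul` for semilinearity). -/
def repEquiv (h : Compat e φ) : ↥(repartitions K F) ≃+ ↥(repartitions K' F') where
  toFun α := ⟨pullFun (placeMap h.symm) φ α,
    pullFun_mem_repartitions (placeMap_injective h.symm) (ord_apply_eq h) α.2⟩
  invFun β := ⟨pullFun (placeMap h) φ.symm β,
    pullFun_mem_repartitions (placeMap_injective h) (ord_symm_apply_eq h) β.2⟩
  left_inv α := by
    apply Subtype.ext
    funext v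
    simp [placeMap_symm_placeMap]
  right_inv β := by
    apply Subtype.ext
    funext w
    simp [placeMap_placeMap_symm]
  map_add' α β := by
    apply Subtype.ext
    funext w
    simp

@[simp]
theorem coe_repEquiv_apply (h : Compat e φ) (α : ↥(repartitions K F)) (w : Place K' F') :
    ((repEquiv h α : ↥(repartitions K' F')) : Place K' F' → F') w =
      φ ((α : Place K F → F) (placeMap h.symm w)) := rfl

@[simp]
theorem coe_repEquiv_symm_apply (h : Compat e φ) (β : ↥(repartitions K' F')) (v : Place K F) :
    (((repEquiv h).symm β : ↥(repartitions K F)) : Place K F → F) v =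
      φ.symm ((β : Place K' F' → F') (placeMap h v)) := rfl

theorem coe_smul_apply (c : K) (α : ↥(repartitions K F)) (v : Place K F) :
    ((c • α : ↥(repartitions K F)) : Place K F → F) v =
      algebraMap K F c * (α : Place K F → F) v := by
  show c • ((α : Place K F → F) v) = _
  rw [Algebra.smul_def]

theorem repEquiv_smul (h : Compat e φ) (c : K) (α : ↥(repartitions K F)) :
    repEquiv h (c • α) = e c • repEquiv h α := by
  apply Subtype.ext
  funext w
  rw [coe_repEquiv_apply, coe_smul_apply, coe_smul_apply, coe_repEquiv_apply, map_mul, h c]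

theorem repEquiv_mem_repartitionsOf_iff (h : Compat e φ) (D : Divisor K F)
    (α : ↥(repartitions K F)) :
    repEquiv h α ∈ repartitionsOf (divEquiv h D) ↔ α ∈ repartitionsOf D := by
  rw [mem_repartitionsOf_iff, mem_repartitionsOf_iff]
  constructor
  · intro H v
    have := H (placeMap h v)
    rwa [coe_repEquiv_apply, divEquiv_apply, placeMap_symm_placeMap, ord_apply_eq h,
      placeMap_symm_placeMap, map_eq_zero_iff _ φ.injective] at this
  · intro H w
    have := H (placeMap h.symm w)
    rwa [coe_repEquiv_apply, divEquiv_apply, ord_apply_eq h,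
      map_eq_zero_iff _ φ.injective]

theorem repEquiv_mem_principalRepartitions_iff (h : Compat e φ) (α : ↥(repartitions K F)) :
    repEquiv h α ∈ principalRepartitions K' F' ↔ α ∈ principalRepartitions K F := by
  rw [mem_principalRepartitions_iff, mem_principalRepartitions_iff]
  constructor
  · rintro ⟨f, hf⟩
    refine ⟨φ.symm f, funext fun v => ?_⟩
    have := congrFun hf (placeMap h v)
    rw [coe_repEquiv_apply, placeMap_symm_placeMap] at this
    rw [← this, RingEquiv.symm_apply_apply]
  · rintro ⟨f, hf⟩
    refine ⟨φ f, funext fun w => ?_⟩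
    rw [coe_repEquiv_apply, hf]

/-- **`H¹(D)` has the same dimension on both sides.** -/
theorem finrank_H1_eq (h : Compat e φ) (D : Divisor K F) :
    Module.finrank K (H1 D) = Module.finrank K' (H1 (divEquiv h D)) := by
  have := RingHomInvPair.of_ringEquiv e
  have := RingHomInvPair.of_ringEquiv_symm e
  let J : ↥(repartitions K F) ≃ₛₗ[(e : K →+* K')] ↥(repartitions K' F') :=
    { toFun := repEquiv h
      map_add' := map_add _
      map_smul' := repEquiv_smul h
      invFun := (repEquiv h).symm
      left_inv := (repEquiv h).left_inv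
      right_inv := (repEquiv h).right_inv }
  have hJ : ∀ α, J α = repEquiv h α := fun _ => rfl
  have hmap : ∀ (P : Submodule K ↥(repartitions K F)) (Q : Submodule K' ↥(repartitions K' F')),
      (∀ α, repEquiv h α ∈ Q ↔ α ∈ P) → P.map (J : _ →ₛₗ[(e : K →+* K')] _) = Q := by
    intro P Q hPQ
    ext β
    constructor
    · rintro ⟨α, hα, rfl⟩
      exact (hPQ α).mpr hα
    · intro hβ
      refine ⟨(repEquiv h).symm β, ?_, (repEquiv h).apply_symm_apply β⟩
      rw [SetLike.mem_coe, ← hPQ, AddEquiv.apply_symm_apply]
      exact hβ
  have hsup : (repartitionsOf D ⊔ principalRepartitions K F).map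
      (J : _ →ₛₗ[(e : K →+* K')] _) =
      repartitionsOf (divEquiv h D) ⊔ principalRepartitions K' F' := by
    rw [Submodule.map_sup, hmap _ _ (repEquiv_mem_repartitionsOf_iff h D),
      hmap _ _ (repEquiv_mem_principalRepartitions_iff h)]
  let Q := Submodule.Quotient.equiv _ _ J hsup
  have key := lift_rank_eq_of_equiv_equiv (R := K) (R' := K') (e : K → K')
    (Q.toLinearMap.toAddMonoidHom.toAddEquiv (g := Q.symm.toLinearMap.toAddMonoidHom)
      (by ext x; simp) (by ext x; simp)) e.bijective
    (fun r m => Q.map_smulₛₗ r m)
  have key2 := congrArg Cardinal.toNat key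
  simp only [Cardinal.toNat_lift] at key2
  exact key2

/-- **The genus is preserved.** -/
theorem genusFF_eq (h : Compat e φ) : genusFF K F = genusFF K' F' := by
  have := finrank_H1_eq h (0 : Divisor K F)
  rwa [map_zero] at this

/-! ### Kähler differentials -/

open KaehlerDifferential in
/-- The semilinear map `Ω[F⁄K] → Ω[F'⁄K']`, `d f ↦ d (φ f)`. -/
theorem exists_kaehlerMap (h : Compat e φ) :
    ∃ m : Ω[F⁄K] →+ Ω[F'⁄K'], (∀ f : F, m (D K F f) = D K' F' (φ f)) ∧
      ∀ (c : F) (x : Ω[F⁄K]), m (c • x) = φ c • m x := by
  letI : Algebra K K' := (e : K →+* K').toAlgebra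
  letI : Algebra F F' := (φ : F →+* F').toAlgebra
  letI : Algebra K F' := ((algebraMap K' F').comp (e : K →+* K')).toAlgebra
  haveI : IsScalarTower K K' F' := IsScalarTower.of_algebraMap_eq (fun x => rfl)
  haveI : IsScalarTower K F F' := IsScalarTower.of_algebraMap_eq (fun x => (h x).symm)
  haveI : SMulCommClass K' F F' := ⟨fun s a b => by
    simp only [Algebra.smul_def]
    exact mul_left_comm _ _ _⟩
  refine ⟨(KaehlerDifferential.map K K' F F').toAddMonoidHom, fun f => ?_, fun c x => ?_⟩
  · exact KaehlerDifferential.map_D K K' F F' f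
  · show KaehlerDifferential.map K K' F F' (c • x) = _
    rw [map_smul]
    exact algebraMap_smul F' c _

open KaehlerDifferential in
/-- **The dimension of the module of differentials is preserved.** -/
theorem finrank_kaehler_eq (h : Compat e φ) :
    Module.finrank F Ω[F⁄K] = Module.finrank F' Ω[F'⁄K'] := by
  obtain ⟨m, hmD, hms⟩ := exists_kaehlerMap h
  obtain ⟨m', hmD', hms'⟩ := exists_kaehlerMap h.symm
  have h1 : ∀ x, m' (m x) = x := by
    intro x
    have hx : x ∈ Submodule.span F (Set.range (D K F)) := by
      rw [span_range_derivation]; trivial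
    induction hx using Submodule.span_induction with
    | mem x hx =>
      obtain ⟨f, rfl⟩ := hx
      rw [hmD, hmD', RingEquiv.symm_apply_apply]
    | zero => simp
    | add x y _ _ hx hy => rw [map_add, map_add, hx, hy]
    | smul c x _ hx => rw [hms, hms', hx, RingEquiv.symm_apply_apply]
  have h2 : ∀ y, m (m' y) = y := by
    intro y
    have hy : y ∈ Submodule.span F' (Set.range (D K' F')) := by
      rw [span_range_derivation]; trivial
    induction hy using Submodule.span_induction with
    | mem y hy =>
      obtain ⟨f, rfl⟩ := hy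
      rw [hmD', hmD, RingEquiv.apply_symm_apply]
    | zero => simp
    | add x y _ _ hx hy => rw [map_add, map_add, hx, hy]
    | smul c x _ hx => rw [hms', hms, hx, RingEquiv.apply_symm_apply]
  let j : Ω[F⁄K] ≃+ Ω[F'⁄K'] :=
    { toFun := m, invFun := m', left_inv := h1, right_inv := h2, map_add' := map_add m }
  have key := lift_rank_eq_of_equiv_equiv (R := F) (R' := F') (φ : F → F') j φ.bijective
    (fun r x => hms r x)
  have key2 := congrArg Cardinal.toNat key
  simp only [Cardinal.toNat_lift] at key2
  exact key2

/-! ### `IsCurveOver`, `EssFiniteType` -/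

/-- **`IsCurveOver` is transported.** -/
theorem isCurveOver (h : Compat e φ) [IsCurveOver K F] : IsCurveOver K' F' :=
  { toHasPrincipalDivisors := hasPrincipalDivisors h
    finiteResidue := fun w => by
      obtain ⟨v, rfl⟩ := (placeEquiv h).surjective w
      haveI : Module.Finite K v.ResidueField := IsCurveOver.finiteResidue v
      exact finite_residue_placeMap h v
    kaehler_free_rank_one :=
      ⟨Module.Free.of_divisionRing _ _, by
        rw [← finrank_kaehler_eq h]; exact IsCurveOver.finrank_kaehler⟩ }

/-- **`EssFiniteType` is transported.** -/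
theorem essFiniteType (h : Compat e φ) [Algebra.EssFiniteType K F] :
    Algebra.EssFiniteType K' F' := by
  rw [← RingHom.essFiniteType_algebraMap]
  have h1 : algebraMap K' F' =
      ((φ : F →+* F').comp (algebraMap K F)).comp (e.symm : K' →+* K) := by
    ext a
    simp only [RingHom.coe_comp, RingHom.coe_coe, Function.comp_apply]
    rw [h, RingEquiv.apply_symm_apply]
  rw [h1]
  exact RingHom.EssFiniteType.comp
    (RingHom.FiniteType.of_surjective _ e.symm.surjective).essFiniteType
    (RingHom.EssFiniteType.comp (RingHom.essFiniteType_algebraMap.mpr inferInstance)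
      (RingHom.FiniteType.of_surjective _ φ.surjective).essFiniteType)

/-! ### The two standard instances of `Compat` -/

/-- A `K`-algebra isomorphism is compatible with the identity of `K`. -/
theorem compat_algEquiv {F₂ : Type v'} [Field F₂] [Algebra K F₂] (ψ : F ≃ₐ[K] F₂) :
    Compat (RingEquiv.refl K) (ψ : F ≃+* F₂) := fun a => ψ.commutes a

/-- **Change of the constant field along a ring isomorphism**, on the same function field:
the `K'`-algebra structure `(algebraMap K F).comp e.symm` on `F`. -/
@[reducible] def algebraOfRingEquiv (e : K ≃+* K') (F : Type v) [Field F] [Algebra K F] :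
    Algebra K' F :=
  ((algebraMap K F).comp (e.symm : K' →+* K)).toAlgebra

theorem compat_refl (e : K ≃+* K') :
    letI := algebraOfRingEquiv e F
    Compat e (RingEquiv.refl F) := by
  intro a
  show algebraMap K F a = algebraMap K F (e.symm (e a))
  rw [RingEquiv.symm_apply_apply]

/-- **Reduction along a ring isomorphism of the constant fields** (same function field, the
`K'`-algebra structure being `algebraOfRingEquiv e F`): the torsion count over `K` follows from
the torsion count over `K'`. -/
theorem natCard_torsion_of_ringEquiv (e : K ≃+* K') [IsCurveOver K F]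
    [Algebra.EssFiniteType K F] (n : ℕ)
    (H : letI := algebraOfRingEquiv e F
      IsCurveOver K' F → Algebra.EssFiniteType K' F →
        Nat.card (Pic0.torsion K' F n) = n ^ (2 * genusFF K' F)) :
    Nat.card (Pic0.torsion K F n) = n ^ (2 * genusFF K F) := by
  letI := algebraOfRingEquiv e F
  have hc : Compat e (RingEquiv.refl F) := compat_refl e
  rw [natCard_torsion_eq hc n, genusFF_eq hc]
  exact H (isCurveOver hc) (essFiniteType hc)

end

end Fermat.Agent.M27.Transport3
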