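/-
Programme M27 (S27), chapter G (Lefschetz), leaf (G1) = UP (helper3).

**Every function field `Fk / k` (`k` algebraically closed of characteristic 0, `hx : IsGen k x`) has a
constant field extension to every field `L ⊇ k`**, with the semilinear action of `Aut(L/k)`:
`Fk` is embedded into `k((t))` at a place (`LaurentEmb3.emb`), `model hx` is its image, and
`FL L hx := ↥(LaurentBC3.EK L (model hx))`, `iota L hx : Fk →+* FL L hx`.

* `isConstExt_iota`, `rhoUp`, `baseAut_rhoUp` (hbase), `rhoUp_smul_iota` (hfix),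
  `mem_range_iota_of_fixed` (hinv), `isGen_iota`;
* `genusFF_FL` : the genus clause, from the genus invariance in the Laurent model (hypothesis
  `hgenus`, to be discharged by `genusFF_EK`);
* `exists_constExt` : the packaged existential statement (G1).
-/
import Mathlib
import Fermat.Agent.M27.LaurentBC3
import Fermat.Agent.M27.LaurentEmb3
import Fermat.Agent.M27.ConstExtIso3
import Fermat.Agent.M27.Transport3
import Fermat.Agent.M27.IsGenMap0
import Fermat.Agent.RR.LHypGen

set_option autoImplicit false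
set_option linter.unusedSectionVars false
set_option linter.style.longLine false

namespace Fermat.Agent.M27.ConstExtUp3

open AlgebraicCurve Fermat.Agent.X0 Fermat.Agent.J.DESC.ConstExt24
open Fermat.Agent.M27.LaurentBC3 Fermat.Agent.M27.LaurentEmb3 Fermat.Agent.M27.ConstExtIso3

noncomputable section

universe u v w

variable {k : Type u} {Fk : Type w} [Field k] [Field Fk] [Algebra k Fk]
  [IsAlgClosed k] [CharZero k] {x : Fk}

/-- A place of `Fk / k`. -/
def basePlace (hx : FF.IsGen k x) : Place k Fk :=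
  Classical.choice (Fermat.Agent.RR.LHypGen.nonempty_place hx)

/-- The Laurent embedding of `Fk` at `basePlace hx`. -/
def embL (hx : FF.IsGen k x) : Fk →ₐ[k] LaurentSeries k := emb hx (basePlace hx)

/-- **The Laurent model of `Fk`**: the image of `Fk` in `k((t))`. -/
def model (hx : FF.IsGen k x) : IntermediateField k (LaurentSeries k) := (embL hx).fieldRange

/-- `Fk ≃ₐ[k] model hx`. -/
def modelEquiv (hx : FF.IsGen k x) : Fk ≃ₐ[k] ↥(model hx) :=
  AlgEquiv.ofInjectiveField (embL hx)

theorem coe_modelEquiv (hx : FF.IsGen k x) (f : Fk) :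
    ((modelEquiv hx f : ↥(model hx)) : LaurentSeries k) = embL hx f := rfl

variable (L : Type v) [Field L] [Algebra k L]

/-- **The constant field extension of `Fk` to `L`.** -/
abbrev FL (hx : FF.IsGen k x) : Type v := ↥(EK L (model hx))

/-- `Fk → FL`. -/
def iota (hx : FF.IsGen k x) : Fk →+* FL L hx :=
  (bc (K := L) (model hx)).comp ((modelEquiv hx : Fk ≃ₐ[k] ↥(model hx)) : Fk →+* ↥(model hx))

theorem iota_apply (hx : FF.IsGen k x) (f : Fk) :
    iota L hx f = bc (K := L) (model hx) (modelEquiv hx f) := rfl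

theorem isConstExt_iota (hx : FF.IsGen k x) :
    IsConstExt (k := k) (K := L) (iota L hx) :=
  isConstExt_comp_algEquiv (isConstExt_bc (K := L) (model hx)) (modelEquiv hx)

theorem isGen_iota (hx : FF.IsGen k x) : FF.IsGen L (iota L hx x) :=
  Fermat.Agent.M27.IsGenMap0.isGen_map0 (isConstExt_iota L hx) hx

theorem isGen_model (L' : Type v) [Field L'] [Algebra k L'] (hx : FF.IsGen k x) :
    FF.IsGen k (modelEquiv hx x) :=
  Fermat.Agent.M27.IsGenMap0.isGen_of_map0 (isConstExt_bc (K := L') (model hx)) (isGen_iota L' hx)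

/-- The semilinear action of `Aut(L/k)` on `FL`. -/
def rhoUp (hx : FF.IsGen k x) : (L ≃ₐ[k] L) →* SemilinearAut L (FL L hx) := rho (model hx)

theorem baseAut_rhoUp (hx : FF.IsGen k x) (σ : L ≃ₐ[k] L) (c : L) :
    SemilinearAut.baseAut (rhoUp L hx σ) c = σ c := rfl

theorem rhoUp_smul_iota (hx : FF.IsGen k x) (σ : L ≃ₐ[k] L) (f : Fk) :
    rhoUp L hx σ • iota L hx f = iota L hx f :=
  rho_smul_bc (model hx) σ _

theorem mem_range_iota_of_fixed [IsAlgClosed L] (hx : FF.IsGen k x) (h : FL L hx)
    (hfix : ∀ σ : L ≃ₐ[k] L, rhoUp L hx σ • h = h) : h ∈ Set.range (iota L hx) := by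
  obtain ⟨y, rfl⟩ := mem_range_bc_of_fixed (model hx) h hfix
  exact ⟨(modelEquiv hx).symm y, by rw [iota_apply, AlgEquiv.apply_symm_apply]⟩

/-- The genus clause, from the genus invariance in the Laurent model. -/
theorem genusFF_FL (hx : FF.IsGen k x)
    (hgenus : genusFF L ↥(EK L (model hx)) = genusFF k ↥(model hx)) :
    genusFF L (FL L hx) = genusFF k Fk := by
  rw [hgenus]
  exact (Fermat.Agent.M27.Transport3.genusFF_eq
    (Fermat.Agent.M27.Transport3.compat_algEquiv (modelEquiv hx))).symm

/-- **(G1)**: the packaged statement, modulo the genus invariance in the Laurent model. -/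
theorem exists_constExt_of [IsAlgClosed L] [CharZero L] (hx : FF.IsGen k x)
    (hgenus : ∀ (E : IntermediateField k (LaurentSeries k)) (y : ↥E), FF.IsGen k y →
      genusFF L ↥(EK L E) = genusFF k ↥E) :
    ∃ (FL : Type v) (_ : Field FL) (_ : Algebra L FL) (ι : Fk →+* FL)
      (_ : IsConstExt (k := k) (K := L) ι) (ρ : (L ≃ₐ[k] L) →* SemilinearAut L FL),
      (∀ σ c, SemilinearAut.baseAut (ρ σ) c = σ c) ∧ (∀ σ f, ρ σ • ι f = ι f) ∧
      (∀ h : FL, (∀ σ, ρ σ • h = h) → h ∈ Set.range ι) ∧ genusFF L FL = genusFF k Fk :=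
  ⟨FL L hx, inferInstance, inferInstance, iota L hx, isConstExt_iota L hx, rhoUp L hx,
    baseAut_rhoUp L hx, rhoUp_smul_iota L hx, mem_range_iota_of_fixed L hx,
    genusFF_FL L hx (hgenus _ _ (isGen_model L hx))⟩

end

end Fermat.Agent.M27.ConstExtUp3
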