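/-
Programme M27 (target S27), chapter A, leaf (A1), interface form (helper4): **(N1) of `Iface2`** for
the topology `SurfTopo4.topo hx` on `Place ℂ F`: compact, Hausdorff, every `Iface2.sval H f`
continuous.

* `sval_eq_pval` : helper2's `sval H f P` is `SurfTopo4.pval hx P f`;
* `n1` : the three (N1) fields of `Iface2.IsRSurface`;
* `tendsto_iff_sval` : convergence in `X` = convergence of all the sphere values;
* `isRSurface_of_charts` : `IsRSurface H` from the existence of charts (chapters A2/A3).

Imported by no statement.
-/
import Mathlib
import Fermat.Agent.M27.SurfTopo4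
import Fermat.Agent.M27.Iface2

set_option autoImplicit false
set_option linter.unusedSectionVars false
set_option linter.style.haveILetI false

open AlgebraicCurve Filter Topology

noncomputable section

namespace Fermat.Agent.M27.SurfIface4

open Fermat.Agent.X0.FF Fermat.Agent.RR.LSpace Fermat.Agent.M15.DivDefs4
open Fermat.Agent.M27.SurfTopo4 Fermat.Agent.M27.Iface2

variable {F : Type*} [Field F] [Algebra ℂ F] {x : F} (H : LHyp ℂ F) (hx : IsGen ℂ x)

/-- the value of the tree (`M15.DivDefs4.valAt`) is the value of `SurfTopo4`. -/
theorem valAt_eq_fval {P : Place ℂ F} {f : F} (hf : f ∈ P.toValuationSubring) :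
    valAt H P f = fval hx P f := by
  apply valAt_eq_of
  rcases (fval_eq_iff hx hf (fval hx P f)).mp rfl with h | h
  · exact Or.inl (sub_eq_zero.mpr h)
  · exact Or.inr h

/-- helper2's sphere value is the sphere value of `SurfTopo4`. -/
theorem sval_eq_pval (f : F) (P : Place ℂ F) : sval H f P = pval hx P f := by
  by_cases hf : f ∈ P.toValuationSubring
  · rw [sval_of_mem H hf, pval_of_mem hx hf, valAt_eq_fval H hx hf]
  · rw [sval_of_not_mem H hf, pval_of_not_mem hx hf]

/-- every sphere value is continuous. -/
theorem continuous_sval (f : F) : @Continuous _ _ (topo hx) _ (sval H f) := by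
  have h : sval H f = fun P => pval hx P f := funext fun P => sval_eq_pval H hx f P
  rw [h]
  exact continuous_pval hx f

/-- **(N1)**: `Place ℂ F` with the topology `topo hx` is compact Hausdorff and every sphere value
is continuous. -/
theorem n1 :
    @CompactSpace (Place ℂ F) (topo hx) ∧ @T2Space (Place ℂ F) (topo hx) ∧
      ∀ f : F, @Continuous _ _ (topo hx) _ (sval H f) :=
  ⟨compactSpace hx, t2Space hx, continuous_sval H hx⟩

/-- convergence in `X` is convergence of all the sphere values. -/
theorem tendsto_iff_sval {ι : Type*} (l : Filter ι) (u : ι → Place ℂ F) (P₀ : Place ℂ F) :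
    Tendsto u l (@nhds _ (topo hx) P₀) ↔
      ∀ f : F, Tendsto (fun i => sval H f (u i)) l (𝓝 (sval H f P₀)) := by
  rw [tendsto_iff hx]
  simp only [sval_eq_pval H hx]

/-- **`IsRSurface H`** for the topology `topo hx`, from the existence of charts. -/
theorem isRSurface_of_charts
    (hch : ∀ P : Place ℂ F, ∃ φ : @Chart F _ _ H (topo hx), @Chart.c F _ _ H (topo hx) φ 0 = P) :
    @IsRSurface F _ _ H (topo hx) :=
  letI := topo hx
  { compactSpace := compactSpace hx
    t2Space := t2Space hx
    continuous_sval := continuous_sval H hx
    exists_chart := hch }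

end Fermat.Agent.M27.SurfIface4
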