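/-
Programme M27 (target S27), chapter F, assembly — helper9: **the count over `ℂ` from the existence
of charts** (the only open clause of chapter A), all other chapters plugged in:
A1/A4 `SurfIface4.isRSurface_of_charts`, B `CLSurf2.isClosed_linEqSet`, C/D/E
`AbelData2.exists_abelData` + `AbelOut9.abelOutput_of_abelData`, F `CountPre9`.
-/
import Mathlib
import Fermat.Agent.M27.AbelOut9
import Fermat.Agent.M27.AbelData2
import Fermat.Agent.M27.CLSurf2
import Fermat.Agent.M27.SurfIface4

set_option autoImplicit false
set_option linter.unusedSectionVars false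
set_option linter.unusedVariables false
set_option linter.style.longLine false

noncomputable section

namespace Fermat.Agent.M27.CountCh9

open AlgebraicCurve Topology Set Module
open Fermat.Agent.RR.LSpace Fermat.Agent.M17.GenericRR2 Fermat.Agent.X0.FF
open Fermat.Agent.M27.Iface2 Fermat.Agent.M27.ChainF9 Fermat.Agent.M27.SurfTopo4

universe u

variable {F : Type u} [Field F] [Algebra ℂ F]

/-- the count on a given Riemann surface structure. -/
theorem card_torsion_of_isRSurface {x : F} (hx : IsGen ℂ x) (H : LHyp ℂ F)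
    [TopologicalSpace (Place ℂ F)] (S : IsRSurface H) {n : ℕ} (hn : 0 < n) :
    Nat.card ↥(Pic0.torsion ℂ F n) = n ^ (2 * genusFF ℂ F) := by
  have hc := S.compactSpace
  exact CountPre9.card_torsion_of_isRSurface hx H S (CLSurf2.isClosed_linEqSet hx S _)
    (AbelOut9.abelOutput_of_abelData hx H (AbelData2.exists_abelData hx H S)
      (CLSurf2.isClosed_linEqSet hx S)) hn

/-- **the count over `ℂ`** from the existence of a chart centred at every place. -/
theorem card_torsion_complex_of_charts {x : F} (hx : IsGen ℂ x) (H : LHyp ℂ F)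
    (hch : ∀ P : Place ℂ F, ∃ φ : @Chart F _ _ H (topo hx), @Chart.c F _ _ H (topo hx) φ 0 = P)
    {n : ℕ} (hn : 0 < n) : Nat.card ↥(Pic0.torsion ℂ F n) = n ^ (2 * genusFF ℂ F) := by
  let _ : TopologicalSpace (Place ℂ F) := topo hx
  exact card_torsion_of_isRSurface hx H (SurfIface4.isRSurface_of_charts H hx hch) hn

/-- the same from any Riemann surface structure on `Place ℂ F`. -/
theorem card_torsion_complex_of_exists {x : F} (hx : IsGen ℂ x)
    (hA : ∀ H : LHyp ℂ F, ∃ τ : TopologicalSpace (Place ℂ F), @IsRSurface F _ _ H τ)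
    {n : ℕ} (hn : 0 < n) : Nat.card ↥(Pic0.torsion ℂ F n) = n ^ (2 * genusFF ℂ F) := by
  have H : LHyp ℂ F := Fermat.Agent.RR.LHypGen.lHyp_of_isGen hx
  obtain ⟨τ, S⟩ := hA H
  let _ : TopologicalSpace (Place ℂ F) := τ
  exact card_torsion_of_isRSurface hx H S hn

end Fermat.Agent.M27.CountCh9
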