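/-
M27 (target S27), chapter A2 (helper1), part 1: **pure commutative algebra behind the plane model at a
place** (Mathlib only).

* `exists_relation` : (Nakayama) `B` finite over `R`, `𝔭` a prime of `B` with residue ring `R`-rational,
  `t ∈ R`, `y ∈ 𝔭`, `w ∉ 𝔭` with `w 𝔭 ⊆ t B` and `(t, y, w) = 1`.  Then there are `α β ∈ R[Y]` with
  `β(y) · y = t · α(y)` and `β(y) ∉ 𝔭`  (i.e. `y / t` lies in the localisation of `R[y]` at `𝔭 ∩ R[y]`).
* `exists_not_mem_mul_mem_span` : in a Dedekind domain, `t ∈ 𝔭 ∖ 𝔭²` gives `w ∉ 𝔭` with `w 𝔭 ⊆ (t)`.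
* `exists_separating` : in a Dedekind domain, for `t ≠ 0` in the height one prime `𝔭` there is `z ∈ 𝔭`
  lying in no other prime containing `t` (Chinese remainder theorem).
* `exists_coprime_triple` : `(t, y, w) = 1` from the separation property.
* `exists_primitive_add_smul` : if `k⟮β⟯ = ⊤` then `k⟮α + c • β⟯ = ⊤` for some `c` in an infinite subfield
  of scalars.
-/
import Mathlib

set_option autoImplicit false

open Polynomial IsDedekindDomain IntermediateField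

namespace Fermat.Agent.M27.NakRel1

/-- **Nakayama relation.** -/
theorem exists_relation {R B : Type*} [CommRing R] [CommRing B] [Algebra R B] [Module.Finite R B]
    (𝔭 : Ideal B) [h𝔭 : 𝔭.IsPrime] (t₀ : R) (y w : B)
    (ht : algebraMap R B t₀ ∈ 𝔭) (hy : y ∈ 𝔭) (hw : w ∉ 𝔭)
    (hwp : ∀ z ∈ 𝔭, ∃ u, w * z = algebraMap R B t₀ * u)
    (hcop : ∃ b₁ b₂ b₃ : B, algebraMap R B t₀ * b₁ + y * b₂ + w * b₃ = 1)
    (hres : ∀ b : B, ∃ r : R, b - algebraMap R B r ∈ 𝔭) :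
    ∃ α β : R[X], aeval y β * y = algebraMap R B t₀ * aeval y α ∧ aeval y β ∉ 𝔭 := by
  classical
  set t : B := algebraMap R B t₀ with htdef
  let S : Subalgebra R B := Algebra.adjoin R {y}
  have hyS : y ∈ S := Algebra.self_mem_adjoin_singleton R y
  let yS : S := ⟨y, hyS⟩
  let tS : S := algebraMap R S t₀
  have htS : (tS : B) = t := rfl
  let I : Ideal S := Ideal.span {tS, yS}
  have hfin : Module.Finite S B := Module.Finite.of_restrictScalars_finite R S B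
  let N : Submodule S B := LinearMap.range (Algebra.linearMap S B)
  have hmemN : ∀ s : S, (s : B) ∈ N := fun s => ⟨s, rfl⟩
  have htop : (⊤ : Submodule S (B ⧸ N)) ≤ I • ⊤ := by
    rintro q -
    obtain ⟨b, rfl⟩ := N.mkQ_surjective q
    obtain ⟨r, hr⟩ := hres b
    obtain ⟨b₁, b₂, b₃, h1⟩ := hcop
    set z := b - algebraMap R B r with hz
    obtain ⟨u, hu⟩ := hwp z hr
    have hzdecomp : z = t * (b₁ * z + u * b₃) + y * (b₂ * z) := by
      calc z = (t * b₁ + y * b₂ + w * b₃) * z := by rw [h1, one_mul]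
        _ = t * (b₁ * z) + y * (b₂ * z) + (w * z) * b₃ := by ring
        _ = t * (b₁ * z + u * b₃) + y * (b₂ * z) := by rw [hu]; ring
    have hb : b = algebraMap R B r + (tS • (b₁ * z + u * b₃) + yS • (b₂ * z)) := by
      have h1 : tS • (b₁ * z + u * b₃) = t * (b₁ * z + u * b₃) := rfl
      have h2 : yS • (b₂ * z) = y * (b₂ * z) := rfl
      rw [h1, h2, ← hzdecomp, hz]
      ring
    rw [hb, map_add, map_add]
    have h0 : N.mkQ (algebraMap R B r) = 0 := by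
      rw [Submodule.mkQ_apply, Submodule.Quotient.mk_eq_zero]
      exact hmemN (algebraMap R S r)
    rw [h0, zero_add, map_smul, map_smul]
    refine add_mem ?_ ?_
    · exact Submodule.smul_mem_smul (Ideal.subset_span (by simp)) Submodule.mem_top
    · exact Submodule.smul_mem_smul (Ideal.subset_span (by simp)) Submodule.mem_top
  obtain ⟨r, hrI, hr0⟩ := Submodule.exists_sub_one_mem_and_smul_eq_zero_of_fg_of_le_smul I
    (⊤ : Submodule S (B ⧸ N)) Module.Finite.fg_top htop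
  -- `r B ⊆ S`
  have hrB : ∀ b : B, ∃ s : S, (s : B) = (r : B) * b := by
    intro b
    have h1 := hr0 (N.mkQ b) Submodule.mem_top
    rw [← map_smul, Submodule.mkQ_apply, Submodule.Quotient.mk_eq_zero] at h1
    obtain ⟨s, hs⟩ := h1
    exact ⟨s, hs⟩
  -- `r ∉ 𝔭`
  have hI𝔭 : I ≤ 𝔭.comap (algebraMap S B) := by
    rw [Ideal.span_le]
    rintro x (rfl | rfl)
    · exact ht
    · exact hy
  have hr𝔭 : (r : B) ∉ 𝔭 := by
    intro h
    have h1 : ((r - 1 : S) : B) ∈ 𝔭 := hI𝔭 hrI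
    have h2 : ((r - 1 : S) : B) = (r : B) - 1 := rfl
    rw [h2] at h1
    have h3 : (1 : B) ∈ 𝔭 := by
      have := sub_mem h h1
      rwa [sub_sub_cancel] at this
    exact h𝔭.ne_top ((Ideal.eq_top_iff_one _).mpr h3)
  obtain ⟨u₀, hu₀⟩ := hwp y hy
  obtain ⟨s₁, hs₁⟩ := hrB w
  obtain ⟨s₂, hs₂⟩ := hrB u₀
  have hrange : ∀ s : S, ∃ p : R[X], aeval y p = (s : B) := by
    intro s
    have h1 : (s : B) ∈ (Algebra.adjoin R {y} : Subalgebra R B) := s.2
    rw [Algebra.adjoin_singleton_eq_range_aeval] at h1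
    exact h1
  obtain ⟨β, hβ⟩ := hrange s₁
  obtain ⟨α, hα⟩ := hrange s₂
  refine ⟨α, β, ?_, ?_⟩
  · rw [hβ, hα, hs₁, hs₂]
    calc (r : B) * w * y = (r : B) * (w * y) := by ring
      _ = (r : B) * (t * u₀) := by rw [hu₀]
      _ = t * ((r : B) * u₀) := by ring
  · rw [hβ, hs₁]
    intro h
    rcases h𝔭.mem_or_mem h with h | h
    · exact hr𝔭 h
    · exact hw h

/-- In a Dedekind domain, `t ∈ 𝔭 ∖ 𝔭²` gives `w ∉ 𝔭` with `w 𝔭 ⊆ (t)`. -/
theorem exists_not_mem_mul_mem_span {B : Type*} [CommRing B] [IsDedekindDomain B] (𝔭 : Ideal B)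
    (t : B) (ht : t ∈ 𝔭) (ht2 : t ∉ 𝔭 ^ 2) :
    ∃ w, w ∉ 𝔭 ∧ ∀ z ∈ 𝔭, ∃ u, w * z = t * u := by
  have hle : Ideal.span {t} ≤ 𝔭 := (Ideal.span_singleton_le_iff_mem _).mpr ht
  obtain ⟨J, hJ⟩ := Ideal.dvd_iff_le.mpr hle
  have hJ𝔭 : ¬ J ≤ 𝔭 := by
    intro h
    apply ht2
    have h1 : Ideal.span {t} ≤ 𝔭 ^ 2 := by
      rw [hJ, pow_two]
      exact Ideal.mul_mono_right h
    exact h1 (Ideal.subset_span rfl)
  obtain ⟨w, hwJ, hw𝔭⟩ := SetLike.not_le_iff_exists.mp hJ𝔭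
  refine ⟨w, hw𝔭, fun z hz => ?_⟩
  have h1 : z * w ∈ Ideal.span {t} := by
    rw [hJ]
    exact Ideal.mul_mem_mul hz hwJ
  obtain ⟨u, hu⟩ := Ideal.mem_span_singleton'.mp h1
  exact ⟨u, by rw [mul_comm w z, ← hu, mul_comm]⟩

/-- **Separating element** (Chinese remainder theorem). -/
theorem exists_separating {B : Type*} [CommRing B] [IsDedekindDomain B] (𝔭 : HeightOneSpectrum B)
    (t : B) (ht0 : t ≠ 0) (ht : t ∈ 𝔭.asIdeal) :
    ∃ z ∈ 𝔭.asIdeal, ∀ 𝔮 : Ideal B, 𝔮.IsPrime → t ∈ 𝔮 → z ∈ 𝔮 → 𝔮 = 𝔭.asIdeal := by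
  classical
  have hI : Ideal.span {t} ≠ 0 := by
    rw [Ne, Ideal.zero_eq_bot, Ideal.span_singleton_eq_bot]
    exact ht0
  have hfin := Ideal.finite_factors hI
  let s : Finset (HeightOneSpectrum B) := hfin.toFinset
  have hs : ∀ v : HeightOneSpectrum B, v ∈ s ↔ t ∈ v.asIdeal := by
    intro v
    rw [Set.Finite.mem_toFinset, Set.mem_ofPred_eq, Ideal.dvd_iff_le, Ideal.span_singleton_le_iff_mem]
  obtain ⟨z, hz⟩ := IsDedekindDomain.exists_forall_sub_mem_ideal (s := s)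
    (fun v : HeightOneSpectrum B => v.asIdeal) (fun _ => 1)
    (fun v _ => v.prime)
    (fun v _ w _ hvw h => hvw (HeightOneSpectrum.ext h))
    (fun v => if (v : HeightOneSpectrum B) = 𝔭 then 0 else 1)
  refine ⟨z, ?_, ?_⟩
  · have h1 := hz 𝔭 ((hs 𝔭).mpr ht)
    simpa using h1
  · intro 𝔮 h𝔮 ht𝔮 hz𝔮
    have h𝔮0 : 𝔮 ≠ ⊥ := by
      rintro rfl
      exact ht0 ((Submodule.mem_bot B).mp ht𝔮)
    let v : HeightOneSpectrum B := ⟨𝔮, h𝔮, h𝔮0⟩
    have hv : v ∈ s := (hs v).mpr ht𝔮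
    by_cases hv𝔭 : v = 𝔭
    · rw [← hv𝔭]
    · exfalso
      have h1 := hz v hv
      simp only [hv𝔭, if_false, pow_one] at h1
      have h2 : (1 : B) ∈ 𝔮 := by
        have := sub_mem hz𝔮 h1
        rwa [sub_sub_cancel] at this
      exact h𝔮.ne_top ((Ideal.eq_top_iff_one _).mpr h2)

/-- `(t, y, w) = 1` when `𝔭` is the only maximal ideal containing `t` and `y`, and `w ∉ 𝔭`. -/
theorem exists_coprime_triple {B : Type*} [CommRing B] (𝔭 : Ideal B) (t y w : B) (hw : w ∉ 𝔭)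
    (hsep : ∀ 𝔮 : Ideal B, 𝔮.IsPrime → t ∈ 𝔮 → y ∈ 𝔮 → 𝔮 = 𝔭) :
    ∃ b₁ b₂ b₃ : B, t * b₁ + y * b₂ + w * b₃ = 1 := by
  have htop : Ideal.span {t, y, w} = ⊤ := by
    by_contra hne
    obtain ⟨𝔮, h𝔮, hle⟩ := Ideal.exists_le_maximal _ hne
    have h1 : t ∈ 𝔮 := hle (Ideal.subset_span (by simp))
    have h2 : y ∈ 𝔮 := hle (Ideal.subset_span (by simp))
    have h3 : w ∈ 𝔮 := hle (Ideal.subset_span (by simp))
    rw [hsep 𝔮 h𝔮.isPrime h1 h2] at h3
    exact hw h3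
  have h1 : (1 : B) ∈ Ideal.span {t, y, w} := by rw [htop]; exact Submodule.mem_top
  rw [Ideal.mem_span_insert] at h1
  obtain ⟨a, z, hz, h1⟩ := h1
  rw [Ideal.mem_span_insert] at hz
  obtain ⟨b, z', hz', rfl⟩ := hz
  obtain ⟨c, rfl⟩ := Ideal.mem_span_singleton'.mp hz'
  exact ⟨a, b, c, by rw [h1]; ring⟩

/-- A primitive element of the shape `α + c • β`, `c` in an infinite field of scalars. -/
theorem exists_primitive_add_smul {K k E : Type*} [Field K] [Infinite K] [Field k] [Field E]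
    [Algebra K k] [Algebra k E] [Algebra K E] [IsScalarTower K k E] [Algebra.IsAlgebraic k E]
    (α β : E) (hβ : k⟮β⟯ = ⊤) : ∃ c : K, k⟮α + c • β⟯ = ⊤ := by
  have hfinite : Finite (IntermediateField k E) :=
    Field.finite_intermediateField_of_exists_primitive_element k E ⟨β, hβ⟩
  let f : K → IntermediateField k E := fun c => k⟮α + c • β⟯
  obtain ⟨c, c', hne, heq⟩ := Finite.exists_ne_map_eq_of_infinite f
  refine ⟨c, ?_⟩
  have h1 : α + c • β ∈ k⟮α + c • β⟯ := mem_adjoin_simple_self k _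
  have h2 : α + c' • β ∈ k⟮α + c • β⟯ := by
    have : α + c' • β ∈ f c' := mem_adjoin_simple_self k _
    rwa [← heq] at this
  have h3 : (c - c') • β ∈ k⟮α + c • β⟯ := by
    have := sub_mem h1 h2
    have h4 : α + c • β - (α + c' • β) = (c - c') • β := by rw [sub_smul]; abel
    rwa [h4] at this
  have hcc : algebraMap K k (c - c') ≠ 0 := by
    rw [Ne, map_eq_zero]
    exact sub_ne_zero.mpr hne
  have h5 : β ∈ k⟮α + c • β⟯ := by
    have h6 : (c - c') • β = algebraMap K k (c - c') • β := by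
      rw [algebraMap_smul]
    rw [h6] at h3
    have := (k⟮α + c • β⟯).smul_mem h3 (x := (algebraMap K k (c - c'))⁻¹)
    rwa [smul_smul, inv_mul_cancel₀ hcc, one_smul] at this
  rw [eq_top_iff, ← hβ, adjoin_simple_le_iff]
  exact h5

end Fermat.Agent.M27.NakRel1
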