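/-
M27 (target S27), chapter A2 (helper1), part 3: **the plane model at a place.**

`F / K` a function field with a generator (`hx : FF.IsGen K x`), `K` algebraically closed of
characteristic `0`, `P` a place.

* `exists_y` : for a uniformiser `t` at `P`, in the integral closure `B` of `K[t]` in `F` there is a
  primitive element `y` of `F / K(t)` vanishing at `P` and at no other zero of `t` (Chinese remainder
  theorem + primitive element theorem), together with the Nakayama relation `b(t,y) · y = t · a(t,y)`,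
  `b(t,y)` a unit at `P` (i.e. `K[t,y]` localised at `(t,y)` is the whole of `O_P`).
* `exists_planeModel` : **(A2)** there are `t y : F` and `G : K[X][Y]` with `ord_P t = 1`, `0 < ord_P y`,
  `G` monic in `Y`, `G(t,y) = 0`, `G(0,0) = 0`, `∂G/∂Y (0,0) ≠ 0`, `ker (p ↦ p(t,y)) = (G)`, and every
  element of `F` is a quotient `p(t,y) / q(t,y)`.
-/
import Mathlib
import Fermat.Agent.RR.LHypGen
import Fermat.Agent.X0.FFSum
import Fermat.Agent.X0.FFDedekind
import Fermat.Agent.M27.NakRel1
import Fermat.Agent.M27.PlaneVal1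

set_option autoImplicit false

open Polynomial Polynomial.Bivariate AlgebraicCurve IntermediateField IsDedekindDomain

noncomputable section

namespace Fermat.Agent.M27.PlaneModel1

open Fermat.Agent.RR.LSpace Fermat.Agent.M15.DivDefs4 Fermat.Agent.X0 Fermat.Agent.M27.NakRel1
  Fermat.Agent.M27.PlaneVal1

variable {K F : Type*} [Field K] [Field F] [Algebra K F] [IsAlgClosed K] [CharZero K]

/-- Step 1: the element `y` of the integral closure `B` of `K[t]` and the Nakayama relation. -/
theorem exists_y {t : F} (ht : FF.IsGen K t) (P : Place K F) (hord : P.ord t = 1) :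
    ∃ (y : FF.intRing K t) (α β : (FF.polyRing K t)[X]),
      0 < P.ord (y : F) ∧ (K⟮t⟯⟮(y : F)⟯ = ⊤) ∧
      aeval y β * y = algebraMap (FF.polyRing K t) (FF.intRing K t) (FF.genA K t) * aeval y α ∧
      (aeval y β : FF.intRing K t) ≠ 0 ∧ P.ord ((aeval y β : FF.intRing K t) : F) = 0 := by
  classical
  have hfd := ht.finite
  have hPID := FF.isPrincipalIdealRing_polyRing ht.transcendental
  have hDedB := FF.isDedekindDomain_intRing ht
  have hFracB := FF.isFractionRing_intRing ht
  have hFinB := FF.finite_intRing ht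
  have htP : t ∈ P.toValuationSubring := FF.mem_of_ord_nonneg P (by omega)
  have hB : ∀ b : FF.intRing K t, algebraMap (FF.intRing K t) F b ∈ P.toValuationSubring :=
    FF.intRing_le_of_mem P htP
  let 𝔭 : HeightOneSpectrum (FF.intRing K t) := FFDedekind.centreSpec P hB
  have h𝔭P : Place.ofHeightOneSpectrum (K := K) (F := F) 𝔭 = P :=
    FFDedekind.ofHeightOneSpectrum_centreSpec P hB
  have hmem𝔭 : ∀ b : FF.intRing K t, b ∈ 𝔭.asIdeal ↔ b = 0 ∨ 0 < P.ord (b : F) := by
    intro b
    rw [FF.mem_asIdeal_iff_ord_pos (K := K) (F := F), h𝔭P]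
    rfl
  -- `t` as an element of `B`
  set tB : FF.intRing K t := algebraMap (FF.polyRing K t) (FF.intRing K t) (FF.genA K t) with htB
  have htBF : (tB : F) = t := rfl
  have htB0 : tB ≠ 0 := by
    intro h
    have h1 : (tB : F) = 0 := by rw [h]; rfl
    rw [htBF] at h1
    exact ht.ne_zero h1
  have htB𝔭 : tB ∈ 𝔭.asIdeal := (hmem𝔭 tB).mpr (Or.inr (by rw [htBF, hord]; exact one_pos))
  have htB2 : tB ∉ 𝔭.asIdeal ^ 2 := by
    intro h
    rw [← HeightOneSpectrum.intValuation_le_pow_iff_mem] at h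
    have h1 : 𝔭.valuation F (algebraMap (FF.intRing K t) F tB) = 𝔭.intValuation tB :=
      𝔭.valuation_of_algebraMap tB
    have h2 := FFDedekind.ord_ofHeightOneSpectrum (K := K) (F := F) 𝔭 (algebraMap (FF.intRing K t) F tB)
    rw [h𝔭P] at h2
    have h3 : algebraMap (FF.intRing K t) F tB = t := rfl
    rw [h3] at h1 h2
    rw [hord] at h2
    have h0 : 𝔭.valuation F t ≠ 0 := (Valuation.ne_zero_iff _).mpr ht.ne_zero
    rw [← h1, ← WithZero.log_le_iff_le_exp h0] at h
    push_cast at h
    omega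
  -- residues
  have hres : ∀ b : FF.intRing K t, ∃ r : FF.polyRing K t,
      b - algebraMap (FF.polyRing K t) (FF.intRing K t) r ∈ 𝔭.asIdeal := by
    intro b
    obtain ⟨c, hc⟩ := FF.exists_ord_sub_pos ht P (hB b)
    refine ⟨algebraMap K (FF.polyRing K t) c, ?_⟩
    rw [hmem𝔭]
    have hcoe : ((b - algebraMap (FF.polyRing K t) (FF.intRing K t)
        (algebraMap K (FF.polyRing K t) c) : FF.intRing K t) : F) = (b : F) - algebraMap K F c := rfl
    rcases hc with hc | hc
    · left
      apply Subtype.ext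
      rw [hcoe]
      have : (b : F) = algebraMap K F c := hc
      rw [this, sub_self]
      rfl
    · right
      rw [hcoe]
      exact hc
  -- a primitive element of `F / K(t)` lying in `t B`
  have hcz : CharZero K⟮t⟯ := charZero_of_injective_algebraMap (algebraMap K K⟮t⟯).injective
  have hsepF : Algebra.IsSeparable K⟮t⟯ F := Algebra.IsAlgebraic.isSeparable_of_perfectField
  obtain ⟨y₀, hy₀⟩ := Field.exists_primitive_element K⟮t⟯ F
  have halg : Algebra.IsAlgebraic (FF.polyRing K t) F := ht.isAlgebraic_adjoin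
  obtain ⟨d, hd0, hdint⟩ := (halg.isAlgebraic (if y₀ = 0 then 1 else y₀)).exists_integral_multiple
  let β₁ : FF.intRing K t := ⟨d • (if y₀ = 0 then 1 else y₀), hdint⟩
  let β : FF.intRing K t := tB * β₁
  have hβF : (β : F) = t * ((d : F) * (if y₀ = 0 then 1 else y₀)) := rfl
  have hdK : (d : F) ∈ K⟮t⟯ := IntermediateField.algebra_adjoin_le_adjoin K {t} d.2
  let u : K⟮t⟯ := ⟨t * (d : F), mul_mem (mem_adjoin_simple_self K t) hdK⟩
  have hu0 : u ≠ 0 := by
    intro h
    have h1 : (u : F) = 0 := by rw [h]; rfl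
    have h2 : (u : F) = t * (d : F) := rfl
    rw [h2] at h1
    rcases mul_eq_zero.mp h1 with h3 | h3
    · exact ht.ne_zero h3
    · exact hd0 (Subtype.ext h3)
  have hprimβ : K⟮t⟯⟮(β : F)⟯ = ⊤ := by
    have h1 : (β : F) = u • (if y₀ = 0 then 1 else y₀) := by
      rw [hβF, ← mul_assoc]; rfl
    have h2 : (if y₀ = 0 then 1 else y₀) ∈ K⟮t⟯⟮(β : F)⟯ := by
      have h3 : u⁻¹ • (β : F) = (if y₀ = 0 then 1 else y₀) := by
        rw [h1, smul_smul, inv_mul_cancel₀ hu0, one_smul]
      have := (K⟮t⟯⟮(β : F)⟯).smul_mem (mem_adjoin_simple_self K⟮t⟯ (β : F)) (x := u⁻¹)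
      rwa [h3] at this
    rw [eq_top_iff, ← hy₀, adjoin_simple_le_iff]
    by_cases h0 : y₀ = 0
    · rw [h0]; exact zero_mem _
    · rwa [if_neg h0] at h2
  -- the separating element `z` and the choice of `y = z + c β`
  obtain ⟨z, hz𝔭, hzsep⟩ := exists_separating 𝔭 tB htB0 htB𝔭
  have hinf : Infinite K := CharZero.infinite K
  obtain ⟨c, hc⟩ := exists_primitive_add_smul (K := K) (k := K⟮t⟯) (E := F) (z : F) (β : F) hprimβ
  let y : FF.intRing K t := z + c • β
  have hyF : (y : F) = (z : F) + c • (β : F) := rfl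
  have hβ𝔭 : β ∈ 𝔭.asIdeal := Ideal.mul_mem_right _ _ htB𝔭
  have hcβ : c • β = algebraMap K (FF.intRing K t) c * β := Algebra.smul_def c β
  have hy𝔭 : y ∈ 𝔭.asIdeal := by
    refine add_mem hz𝔭 ?_
    rw [hcβ]
    exact Ideal.mul_mem_left _ _ hβ𝔭
  have hsep : ∀ 𝔮 : Ideal (FF.intRing K t), 𝔮.IsPrime → tB ∈ 𝔮 → y ∈ 𝔮 → 𝔮 = 𝔭.asIdeal := by
    intro 𝔮 h𝔮 ht𝔮 hy𝔮
    refine hzsep 𝔮 h𝔮 ht𝔮 ?_
    have h1 : c • β ∈ 𝔮 := by
      rw [hcβ]
      exact Ideal.mul_mem_left _ _ (Ideal.mul_mem_right _ _ ht𝔮)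
    have h2 : z = y - c • β := by simp [y]
    rw [h2]
    exact sub_mem hy𝔮 h1
  by_cases hy0 : y = 0
  · -- degenerate case `F = K(t)`: take `y = t`
    have hbot : (⊥ : IntermediateField K⟮t⟯ F) = ⊤ := by
      rw [← hc, ← hyF, hy0]
      simp
    refine ⟨tB, 1, 1, ?_, ?_, ?_, ?_, ?_⟩
    · rw [htBF, hord]; exact one_pos
    · rw [eq_top_iff, ← hbot]; exact bot_le
    · simp
    · simp
    · simp
  obtain ⟨w, hw𝔭, hwp⟩ := exists_not_mem_mul_mem_span 𝔭.asIdeal tB htB𝔭 htB2
  have hcop := exists_coprime_triple 𝔭.asIdeal tB y w hw𝔭 hsep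
  obtain ⟨α, β', hrel, hβ'⟩ := exists_relation (R := FF.polyRing K t) (B := FF.intRing K t) 𝔭.asIdeal
    (FF.genA K t) y w htB𝔭 hy𝔭 hw𝔭 hwp hcop hres
  refine ⟨y, α, β', ?_, ?_, hrel, ?_, ?_⟩
  · rcases (hmem𝔭 y).mp hy𝔭 with h | h
    · exact absurd h hy0
    · exact h
  · rw [hyF]; exact hc
  · intro h
    rw [h] at hβ'
    exact hβ' (zero_mem _)
  · rw [hmem𝔭] at hβ'
    push Not at hβ'
    have h1 : 0 ≤ P.ord ((aeval y β' : FF.intRing K t) : F) := FF.ord_nonneg_of_mem P (hB _)
    omega

/-- **(A2) the plane model at a place**: a uniformiser `t`, a primitive element `y` vanishing at `P`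
and the (monic) minimal polynomial `G ∈ K[X][Y]` of `y` over `K[t]`, with `∂G/∂Y (0,0) ≠ 0`. -/
theorem exists_planeModel {x : F} (hx : FF.IsGen K x) (P : Place K F) :
    ∃ (t y : F) (G : K[X][Y]), P.ord t = 1 ∧ 0 < P.ord y ∧ FF.IsGen K t ∧ G.Monic ∧
      G.aevalAeval t y = 0 ∧ G.evalEval 0 0 = 0 ∧ (derivative G).evalEval 0 0 ≠ 0 ∧
      (∀ p : K[X][Y], p.aevalAeval t y = 0 → G ∣ p) ∧
      (∀ f : F, ∃ p q : K[X][Y], q.aevalAeval t y ≠ 0 ∧
        f = p.aevalAeval t y / q.aevalAeval t y) := by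
  classical
  have H : LHyp K F := Fermat.Agent.RR.LHypGen.lHyp_of_isGen hx
  obtain ⟨π, hπ⟩ := FF.ffp_exists_irreducible P
  set t : F := (π : F) with htdef
  have hord : P.ord t = 1 := P.ord_coe_irreducible hπ
  have htr : Transcendental K t :=
    FF.ffp_transcendental_of_ord_ne_zero P (by rw [hord]; norm_num)
  have ht : FF.IsGen K t := hx.of_transcendental htr
  obtain ⟨yB, α, β, hyord, hprim, hrel, hβ0, hβord⟩ := exists_y ht P hord
  set y : F := (yB : F) with hydef
  have hPID := FF.isPrincipalIdealRing_polyRing htr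
  have htP : t ∈ P.toValuationSubring := FF.mem_of_ord_nonneg P (by omega)
  have hyP : y ∈ P.toValuationSubring := FF.mem_of_ord_nonneg P hyord.le
  have hvt : valAt H P t = 0 := valAt_eq_zero_of_ord_pos H P (by rw [hord]; exact one_pos)
  have hvy : valAt H P y = 0 := valAt_eq_zero_of_ord_pos H P hyord
  -- the equivalence `K[X] ≃ K[t]`
  let e : K[X] ≃ₐ[K] FF.polyRing K t := Polynomial.algEquivOfTranscendental K t htr
  let eR : K[X] →+* FF.polyRing K t := (e : K[X] →+* FF.polyRing K t)
  let eS : FF.polyRing K t →+* K[X] := (e.symm : FF.polyRing K t →+* K[X])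
  have heS : eR.comp eS = RingHom.id _ := by
    ext a; simp [eR, eS]
  have hSe : eS.comp eR = RingHom.id _ := by
    ext a <;> simp [eR, eS]
  -- bridge between the two evaluations
  have hbridge : ∀ p : K[X][Y], p.aevalAeval t y = aeval y (p.map eR) := by
    have h : ((aevalAeval t y : K[X][Y] →ₐ[K] F) : K[X][Y] →+* F) =
        ((aeval y : (FF.polyRing K t)[X] →ₐ[FF.polyRing K t] F) :
          (FF.polyRing K t)[X] →+* F).comp (mapRingHom eR) := by
      refine Polynomial.ringHom_ext (fun a => ?_) ?_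
      · have h1 : ((e a : FF.polyRing K t) : F) = aeval t a :=
          Polynomial.aeval_subalgebra_coe a (FF.polyRing K t)
            ⟨t, Algebra.self_mem_adjoin_singleton K t⟩
        simp only [RingHom.coe_coe, RingHom.coe_comp, Function.comp_apply, coe_mapRingHom, map_C,
          aeval_C, aevalAeval_C]
        exact h1.symm
      · simp
    intro p
    exact DFunLike.congr_fun h p
  have hbridge' : ∀ q : (FF.polyRing K t)[X], (q.map eS).aevalAeval t y = aeval y q := by
    intro q
    rw [hbridge, Polynomial.map_map, heS, Polynomial.map_id]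
  have hcoeB : ∀ q : (FF.polyRing K t)[X], ((aeval yB q : FF.intRing K t) : F) = aeval y q :=
    fun q => Polynomial.aeval_subalgebra_coe q (FF.intRing K t) yB
  -- the minimal polynomial
  have hyint : IsIntegral (FF.polyRing K t) y := yB.2
  set G₀ : (FF.polyRing K t)[X] := minpoly (FF.polyRing K t) y with hG₀
  set G : K[X][Y] := G₀.map eS with hG
  have hGmap : G.map eR = G₀ := by
    rw [hG, Polynomial.map_map, heS, Polynomial.map_id]
  have hGmonic : G.Monic := (minpoly.monic hyint).map eS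
  have hGzero : G.aevalAeval t y = 0 := by
    rw [hbridge, hGmap]
    exact minpoly.aeval _ _
  have hker : ∀ p : K[X][Y], p.aevalAeval t y = 0 → G ∣ p := by
    intro p hp
    rw [hbridge] at hp
    have h1 : G₀ ∣ p.map eR := minpoly.isIntegrallyClosed_dvd hyint hp
    have h2 := Polynomial.map_dvd eS h1
    rwa [Polynomial.map_map, hSe, Polynomial.map_id] at h2
  have hG00 : G.evalEval 0 0 = 0 := by
    have h1 := valAt_aevalAeval H P htP hyP G
    rw [hGzero, hvt, hvy] at h1
    rw [← h1]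
    exact valAt_eq_of H P (Or.inl (by simp))
  -- the Nakayama relation as a polynomial
  set α' : K[X][Y] := α.map eS with hα'
  set β' : K[X][Y] := β.map eS with hβ'
  have hαv : α'.aevalAeval t y = aeval y α := hbridge' α
  have hβv : β'.aevalAeval t y = aeval y β := hbridge' β
  have hrelF : aeval y β * y = t * aeval y α := by
    have h1 := congrArg (fun b : FF.intRing K t => (b : F)) hrel
    simp only [MulMemClass.coe_mul] at h1
    rw [hcoeB, hcoeB] at h1
    exact h1
  set Hrel : K[X][Y] := β' * Y - C X * α' with hHrel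
  have hHzero : Hrel.aevalAeval t y = 0 := by
    rw [hHrel, map_sub, map_mul, map_mul, aevalAeval_X, aevalAeval_Y, hαv, hβv, hrelF, sub_self]
  obtain ⟨Q, hQ⟩ := hker Hrel hHzero
  have hβ00 : β'.evalEval 0 0 ≠ 0 := by
    have h1 := valAt_aevalAeval H P htP hyP β'
    rw [hvt, hvy] at h1
    rw [← h1, hβv, ← hcoeB]
    have hmem : ((aeval yB β : FF.intRing K t) : F) ∈ P.toValuationSubring :=
      FF.mem_of_ord_nonneg P (by rw [hβord])
    rw [Ne, valAt_eq_zero_iff H P hmem]
    push Not
    refine ⟨?_, by rw [hβord]⟩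
    intro h0
    exact hβ0 (Subtype.ext h0)
  have hGY : (derivative G).evalEval 0 0 ≠ 0 := by
    intro h0
    apply hβ00
    have h1 : (derivative Hrel).evalEval 0 0 = β'.evalEval 0 0 := by
      rw [hHrel]
      simp only [derivative_sub, derivative_mul, derivative_X, derivative_C, mul_one, zero_mul,
        zero_add, evalEval_sub, evalEval_add, evalEval_mul, evalEval_X, evalEval_C, eval_X,
        mul_zero, zero_mul, sub_zero]
    have h2 : (derivative Hrel).evalEval 0 0 = 0 := by
      rw [hQ]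
      simp only [derivative_mul, evalEval_add, evalEval_mul, h0, hG00, zero_mul, add_zero]
    rw [← h1, h2]
  refine ⟨t, y, G, hord, hyord, ht, hGmonic, hGzero, hG00, hGY, hker, ?_⟩
  -- fractions
  have htop : IntermediateField.adjoin K {t, y} = ⊤ := by
    have h1 := IntermediateField.adjoin_simple_adjoin_simple K t y
    rw [hprim, IntermediateField.restrictScalars_top] at h1
    exact h1.symm
  have hrange : ∀ a ∈ Algebra.adjoin K ({t, y} : Set F), ∃ p : K[X][Y], p.aevalAeval t y = a := by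
    intro a ha
    have hle : Algebra.adjoin K ({t, y} : Set F) ≤ (aevalAeval t y : K[X][Y] →ₐ[K] F).range := by
      refine Algebra.adjoin_le ?_
      rintro b (rfl | rfl)
      · exact ⟨C X, aevalAeval_X _ _⟩
      · exact ⟨Y, aevalAeval_Y _ _⟩
    exact hle ha
  intro f
  have hf : f ∈ IntermediateField.adjoin K {t, y} := by rw [htop]; exact IntermediateField.mem_top
  obtain ⟨r, hr, s, hs, rfl⟩ := IntermediateField.mem_adjoin_iff_div.mp hf
  obtain ⟨p, rfl⟩ := hrange r hr
  obtain ⟨q, rfl⟩ := hrange s hs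
  by_cases hq0 : q.aevalAeval t y = 0
  · refine ⟨0, 1, by simp, ?_⟩
    rw [hq0, div_zero, map_zero, zero_div]
  · exact ⟨p, q, hq0, rfl⟩

end Fermat.Agent.M27.PlaneModel1
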