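/-
Programme M27 (target S27), **THE ANALYTIC END THEOREM** — helper9:

  `card_torsion_complex (hx : FF.IsGen ℂ x) (hn : 0 < n) :
      Nat.card ↥(Pic0.torsion ℂ F n) = n ^ (2 * genusFF ℂ F)`

for every function field `F / ℂ` (any universe), unconditionally.  Assembly of
* chapter A : `PlaneModel1.exists_planeModel` (A2), `ChartHat8.nonempty_branchData`,
              `ChartPlace8.Q` / `ord_Q` (P1), `ChartAsm4.exists_chart_of_ord` (A3),
              `SurfIface4.isRSurface_of_charts` (A1/A4);
* chapters B-F : `CountCh9.card_torsion_complex_of_charts` (`CLSurf2`, `AbelData2`, `AbelOut9`,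
              `CountPre9`, `ChainF9`, `Conn9`, `Lattice2`).
-/
import Mathlib
import Fermat.Agent.M27.CountCh9
import Fermat.Agent.M27.ChartAsm4
import Fermat.Agent.M27.ChartPlace8
import Fermat.Agent.M27.PlaneModel1

set_option autoImplicit false
set_option linter.unusedSectionVars false
set_option linter.unusedVariables false
set_option linter.style.longLine false

noncomputable section

namespace Fermat.Agent.M27.CountC9

open AlgebraicCurve Metric Topology Polynomial
open scoped Polynomial.Bivariate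
open Fermat.Agent.X0.FF Fermat.Agent.RR.LSpace
open Fermat.Agent.M27.Iface2 Fermat.Agent.M27.SurfTopo4 Fermat.Agent.M27.ChartHat8

universe u

variable {F : Type u} [Field F] [Algebra ℂ F]

/-- **chapter A, (N2)-(N4)**: every place is the centre of a chart of the topology `topo hx`. -/
theorem exists_chart (H : LHyp ℂ F) {x : F} (hx : IsGen ℂ x) (P : Place ℂ F) :
    ∃ φ : @Chart F _ _ H (topo hx), @Chart.c F _ _ H (topo hx) φ 0 = P := by
  obtain ⟨t, y, G, h1, h2, _, h4, h5, h6, h7, h8, h9⟩ :=
    Fermat.Agent.M27.PlaneModel1.exists_planeModel hx P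
  let M : PlaneModel P := ⟨t, y, G, h1, h2, h4, h5, h6, h7, h8, h9⟩
  obtain ⟨B⟩ := nonempty_branchData M.G M.G00 M.GY00
  exact Fermat.Agent.M27.ChartAsm4.exists_chart_of_ord H M B (Fermat.Agent.M27.ChartPlace8.Q M B)
    (fun a ha p hp => Fermat.Agent.M27.ChartPlace8.ord_Q M B ha hp) hx

/-- **the Riemann surface of `F / ℂ`** (chapter A end literal). -/
theorem exists_isRSurface {x : F} (hx : IsGen ℂ x) (H : LHyp ℂ F) :
    ∃ τ : TopologicalSpace (Place ℂ F), @IsRSurface F _ _ H τ :=
  ⟨topo hx, Fermat.Agent.M27.SurfIface4.isRSurface_of_charts H hx (exists_chart H hx)⟩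

/-- **THE COUNT OVER `ℂ`**: `#Pic⁰(F)[n] = n ^ (2 g)` for every function field `F / ℂ`. -/
theorem card_torsion_complex {x : F} (hx : IsGen ℂ x) {n : ℕ} (hn : 0 < n) :
    Nat.card ↥(Pic0.torsion ℂ F n) = n ^ (2 * genusFF ℂ F) :=
  Fermat.Agent.M27.CountCh9.card_torsion_complex_of_charts hx
    (Fermat.Agent.RR.LHypGen.lHyp_of_isGen hx) (exists_chart _ hx) hn

end Fermat.Agent.M27.CountC9
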