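/-
Programme M27 (target S27), chapter F, assembly — helper9: **the count over `ℂ` from the two
remaining inputs**, chapter A (`exists_isRSurface`) and chapter B (`LinEqClosed4.ZC`), with chapters
C, D, E, F plugged in (`AbelData2.exists_abelData`, `AbelOut9.abelOutput_of_abelData`,
`LinEqClosed4.isClosed_linEqSet`, `CountPre9.card_torsion_of_isRSurface`).
-/
import Mathlib
import Fermat.Agent.M27.AbelOut9
import Fermat.Agent.M27.AbelData2
import Fermat.Agent.M27.LinEqClosed4

set_option autoImplicit false
set_option linter.unusedSectionVars false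
set_option linter.unusedVariables false
set_option linter.style.longLine false

noncomputable section

namespace Fermat.Agent.M27.CountMid9

open AlgebraicCurve Topology Set Module
open Fermat.Agent.RR.LSpace Fermat.Agent.M17.GenericRR2 Fermat.Agent.X0.FF
open Fermat.Agent.M27.Iface2 Fermat.Agent.M27.ChainF9

universe u

variable {F : Type u} [Field F] [Algebra ℂ F]

/-- the count on a given Riemann surface structure, from (ZC). -/
theorem card_torsion_of_isRSurface_of_ZC {x : F} (hx : IsGen ℂ x) (H : LHyp ℂ F)
    [TopologicalSpace (Place ℂ F)] (S : IsRSurface H) (hZC : LinEqClosed4.ZC F)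
    {n : ℕ} (hn : 0 < n) : Nat.card ↥(Pic0.torsion ℂ F n) = n ^ (2 * genusFF ℂ F) := by
  have hc := S.compactSpace
  have hCL : ∀ m : ℕ, IsClosed (linEqSet F m) := fun m =>
    LinEqClosed4.isClosed_linEqSet hx hZC m
  exact CountPre9.card_torsion_of_isRSurface hx H S (hCL _)
    (AbelOut9.abelOutput_of_abelData hx H (AbelData2.exists_abelData hx H S) hCL) hn

/-- **the count over `ℂ`** from the end literals of chapters A and B. -/
theorem card_torsion_complex_of {x : F} (hx : IsGen ℂ x)
    (hA : ∀ H : LHyp ℂ F, ∃ τ : TopologicalSpace (Place ℂ F), @IsRSurface F _ _ H τ)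
    (hB : ∀ (H : LHyp ℂ F) [TopologicalSpace (Place ℂ F)], IsRSurface H → LinEqClosed4.ZC F)
    {n : ℕ} (hn : 0 < n) : Nat.card ↥(Pic0.torsion ℂ F n) = n ^ (2 * genusFF ℂ F) := by
  have H : LHyp ℂ F := Fermat.Agent.RR.LHypGen.lHyp_of_isGen hx
  obtain ⟨τ, S⟩ := hA H
  let _ : TopologicalSpace (Place ℂ F) := τ
  exact card_torsion_of_isRSurface_of_ZC hx H S (hB H S) hn

end Fermat.Agent.M27.CountMid9
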