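/-
Programme M27 (S27), chapter G (Lefschetz), leaf by lead: **countable algebraically closed subfields**.

* `exists_countable_isAlgClosed_subfield0` : a countable subset `C` of an algebraically closed field
  `K` lies in a countable algebraically closed subfield `k` of `K`
  (`k` = the algebraic closure in `K` of the subfield generated by `C`);
* `charZero_subfield0` : subfields of fields of characteristic `0` have characteristic `0`.
-/
import Mathlib

set_option autoImplicit false

namespace Fermat.Agent.M27.CountableSub0

open Cardinal

universe u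

theorem charZero_subfield0 {K : Type u} [Field K] [CharZero K] (k : Subfield K) : CharZero ↥k :=
  ⟨fun m n h => Nat.cast_injective (R := K) (by simpa using congrArg Subtype.val h)⟩

/-- A countable subset of an algebraically closed field lies in a countable algebraically closed
subfield. -/
theorem exists_countable_isAlgClosed_subfield0 {K : Type u} [Field K] [IsAlgClosed K]
    (C : Set K) (hC : C.Countable) :
    ∃ k : Subfield K, C ⊆ k ∧ Countable ↥k ∧ IsAlgClosed ↥k := by
  classical
  let k₀ : Subfield K := Subfield.closure C
  have hk₀ : Countable ↥k₀ := by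
    rw [← Cardinal.mk_le_aleph0_iff]
    have h1 : #C ≤ ℵ₀ := Cardinal.mk_le_aleph0_iff.mpr hC.to_subtype
    exact (Subfield.cardinalMk_closure_le_max C).trans (max_le h1 le_rfl)
  let A : IntermediateField ↥k₀ K := algebraicClosure ↥k₀ K
  have hA : Countable ↥A := by
    rw [← Cardinal.mk_le_aleph0_iff]
    have h1 : #↥k₀ ≤ ℵ₀ := Cardinal.mk_le_aleph0_iff.mpr hk₀
    exact (Algebra.IsAlgebraic.cardinalMk_le_max ↥k₀ ↥A).trans (max_le h1 le_rfl)
  have hAC : IsAlgClosed ↥A := IsAlgClosure.isAlgClosed ↥k₀
  refine ⟨A.toSubfield, ?_, hA, hAC⟩
  intro c hc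
  have h1 : c ∈ k₀ := Subfield.subset_closure hc
  exact A.algebraMap_mem ⟨c, h1⟩

end Fermat.Agent.M27.CountableSub0
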