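/-
Programme M27 (target S27), **contract between chapters C and E** (helper2): the countable group
`Lam` of transition constants of the chart primitives over a family of charts, and the STATEMENT of
the easy half of Abel's theorem modulo `Lam`.

`𝔄 : ι → Chart H` a family of charts (finite in the application, containing the `g` special charts of
chapter E), `ω : Fin g → Ω[F⁄ℂ]` regular differentials.

* `primVec 𝔄 ω α b : Fin g → ℂ`  : the vector of chart primitives `((𝔄 α).prim (ω j) b)_j`;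
* `Lam 𝔄 ω : AddSubgroup (Fin g → ℂ)` : generated by `primVec β b' - primVec α b` over all
  coincidences `(𝔄 α).c b = (𝔄 β).c b'`;
* `EasyAbel 𝔄 ω : Prop` : for `f ≠ 0` and every finite formal sum `Σ n_k [(𝔄 (α k)).c (b k)]` equal to
  `div f`:  `Σ n_k • primVec (α k) (b k) ∈ Lam`.
Chapter C proves `(Lam 𝔄 ω : Set _).Countable` and `EasyAbel 𝔄 ω`; chapter E consumes them.
-/
import Mathlib
import Fermat.Agent.M27.Prim2

set_option autoImplicit false
set_option linter.unusedSectionVars false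
set_option linter.unusedVariables false
set_option linter.style.longLine false

noncomputable section

namespace Fermat.Agent.M27.LamDefs2

open AlgebraicCurve Metric Topology KaehlerDifferential
open Fermat.Agent.RR.LSpace Fermat.Agent.M15.DivDefs4 Fermat.Agent.M27.Iface2

variable {F : Type*} [Field F] [Algebra ℂ F] {H : LHyp ℂ F} [TopologicalSpace (Place ℂ F)]
  {ι : Type*} (𝔄 : ι → Chart H) {g : ℕ} (ω : Fin g → Ω[F⁄ℂ])

/-- the vector of chart primitives. -/
def primVec (α : ι) (b : ℂ) : Fin g → ℂ := fun j => (𝔄 α).prim (ω j) b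

theorem primVec_apply (α : ι) (b : ℂ) (j : Fin g) : primVec 𝔄 ω α b j = (𝔄 α).prim (ω j) b := rfl

/-- the generators of `Lam`: transition constants. -/
def lamGen : Set (Fin g → ℂ) :=
  {v | ∃ (α β : ι) (b b' : ℂ), b ∈ ball (0 : ℂ) (𝔄 α).r ∧ b' ∈ ball (0 : ℂ) (𝔄 β).r ∧
    (𝔄 α).c b = (𝔄 β).c b' ∧ v = primVec 𝔄 ω β b' - primVec 𝔄 ω α b}

/-- **the group of transition constants** (countable; replaces the period lattice). -/
def Lam : AddSubgroup (Fin g → ℂ) := AddSubgroup.closure (lamGen 𝔄 ω)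

theorem sub_mem_Lam {α β : ι} {b b' : ℂ} (hb : b ∈ ball (0 : ℂ) (𝔄 α).r)
    (hb' : b' ∈ ball (0 : ℂ) (𝔄 β).r) (h : (𝔄 α).c b = (𝔄 β).c b') :
    primVec 𝔄 ω β b' - primVec 𝔄 ω α b ∈ Lam 𝔄 ω :=
  AddSubgroup.subset_closure ⟨α, β, b, b', hb, hb', h, rfl⟩

/-- **the easy half of Abel's theorem modulo `Lam`** (statement; proved in chapter C). -/
def EasyAbel : Prop :=
  ∀ f : F, f ≠ 0 → ∀ (m : ℕ) (n : Fin m → ℤ) (α : Fin m → ι) (b : Fin m → ℂ),
    (∀ k, b k ∈ ball (0 : ℂ) (𝔄 (α k)).r) →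
    (∀ P : Place ℂ F,
      P.ord f = (∑ k, Finsupp.single ((𝔄 (α k)).c (b k)) (n k) : Divisor ℂ F) P) →
    ∑ k, n k • primVec 𝔄 ω (α k) (b k) ∈ Lam 𝔄 ω

end Fermat.Agent.M27.LamDefs2
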