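/-
Programme M27 (target S27), chapter C (helper5), END LITERALS of the contract `M27/LamDefs2`:

* `lam_countable` : the group `LamDefs2.Lam 𝔄 ω` of transition constants is countable;
* `easyAbel`      : `LamDefs2.EasyAbel 𝔄 ω`, the easy half of Abel's theorem modulo `Lam`.
Both are restatements of `AbelLamCor5` (whose `primVec`, `transSet`, `Lam` agree with the
definitions of `LamDefs2` definitionally).
-/
import Mathlib
import Fermat.Agent.M27.LamDefs2
import Fermat.Agent.M27.AbelLamCor5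

set_option autoImplicit false
set_option linter.unusedSectionVars false
set_option linter.unusedVariables false
set_option linter.style.longLine false

noncomputable section

namespace Fermat.Agent.M27.EasyAbel5

open AlgebraicCurve Metric Topology Set Filter KaehlerDifferential
open Fermat.Agent.RR.LSpace Fermat.Agent.M15.DivDefs4 Fermat.Agent.X0 Fermat.Agent.X0.FF
open Fermat.Agent.M27.Iface2 Fermat.Agent.M27.LamDefs2

variable {F : Type*} [Field F] [Algebra ℂ F] {H : LHyp ℂ F} [TopologicalSpace (Place ℂ F)] {x : F}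
  {ι : Type*} (𝔄 : ι → Chart H) {g : ℕ} (ω : Fin g → Ω[F⁄ℂ])

theorem primVec_eq : LamDefs2.primVec 𝔄 ω = AbelLamCor5.primVec 𝔄 ω := rfl

theorem lamGen_eq : LamDefs2.lamGen 𝔄 ω = AbelLamCor5.transSet 𝔄 ω := rfl

theorem Lam_eq : LamDefs2.Lam 𝔄 ω = AbelLamCor5.Lam 𝔄 ω := rfl

/-- **END LITERAL 1 of chapter C.** -/
theorem lam_countable [Countable ι] (hx : FF.IsGen ℂ x) (hω : ∀ j, Prim2.IsRegular (ω j)) :
    (Lam 𝔄 ω : Set (Fin g → ℂ)).Countable := by
  rw [Lam_eq]
  exact AbelLamCor5.countable_Lam hx 𝔄 hω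

/-- **END LITERAL 2 of chapter C: easy Abel modulo `Lam`.** -/
theorem easyAbel [Finite ι] (hx : FF.IsGen ℂ x) (S : IsRSurface H)
    (hcov : ∀ P : Place ℂ F, ∃ α, P ∈ (𝔄 α).dom) (hω : ∀ j, Prim2.IsRegular (ω j)) :
    EasyAbel 𝔄 ω := by
  intro f hf m n α b hb hdiv
  have hD : (∑ k, Finsupp.single ((𝔄 (α k)).c (b k)) (n k) : Divisor ℂ F)
      ∈ Divisor.principal (K := ℂ) (F := F) := ⟨f, hf, fun P => (hdiv P).symm⟩
  have h := AbelLamCor5.abel_divisor S hx 𝔄 hcov hω hD
  rw [map_sum] at h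
  have h2 : ∀ k, AbelLamCor5.FbarDiv 𝔄 ω (Finsupp.single ((𝔄 (α k)).c (b k)) (n k))
      = QuotientAddGroup.mk' (AbelLamCor5.Lam 𝔄 ω) (n k • AbelLamCor5.primVec 𝔄 ω (α k) (b k)) := by
    intro k
    rw [AbelLamCor5.FbarDiv_single, AbelLamCor5.Fbar_chart 𝔄 ω (α k) (hb k), map_zsmul]
    rfl
  rw [Finset.sum_congr rfl fun k _ => h2 k, ← map_sum, QuotientAddGroup.mk'_apply,
    QuotientAddGroup.eq_zero_iff] at h
  exact h

end Fermat.Agent.M27.EasyAbel5
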