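/-
Programme M27 (target S27), entry leaf (H0) (helper8): from the literal binders of S27
`[IsCurveOver K F] [Algebra.EssFiniteType K F] [IsAlgClosed K] [CharZero K]` to a transcendental
generator `x` with `F` finite over `K⟮x⟯` (`X0.FF.IsGen K x`), which is what the tree's
Riemann-Roch chain (`RR.RRMain`, `M17.GenericRR2`, `X0.HasCanDivInst`) consumes.

Route: a finitely generated extension of a perfect field has a finite separating transcendence
basis `s` (Mathlib); `F` is formally etale over the polynomial ring on `s`, hence
`Ω[F⁄K] ≃ F ⊗ Ω[K[s]⁄K]` is free of rank `#s`; `IsCurveOver` says the rank is `1`.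
Mathlib + Prelude only.  Imported by no statement.
-/
import Mathlib
import Fermat.Prelude.Def_AlgebraicCurve_IsCurveOver
import Fermat.Agent.X0.FFDefs

set_option autoImplicit false

open AlgebraicCurve KaehlerDifferential IntermediateField TensorProduct

namespace Fermat.Agent.M27.EntryGen8

variable (K F : Type*) [Field K] [Field F] [Algebra K F]

open scoped IntermediateField.algebraAdjoinAdjoin in
/-- `F` is formally etale over the polynomial algebra generated by a separating transcendence
basis. -/
theorem formallyEtale_adjoin {ι : Type*} (v : ι → F)
    [Algebra.IsSeparable (IntermediateField.adjoin K (Set.range v)) F] :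
    Algebra.FormallyEtale (Algebra.adjoin K (Set.range v)) F := by
  have h1 : Algebra.FormallyEtale (Algebra.adjoin K (Set.range v))
      (IntermediateField.adjoin K (Set.range v)) :=
    Algebra.FormallyEtale.of_isLocalization (nonZeroDivisors _)
  have h2 : Algebra.FormallyEtale (IntermediateField.adjoin K (Set.range v)) F :=
    Algebra.FormallyEtale.of_isSeparable _ F
  exact Algebra.FormallyEtale.comp _ (IntermediateField.adjoin K (Set.range v)) _

/-- **rank of the Kaehler differentials of a separably generated extension** = size of a
separating transcendence basis. -/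
theorem finrank_kaehler_eq_card {ι : Type*} [Fintype ι] {v : ι → F}
    (hv : AlgebraicIndependent K v)
    [Algebra.IsSeparable (IntermediateField.adjoin K (Set.range v)) F] :
    Module.finrank F Ω[F⁄K] = Fintype.card ι := by
  classical
  -- `F` as an algebra over the polynomial ring
  let algPF : Algebra (MvPolynomial ι K) F := (MvPolynomial.aeval v).toRingHom.toAlgebra
  have hPF : ∀ p : MvPolynomial ι K, algebraMap (MvPolynomial ι K) F p = MvPolynomial.aeval v p :=
    fun _ => rfl
  have : IsScalarTower K (MvPolynomial ι K) F :=
    IsScalarTower.of_algebraMap_eq fun c => by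
      rw [hPF, MvPolynomial.algebraMap_eq, MvPolynomial.aeval_C]
  -- the polynomial ring as an algebra over itself through `aevalEquiv`
  let algPA : Algebra (MvPolynomial ι K) (Algebra.adjoin K (Set.range v)) :=
    (hv.aevalEquiv : MvPolynomial ι K →+* Algebra.adjoin K (Set.range v)).toAlgebra
  have : IsScalarTower (MvPolynomial ι K) (Algebra.adjoin K (Set.range v)) F :=
    IsScalarTower.of_algebraMap_eq fun p => by
      rw [hPF]
      exact (hv.algebraMap_aevalEquiv p).symm
  let e' : MvPolynomial ι K ≃ₐ[MvPolynomial ι K] Algebra.adjoin K (Set.range v) :=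
    { hv.aevalEquiv.toRingEquiv with commutes' := fun _ => rfl }
  have h1 : Algebra.FormallyEtale (MvPolynomial ι K) (Algebra.adjoin K (Set.range v)) :=
    Algebra.FormallyEtale.of_equiv e'
  have h2 : Algebra.FormallyEtale (Algebra.adjoin K (Set.range v)) F := formallyEtale_adjoin K F v
  have h3 : Algebra.FormallyEtale (MvPolynomial ι K) F :=
    Algebra.FormallyEtale.comp _ (Algebra.adjoin K (Set.range v)) _
  let E := KaehlerDifferential.tensorKaehlerEquivOfFormallyEtale K (MvPolynomial ι K) F
  let b := Algebra.TensorProduct.basis F (KaehlerDifferential.mvPolynomialBasis K ι)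
  rw [← E.finrank_eq, Module.finrank_eq_card_basis b]

/-- **(H0)** a curve in the sense of the Prelude, finitely generated over an algebraically closed
field of characteristic zero, has a transcendental generator `x` with `F` finite over `K⟮x⟯`. -/
theorem exists_isGen [IsAlgClosed K] [CharZero K] [IsCurveOver K F] [Algebra.EssFiniteType K F] :
    ∃ x : F, Fermat.Agent.X0.FF.IsGen K x := by
  classical
  obtain ⟨s, hs, hsep⟩ := exists_isTranscendenceBasis_and_isSeparable_of_perfectField K F
  have hsep' : Algebra.IsSeparable
      (↥(IntermediateField.adjoin K (Set.range ((↑) : s → F)))) F := by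
    convert! hsep <;> simp
  have hcard : s.card = 1 := by
    have h := finrank_kaehler_eq_card K F hs.1
    rw [IsCurveOver.finrank_kaehler, Fintype.card_coe] at h
    exact h.symm
  obtain ⟨x, rfl⟩ := Finset.card_eq_one.mp hcard
  have hx : Transcendental K x := by
    have h1 := hs.1
    have := h1.transcendental ⟨x, Finset.mem_singleton_self x⟩
    simpa using this
  refine ⟨x, hx, ?_⟩
  have halg : Algebra.IsAlgebraic K⟮x⟯ F := by
    have h2 := hs.isAlgebraic_field
    convert! h2 <;> simp
  have : Algebra.EssFiniteType K⟮x⟯ F := Algebra.EssFiniteType.of_comp K K⟮x⟯ F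
  exact Algebra.finite_of_essFiniteType_of_isAlgebraic

end Fermat.Agent.M27.EntryGen8
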