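/-
Programme M27 (target S27), chapter E, leaf (E0) (helper4): **regular differentials and the evaluation
matrix.**

`hx : IsGen ℂ x`, `g = genusFF ℂ F`.

* `Wx hx`                      : the canonical divisor `div (dx)`; `isRegular_smul_dx_iff`:
                                 `h • dx` is regular iff `h ∈ L(Wx)`;
* `isRegular_sum_smul`         : regular differentials are closed under `ℂ`-linear combinations;
* `exists_regular_basis`       : there are `g` linearly independent regular differentials;
* `eq_zero_of_vanish`          : if `P_1, …, P_g` are pairwise distinct with `l(P_1 + ⋯ + P_g) = 1`, a regular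
                                 differential vanishing at every `P_i` is zero (Riemann–Roch: `i(D₀) = 0`);
* `evalMatrix φ a ω`           : the matrix `(coeff_{φ_i} ω_j)^(a_i)`; under the same hypotheses on the points
                                 `P_i = φ_i.c (a_i)` it is invertible: `evalMatrix_mulVec_eq_zero`,
                                 `isUnit_evalMatrix`, `evalMatrix_rows_injective` (the shape of the inverse
                                 function theorem block: `∑ i, v i • row i = 0 → v = 0`);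
* `hasDerivAt_primVec`         : the derivative of the vector of chart primitives is the row of the
                                 evaluation matrix.

Imported by no statement.
-/
import Mathlib
import Fermat.Agent.M27.LamDefs2
import Fermat.Agent.M17.GenericRR2
import Fermat.Agent.S23.GaloisReg

set_option autoImplicit false
set_option linter.unusedSectionVars false
set_option linter.style.longLine false
set_option linter.unusedVariables false
set_option linter.style.haveILetI false

open AlgebraicCurve Metric Topology KaehlerDifferential Module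

noncomputable section

namespace Fermat.Agent.M27.EvalMatrix4

open Fermat.Agent.X0.FF Fermat.Agent.RR.LSpace Fermat.Agent.RR.Final Fermat.Agent.M15.DivDefs4
open Fermat.Agent.M27.Iface2 Fermat.Agent.M27.Prim2 Fermat.Agent.M17.GenericRR2
open Fermat.Agent.M15.ThirdKind0 (rrDataGen)

variable {F : Type*} [Field F] [Algebra ℂ F] {x : F}

/-! ### regular differentials -/

/-- the canonical divisor `div (dx)`. -/
def Wx (hx : IsGen ℂ x) : Divisor ℂ F := canDiv (rrDataGen hx) (D_ne_zero hx)

theorem Wx_apply (hx : IsGen ℂ x) (v : Place ℂ F) : Wx hx v = v.ordDifferential (D ℂ F x) := rfl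

theorem exists_eq_smul_dx (hx : IsGen ℂ x) (ω : Ω[F⁄ℂ]) : ∃ h : F, ω = h • D ℂ F x := by
  have hω : ω ∈ (⊤ : Submodule F Ω[F⁄ℂ]) := Submodule.mem_top
  rw [← (Fermat.Agent.X0.FFGenus.genusHyp hx).span_D_eq_top, Submodule.mem_span_singleton] at hω
  obtain ⟨g, hg⟩ := hω
  exact ⟨g, hg.symm⟩

/-- `h • dx` is regular iff `h ∈ L(div dx)`. -/
theorem isRegular_smul_dx_iff (hx : IsGen ℂ x) (h : F) :
    IsRegular (h • D ℂ F x) ↔ h ∈ riemannRochSpace (Wx hx) :=
  (Fermat.Agent.S23.GaloisReg.mem_riemannRochSpace_iff_regular hx (Wx hx) (Wx_apply hx) h).symm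

theorem isRegular_zero (hx : IsGen ℂ x) : IsRegular (0 : Ω[F⁄ℂ]) := by
  have := (isRegular_smul_dx_iff hx (0 : F)).mpr (Submodule.zero_mem _)
  rwa [zero_smul] at this

/-- regular differentials are closed under `ℂ`-linear combinations. -/
theorem isRegular_sum_smul (hx : IsGen ℂ x) {n : ℕ} (w : Fin n → ℂ) {ω : Fin n → Ω[F⁄ℂ]}
    (hω : ∀ j, IsRegular (ω j)) : IsRegular (∑ j, w j • ω j) := by
  choose h hh using fun j => exists_eq_smul_dx hx (ω j)
  have hL : ∀ j, h j ∈ riemannRochSpace (Wx hx) := fun j => by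
    rw [← isRegular_smul_dx_iff hx, ← hh j]
    exact hω j
  have hsum : ∑ j, w j • ω j = (∑ j, w j • h j) • D ℂ F x := by
    rw [Finset.sum_smul]
    refine Finset.sum_congr rfl fun j _ => ?_
    rw [hh j, smul_assoc]
  rw [hsum, isRegular_smul_dx_iff hx]
  exact Submodule.sum_mem _ fun j _ => Submodule.smul_mem _ _ (hL j)

/-- `h ↦ h • dx` as a `ℂ`-linear map on `L(div dx)`. -/
def toDiff (hx : IsGen ℂ x) : riemannRochSpace (Wx hx) →ₗ[ℂ] Ω[F⁄ℂ] :=
  ((LinearMap.toSpanSingleton F (Ω[F⁄ℂ]) (D ℂ F x)).restrictScalars ℂ).comp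
    (riemannRochSpace (Wx hx)).subtype

theorem toDiff_apply (hx : IsGen ℂ x) (h : riemannRochSpace (Wx hx)) :
    toDiff hx h = (h : F) • D ℂ F x := rfl

theorem toDiff_injective (hx : IsGen ℂ x) : Function.Injective (toDiff hx) := by
  intro h h' hhh
  rw [toDiff_apply, toDiff_apply] at hhh
  have h0 : ((h : F) - (h' : F)) • D ℂ F x = 0 := by rw [sub_smul, hhh, sub_self]
  rcases smul_eq_zero.mp h0 with h1 | h1
  · exact Subtype.ext (sub_eq_zero.mp h1)
  · exact absurd h1 (D_ne_zero hx)

/-- **a basis of the regular differentials**: `genusFF ℂ F` linearly independent regular differentials. -/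
theorem exists_regular_basis (hx : IsGen ℂ x) :
    ∃ ω : Fin (genusFF ℂ F) → Ω[F⁄ℂ], (∀ j, IsRegular (ω j)) ∧ LinearIndependent ℂ ω := by
  have hfin : finrank ℂ (riemannRochSpace (Wx hx)) = genusFF ℂ F :=
    finrank_L_canonical (rrDataGen hx) (D_ne_zero hx) (Wx_apply hx)
  haveI := finiteDimensional_L (rrDataGen hx).HL (Wx hx)
  let b := Module.finBasisOfFinrankEq ℂ (riemannRochSpace (Wx hx)) hfin
  refine ⟨fun j => toDiff hx (b j), fun j => ?_, ?_⟩
  · show IsRegular (toDiff hx (b j))
    rw [toDiff_apply, isRegular_smul_dx_iff hx]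
    exact (b j).2
  · exact b.linearIndependent.map' _ (LinearMap.ker_eq_bot.mpr (toDiff_injective hx))

/-! ### vanishing at `g` general points -/

theorem sumPts_apply_of_injective {n : ℕ} {P : Fin n → Place ℂ F} (hP : Function.Injective P)
    (i : Fin n) : sumPts P (P i) = 1 := by
  classical
  unfold sumPts
  rw [Finsupp.finsetSum_apply, Finset.sum_eq_single i]
  · simp
  · intro j _ hji
    rw [Finsupp.single_apply, if_neg]
    exact fun h => hji (hP h)
  · intro h
    exact absurd (Finset.mem_univ i) h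

theorem sumPts_apply_of_notMem {n : ℕ} {P : Fin n → Place ℂ F} {v : Place ℂ F}
    (hv : ∀ i, P i ≠ v) : sumPts P v = 0 := by
  classical
  unfold sumPts
  rw [Finsupp.finsetSum_apply]
  refine Finset.sum_eq_zero fun j _ => ?_
  rw [Finsupp.single_apply, if_neg (hv j)]

/-- **`i(D₀) = 0`**: if `P_1, …, P_g` are pairwise distinct and `l(P_1 + ⋯ + P_g) = 1`, a regular differential
vanishing at every `P_i` is zero. -/
theorem eq_zero_of_vanish (hx : IsGen ℂ x) {n : ℕ} (hn : n = genusFF ℂ F)
    {P : Fin n → Place ℂ F} (hP : Function.Injective P)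
    (h1 : finrank ℂ (riemannRochSpace (sumPts P)) = 1) {η : Ω[F⁄ℂ]} (hreg : IsRegular η)
    (hvan : ∀ i, 0 < (P i).ordDifferential η) : η = 0 := by
  by_contra hη
  obtain ⟨h, rfl⟩ := exists_eq_smul_dx hx η
  have hh0 : h ≠ 0 := by
    rintro rfl
    exact hη (zero_smul _ _)
  have hmem : h ∈ riemannRochSpace (Wx hx - sumPts P) := by
    rw [mem_L_iff hh0]
    intro v
    have e := (rrDataGen hx).HD.ordDifferential_smul v h hh0 _ (D_ne_zero hx)
    rw [Finsupp.sub_apply, Wx_apply]
    by_cases hv : ∃ i, P i = v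
    · obtain ⟨i, rfl⟩ := hv
      have h2 := hvan i
      rw [e] at h2
      rw [sumPts_apply_of_injective hP i]
      omega
    · push Not at hv
      have h2 := hreg v
      rw [e] at h2
      rw [sumPts_apply_of_notMem hv]
      omega
  have hRR := riemann_roch (rrDataGen hx) (D_ne_zero hx) (Wx_apply hx) (sumPts P)
  rw [h1, degree_sumPts (rrDataGen hx).HL, ← hn] at hRR
  have h0 : finrank ℂ (riemannRochSpace (Wx hx - sumPts P)) = 0 := by
    have : ((finrank ℂ (riemannRochSpace (Wx hx - sumPts P)) : ℕ) : ℤ) = 0 := by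
      push_cast at hRR
      linarith
    exact_mod_cast this
  haveI := finiteDimensional_L (rrDataGen hx).HL (Wx hx - sumPts P)
  have hbot : riemannRochSpace (Wx hx - sumPts P) = ⊥ := Submodule.finrank_eq_zero.mp h0
  rw [hbot, Submodule.mem_bot] at hmem
  exact hh0 hmem

/-! ### the evaluation matrix -/

variable {H : LHyp ℂ F} [TopologicalSpace (Place ℂ F)]

/-- the value of a `ℂ`-linear combination of functions regular at `P`. -/
theorem valAt_sum_smul (P : Place ℂ F) {n : ℕ} (w : Fin n → ℂ) (f : Fin n → F)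
    (hf : ∀ j, f j ∈ P.toValuationSubring) :
    valAt H P (∑ j, w j • f j) = ∑ j, w j * valAt H P (f j) := by
  classical
  have key : ∀ s : Finset (Fin n), (∑ j ∈ s, w j • f j) ∈ P.toValuationSubring ∧
      valAt H P (∑ j ∈ s, w j • f j) = ∑ j ∈ s, w j * valAt H P (f j) := by
    intro s
    induction s using Finset.induction_on with
    | empty =>
      refine ⟨by simp, ?_⟩
      simp only [Finset.sum_empty]
      have := valAt_algebraMap H P (0 : ℂ)
      rwa [map_zero] at this
    | insert a s has ih =>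
      have hmem : w a • f a ∈ P.toValuationSubring := by
        rw [Algebra.smul_def]
        exact mul_mem (P.algebraMap_mem' _) (hf a)
      rw [Finset.sum_insert has, Finset.sum_insert has]
      refine ⟨add_mem hmem ih.1, ?_⟩
      rw [valAt_add H P hmem ih.1, ih.2, Algebra.smul_def,
        valAt_mul H P (P.algebraMap_mem' _) (hf a), valAt_algebraMap]
  exact (key Finset.univ).2

/-- **the evaluation matrix** `((coeff_{φ_i} ω_j)^ (a_i))_{i j}`. -/
def evalMatrix {n m : ℕ} (φ : Fin n → Chart H) (a : Fin n → ℂ) (ω : Fin m → Ω[F⁄ℂ]) :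
    Matrix (Fin n) (Fin m) ℂ :=
  Matrix.of fun i j => (φ i).hat ((φ i).coeff (ω j)) (a i)

theorem evalMatrix_apply {n m : ℕ} (φ : Fin n → Chart H) (a : Fin n → ℂ) (ω : Fin m → Ω[F⁄ℂ])
    (i : Fin n) (j : Fin m) :
    evalMatrix φ a ω i j = valAt H ((φ i).c (a i)) ((φ i).coeff (ω j)) := rfl

/-- the coefficient of a linear combination. -/
theorem coeff_sum_smul (hx : IsGen ℂ x) (φ : Chart H) {m : ℕ} (w : Fin m → ℂ) (ω : Fin m → Ω[F⁄ℂ]) :
    φ.coeff (∑ j, w j • ω j) = ∑ j, w j • φ.coeff (ω j) := by
  apply φ.coeff_unique hx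
  rw [Finset.sum_smul]
  refine Finset.sum_congr rfl fun j _ => ?_
  rw [smul_assoc, ← φ.coeff_smul hx (ω j)]

/-- **the kernel of the evaluation matrix is trivial.** -/
theorem evalMatrix_mulVec_eq_zero (hx : IsGen ℂ x) {g : ℕ} (hg : g = genusFF ℂ F)
    (φ : Fin g → Chart H) (a : Fin g → ℂ) (ha : ∀ i, a i ∈ ball (0 : ℂ) (φ i).r)
    (hinj : Function.Injective fun i => (φ i).c (a i))
    (h1 : finrank ℂ (riemannRochSpace (sumPts fun i => (φ i).c (a i))) = 1)
    (ω : Fin g → Ω[F⁄ℂ]) (hω : ∀ j, IsRegular (ω j)) (hli : LinearIndependent ℂ ω)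
    (w : Fin g → ℂ) (hw : (evalMatrix φ a ω).mulVec w = 0) : w = 0 := by
  set η : Ω[F⁄ℂ] := ∑ j, w j • ω j with hη
  have hreg : IsRegular η := isRegular_sum_smul hx w hω
  have hzero : η = 0 := by
    by_contra hne
    refine hne (eq_zero_of_vanish hx hg hinj h1 hreg fun i => ?_)
    show 0 < ((φ i).c (a i)).ordDifferential η
    rw [(φ i).ordDifferential_eq_ord_coeff hx hne (ha i)]
    have hmem : ∀ j, (φ i).coeff (ω j) ∈ ((φ i).c (a i)).toValuationSubring := fun j =>
      ffp_mem_of_ord_nonneg _ ((φ i).ord_coeff_nonneg hx (hω j) (ha i))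
    have hval : valAt H ((φ i).c (a i)) ((φ i).coeff η) = 0 := by
      rw [hη, coeff_sum_smul hx, valAt_sum_smul _ w _ hmem]
      have := congrFun hw i
      simp only [Matrix.mulVec, dotProduct, Pi.zero_apply] at this
      rw [← this]
      refine Finset.sum_congr rfl fun j _ => ?_
      rw [evalMatrix_apply, mul_comm]
    have hcmem : (φ i).coeff η ∈ ((φ i).c (a i)).toValuationSubring := by
      rw [hη, coeff_sum_smul hx]
      refine Subring.sum_mem _ fun j _ => ?_
      rw [Algebra.smul_def]
      exact mul_mem (((φ i).c (a i)).algebraMap_mem' _) (hmem j)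
    rcases (valAt_eq_zero_iff H _ hcmem).mp hval with h0 | h0
    · exact absurd h0 ((φ i).coeff_ne_zero hx hne)
    · exact h0
  funext j
  exact Fintype.linearIndependent_iff.mp hli w hzero j

/-- **the evaluation matrix at `g` general points is invertible.** -/
theorem isUnit_evalMatrix (hx : IsGen ℂ x) {g : ℕ} (hg : g = genusFF ℂ F)
    (φ : Fin g → Chart H) (a : Fin g → ℂ) (ha : ∀ i, a i ∈ ball (0 : ℂ) (φ i).r)
    (hinj : Function.Injective fun i => (φ i).c (a i))
    (h1 : finrank ℂ (riemannRochSpace (sumPts fun i => (φ i).c (a i))) = 1)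
    (ω : Fin g → Ω[F⁄ℂ]) (hω : ∀ j, IsRegular (ω j)) (hli : LinearIndependent ℂ ω) :
    IsUnit (evalMatrix φ a ω) := by
  rw [← Matrix.mulVec_injective_iff_isUnit]
  intro w w' hww
  have h0 : (evalMatrix φ a ω).mulVec (w - w') = 0 := by
    rw [Matrix.mulVec_sub, hww, sub_self]
  exact sub_eq_zero.mp (evalMatrix_mulVec_eq_zero hx hg φ a ha hinj h1 ω hω hli _ h0)

/-- **the rows of the evaluation matrix are linearly independent** (the hypothesis of the inverse function
theorem for the Abel sum). -/
theorem evalMatrix_rows_injective (hx : IsGen ℂ x) {g : ℕ} (hg : g = genusFF ℂ F)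
    (φ : Fin g → Chart H) (a : Fin g → ℂ) (ha : ∀ i, a i ∈ ball (0 : ℂ) (φ i).r)
    (hinj : Function.Injective fun i => (φ i).c (a i))
    (h1 : finrank ℂ (riemannRochSpace (sumPts fun i => (φ i).c (a i))) = 1)
    (ω : Fin g → Ω[F⁄ℂ]) (hω : ∀ j, IsRegular (ω j)) (hli : LinearIndependent ℂ ω)
    (v : Fin g → ℂ)
    (hv : ∑ i, v i • (fun j => (φ i).hat ((φ i).coeff (ω j)) (a i)) = 0) : v = 0 := by
  have hU := isUnit_evalMatrix hx hg φ a ha hinj h1 ω hω hli
  have hinj' := Matrix.vecMul_injective_iff_isUnit.mpr hU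
  apply hinj'
  show Matrix.vecMul v (evalMatrix φ a ω) = Matrix.vecMul 0 (evalMatrix φ a ω)
  rw [Matrix.zero_vecMul]
  funext j
  have := congrFun hv j
  simp only [Finset.sum_apply, Pi.smul_apply, smul_eq_mul, Pi.zero_apply] at this
  simp only [Matrix.vecMul, dotProduct, Pi.zero_apply]
  rw [← this]
  rfl

/-! ### the derivative of the vector of chart primitives -/

open Fermat.Agent.M27.LamDefs2 in
/-- the derivative of `primVec` is the row of the evaluation matrix. -/
theorem hasDerivAt_primVec (hx : IsGen ℂ x) {ι : Type*} (𝔄 : ι → Chart H) {g : ℕ}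
    (ω : Fin g → Ω[F⁄ℂ]) (hω : ∀ j, IsRegular (ω j)) (α : ι) {b : ℂ}
    (hb : b ∈ ball (0 : ℂ) (𝔄 α).r) :
    HasDerivAt (fun b => primVec 𝔄 ω α b)
      (fun j => (𝔄 α).hat ((𝔄 α).coeff (ω j)) b) b := by
  rw [hasDerivAt_pi]
  intro j
  exact (𝔄 α).hasDerivAt_prim hx (hω j) hb

end Fermat.Agent.M27.EvalMatrix4
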