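/-
M27 (target S27), leaf (GEN) (helper1): **a function field in the sense of the Prelude has a separating
transcendental generator.**

The generic libraries of the tree (`RR/*`, `X0/FF*`, `ES/RED/PlacePIR27`, `J/DESC`) take a generator
`hx : FF.IsGen K x` (`x` transcendental over `K`, `F / K(x)` finite) as hypothesis.  The frozen statement
S27 only gives `[IsCurveOver K F] [Algebra.EssFiniteType K F] [CharZero K]`.  This file bridges the two:

* `D_eq_zero_of_isAlgebraic` : in characteristic `0` the universal derivation kills the elements of `F`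
  algebraic over `K`;
* `exists_D_ne_zero` : if `Ω[F⁄K] ≠ 0` some `D x ≠ 0`;
* `isGen_of_D_ne_zero` : if `Ω[F⁄K]` has rank one over `F`, `F / K` is essentially of finite type and
  `char K = 0`, every `x` with `D x ≠ 0` is a generator (`Ω[F⁄K(x)] = 0`, so `F / K(x)` is formally
  unramified, hence separable algebraic, hence finite);
* `exists_isGen`, `exists_isGen_of_isCurveOver`, and the separability instance `isSeparable_of_isGen`
  (input `hsep` of `PlacePIR27`).

Mathlib only.  Imported by no statement.
-/
import Mathlib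
import Fermat.Prelude.Def_AlgebraicCurve_IsCurveOver
import Fermat.Agent.X0.FFDefs

set_option autoImplicit false

open KaehlerDifferential IntermediateField AlgebraicCurve Polynomial

noncomputable section

namespace Fermat.Agent.M27.ExistsGen1

open Fermat.Agent.X0

variable {K F : Type*} [Field K] [Field F] [Algebra K F]

/-- In characteristic `0` the universal derivation kills the algebraic elements. -/
theorem D_eq_zero_of_isAlgebraic [CharZero K] {x : F} (hx : IsAlgebraic K x) : D K F x = 0 := by
  have hint : IsIntegral K x := hx.isIntegral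
  have hsep : (minpoly K x).Separable := (minpoly.irreducible hint).separable
  have h0 : aeval x (minpoly K x) = 0 := minpoly.aeval K x
  have h1 : aeval x (derivative (minpoly K x)) ≠ 0 := hsep.aeval_derivative_ne_zero h0
  have h2 : D K F (aeval x (minpoly K x)) = aeval x (derivative (minpoly K x)) • D K F x :=
    Derivation.map_aeval (D K F) (minpoly K x) x
  rw [h0, map_zero] at h2
  exact (smul_eq_zero.mp h2.symm).resolve_left h1

/-- If `Ω[F⁄K]` is nontrivial, some `D x` is nonzero. -/
theorem exists_D_ne_zero [Nontrivial Ω[F⁄K]] : ∃ x : F, D K F x ≠ 0 := by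
  by_contra h
  simp only [not_exists, not_not] at h
  have hspan : Submodule.span F (Set.range (D K F)) = ⊤ := span_range_derivation K F
  have hle : Submodule.span F (Set.range (D K F)) ≤ ⊥ := by
    rw [Submodule.span_le]
    rintro _ ⟨x, rfl⟩
    exact h x
  rw [hspan, top_le_iff] at hle
  obtain ⟨a, b, hab⟩ := exists_pair_ne Ω[F⁄K]
  have ha : a ∈ (⊥ : Submodule F Ω[F⁄K]) := hle ▸ Submodule.mem_top
  have hb : b ∈ (⊥ : Submodule F Ω[F⁄K]) := hle ▸ Submodule.mem_top
  rw [Submodule.mem_bot] at ha hb
  exact hab (ha.trans hb.symm)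

/-- **Every `x` with `D x ≠ 0` is a separating transcendental generator.** -/
theorem isGen_of_D_ne_zero [CharZero K] [Algebra.EssFiniteType K F]
    (hrank : Module.finrank F Ω[F⁄K] = 1) {x : F} (hx : D K F x ≠ 0) : FF.IsGen K x := by
  -- `Ω[F⁄K(x)] = 0`
  have hsub : Subsingleton Ω[F⁄K⟮x⟯] := by
    have hsurj : Function.Surjective (KaehlerDifferential.map K K⟮x⟯ F F) :=
      KaehlerDifferential.map_surjective K K⟮x⟯ F
    have hv : KaehlerDifferential.map K K⟮x⟯ F F (D K F x) = 0 := by
      rw [KaehlerDifferential.map_D]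
      have : (algebraMap F F x : F) = algebraMap K⟮x⟯ F ⟨x, mem_adjoin_simple_self K x⟩ := rfl
      rw [this]
      exact (D K⟮x⟯ F).map_algebraMap _
    refine ⟨fun a b => ?_⟩
    obtain ⟨a', rfl⟩ := hsurj a
    obtain ⟨b', rfl⟩ := hsurj b
    obtain ⟨ca, rfl⟩ := (finrank_eq_one_iff_of_nonzero' (D K F x) hx).mp hrank a'
    obtain ⟨cb, rfl⟩ := (finrank_eq_one_iff_of_nonzero' (D K F x) hx).mp hrank b'
    rw [map_smul, map_smul, hv, smul_zero, smul_zero]
  have hunr : Algebra.FormallyUnramified K⟮x⟯ F := ⟨hsub⟩
  have hess : Algebra.EssFiniteType K⟮x⟯ F := Algebra.EssFiniteType.of_comp K K⟮x⟯ F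
  have hsep : Algebra.IsSeparable K⟮x⟯ F := Algebra.FormallyUnramified.isSeparable K⟮x⟯ F
  have halg : Algebra.IsAlgebraic K⟮x⟯ F := Algebra.IsSeparable.isAlgebraic K⟮x⟯ F
  refine ⟨fun halgx => hx (D_eq_zero_of_isAlgebraic halgx), ?_⟩
  exact Algebra.finite_of_essFiniteType_of_isAlgebraic

/-- **(GEN)**: existence of a generator. -/
theorem exists_isGen [CharZero K] [Algebra.EssFiniteType K F]
    (hrank : Module.finrank F Ω[F⁄K] = 1) : ∃ x : F, FF.IsGen K x := by
  have : Nontrivial Ω[F⁄K] := Module.nontrivial_of_finrank_eq_succ (n := 0) hrank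
  obtain ⟨x, hx⟩ := exists_D_ne_zero (K := K) (F := F)
  exact ⟨x, isGen_of_D_ne_zero hrank hx⟩

/-- **(GEN)** in the literal hypotheses of S27. -/
theorem exists_isGen_of_isCurveOver [CharZero K] [IsCurveOver K F] [Algebra.EssFiniteType K F] :
    ∃ x : F, FF.IsGen K x :=
  exists_isGen IsCurveOver.finrank_kaehler

/-- In characteristic `0`, `F / K(x)` is separable for every generator `x` (input `hsep` of
`ES/RED/PlacePIR27`). -/
theorem isSeparable_of_isGen [CharZero K] {x : F} (hx : FF.IsGen K x) :
    Algebra.IsSeparable K⟮x⟯ F := by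
  have := hx.finite
  have : CharZero K⟮x⟯ := charZero_of_injective_algebraMap (algebraMap K K⟮x⟯).injective
  infer_instance

end Fermat.Agent.M27.ExistsGen1
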