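/-
Programme M27 (S27), chapter G (Lefschetz), leaf (G2) = FIELD OF DEFINITION (helper3).

`F / K` a function field (`K` algebraically closed of characteristic 0, `hX : IsGen K X`), embedded
into `K((t))` by `φ : F →ₐ[K] LaurentSeries K`.  For a field `k` with `[Algebra k K]`:

* `Edef k φ : IntermediateField k (LaurentSeries k)` — the FULL PREIMAGE of `φ F` under the
  coefficientwise map `k((t)) → K((t))` (the `k`-rational functions);
* `EK_Edef_eq` : if `k` contains the Laurent coefficients of a generating set of `F / K`, then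
  `LaurentBC3.EK K (Edef k φ) = φ.fieldRange`, hence `psi : F ≃ₐ[K] ↥(EK K (Edef k φ))`;
* `iotaDef : ↥(Edef k φ) →+* F`, `isConstExt_iotaDef`, `rhoDef : (K ≃ₐ[k] K) →* SemilinearAut K F`
  with hbase / hfix / hinv, `mem_range_iotaDef` (`f ∈ range ι` iff all coefficients of `φ f` lie in
  `k`);
* `exists_countable_algClosed` : a countable algebraically closed subfield of `K` containing a given
  countable set;
* `exists_fieldOfDef_of` : the packaged statement (G2), modulo the genus invariance in the Laurent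
  model.
-/
import Mathlib
import Fermat.Agent.M27.LaurentBC3
import Fermat.Agent.M27.LaurentEmb3
import Fermat.Agent.M27.ConstExtIso3
import Fermat.Agent.M27.Transport3
import Fermat.Agent.M27.IsGenMap0
import Fermat.Agent.X0.FFConst
import Fermat.Agent.RR.LHypGen

set_option autoImplicit false
set_option linter.unusedSectionVars false
set_option linter.style.longLine false

namespace Fermat.Agent.M27.FieldDef3

open AlgebraicCurve Fermat.Agent.X0 Fermat.Agent.J.DESC.ConstExt24 ModularCurve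
open Fermat.Agent.M27.LaurentBC3 Fermat.Agent.M27.LaurentEmb3 Fermat.Agent.M27.ConstExtIso3

noncomputable section

universe u v

variable {K : Type u} {F : Type v} [Field K] [Field F] [Algebra K F]

section Generic

variable (k : Type u) [Field k] [Algebra k K] (φ : F →ₐ[K] LaurentSeries K)

/-- **The `k`-rational functions**: the full preimage of `φ F` in `k((t))`. -/
def Edef : IntermediateField k (LaurentSeries k) :=
  Subfield.toIntermediateField
    ((φ.fieldRange.toSubfield).comap (bcS (k := k) (K := K))) fun c => by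
      show bcS (K := K) (algebraMap k (LaurentSeries k) c) ∈ φ.fieldRange
      rw [bcS_algebraMap]
      exact φ.fieldRange.algebraMap_mem _

variable {k φ}

theorem mem_Edef {y : LaurentSeries k} : y ∈ Edef k φ ↔ bcS (K := K) y ∈ φ.fieldRange := Iff.rfl

theorem EK_Edef_le : EK K (Edef k φ) ≤ φ.fieldRange := by
  rw [EK, IntermediateField.adjoin_le_iff]
  rintro _ ⟨y, hy, rfl⟩
  exact mem_Edef.mp hy

/-- Series in `φ F` with coefficients in `k` belong to `EK K (Edef k φ)`. -/
theorem mem_EK_of_coeff {f : F}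
    (hf : ∀ n, (φ f).coeff n ∈ Set.range (algebraMap k K)) : φ f ∈ EK K (Edef k φ) := by
  obtain ⟨y₀, hy₀⟩ := exists_bcS_eq hf
  rw [← hy₀]
  exact bcS_mem (Edef k φ) (mem_Edef.mpr (by rw [hy₀]; exact ⟨f, rfl⟩))

/-- **If `k` contains the coefficients of a generating set, `EK K (Edef k φ) = φ F`.** -/
theorem EK_Edef_eq (Y : Set F) (hY : IntermediateField.adjoin K Y = ⊤)
    (hcoef : ∀ f ∈ Y, ∀ n, (φ f).coeff n ∈ Set.range (algebraMap k K)) :
    EK K (Edef k φ) = φ.fieldRange := by
  apply le_antisymm EK_Edef_le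
  rw [AlgHom.fieldRange_eq_map, ← hY, IntermediateField.adjoin_map,
    IntermediateField.adjoin_le_iff]
  rintro _ ⟨f, hf, rfl⟩
  exact mem_EK_of_coeff (hcoef f hf)

variable (heq : EK K (Edef k φ) = φ.fieldRange)

/-- `F ≃ₐ[K] EK K (Edef k φ)`. -/
def psi : F ≃ₐ[K] ↥(EK K (Edef k φ)) :=
  (AlgEquiv.ofInjectiveField φ).trans (IntermediateField.equivOfEq heq.symm)

theorem coe_psi (f : F) : ((psi heq f : ↥(EK K (Edef k φ))) : LaurentSeries K) = φ f := rfl

/-- **The inclusion of the `k`-rational functions.** -/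
def iotaDef : ↥(Edef k φ) →+* F :=
  ((psi heq).symm : ↥(EK K (Edef k φ)) →+* F).comp (bc (K := K) (Edef k φ))

theorem iotaDef_apply (y : ↥(Edef k φ)) :
    iotaDef heq y = (psi heq).symm (bc (K := K) (Edef k φ) y) := rfl

theorem phi_iotaDef (y : ↥(Edef k φ)) : φ (iotaDef heq y) = bcS (K := K) (y : LaurentSeries k) := by
  rw [← coe_psi heq, iotaDef_apply, AlgEquiv.apply_symm_apply, coe_bc]

theorem isConstExt_iotaDef : IsConstExt (k := k) (K := K) (iotaDef heq) :=
  isConstExt_algEquiv_comp (isConstExt_bc (K := K) (Edef k φ)) (psi heq).symm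

/-- `f` is `k`-rational iff all Laurent coefficients of `φ f` lie in `k`. -/
theorem mem_range_iotaDef {f : F} :
    f ∈ Set.range (iotaDef heq) ↔ ∀ n, (φ f).coeff n ∈ Set.range (algebraMap k K) := by
  constructor
  · rintro ⟨y, rfl⟩ n
    rw [phi_iotaDef]
    exact ⟨(y : LaurentSeries k).coeff n, (coeff_bcS _ n).symm⟩
  · intro h
    obtain ⟨y₀, hy₀⟩ := exists_bcS_eq h
    have hmem : y₀ ∈ Edef k φ := mem_Edef.mpr (by rw [hy₀]; exact ⟨f, rfl⟩)
    refine ⟨⟨y₀, hmem⟩, ?_⟩
    apply φ.toRingHom.injective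
    show φ (iotaDef heq ⟨y₀, hmem⟩) = φ f
    rw [phi_iotaDef, hy₀]

/-- The semilinear action of `Aut(K/k)` on `F`. -/
def rhoDef : (K ≃ₐ[k] K) →* SemilinearAut K F :=
  (conjAut (psi heq).symm).comp (rho (Edef k φ))

theorem baseAut_rhoDef (σ : K ≃ₐ[k] K) (c : K) :
    SemilinearAut.baseAut (rhoDef heq σ) c = σ c := rfl

theorem rhoDef_smul_iotaDef (σ : K ≃ₐ[k] K) (y : ↥(Edef k φ)) :
    rhoDef heq σ • iotaDef heq y = iotaDef heq y := by
  show conjAut (psi heq).symm (rho (Edef k φ) σ) • (psi heq).symm (bc (K := K) (Edef k φ) y) = _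
  rw [conjAut_smul, rho_smul_bc]
  rfl

theorem mem_range_iotaDef_of_fixed [IsAlgClosed k] [IsAlgClosed K] (h : F)
    (hfix : ∀ σ : K ≃ₐ[k] K, rhoDef heq σ • h = h) : h ∈ Set.range (iotaDef heq) := by
  have h1 : ∀ σ : K ≃ₐ[k] K, rho (Edef k φ) σ • psi heq h = psi heq h := by
    intro σ
    have h2 : (psi heq).symm (rho (Edef k φ) σ • psi heq h) = h := hfix σ
    have h3 := congrArg (psi heq) h2
    rwa [AlgEquiv.apply_symm_apply] at h3
  obtain ⟨y, hy⟩ := mem_range_bc_of_fixed (Edef k φ) (psi heq h) h1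
  exact ⟨y, by rw [iotaDef_apply, hy, AlgEquiv.symm_apply_apply]⟩

end Generic

open Cardinal in
/-- **A countable algebraically closed subfield containing a given countable set.** -/
theorem exists_countable_algClosed [IsAlgClosed K] [CharZero K] (C : Set K) (hC : C.Countable) :
    ∃ (k : Type u) (_ : Field k) (_ : Algebra k K) (_ : IsAlgClosed k) (_ : CharZero k)
      (_ : Countable k), C ⊆ Set.range (algebraMap k K) := by
  let k₁ : Subfield K := Subfield.closure C
  let k₂ : IntermediateField ↥k₁ K := algebraicClosure ↥k₁ K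
  have hcl : IsAlgClosure ↥k₁ ↥k₂ := algebraicClosure.isAlgClosure ↥k₁ K
  have hk₁ : #↥k₁ ≤ ℵ₀ := by
    refine (Subfield.cardinalMk_closure_le_max C).trans (max_le ?_ le_rfl)
    exact Cardinal.mk_le_aleph0_iff.mpr hC.to_subtype
  have halg : Algebra.IsAlgebraic ↥k₁ ↥k₂ := hcl.isAlgebraic
  have hk₂ : #↥k₂ ≤ ℵ₀ :=
    (Algebra.IsAlgebraic.cardinalMk_le_max ↥k₁ ↥k₂).trans (max_le hk₁ le_rfl)
  refine ⟨↥k₂, inferInstance, inferInstance, hcl.isAlgClosed,
    (algebraMap ↥k₂ K).charZero,
    Cardinal.mk_le_aleph0_iff.mp hk₂, ?_⟩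
  intro c hc
  have h1 : c ∈ k₁ := Subfield.subset_closure hc
  have h2 : algebraMap ↥k₁ K ⟨c, h1⟩ ∈ k₂ := k₂.algebraMap_mem _
  exact ⟨⟨c, h2⟩, rfl⟩

/-- **(G2)**: the packaged statement, modulo the genus invariance in the Laurent model. -/
theorem exists_fieldOfDef_of [IsAlgClosed K] [CharZero K] {X : F} (hX : FF.IsGen K X)
    (S : Finset F)
    (hgenus : ∀ (k : Type u) [Field k] [Algebra k K] [IsAlgClosed k] [CharZero k]
      (E : IntermediateField k (LaurentSeries k)) (y : ↥E), FF.IsGen k y →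
      genusFF K ↥(EK K E) = genusFF k ↥E) :
    ∃ (k : Type u) (_ : Field k) (_ : Algebra k K) (_ : IsAlgClosed k) (_ : CharZero k)
      (_ : Countable k) (Fk : Type u) (_ : Field Fk) (_ : Algebra k Fk) (ι : Fk →+* F)
      (_ : IsConstExt (k := k) (K := K) ι) (x : Fk) (_ : FF.IsGen k x)
      (G : Type u) (_ : Group G) (ρ : G →* SemilinearAut K F),
      ι x = X ∧ (∀ g f, ρ g • ι f = ι f) ∧ (∀ h : F, (∀ g, ρ g • h = h) → h ∈ Set.range ι) ∧
      genusFF K F = genusFF k Fk ∧ ∀ s ∈ S, s ∈ Set.range ι := by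
  classical
  -- the Laurent embedding
  let v : Place K F := Classical.choice (Fermat.Agent.RR.LHypGen.nonempty_place hX)
  let φ : F →ₐ[K] LaurentSeries K := emb hX v
  -- a finite generating set
  have : Algebra.EssFiniteType K F := FF.IsGen.essFiniteType hX
  obtain ⟨Y, hY⟩ := IntermediateField.fg_top K F
  -- the coefficients
  let T : Finset F := Y ∪ S ∪ {X}
  let C : Set K := ⋃ f ∈ (T : Set F), Set.range fun n : ℤ => (φ f).coeff n
  have hC : C.Countable :=
    Set.Countable.biUnion T.countable_toSet fun _ _ => Set.countable_range _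
  obtain ⟨k, hk1, hk2, hk3, hk4, hk5, hCk⟩ := exists_countable_algClosed C hC
  have hcoefT : ∀ f ∈ T, ∀ n, (φ f).coeff n ∈ Set.range (algebraMap k K) := by
    intro f hf n
    apply hCk
    exact Set.mem_biUnion (Finset.mem_coe.mpr hf) ⟨n, rfl⟩
  have heq : EK K (Edef k φ) = φ.fieldRange :=
    EK_Edef_eq (Y : Set F) hY fun f hf n =>
      hcoefT f (Finset.mem_union_left _ (Finset.mem_union_left _ (Finset.mem_coe.mp hf))) n
  have hXT : X ∈ T := Finset.mem_union_right _ (Finset.mem_singleton_self X)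
  obtain ⟨x, hx⟩ := (mem_range_iotaDef heq).mpr (hcoefT X hXT)
  have hι := isConstExt_iotaDef heq
  have hxgen : FF.IsGen k x :=
    Fermat.Agent.M27.IsGenMap0.isGen_of_map0 hι (by rw [hx]; exact hX)
  refine ⟨k, hk1, hk2, hk3, hk4, hk5, ↥(Edef k φ), inferInstance, inferInstance, iotaDef heq, hι,
    x, hxgen, K ≃ₐ[k] K, inferInstance, rhoDef heq, hx, rhoDef_smul_iotaDef heq,
    mem_range_iotaDef_of_fixed heq, ?_, ?_⟩
  · rw [← hgenus k (Edef k φ) x hxgen]
    exact Fermat.Agent.M27.Transport3.genusFF_eq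
      (Fermat.Agent.M27.Transport3.compat_algEquiv (psi heq))
  · intro s hs
    exact (mem_range_iotaDef heq).mpr
      (hcoefT s (Finset.mem_union_left _ (Finset.mem_union_right _ hs)))

end

end Fermat.Agent.M27.FieldDef3
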