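/-
Programme M27 (target S27), chapter G (Lefschetz), leaf (GENUS) (helper5): **the genus does not change
under a constant field extension** which carries "coefficient functionals".

Setting of `J/DESC/ExtPic22`: `k ⊆ K` algebraically closed of characteristic `0`, `ι : Fk →+* FK`,
`hι : IsConstExt ι`, `hx : IsGen k x`, `hX : IsGen K X`, a group acting semilinearly on `FK`
(`ρ : G →* SemilinearAut K FK`) fixing `ι Fk` (`hfix`) with invariants `ι Fk` (`hinv`), and a family of
`K`-linear functionals `c i : FK → K` separating the points of `FK`, equivariant: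
`c i (ρ g • y) = baseAut (ρ g) (c i y)` (in the Laurent model of `M27/LaurentBC3`: the coefficients).

* `exists_pivots`          : pivot positions and a reduced basis of a finite dimensional subspace;
* `finrank_L_le_extDiv`    : `l(D) ≤ l(extDiv D)`   (from (LD) alone);
* `finrank_L_extDiv_le`    : `l(extDiv D) ≤ l(D)`   (reduced basis is fixed, hence comes from `Fk`);
* `genusFF_eq_of_coeff`    : `genusFF K FK = genusFF k Fk`;
* **`genusFF_EK`**         : the Laurent model: `genusFF K ↥(EK K E) = genusFF k ↥E`.
-/
import Mathlib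
import Fermat.Agent.J.DESC.ExtPic22
import Fermat.Agent.M15.ThirdKind0
import Fermat.Agent.M27.LaurentBC3
import Fermat.Agent.M27.IsGenMap0

set_option autoImplicit false
set_option linter.unusedSectionVars false
set_option linter.unusedVariables false
set_option linter.style.longLine false

noncomputable section

namespace Fermat.Agent.M27.GenusBC5

open AlgebraicCurve Fermat.Agent.X0 Fermat.Agent.J.DESC.ConstExt24 Fermat.Agent.J.DESC.ExtPic22
  Fermat.Agent.J.DESC.FiniteOrbit22
open Fermat.Agent.RR.LSpace Fermat.Agent.RR.LHypGen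

/-! ### pivots -/

/-- **pivot positions and a reduced basis**: a finite dimensional subspace `V` of a space `M` with a
separating family of functionals `c i` has positions `n 1, …, n r` and vectors `v 1, …, v r ∈ V` with
`c (n i) (v j) = δ_ij`, such that an element of `V` vanishing at all the positions is `0`. -/
theorem exists_pivots {K M I : Type*} [Field K] [AddCommGroup M] [Module K M]
    (c : I → M →ₗ[K] K) (hsep : ∀ m : M, (∀ i, c i m = 0) → m = 0)
    (V : Submodule K M) [FiniteDimensional K V] :
    ∃ (r : ℕ) (n : Fin r → I) (v : Fin r → M), (∀ j, v j ∈ V) ∧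
      (∀ i j, c (n i) (v j) = if i = j then 1 else 0) ∧
      ∀ u ∈ V, (∀ i, c (n i) u = 0) → u = 0 := by
  induction' h : Module.finrank K V using Nat.strong_induction_on with d ih generalizing V
  by_cases hV : V = ⊥
  · subst hV
    exact ⟨0, Fin.elim0, Fin.elim0, fun j => j.elim0, fun i => i.elim0,
      fun u hu _ => (Submodule.mem_bot K).mp hu⟩
  · obtain ⟨u, huV, hu0⟩ := (Submodule.ne_bot_iff V).mp hV
    obtain ⟨p, hp⟩ : ∃ p, c p u ≠ 0 := by
      by_contra hcon
      push Not at hcon
      exact hu0 (hsep u hcon)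
    set V' : Submodule K M := V ⊓ LinearMap.ker (c p) with hV'
    have hlt : V' < V := by
      refine lt_of_le_of_ne inf_le_left fun heq => hp ?_
      have : u ∈ V' := heq ▸ huV
      exact this.2
    haveI : FiniteDimensional K V' := Submodule.finiteDimensional_of_le inf_le_left
    have hfin := Submodule.finrank_lt_finrank_of_lt hlt
    obtain ⟨r, n', v', hv'V, hpiv, hinj⟩ := ih _ (h ▸ hfin) V' rfl
    have hv'p : ∀ j, c p (v' j) = 0 := fun j => (hv'V j).2
    set w : M := (c p u)⁻¹ • u - ∑ l, ((c p u)⁻¹ * c (n' l) u) • v' l with hw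
    have hwV : w ∈ V := by
      refine sub_mem (V.smul_mem _ huV) (Submodule.sum_mem _ fun l _ => V.smul_mem _ (hv'V l).1)
    have hwp : c p w = 1 := by
      rw [hw, map_sub, map_smul, map_sum, smul_eq_mul, inv_mul_cancel₀ hp]
      simp [hv'p]
    have hwn : ∀ i, c (n' i) w = 0 := by
      intro i
      rw [hw, map_sub, map_smul, map_sum, smul_eq_mul]
      simp only [map_smul, smul_eq_mul, hpiv, mul_ite, mul_one, mul_zero, Finset.sum_ite_eq,
        Finset.mem_univ, if_true]
      ring
    refine ⟨r + 1, Fin.cons p n', Fin.cons w v', ?_, ?_, ?_⟩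
    · intro j
      refine Fin.cases ?_ (fun j => ?_) j
      · simpa using hwV
      · simpa using (hv'V j).1
    · intro i j
      refine Fin.cases ?_ (fun i => ?_) i <;> refine Fin.cases ?_ (fun j => ?_) j
      · simpa using hwp
      · simp [hv'p, Fin.ext_iff]
      · simp [hwn, Fin.ext_iff]
      · simp [hpiv, Fin.ext_iff]
    · intro u' hu'V hu'
      have h0 : c p u' = 0 := by simpa using hu' 0
      have hs : ∀ i, c (n' i) u' = 0 := fun i => by simpa using hu' i.succ
      exact hinj u' ⟨hu'V, h0⟩ hs

/-! ### `l(D) ≤ l(extDiv D)` -/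

section Abstract

universe u v w x y

variable {k : Type u} {K : Type v} {Fk : Type w} {FK : Type x} [Field k] [Field K] [Field Fk]
  [Field FK] [Algebra k K] [Algebra k Fk] [Algebra K FK]
  [IsAlgClosed k] [CharZero k] [IsAlgClosed K] [CharZero K] {ι : Fk →+* FK}
  (hι : IsConstExt (k := k) (K := K) ι) {x : Fk} (hx : FF.IsGen k x) {X : FK} (hX : FF.IsGen K X)

include hι in
/-- `ι (c • f) = c • ι f`. -/
theorem map_smul_k (c : k) (f : Fk) : ι (c • f) = (algebraMap k K c) • ι f := by
  rw [map_smul_const hι, Algebra.smul_def]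

include hι hx in
/-- `ι` maps `L(D)` into `L(extDiv D)`. -/
theorem map_mem_L {D : Divisor k Fk} {f : Fk} (hf : f ∈ riemannRochSpace D) :
    ι f ∈ riemannRochSpace (extDiv hι hX D) := by
  rw [mem_riemannRochSpace_iff] at hf ⊢
  intro v'
  rcases eq_or_ne f 0 with rfl | hf0
  · left; exact map_zero ι
  right
  by_cases hv' : v' ∈ Set.range (extPlace ι hι hX)
  · obtain ⟨w, rfl⟩ := hv'
    rw [extDiv_apply_extPlace, ord_extPlace hι hx hX]
    exact (hf w).resolve_left hf0
  · rw [extDiv_apply_of_notMem_range hι hX D hv']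
    have h1 : ¬ ∃ w : Place k Fk, LiesOver ι v' w := by
      rintro ⟨w, hw⟩
      exact hv' ⟨w, (eq_extPlace_of_liesOver hι hx hX hw).symm⟩
    rw [ord_eq_zero_of_not_liesOver hι hx h1 hf0]
    simp

include hι hx in
/-- conversely, if `ι f ∈ L(extDiv D)` then `f ∈ L(D)`. -/
theorem mem_L_of_map_mem {D : Divisor k Fk} {f : Fk}
    (hf : ι f ∈ riemannRochSpace (extDiv hι hX D)) : f ∈ riemannRochSpace D := by
  rw [mem_riemannRochSpace_iff] at hf ⊢
  intro w
  rcases eq_or_ne f 0 with rfl | hf0
  · left; rfl
  right
  have := (hf (extPlace ι hι hX w)).resolve_left ((map_ne_zero ι).mpr hf0)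
  rwa [extDiv_apply_extPlace, ord_extPlace hι hx hX] at this

include hι in
/-- `k`-linearly independent functions stay `K`-linearly independent after `ι` ((LD)). -/
theorem linearIndependent_map {l : ℕ} {b : Fin l → Fk} (hb : LinearIndependent k b) :
    LinearIndependent K (fun j => ι (b j)) := by
  classical
  let B := Module.Free.chooseBasis k K
  rw [Fintype.linearIndependent_iff]
  intro a ha
  -- coordinates
  have h1 : coordSum ι B (∑ j, coordOf B (a j) (b j)) = 0 := by
    rw [map_sum, ← ha]
    refine Finset.sum_congr rfl fun j _ => ?_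
    rw [coordSum_coordOf hι, Algebra.smul_def]
  have h2 := coordSum_injective hι B (h1.trans (map_zero (coordSum ι B)).symm)
  intro j
  apply B.repr.injective
  ext i
  have h3 := DFunLike.congr_fun h2 i
  rw [Finsupp.coe_finsetSum, Finset.sum_apply] at h3
  simp only [coordOf_apply, Finsupp.coe_zero, Pi.zero_apply] at h3
  have h4 := Fintype.linearIndependent_iff.mp hb (fun j => B.repr (a j) i) h3 j
  simpa using h4

include hι hx hX in
/-- **`l(D) ≤ l(extDiv D)`.** -/
theorem finrank_L_le_extDiv (D : Divisor k Fk) :
    Module.finrank k (riemannRochSpace D) ≤ Module.finrank K (riemannRochSpace (extDiv hι hX D)) := by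
  have Hk : LHyp k Fk := lHyp_of_isGen hx
  have HK : LHyp K FK := lHyp_of_isGen hX
  haveI : FiniteDimensional k (riemannRochSpace D) := finiteDimensional_L Hk D
  haveI : FiniteDimensional K (riemannRochSpace (extDiv hι hX D)) := finiteDimensional_L HK _
  set l := Module.finrank k (riemannRochSpace D) with hl
  let bL : Module.Basis (Fin l) k (riemannRochSpace D) := Module.finBasis k _
  have hb : LinearIndependent k (fun j => ((bL j : riemannRochSpace D) : Fk)) :=
    bL.linearIndependent.map' (riemannRochSpace D).subtype (Submodule.ker_subtype _)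
  have hli := linearIndependent_map hι hb
  -- as a family in `L(extDiv D)`
  let c : Fin l → riemannRochSpace (extDiv hι hX D) := fun j =>
    ⟨ι ((bL j : riemannRochSpace D) : Fk), map_mem_L hι hx hX (bL j).2⟩
  have hc : LinearIndependent K c := by
    apply LinearIndependent.of_comp (riemannRochSpace (extDiv hι hX D)).subtype
    exact hli
  have := hc.fintype_card_le_finrank
  simpa using this

/-! ### `l(extDiv D) ≤ l(D)` -/

section Le

variable {G : Type y} [Group G] (ρ : G →* SemilinearAut K FK) {I : Type*} (c : I → FK →ₗ[K] K)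

include hι hx hX in
/-- `L(extDiv D)` is stable under semilinear automorphisms fixing `ι Fk`. -/
theorem smul_mem_L (hfix : ∀ (g : G) (f : Fk), ρ g • ι f = ι f) (D : Divisor k Fk) (g : G) {y : FK}
    (hy : y ∈ riemannRochSpace (extDiv hι hX D)) : ρ g • y ∈ riemannRochSpace (extDiv hι hX D) := by
  rw [mem_riemannRochSpace_iff] at hy ⊢
  intro v'
  rcases eq_or_ne y 0 with rfl | hy0
  · left; exact smul_zero _
  right
  rw [ord_smul_eq]
  have h1 := (hy ((ρ g)⁻¹ • v')).resolve_left hy0
  have h2 : extDiv hι hX D ((ρ g)⁻¹ • v') = extDiv hι hX D v' := by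
    rw [← SemilinearAut.divisor_smul_apply, smul_extDiv hι hx hX (ρ g) (hfix g)]
  rwa [h2] at h1

include hι hx hX in
/-- **`l(extDiv D) ≤ l(D)`**: the reduced basis of `L(extDiv D)` with respect to the functionals
`c i` is fixed by the group, hence comes from `Fk`. -/
theorem finrank_L_extDiv_le (hfix : ∀ (g : G) (f : Fk), ρ g • ι f = ι f)
    (hinv : ∀ h : FK, (∀ g : G, ρ g • h = h) → h ∈ Set.range ι)
    (hsep : ∀ y : FK, (∀ i, c i y = 0) → y = 0)
    (hequiv : ∀ (g : G) (i : I) (y : FK), c i (ρ g • y) = SemilinearAut.baseAut (ρ g) (c i y))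
    (D : Divisor k Fk) :
    Module.finrank K (riemannRochSpace (extDiv hι hX D)) ≤ Module.finrank k (riemannRochSpace D) := by
  classical
  have Hk : LHyp k Fk := lHyp_of_isGen hx
  have HK : LHyp K FK := lHyp_of_isGen hX
  haveI : FiniteDimensional k (riemannRochSpace D) := finiteDimensional_L Hk D
  haveI : FiniteDimensional K (riemannRochSpace (extDiv hι hX D)) := finiteDimensional_L HK _
  obtain ⟨r, n, v, hvV, hpiv, hinj⟩ := exists_pivots c hsep (riemannRochSpace (extDiv hι hX D))
  -- the reduced basis is fixed
  have hfixed : ∀ (g : G) (j : Fin r), ρ g • v j = v j := by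
    intro g j
    apply sub_eq_zero.mp
    apply hinj _ (sub_mem (smul_mem_L hι hx hX ρ hfix D g (hvV j)) (hvV j))
    intro i
    rw [map_sub, hequiv, hpiv]
    split_ifs <;> simp
  have hrange : ∀ j, ∃ f : Fk, ι f = v j := fun j => hinv (v j) fun g => hfixed g j
  choose f hf using hrange
  have hfL : ∀ j, f j ∈ riemannRochSpace D := fun j =>
    mem_L_of_map_mem hι hx hX (by rw [hf j]; exact hvV j)
  -- the `f j` are `k`-linearly independent
  have hfli : LinearIndependent k (fun j => (⟨f j, hfL j⟩ : riemannRochSpace D)) := by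
    rw [Fintype.linearIndependent_iff]
    intro a ha i
    have h1 : ∑ j, a j • f j = 0 := by
      have := congrArg (fun z : riemannRochSpace D => (z : Fk)) ha
      simpa using this
    have h2 : ∑ j, (algebraMap k K (a j)) • v j = 0 := by
      have := congrArg ι h1
      rw [map_sum, map_zero] at this
      rw [← this]
      refine Finset.sum_congr rfl fun j _ => ?_
      rw [map_smul_k hι, hf j]
    have h3 := congrArg (c (n i)) h2
    rw [map_sum, map_zero] at h3
    simp only [map_smul, hpiv, smul_eq_mul, mul_ite, mul_one, mul_zero, Finset.sum_ite_eq,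
      Finset.mem_univ, if_true] at h3
    exact (map_eq_zero (algebraMap k K)).mp h3
  have hr : r ≤ Module.finrank k (riemannRochSpace D) := by
    simpa using hfli.fintype_card_le_finrank
  -- `dim L(extDiv D) ≤ r`
  let ev : riemannRochSpace (extDiv hι hX D) →ₗ[K] (Fin r → K) :=
    LinearMap.pi fun i => (c (n i)).comp (riemannRochSpace (extDiv hι hX D)).subtype
  have hev : Function.Injective ev := by
    rw [injective_iff_map_eq_zero]
    intro u hu
    apply Subtype.ext
    apply hinj u.1 u.2
    intro i
    have := congrFun hu i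
    simpa [ev] using this
  have := LinearMap.finrank_le_finrank_of_injective hev
  rw [Module.finrank_fin_fun] at this
  exact this.trans hr

end Le

end Abstract

/-! ### Riemann–Roch at large degree and the genus -/

section RRLarge

variable {K F : Type*} [Field K] [Field F] [Algebra K F] [IsAlgClosed K] [CharZero K] {x : F}

open KaehlerDifferential in
/-- `l(A) = deg A + 1 - g` for `deg A > 2g - 2` (repartition genus, no `HasCanonicalDivisor`). -/
theorem finrank_L_of_degree_gt (hx : FF.IsGen K x) (A : Divisor K F)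
    (hA : 2 * (genusFF K F : ℤ) - 2 < Divisor.degree A) :
    (Module.finrank K (riemannRochSpace A) : ℤ) = Divisor.degree A + 1 - genusFF K F := by
  let X := Fermat.Agent.M15.ThirdKind0.rrDataGen hx
  have hω₀ : D K F x ≠ 0 := FF.D_ne_zero hx
  let W : Divisor K F := Finsupp.ofSupportFinite (fun v : Place K F => v.ordDifferential (D K F x))
    (X.HD.finite_support _ hω₀)
  have hW : ∀ v : Place K F, W v = v.ordDifferential (D K F x) := fun v => rfl
  have h0 := Fermat.Agent.RR.Final.riemann_roch X hω₀ hW A
  have hneg : Divisor.degree (W - A) < 0 := by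
    rw [map_sub, Fermat.Agent.RR.Final.degree_canonical X hω₀ hW]
    omega
  rw [L_eq_bot_of_degree_neg X.HL hneg, finrank_bot] at h0
  simpa using h0

end RRLarge

section Genus

universe u v w x y

variable {k : Type u} {K : Type v} {Fk : Type w} {FK : Type x} [Field k] [Field K] [Field Fk]
  [Field FK] [Algebra k K] [Algebra k Fk] [Algebra K FK]
  [IsAlgClosed k] [CharZero k] [IsAlgClosed K] [CharZero K] {ι : Fk →+* FK}
  (hι : IsConstExt (k := k) (K := K) ι) {x : Fk} (hx : FF.IsGen k x) {X : FK} (hX : FF.IsGen K X)

include hι hx hX in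
/-- if `l(extDiv D) = l(D)` for all `D` then the genera agree. -/
theorem genusFF_eq_of_finrank_eq
    (hl : ∀ A : Divisor k Fk, Module.finrank K (riemannRochSpace (extDiv hι hX A)) =
      Module.finrank k (riemannRochSpace A)) : genusFF K FK = genusFF k Fk := by
  have Hk : LHyp k Fk := lHyp_of_isGen hx
  obtain ⟨w₀⟩ := Hk.nonempty
  set N : ℤ := max (2 * (genusFF k Fk : ℤ) - 2) (2 * (genusFF K FK : ℤ) - 2) + 1 with hN
  set A : Divisor k Fk := Finsupp.single w₀ N with hA
  have hdeg : Divisor.degree A = N := by rw [hA, degree_single Hk]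
  have hdeg' : Divisor.degree (extDiv hι hX A) = N := by rw [degree_extDiv hι hx hX, hdeg]
  have h1 := finrank_L_of_degree_gt hx A (by rw [hdeg, hN]; have := le_max_left (2 * (genusFF k Fk : ℤ) - 2) (2 * (genusFF K FK : ℤ) - 2); omega)
  have h2 := finrank_L_of_degree_gt hX (extDiv hι hX A) (by rw [hdeg', hN]; have := le_max_right (2 * (genusFF k Fk : ℤ) - 2) (2 * (genusFF K FK : ℤ) - 2); omega)
  rw [hl A, h1, hdeg, hdeg'] at h2
  have : (genusFF K FK : ℤ) = genusFF k Fk := by linarith
  exact_mod_cast this

variable {G : Type y} [Group G] (ρ : G →* SemilinearAut K FK) {I : Type*} (c : I → FK →ₗ[K] K)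

include hι hx hX in
/-- **the genus is invariant under a constant field extension with coefficient functionals.** -/
theorem genusFF_eq_of_coeff (hfix : ∀ (g : G) (f : Fk), ρ g • ι f = ι f)
    (hinv : ∀ h : FK, (∀ g : G, ρ g • h = h) → h ∈ Set.range ι)
    (hsep : ∀ y : FK, (∀ i, c i y = 0) → y = 0)
    (hequiv : ∀ (g : G) (i : I) (y : FK), c i (ρ g • y) = SemilinearAut.baseAut (ρ g) (c i y)) :
    genusFF K FK = genusFF k Fk :=
  genusFF_eq_of_finrank_eq hι hx hX fun A =>
    le_antisymm (finrank_L_extDiv_le hι hx hX ρ c hfix hinv hsep hequiv A)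
      (finrank_L_le_extDiv hι hx hX A)

end Genus

/-! ### the Laurent model -/

section Laurent

open Fermat.Agent.M27.LaurentBC3

universe u v

variable {k : Type u} {K : Type v} [Field k] [Field K] [Algebra k K]
  (E : IntermediateField k (LaurentSeries k))

/-- the coefficient functionals on `EK K E`. -/
def coeffFun (n : ℤ) : ↥(EK K E) →ₗ[K] K where
  toFun y := (y : LaurentSeries K).coeff n
  map_add' y z := by simp
  map_smul' c y := by
    show ((c • y : ↥(EK K E)) : LaurentSeries K).coeff n = c • (y : LaurentSeries K).coeff n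
    have : ((c • y : ↥(EK K E)) : LaurentSeries K)
        = algebraMap K (LaurentSeries K) c * (y : LaurentSeries K) := by
      rw [Algebra.smul_def]; rfl
    rw [this, coeff_algebraMap_mul, smul_eq_mul]

theorem coeffFun_apply (n : ℤ) (y : ↥(EK K E)) :
    coeffFun E n y = (y : LaurentSeries K).coeff n := rfl

theorem coeffFun_sep (y : ↥(EK K E)) (h : ∀ n, coeffFun E n y = 0) : y = 0 := by
  apply Subtype.ext
  ext n
  exact h n

variable [IsAlgClosed k] [CharZero k] [IsAlgClosed K] [CharZero K]

/-- **(GENUS) in the Laurent model**, with the generator upstairs as a hypothesis. -/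
theorem genusFF_EK_of {x : ↥E} (hx : FF.IsGen k x) {X : ↥(EK K E)} (hX : FF.IsGen K X) :
    genusFF K ↥(EK K E) = genusFF k ↥E :=
  genusFF_eq_of_coeff (isConstExt_bc E) hx hX (rho E) (coeffFun E) (rho_smul_bc E)
    (mem_range_bc_of_fixed E) (coeffFun_sep E) (fun σ n y => coeff_rho_smul E σ y n)

/-- **(GENUS)**: the genus does not change under the coefficientwise base change of a subfield of
`k((t))`. -/
theorem genusFF_EK {x : ↥E} (hx : FF.IsGen k x) : genusFF K ↥(EK K E) = genusFF k ↥E :=
  genusFF_EK_of E hx (Fermat.Agent.M27.IsGenMap0.isGen_map0 (isConstExt_bc (K := K) E) hx)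

end Laurent

end Fermat.Agent.M27.GenusBC5
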