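/-
Programme M27 (S27), chapter G (Lefschetz principle), the assembly (lead).

From the three inputs, stated here as PROPOSITIONS so that this file is independent of their proofs,
* `CountComplex0` : the analytic count `#Pic⁰(F)[n] = n ^ (2g)` for function fields over `ℂ`
                    (`M27/CountC9.card_torsion_complex`),
* `ConstExtUp0`   : (G1) a constant field extension `Fk → FL` along `k → L` with the semilinear action
                    of `Aut(L/k)` ((BASE), (FIX), (INV)) and equality of genera,
* `FieldOfDef0`   : (G2) for a finite set `S` of elements of `F / K` a countable algebraically closed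
                    subfield `k` of `K` and a function field `Fk / k` with `Fk → F` a constant field
                    extension whose image contains `S` (with (FIX), (INV) and equality of genera),
the count for EVERY algebraically closed constant field of characteristic `0`:

* `exists_extPic0_eq0`      : a torsion class supported at places where some element of `ι Fk` vanishes
                              comes from `Fk`;
* `card_torsion_countable0` : countable `k` (embed `k` into `ℂ` via `BigField0`, then
                              `ExtPic22.torsionEquiv`);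
* `card_torsion_of_isGen0`  : arbitrary `K` (any `N + 1` classes would live over one countable
                              field of definition);
* `s27_of_inputs0`          : the literal statement of S27.
-/
import Mathlib
import Fermat.Agent.J.DESC.ExtPic22
import Fermat.Agent.M27.IsGenMap0
import Fermat.Agent.M27.BigField0
import Fermat.Agent.M27.EntryGen8

set_option autoImplicit false
set_option linter.unusedSectionVars false
set_option linter.style.longLine false
set_option linter.style.haveILetI false

namespace Fermat.Agent.M27.Lefschetz0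

open AlgebraicCurve Fermat.Agent.X0 Fermat.Agent.J.DESC.ConstExt24 Fermat.Agent.J.DESC.ExtPic22

noncomputable section

universe u v w x y

section Key

variable {k : Type u} {K : Type v} {Fk : Type w} {FK : Type x} [Field k] [Field K] [Field Fk]
  [Field FK] [Algebra k K] [Algebra k Fk] [Algebra K FK]
  [IsAlgClosed k] [CharZero k] [IsAlgClosed K] [CharZero K] {ι : Fk →+* FK}
  (hι : IsConstExt (k := k) (K := K) ι) {x : Fk} (hx : FF.IsGen k x) {X : FK} (hX : FF.IsGen K X)
  {G : Type y} [Group G] (ρ : G →* SemilinearAut K FK)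

include hι hx hX in
/-- A torsion class of `FK` whose support consists of places at which some element of `ι Fk`
vanishes comes from a torsion class of `Fk`. -/
theorem exists_extPic0_eq0
    (hfix : ∀ (g : G) (f : Fk), ρ g • ι f = ι f)
    (hinv : ∀ h : FK, (∀ g : G, ρ g • h = h) → h ∈ Set.range ι) {n : ℕ}
    (D : Divisor.degZero (K := K) (F := FK))
    (hsupp : ∀ P ∈ (D : Divisor K FK).support, ∃ f : Fk, f ≠ 0 ∧ 0 < P.ord (ι f))
    (htors : Pic0.mk D ∈ Pic0.torsion K FK n) :
    ∃ y ∈ Pic0.torsion k Fk n, extPic0 hι hx hX y = Pic0.mk D := by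
  classical
  have hrange : ((D : Divisor K FK).support : Set (Place K FK)) ⊆
      Set.range (extPlace ι hι hX) := by
    intro P hP
    exact (mem_range_extPlace_iff hι hx hX P).mpr (hsupp P hP)
  set D' : Divisor k Fk := Finsupp.comapDomain (extPlace ι hι hX) (D : Divisor K FK)
    (extPlace_injective hι hX).injOn with hD'
  have hext : extDiv hι hX D' = (D : Divisor K FK) := by
    rw [extDiv_apply, hD']
    exact Finsupp.mapDomain_comapDomain _ (extPlace_injective hι hX) _ hrange
  have hdeg : D' ∈ Divisor.degZero (K := k) (F := Fk) := by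
    rw [Divisor.mem_degZero, ← degree_extDiv hι hx hX, hext]
    exact D.2
  have hnD : (n : ℤ) • (D : Divisor K FK) ∈ Divisor.principal (K := K) (F := FK) := by
    rw [Pic0.mem_torsion] at htors
    have h1 : Pic0.mk ((n : ℤ) • D) = 0 := htors
    have h2 : (n : ℤ) • D ∈
        (Divisor.principal (K := K) (F := FK)).addSubgroupOf (Divisor.degZero (K := K) (F := FK)) :=
      (QuotientAddGroup.eq_zero_iff _).mp h1
    rw [AddSubgroup.mem_addSubgroupOf] at h2
    simpa using h2
  have hnD' : (n : ℤ) • D' ∈ Divisor.principal (K := k) (F := Fk) := by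
    apply mem_principal_of_extDiv_mem_principal hι hx hX ρ hfix hinv
    rw [map_zsmul, hext]
    exact hnD
  refine ⟨Pic0.mk ⟨D', hdeg⟩, ?_, ?_⟩
  · rw [Pic0.mem_torsion]
    have h1 : (n : ℤ) • Pic0.mk (⟨D', hdeg⟩ : Divisor.degZero (K := k) (F := Fk)) =
        Pic0.mk ((n : ℤ) • ⟨D', hdeg⟩) := rfl
    rw [h1]
    apply (QuotientAddGroup.eq_zero_iff _).mpr
    rw [AddSubgroup.mem_addSubgroupOf]
    simpa using hnD'
  · rw [extPic0_mk]
    exact congrArg Pic0.mk (Subtype.ext hext)

end Key

/-! ### The three inputs, as propositions (instantiated in `M27/Top0`) -/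

/-- (HC) the analytic count over `ℂ` (`M27/CountC9.card_torsion_complex`). -/
def CountComplex0 : Prop :=
  ∀ {F : Type} [Field F] [Algebra ℂ F] {x : F}, FF.IsGen ℂ x → ∀ {n : ℕ}, 0 < n →
    Nat.card ↥(Pic0.torsion ℂ F n) = n ^ (2 * genusFF ℂ F)

/-- (G1) constant field extension upwards, with its semilinear action. -/
def ConstExtUp0 : Prop :=
  ∀ {k : Type u} {L : Type v} {Fk : Type w} [Field k] [Field L] [Field Fk] [Algebra k L]
    [Algebra k Fk] [IsAlgClosed k] [CharZero k] [IsAlgClosed L] [CharZero L] {x : Fk},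
    FF.IsGen k x →
    ∃ (FL : Type v) (_ : Field FL) (_ : Algebra L FL) (ι : Fk →+* FL)
      (_ : IsConstExt (k := k) (K := L) ι) (ρ : (L ≃ₐ[k] L) →* SemilinearAut L FL),
      (∀ (σ : L ≃ₐ[k] L) (c : L), SemilinearAut.baseAut (ρ σ) c = σ c) ∧
      (∀ (σ : L ≃ₐ[k] L) (f : Fk), ρ σ • ι f = ι f) ∧
      (∀ h : FL, (∀ σ : L ≃ₐ[k] L, ρ σ • h = h) → h ∈ Set.range ι) ∧
      genusFF L FL = genusFF k Fk

/-- (G2) countable fields of definition. -/
def FieldOfDef0 : Prop :=
  ∀ {K : Type u} {F : Type v} [Field K] [Field F] [Algebra K F] [IsAlgClosed K] [CharZero K]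
    {X : F}, FF.IsGen K X → ∀ S : Finset F,
    ∃ (k : Type u) (_ : Field k) (_ : Algebra k K) (_ : IsAlgClosed k) (_ : CharZero k)
      (_ : Countable k) (Fk : Type u) (_ : Field Fk) (_ : Algebra k Fk) (ι : Fk →+* F)
      (_ : IsConstExt (k := k) (K := K) ι) (x : Fk) (_ : FF.IsGen k x)
      (G : Type u) (_ : Group G) (ρ : G →* SemilinearAut K F),
      (∀ (g : G) (f : Fk), ρ g • ι f = ι f) ∧
      (∀ h : F, (∀ g : G, ρ g • h = h) → h ∈ Set.range ι) ∧
      genusFF K F = genusFF k Fk ∧ ∀ s ∈ S, s ∈ Set.range ι

/-! ### Step 1: countable constant fields -/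

theorem card_torsion_countable0 (HC : CountComplex0) (H1 : ConstExtUp0.{u, 0, w})
    {k : Type u} {Fk : Type w} [Field k] [Field Fk] [Algebra k Fk] [IsAlgClosed k] [CharZero k]
    [Countable k] {x : Fk} (hx : FF.IsGen k x) {n : ℕ} (hn : 0 < n) :
    Nat.card ↥(Pic0.torsion k Fk n) = n ^ (2 * genusFF k Fk) := by
  obtain ⟨e⟩ := BigField0.nonempty_ringEquiv_complex (K₀ := k)
    (BigField0.mk_le_continuum_of_countable k)
  letI : Algebra k ℂ :=
    ((e : BigField0.BigField k →+* ℂ).comp (algebraMap k (BigField0.BigField k))).toAlgebra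
  obtain ⟨FL, instF, instA, ι, hι, ρ, hbase, hfix, hinv, hgen⟩ := H1 (k := k) (L := ℂ) hx
  have hX : FF.IsGen ℂ (ι x) := IsGenMap0.isGen_map0 hι hx
  have hcount := HC hX hn
  haveI : Finite ↥(Pic0.torsion ℂ FL n) := by
    apply Nat.finite_of_card_ne_zero
    rw [hcount]
    exact (pow_pos hn _).ne'
  have eq := torsionEquiv hι hx hX ρ hbase hfix hinv n
  rw [Nat.card_congr eq.toEquiv, hcount, hgen]

/-! ### Step 2: arbitrary algebraically closed constant fields of characteristic `0` -/

theorem card_torsion_of_isGen0 (HC : CountComplex0) (H1 : ConstExtUp0.{u, 0, u})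
    (H2 : FieldOfDef0.{u, v})
    {K : Type u} {F : Type v} [Field K] [Field F] [Algebra K F] [IsAlgClosed K] [CharZero K]
    {X : F} (hX : FF.IsGen K X) {n : ℕ} (hn : 0 < n) :
    Nat.card ↥(Pic0.torsion K F n) = n ^ (2 * genusFF K F) := by
  classical
  set N := n ^ (2 * genusFF K F) with hN
  have hNpos : 0 < N := pow_pos hn _
  -- representatives of the classes
  have hrep : ∀ z : ↥(Pic0.torsion K F n), ∃ D : Divisor.degZero (K := K) (F := F),
      Pic0.mk D = (z : Pic0 K F) := fun z => Pic0.mk_surjective _
  choose rep hrepz using hrep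
  -- a function vanishing at a given place
  have hunif : ∀ P : Place K F, ∃ u : F, 0 < P.ord u := by
    intro P
    obtain ⟨π, hπ⟩ := FF.ffp_exists_irreducible P
    exact ⟨π, by rw [P.ord_coe_irreducible hπ]; exact one_pos⟩
  choose unif hunifP using hunif
  -- the data of a finite set of classes lives over a countable field of definition
  have hkey : ∀ T : Finset ↥(Pic0.torsion K F n), ∃ (A : Type u) (_ : Finite A),
      Nat.card A = N ∧ ∃ φ : A → Pic0 K F, Function.Injective φ ∧
        (∀ a, φ a ∈ Pic0.torsion K F n) ∧ ∀ z ∈ T, (z : Pic0 K F) ∈ Set.range φ := by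
    intro T
    set S : Finset F := T.biUnion fun z => ((rep z : Divisor K F).support).image unif with hS
    obtain ⟨k, instk, instkK, instAC, instC0, instCnt, Fk, instFk, instkFk, ι, hι, x, hx, G, instG,
      ρ, hfix, hinv, hgenus, hSr⟩ := H2 hX S
    have hX' : FF.IsGen K (ι x) := IsGenMap0.isGen_map0 hι hx
    have hcard : Nat.card ↥(Pic0.torsion k Fk n) = N := by
      rw [card_torsion_countable0 HC H1 hx hn, hN, hgenus]
    have hfin : Finite ↥(Pic0.torsion k Fk n) :=
      Nat.finite_of_card_ne_zero (by rw [hcard]; exact hNpos.ne')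
    refine ⟨↥(Pic0.torsion k Fk n), hfin, hcard,
      fun y => extPic0 hι hx hX' (y : Pic0 k Fk), ?_, ?_, ?_⟩
    · intro y y' h
      exact Subtype.ext (extPic0_injective hι hx hX' ρ hfix hinv h)
    · intro y
      exact extPic0_mem_torsion hι hx hX' y.2
    · intro z hz
      have hsupp : ∀ P ∈ ((rep z : Divisor K F)).support,
          ∃ f : Fk, f ≠ 0 ∧ 0 < P.ord (ι f) := by
        intro P hP
        have hmem : unif P ∈ S := by
          rw [hS, Finset.mem_biUnion]
          exact ⟨z, hz, Finset.mem_image_of_mem _ hP⟩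
        obtain ⟨f, hf⟩ := hSr _ hmem
        have hpos := hunifP P
        rw [← hf] at hpos
        refine ⟨f, ?_, hpos⟩
        rintro rfl
        rw [map_zero, Place.ord_zero] at hpos
        exact lt_irrefl _ hpos
      have htors : Pic0.mk (rep z) ∈ Pic0.torsion K F n := by
        rw [hrepz]
        exact z.2
      obtain ⟨y, hy, hyz⟩ := exists_extPic0_eq0 hι hx hX' ρ hfix hinv (rep z) hsupp htors
      exact ⟨⟨y, hy⟩, by rw [← hrepz, ← hyz]⟩
  -- Claim A: every finite set of classes has at most `N` elements
  have hA : ∀ T : Finset ↥(Pic0.torsion K F n), T.card ≤ N := by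
    intro T
    obtain ⟨A, hAfin, hAcard, φ, hφ, -, hT⟩ := hkey T
    haveI : Nonempty A := (Nat.card_pos_iff.mp (hAcard ▸ hNpos)).1
    choose! pre hpre using hT
    have hinj : Set.InjOn pre (T : Set ↥(Pic0.torsion K F n)) := by
      intro z hz z' hz' h
      apply Subtype.ext
      rw [← hpre z hz, ← hpre z' hz', h]
    letI := Fintype.ofFinite A
    calc T.card = (T.image pre).card := (Finset.card_image_of_injOn hinj).symm
      _ ≤ Fintype.card A := Finset.card_le_univ _
      _ = Nat.card A := (Nat.card_eq_fintype_card).symm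
      _ = N := hAcard
  -- finiteness
  have hfinK : Finite ↥(Pic0.torsion K F n) := by
    by_contra hinf
    rw [not_finite_iff_infinite] at hinf
    obtain ⟨T, hT⟩ := Infinite.exists_subset_card_eq ↥(Pic0.torsion K F n) (N + 1)
    have := hA T
    omega
  letI := Fintype.ofFinite ↥(Pic0.torsion K F n)
  apply le_antisymm
  · rw [Nat.card_eq_fintype_card]
    exact hA Finset.univ
  · obtain ⟨A, hAfin, hAcard, φ, hφ, hφt, -⟩ := hkey ∅
    rw [← hAcard]
    refine Nat.card_le_card_of_injective (fun a => (⟨φ a, hφt a⟩ : ↥(Pic0.torsion K F n))) ?_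
    intro a a' h
    exact hφ (congrArg Subtype.val h)

/-! ### The statement of S27 from the three inputs -/

theorem s27_of_inputs0 (HC : CountComplex0) (H1 : ConstExtUp0.{u, 0, u}) (H2 : FieldOfDef0.{u, v})
    (K : Type u) (F : Type v) [Field K] [Field F] [Algebra K F] [IsAlgClosed K] [CharZero K]
    [IsCurveOver K F] [Algebra.EssFiniteType K F]
    (ℓ : ℕ) [Fact ℓ.Prime] (k : ℕ) :
    Nat.card (Pic0.torsion K F (ℓ ^ k)) = ℓ ^ (2 * genusFF K F * k) := by
  obtain ⟨x, hx⟩ := EntryGen8.exists_isGen (K := K) (F := F)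
  rw [card_torsion_of_isGen0 HC H1 H2 hx (pow_pos (Fact.out : ℓ.Prime).pos k), ← pow_mul]
  congr 1
  ring

end

end Fermat.Agent.M27.Lefschetz0
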