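/-
Programme M27 (S27), chapter G (Lefschetz): **the two inputs (G1), (G2) of `M27/Lefschetz0`**
(helper3), in the exact shapes `Lefschetz0.ConstExtUp0`, `Lefschetz0.FieldOfDef0`:
`ConstExtUp3.exists_constExt_of` and `FieldDef3.exists_fieldOfDef_of` with the genus clause
discharged by `GenusBC5.genusFF_EK` (helper5).
-/
import Mathlib
import Fermat.Agent.M27.ConstExtUp3
import Fermat.Agent.M27.FieldDef3
import Fermat.Agent.M27.GenusBC5
import Fermat.Agent.M27.Lefschetz0

set_option autoImplicit false
set_option linter.unusedSectionVars false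
set_option linter.style.longLine false

namespace Fermat.Agent.M27.GFinal3

open AlgebraicCurve Fermat.Agent.X0 Fermat.Agent.J.DESC.ConstExt24

universe u v w

/-- **(G1)**: constant field extension upwards, with its semilinear action and genus invariance. -/
theorem constExtUp : Fermat.Agent.M27.Lefschetz0.ConstExtUp0.{u, v, w} := by
  intro k L Fk _ _ _ _ _ _ _ _ _ x hx
  exact Fermat.Agent.M27.ConstExtUp3.exists_constExt_of L hx
    (fun E _ hy => Fermat.Agent.M27.GenusBC5.genusFF_EK E hy)

/-- **(G2)**: countable fields of definition. -/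
theorem fieldOfDef : Fermat.Agent.M27.Lefschetz0.FieldOfDef0.{u, v} := by
  intro K F _ _ _ _ _ X hX S
  obtain ⟨k, i1, i2, i3, i4, i5, Fk, i6, i7, ι, hι, x, hx, G, i8, ρ, -, hfix, hinv, hg, hS⟩ :=
    Fermat.Agent.M27.FieldDef3.exists_fieldOfDef_of hX S
      (fun k _ _ _ _ E _ hy => Fermat.Agent.M27.GenusBC5.genusFF_EK E hy)
  exact ⟨k, i1, i2, i3, i4, i5, Fk, i6, i7, ι, hι, x, hx, G, i8, ρ, hfix, hinv, hg, hS⟩

end Fermat.Agent.M27.GFinal3
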