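/-
Programme M27 (target S27), chapter B (helper7), file 3: **(CL) linear equivalence is a closed
relation** on the Riemann surface `X = Place ℂ F` of the interface `Iface2`:

  `{(Q, R) ∈ X^m × X^m | Q_1 + ⋯ + Q_m ∼ R_1 + ⋯ + R_m}` is closed  (`isClosed_linEq`).

Proof: fix a divisor `B₀` of large degree `m + N`, a basis `e` of `L(B₀)` and the unit sphere `Sph`
of `ℂ^l`.  The set `Z` of all `(λ, μ, T, Q, R) ∈ Sph × Sph × X^N × X^m × X^m` with
`u_λ ∈ L(B₀ - ΣQ - ΣT)` and `u_μ ∈ L(B₀ - ΣR - ΣT)` is closed by (ZC) (`ZCSurf7.isClosed_zc`); by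
the degree count both memberships are equalities of divisors, so `Z` projects ONTO the relation
(Riemann's inequality gives `u_μ`), and the projection along the compact factor is a closed map.
-/
import Mathlib
import Fermat.Agent.M27.ZCSurf7
import Fermat.Agent.RR.LHypGen

set_option autoImplicit false
set_option linter.unusedSectionVars false
set_option linter.unusedVariables false
set_option linter.style.longLine false
set_option linter.style.haveILetI false

noncomputable section

namespace Fermat.Agent.M27.LinEqClosed7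

open AlgebraicCurve Metric Topology Filter Module
open Fermat.Agent.RR.LSpace Fermat.Agent.M15.DivDefs4 Fermat.Agent.M27.Iface2
open Fermat.Agent.M17.GenericRR2 Fermat.Agent.X0

variable {F : Type*} [Field F] [Algebra ℂ F]

/-! ### tuples and effective divisors -/

theorem sumPts_append {m n : ℕ} (Q : Fin m → Place ℂ F) (T : Fin n → Place ℂ F) :
    sumPts (Fin.append Q T) = sumPts Q + sumPts T := by
  unfold sumPts
  rw [Fin.sum_univ_add]
  simp only [Fin.append_left, Fin.append_right]

theorem continuous_append {X : Type*} [TopologicalSpace X] {m n : ℕ} :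
    Continuous fun p : (Fin m → X) × (Fin n → X) => Fin.append p.1 p.2 := by
  refine continuous_pi fun i => ?_
  refine Fin.addCases (fun j => ?_) (fun j => ?_) i
  · simp only [Fin.append_left]
    exact (continuous_apply j).comp continuous_fst
  · simp only [Fin.append_right]
    exact (continuous_apply j).comp continuous_snd

/-- an effective divisor of degree `n` is the divisor of an `n`-tuple of places. -/
theorem exists_sumPts_eq (H : LHyp ℂ F) : ∀ (n : ℕ) (E : Divisor ℂ F), 0 ≤ E →
    Divisor.degree E = n → ∃ T : Fin n → Place ℂ F, sumPts T = E := by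
  intro n
  induction n with
  | zero =>
    intro E hE hdeg
    refine ⟨Fin.elim0, ?_⟩
    have h0 : E = 0 := eq_zero_of_degree_eq_zero H hE (by simpa using hdeg)
    rw [h0]
    unfold sumPts
    simp
  | succ n ih =>
    intro E hE hdeg
    have hne : E ≠ 0 := by
      intro h
      rw [h, map_zero] at hdeg
      have : (0 : ℤ) = (n : ℤ) + 1 := by exact_mod_cast hdeg
      omega
    obtain ⟨P, hP⟩ : ∃ P, E P ≠ 0 := by
      by_contra hcon
      push Not at hcon
      exact hne (Finsupp.ext hcon)
    have hP1 : 1 ≤ E P := by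
      have : 0 ≤ E P := by simpa using hE P
      omega
    have hE' : 0 ≤ E - Finsupp.single P 1 := by
      intro v
      rw [Finsupp.sub_apply]
      simp only [Finsupp.coe_zero, Pi.zero_apply]
      by_cases hv : v = P
      · subst hv
        rw [Finsupp.single_eq_same]
        omega
      · rw [Finsupp.single_eq_of_ne hv]
        have : 0 ≤ E v := by simpa using hE v
        omega
    have hdeg' : Divisor.degree (E - Finsupp.single P 1) = n := by
      rw [map_sub, degree_single H, hdeg]
      push_cast
      ring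
    obtain ⟨T', hT'⟩ := ih _ hE' hdeg'
    refine ⟨Fin.snoc T' P, ?_⟩
    rw [sumPts_snoc, hT']
    abel

/-! ### coordinates on `L(B₀)` -/

/-- rescaling a nonzero vector of `ℂ^l` to the unit sphere. -/
theorem exists_smul_mem_sphere {l : ℕ} (lam : Fin l → ℂ) (h : lam ≠ 0) :
    ∃ c : ℂ, c ≠ 0 ∧ c • lam ∈ sphere (0 : Fin l → ℂ) 1 := by
  have hn : ‖lam‖ ≠ 0 := norm_ne_zero_iff.mpr h
  refine ⟨((‖lam‖⁻¹ : ℝ) : ℂ), ?_, ?_⟩
  · exact_mod_cast inv_ne_zero hn
  · rw [mem_sphere_zero_iff_norm, norm_smul, Complex.norm_real, norm_inv, norm_norm,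
      inv_mul_cancel₀ hn]

theorem sum_smul_smul {l : ℕ} (e : Fin l → F) (c : ℂ) (lam : Fin l → ℂ) :
    ∑ j, (c • lam) j • e j = c • ∑ j, lam j • e j := by
  rw [Finset.smul_sum]
  refine Finset.sum_congr rfl fun j _ => ?_
  rw [Pi.smul_apply, smul_eq_mul, mul_smul]

/-! ### the closedness statement -/

variable {H : LHyp ℂ F} [TopologicalSpace (Place ℂ F)]

/-- **(CL)**: linear equivalence of effective divisors of degree `m` is a closed relation on
`X^m × X^m` (from Riemann's inequality in the form `deg D + 1 - γ ≤ l(D)`). -/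
theorem isClosed_linEq (S : IsRSurface H)
    (hRie : ∃ γ : ℤ, ∀ D : Divisor ℂ F,
      Divisor.degree D + 1 - γ ≤ (finrank ℂ (riemannRochSpace D) : ℤ)) (m : ℕ) :
    IsClosed {p : (Fin m → Place ℂ F) × (Fin m → Place ℂ F) |
      sumPts p.1 - sumPts p.2 ∈ Divisor.principal (K := ℂ) (F := F)} := by
  classical
  obtain ⟨γ, hγ⟩ := hRie
  haveI := S.compactSpace
  obtain ⟨P₀⟩ := H.nonempty
  -- the auxiliary degree and divisor
  set N : ℕ := γ.toNat with hN
  have hNγ : γ ≤ (N : ℤ) := Int.self_le_toNat γ
  set B₀ : Divisor ℂ F := Finsupp.single P₀ ((m + N : ℕ) : ℤ) with hB₀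
  have hdegB₀ : Divisor.degree B₀ = ((m + N : ℕ) : ℤ) := degree_single H _ _
  -- a basis of `L(B₀)`
  haveI : FiniteDimensional ℂ (riemannRochSpace B₀) := finiteDimensional_L H B₀
  set l : ℕ := finrank ℂ (riemannRochSpace B₀) with hl
  set bas : Basis (Fin l) ℂ (riemannRochSpace B₀) := Module.finBasis ℂ _ with hbas
  set e : Fin l → F := fun j => (bas j : F) with he
  have heL : ∀ j, e j ∈ riemannRochSpace B₀ := fun j => (bas j).2
  set u : (Fin l → ℂ) → F := fun lam => ∑ j, lam j • e j with hu
  have hucoe : ∀ lam : Fin l → ℂ, u lam = ((∑ j, lam j • bas j : riemannRochSpace B₀) : F) := by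
    intro lam
    rw [hu]
    simp only
    rw [Submodule.coe_sum]
    rfl
  have hu0 : ∀ lam : Fin l → ℂ, u lam = 0 → lam = 0 := by
    intro lam h
    rw [hucoe] at h
    have h1 : (∑ j, lam j • bas j : riemannRochSpace B₀) = 0 := Subtype.ext h
    have h2 := Fintype.linearIndependent_iff.mp bas.linearIndependent lam h1
    exact funext h2
  have husurj : ∀ f ∈ riemannRochSpace B₀, ∃ lam : Fin l → ℂ, u lam = f := by
    intro f hf
    refine ⟨fun j => bas.repr ⟨f, hf⟩ j, ?_⟩
    rw [hucoe, bas.sum_repr]
  have husmul : ∀ (c : ℂ) (lam : Fin l → ℂ), u (c • lam) = c • u lam := fun c lam =>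
    sum_smul_smul e c lam
  -- the compact parameter space
  haveI : CompactSpace ↥(sphere (0 : Fin l → ℂ) 1) :=
    isCompact_iff_compactSpace.mp (isCompact_sphere 0 1)
  -- the big closed set
  have hzc := ZCSurf7.isClosed_zc S B₀ e heL (m + N)
  set ZC : Set ((Fin l → ℂ) × (Fin (m + N) → Place ℂ F)) :=
    {p | ∑ j, p.1 j • e j ∈ riemannRochSpace (B₀ - sumPts p.2)} with hZC
  set Kp : Type _ := (↥(sphere (0 : Fin l → ℂ) 1) × ↥(sphere (0 : Fin l → ℂ) 1)) ×
    (Fin N → Place ℂ F) with hKp
  set Y : Type _ := (Fin m → Place ℂ F) × (Fin m → Place ℂ F) with hY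
  set φ₁ : Kp × Y → (Fin l → ℂ) × (Fin (m + N) → Place ℂ F) :=
    fun q => ((q.1.1.1 : Fin l → ℂ), Fin.append q.2.1 q.1.2) with hφ₁
  set φ₂ : Kp × Y → (Fin l → ℂ) × (Fin (m + N) → Place ℂ F) :=
    fun q => ((q.1.1.2 : Fin l → ℂ), Fin.append q.2.2 q.1.2) with hφ₂
  have hφ₁c : Continuous φ₁ := by
    refine Continuous.prodMk ?_ ?_
    · exact continuous_subtype_val.comp (continuous_fst.comp (continuous_fst.comp continuous_fst))
    · exact continuous_append.comp
        ((continuous_fst.comp continuous_snd).prodMk (continuous_snd.comp continuous_fst))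
  have hφ₂c : Continuous φ₂ := by
    refine Continuous.prodMk ?_ ?_
    · exact continuous_subtype_val.comp (continuous_snd.comp (continuous_fst.comp continuous_fst))
    · exact continuous_append.comp
        ((continuous_snd.comp continuous_snd).prodMk (continuous_snd.comp continuous_fst))
  set Z : Set (Kp × Y) := φ₁ ⁻¹' ZC ∩ φ₂ ⁻¹' ZC with hZ
  have hZcl : IsClosed Z := (hzc.preimage hφ₁c).inter (hzc.preimage hφ₂c)
  have hproj : IsClosed (Prod.snd '' Z) := isClosedMap_snd_of_compactSpace Z hZcl
  -- the relation is the projection of `Z`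
  have hset : {p : (Fin m → Place ℂ F) × (Fin m → Place ℂ F) |
      sumPts p.1 - sumPts p.2 ∈ Divisor.principal (K := ℂ) (F := F)} = Prod.snd '' Z := by
    ext p
    obtain ⟨Q, R⟩ := p
    constructor
    · -- a linear equivalence gives a point of `Z`
      rintro ⟨f, hf0, hf⟩
      -- a nonzero `g ∈ L(B₀ - ΣR)`
      have hdegD : Divisor.degree (B₀ - sumPts R) = (N : ℤ) := by
        rw [map_sub, hdegB₀, degree_sumPts H]
        push_cast
        ring
      obtain ⟨g, hgL, hg0⟩ : ∃ g ∈ riemannRochSpace (B₀ - sumPts R), g ≠ 0 := by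
        by_contra hcon
        push Not at hcon
        have hbot : riemannRochSpace (B₀ - sumPts R) = ⊥ := (Submodule.eq_bot_iff _).mpr hcon
        have h1 := hγ (B₀ - sumPts R)
        rw [hbot, finrank_bot, hdegD] at h1
        push_cast at h1
        omega
      have hgord := (mem_L_iff hg0).mp hgL
      -- the residual effective divisor
      set E : Divisor ℂ F := divOf H hg0 + (B₀ - sumPts R) with hE
      have hE0 : 0 ≤ E := by
        intro v
        have := hgord v
        rw [hE, Finsupp.add_apply, divOf_apply]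
        simp only [Finsupp.coe_zero, Pi.zero_apply]
        omega
      have hEdeg : Divisor.degree E = (N : ℤ) := by
        rw [hE, map_add, degree_divOf, hdegD, zero_add]
      obtain ⟨T, hT⟩ := exists_sumPts_eq H N E hE0 hEdeg
      have hEv : ∀ v : Place ℂ F, sumPts T v = v.ord g + (B₀ v - sumPts R v) := by
        intro v
        rw [hT, hE, Finsupp.add_apply, divOf_apply, Finsupp.sub_apply]
      have hfv : ∀ v : Place ℂ F, sumPts Q v - sumPts R v = v.ord f := by
        intro v
        have := hf v
        rwa [Finsupp.sub_apply] at this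
      -- the two functions
      have hgf0 : g * f ≠ 0 := mul_ne_zero hg0 hf0
      have hg1 : g ∈ riemannRochSpace (B₀ - sumPts (Fin.append R T)) := by
        rw [mem_L_iff hg0]
        intro v
        rw [sumPts_append, Finsupp.sub_apply, Finsupp.add_apply]
        have := hEv v
        omega
      have hgf1 : g * f ∈ riemannRochSpace (B₀ - sumPts (Fin.append Q T)) := by
        rw [mem_L_iff hgf0]
        intro v
        rw [sumPts_append, Finsupp.sub_apply, Finsupp.add_apply, Place.ord_mul _ hg0 hf0]
        have h1 := hEv v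
        have h2 := hfv v
        omega
      have hsubL : ∀ (T' : Fin (m + N) → Place ℂ F),
          riemannRochSpace (B₀ - sumPts T') ≤ riemannRochSpace B₀ := by
        intro T'
        apply L_mono
        have := sumPts_nonneg T'
        exact sub_le_self _ this
      obtain ⟨mu₀, hmu₀⟩ := husurj g (hsubL _ hg1)
      obtain ⟨lam₀, hlam₀⟩ := husurj (g * f) (hsubL _ hgf1)
      have hmu₀ne : mu₀ ≠ 0 := by
        intro h
        apply hg0
        rw [← hmu₀, h, hu]
        simp
      have hlam₀ne : lam₀ ≠ 0 := by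
        intro h
        apply hgf0
        rw [← hlam₀, h, hu]
        simp
      obtain ⟨c₁, hc₁, hc₁s⟩ := exists_smul_mem_sphere lam₀ hlam₀ne
      obtain ⟨c₂, hc₂, hc₂s⟩ := exists_smul_mem_sphere mu₀ hmu₀ne
      refine ⟨(((⟨c₁ • lam₀, hc₁s⟩, ⟨c₂ • mu₀, hc₂s⟩), T), (Q, R)), ⟨?_, ?_⟩, rfl⟩
      · show u (c₁ • lam₀) ∈ riemannRochSpace (B₀ - sumPts (Fin.append Q T))
        rw [husmul, hlam₀]
        exact Submodule.smul_mem _ _ hgf1
      · show u (c₂ • mu₀) ∈ riemannRochSpace (B₀ - sumPts (Fin.append R T))
        rw [husmul, hmu₀]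
        exact Submodule.smul_mem _ _ hg1
    · -- a point of `Z` gives a linear equivalence
      rintro ⟨⟨⟨⟨lam, mu⟩, T⟩, ⟨Q', R'⟩⟩, ⟨h1, h2⟩, hqp⟩
      obtain ⟨rfl, rfl⟩ := Prod.mk.inj hqp
      have h1' : u (lam : Fin l → ℂ) ∈ riemannRochSpace (B₀ - sumPts (Fin.append Q' T)) := h1
      have h2' : u (mu : Fin l → ℂ) ∈ riemannRochSpace (B₀ - sumPts (Fin.append R' T)) := h2
      have hlamne : (lam : Fin l → ℂ) ≠ 0 := by
        intro h
        have := lam.2
        rw [mem_sphere_zero_iff_norm, h, norm_zero] at this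
        exact zero_ne_one this
      have hmune : (mu : Fin l → ℂ) ≠ 0 := by
        intro h
        have := mu.2
        rw [mem_sphere_zero_iff_norm, h, norm_zero] at this
        exact zero_ne_one this
      have hulam : u (lam : Fin l → ℂ) ≠ 0 := fun h => hlamne (hu0 _ h)
      have humu : u (mu : Fin l → ℂ) ≠ 0 := fun h => hmune (hu0 _ h)
      -- the degree count
      have key : ∀ (f : F) (hf : f ≠ 0) (Q'' : Fin m → Place ℂ F),
          f ∈ riemannRochSpace (B₀ - sumPts (Fin.append Q'' T)) →
          ∀ v : Place ℂ F, v.ord f + B₀ v - (sumPts Q'' v + sumPts T v) = 0 := by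
        intro f hf Q'' hmem v
        have hord := (mem_L_iff hf).mp hmem
        set D₁ : Divisor ℂ F := divOf H hf + B₀ - (sumPts Q'' + sumPts T) with hD₁
        have hD₁0 : 0 ≤ D₁ := by
          intro w
          have := hord w
          rw [sumPts_append, Finsupp.sub_apply, Finsupp.add_apply] at this
          rw [hD₁, Finsupp.sub_apply, Finsupp.add_apply, Finsupp.add_apply, divOf_apply]
          simp only [Finsupp.coe_zero, Pi.zero_apply]
          omega
        have hD₁deg : Divisor.degree D₁ = 0 := by
          rw [hD₁, map_sub, map_add, map_add, degree_divOf, hdegB₀, degree_sumPts H,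
            degree_sumPts H]
          push_cast
          ring
        have hD₁z := eq_zero_of_degree_eq_zero H hD₁0 hD₁deg
        have := congrArg (fun D : Divisor ℂ F => D v) hD₁z
        simp only [hD₁, Finsupp.sub_apply, Finsupp.add_apply, divOf_apply, Finsupp.coe_zero,
          Pi.zero_apply] at this
        exact this
      refine ⟨u (lam : Fin l → ℂ) * (u (mu : Fin l → ℂ))⁻¹,
        mul_ne_zero hulam (inv_ne_zero humu), ?_⟩
      intro v
      show (sumPts Q' - sumPts R') v = _
      rw [Finsupp.sub_apply, Place.ord_mul _ hulam (inv_ne_zero humu), Place.ord_inv]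
      have e1 := key _ hulam Q' h1' v
      have e2 := key _ humu R' h2' v
      omega
  rw [hset]
  exact hproj

/-- **(CL)** for a function field with a generator. -/
theorem isClosed_linEq_of_isGen (S : IsRSurface H) {x : F} (hx : FF.IsGen ℂ x) (m : ℕ) :
    IsClosed {p : (Fin m → Place ℂ F) × (Fin m → Place ℂ F) |
      sumPts p.1 - sumPts p.2 ∈ Divisor.principal (K := ℂ) (F := F)} :=
  isClosed_linEq S (Fermat.Agent.RR.LHypGen.riemann_inequality_of_isGen hx) m

end Fermat.Agent.M27.LinEqClosed7
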