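/-
Programme M27 (target S27), chapter A, leaf (A1) (helper4): **the Riemann surface of a function field
`F / ℂ` as a compact Hausdorff space.**

`X = Place ℂ F` with the topology induced by `P ↦ (f ↦ f(P)) : X → (OnePoint ℂ)^F`.

* `fval hx P f : ℂ` (the value of `f ∈ O_P` at `P`, `0` otherwise), `pval hx P f : OnePoint ℂ`
  (`∞` for `f ∉ O_P`); calculus: constants, `+`, `*`, `-`, inverses (`pval_inv_*`), characterisations
  `pval_eq_infty_iff`, `pval_eq_coe_iff` (in terms of `ord`), independence of the generator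
  (`pval_congr`);
* `topo : TopologicalSpace (Place ℂ F)` (does not depend on the generator: `topo_congr`),
  `continuous_pval`, `tendsto_iff`;
* **`compactSpace`** : every ultrafilter converges — its limit ring `{f | lim f(P) ≠ ∞}` is a
  valuation subring of `F` containing `ℂ`, `≠ ⊤`, hence (tree: `ES/RED/PlacePIR27`) a place;
* **`t2Space`**.

Imported by no statement.
-/
import Mathlib
import Fermat.Agent.ES.RED.PlaceValue13
import Fermat.Agent.ES.RED.PlacePIR27

set_option autoImplicit false
set_option linter.unusedSectionVars false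
set_option linter.style.haveILetI false

open AlgebraicCurve Filter Topology IntermediateField
open scoped Classical

noncomputable section

namespace Fermat.Agent.M27.SurfTopo4

open Fermat.Agent.X0.FF Fermat.Agent.ES.RED.PlaceValue13

variable {F : Type*} [Field F] [Algebra ℂ F] {x : F} (hx : IsGen ℂ x)

/-! ### Values -/

/-- the value of `f` at `P` (`0` if `f` has a pole at `P`). -/
def fval (P : Place ℂ F) (f : F) : ℂ :=
  if h : f ∈ P.toValuationSubring then valueHom hx P ⟨f, h⟩ else 0

/-- the value of `f` at `P` in the Riemann sphere. -/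
def pval (P : Place ℂ F) (f : F) : OnePoint ℂ :=
  if f ∈ P.toValuationSubring then ((fval hx P f : ℂ) : OnePoint ℂ) else OnePoint.infty

variable {hx} in
theorem fval_of_mem {P : Place ℂ F} {f : F} (h : f ∈ P.toValuationSubring) :
    fval hx P f = valueHom hx P ⟨f, h⟩ := dif_pos h

theorem pval_of_mem {P : Place ℂ F} {f : F} (h : f ∈ P.toValuationSubring) :
    pval hx P f = ((fval hx P f : ℂ) : OnePoint ℂ) := if_pos h

theorem pval_of_not_mem {P : Place ℂ F} {f : F} (h : f ∉ P.toValuationSubring) :
    pval hx P f = OnePoint.infty := if_neg h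

theorem pval_ne_infty_iff {P : Place ℂ F} {f : F} :
    pval hx P f ≠ OnePoint.infty ↔ f ∈ P.toValuationSubring := by
  constructor
  · intro h
    by_contra hf
    exact h (pval_of_not_mem hx hf)
  · intro h
    rw [pval_of_mem hx h]
    exact OnePoint.coe_ne_infty _

theorem pval_eq_infty_iff {P : Place ℂ F} {f : F} :
    pval hx P f = OnePoint.infty ↔ f ∉ P.toValuationSubring := by
  rw [← not_iff_not, not_not]
  exact pval_ne_infty_iff hx

theorem pval_eq_infty_iff_ord {P : Place ℂ F} {f : F} :
    pval hx P f = OnePoint.infty ↔ P.ord f < 0 := by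
  rw [pval_eq_infty_iff, ffp_mem_iff_ord_nonneg, not_le]

theorem fval_algebraMap (P : Place ℂ F) (c : ℂ) : fval hx P (algebraMap ℂ F c) = c := by
  rw [fval_of_mem (P.algebraMap_mem' c)]
  exact (valueHom hx P).commutes c

theorem pval_algebraMap (P : Place ℂ F) (c : ℂ) :
    pval hx P (algebraMap ℂ F c) = ((c : ℂ) : OnePoint ℂ) := by
  rw [pval_of_mem hx (P.algebraMap_mem' c), fval_algebraMap]

theorem fval_add {P : Place ℂ F} {f g : F} (hf : f ∈ P.toValuationSubring)
    (hg : g ∈ P.toValuationSubring) : fval hx P (f + g) = fval hx P f + fval hx P g := by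
  rw [fval_of_mem (add_mem hf hg), fval_of_mem hf, fval_of_mem hg, ← map_add]
  rfl

theorem fval_mul {P : Place ℂ F} {f g : F} (hf : f ∈ P.toValuationSubring)
    (hg : g ∈ P.toValuationSubring) : fval hx P (f * g) = fval hx P f * fval hx P g := by
  rw [fval_of_mem (mul_mem hf hg), fval_of_mem hf, fval_of_mem hg, ← map_mul]
  rfl

theorem fval_neg {P : Place ℂ F} {f : F} (hf : f ∈ P.toValuationSubring) :
    fval hx P (-f) = -fval hx P f := by
  rw [fval_of_mem (neg_mem hf), fval_of_mem hf, ← map_neg]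
  rfl

theorem fval_one (P : Place ℂ F) : fval hx P 1 = 1 := by
  have := fval_algebraMap hx P 1
  rwa [map_one] at this

theorem fval_zero (P : Place ℂ F) : fval hx P 0 = 0 := by
  have := fval_algebraMap hx P 0
  rwa [map_zero] at this

/-- `f(P) = c ↔ f = c ∨ ord_P (f - c) > 0`, for `f` regular at `P`. -/
theorem fval_eq_iff {P : Place ℂ F} {f : F} (hf : f ∈ P.toValuationSubring) (c : ℂ) :
    fval hx P f = c ↔ (f = algebraMap ℂ F c ∨ 0 < P.ord (f - algebraMap ℂ F c)) := by
  rw [fval_of_mem hf]
  exact valueHom_eq_iff hx P ⟨f, hf⟩ c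

theorem fval_eq_zero_iff {P : Place ℂ F} {f : F} (hf : f ∈ P.toValuationSubring) :
    fval hx P f = 0 ↔ (f = 0 ∨ 0 < P.ord f) := by
  rw [fval_eq_iff hx hf, map_zero, sub_zero]

/-- **characterisation of the finite values.** -/
theorem pval_eq_coe_iff {P : Place ℂ F} {f : F} (c : ℂ) :
    pval hx P f = ((c : ℂ) : OnePoint ℂ) ↔
      (f = algebraMap ℂ F c ∨ 0 < P.ord (f - algebraMap ℂ F c)) := by
  by_cases hf : f ∈ P.toValuationSubring
  · rw [pval_of_mem hx hf, OnePoint.coe_eq_coe]
    exact fval_eq_iff hx hf c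
  · rw [pval_of_not_mem hx hf]
    constructor
    · intro h
      exact absurd h.symm (OnePoint.coe_ne_infty _)
    · rintro (h | h)
      · exact absurd (h ▸ P.algebraMap_mem' c) hf
      · exfalso
        apply hf
        have h1 : f - algebraMap ℂ F c ∈ P.toValuationSubring :=
          ffp_mem_of_ord_nonneg P h.le
        have := add_mem h1 (P.algebraMap_mem' c)
        rwa [sub_add_cancel] at this

/-- the values do not depend on the generator. -/
theorem pval_congr {x' : F} (hx' : IsGen ℂ x') : pval hx = (pval hx' : Place ℂ F → F → OnePoint ℂ) := by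
  funext P f
  by_cases hf : f ∈ P.toValuationSubring
  · rw [pval_of_mem hx hf, pval_of_mem hx' hf, fval_of_mem hf, fval_of_mem hf,
      valueHom_congr hx P hx']
  · rw [pval_of_not_mem hx hf, pval_of_not_mem hx' hf]

/-! ### Inverses -/

theorem inv_mem_of_not_mem {P : Place ℂ F} {f : F} (hf : f ∉ P.toValuationSubring) :
    f⁻¹ ∈ P.toValuationSubring :=
  (P.toValuationSubring.mem_or_inv_mem f).resolve_left hf

/-- a pole of `f` is a zero of `f⁻¹`. -/
theorem fval_inv_of_not_mem {P : Place ℂ F} {f : F} (hf : f ∉ P.toValuationSubring) :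
    fval hx P f⁻¹ = 0 := by
  rw [fval_eq_zero_iff hx (inv_mem_of_not_mem hf)]
  right
  rw [P.ord_inv]
  have : P.ord f < 0 := by
    rw [ffp_mem_iff_ord_nonneg, not_le] at hf
    exact hf
  omega

/-- a zero of `f ≠ 0` is a pole of `f⁻¹`. -/
theorem inv_not_mem_of_fval_eq_zero {P : Place ℂ F} {f : F} (hf0 : f ≠ 0)
    (hf : f ∈ P.toValuationSubring) (h : fval hx P f = 0) : f⁻¹ ∉ P.toValuationSubring := by
  rcases (fval_eq_zero_iff hx hf).mp h with h0 | h0
  · exact absurd h0 hf0
  · rw [ffp_mem_iff_ord_nonneg, P.ord_inv, not_le]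
    omega

/-- a point where `f` is regular and nonzero. -/
theorem inv_mem_of_fval_ne_zero {P : Place ℂ F} {f : F} (hf : f ∈ P.toValuationSubring)
    (h : fval hx P f ≠ 0) : f⁻¹ ∈ P.toValuationSubring := by
  have h1 : 0 ≤ P.ord f := ffp_ord_nonneg_of_mem P hf
  have h2 : ¬ 0 < P.ord f := fun h3 => h ((fval_eq_zero_iff hx hf).mpr (Or.inr h3))
  rw [ffp_mem_iff_ord_nonneg, P.ord_inv]
  omega

theorem fval_inv_of_fval_ne_zero {P : Place ℂ F} {f : F} (hf : f ∈ P.toValuationSubring)
    (h : fval hx P f ≠ 0) : fval hx P f⁻¹ = (fval hx P f)⁻¹ := by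
  have hf0 : f ≠ 0 := by
    rintro rfl
    exact h (fval_zero hx P)
  have h1 := fval_mul hx hf (inv_mem_of_fval_ne_zero hx hf h)
  rw [mul_inv_cancel₀ hf0, fval_one] at h1
  exact eq_inv_of_mul_eq_one_right h1.symm

/-! ### The topology -/

/-- **the topology of the Riemann surface**: induced by all the value maps. -/
def topo : TopologicalSpace (Place ℂ F) :=
  TopologicalSpace.induced (fun P f => pval hx P f) Pi.topologicalSpace

theorem topo_congr {x' : F} (hx' : IsGen ℂ x') : topo hx = topo hx' := by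
  unfold topo
  rw [pval_congr hx hx']

theorem continuous_pval (f : F) : @Continuous _ _ (topo hx) _ (fun P => pval hx P f) := by
  letI := topo hx
  have h1 : Continuous (fun P : Place ℂ F => fun f => pval hx P f) := continuous_induced_dom
  exact (continuous_apply f).comp h1

/-- convergence in `X` is convergence of all the values. -/
theorem tendsto_iff {ι : Type*} (l : Filter ι) (u : ι → Place ℂ F) (P₀ : Place ℂ F) :
    Tendsto u l (@nhds _ (topo hx) P₀) ↔
      ∀ f : F, Tendsto (fun i => pval hx (u i) f) l (𝓝 (pval hx P₀ f)) := by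
  letI := topo hx
  have hind : Topology.IsInducing (fun P : Place ℂ F => fun f => pval hx P f) := ⟨rfl⟩
  rw [hind.tendsto_nhds_iff, tendsto_pi_nhds]
  rfl

theorem pval_injective : Function.Injective (fun P : Place ℂ F => fun f => pval hx P f) := by
  intro P Q h
  apply Place.ext
  apply SetLike.ext
  intro f
  rw [← pval_ne_infty_iff hx, ← pval_ne_infty_iff hx (P := Q)]
  have := congrFun h f
  simp only at this
  rw [this]

/-- **`X` is Hausdorff.** -/
theorem t2Space : @T2Space (Place ℂ F) (topo hx) := by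
  letI := topo hx
  have hemb : Topology.IsEmbedding (fun P : Place ℂ F => fun f => pval hx P f) :=
    ⟨⟨rfl⟩, pval_injective hx⟩
  exact hemb.t2Space

/-! ### Limits along an ultrafilter -/

section Limit

variable (U : Ultrafilter (Place ℂ F))

/-- the limit of the values of `f` along `U`. -/
def ulim (f : F) : OnePoint ℂ := (U.map fun P => pval hx P f).lim

theorem tendsto_ulim (f : F) : Tendsto (fun P => pval hx P f) U (𝓝 (ulim hx U f)) :=
  (U.map fun P => pval hx P f).le_nhds_lim

theorem ulim_eq {f : F} {a : OnePoint ℂ} (h : Tendsto (fun P => pval hx P f) U (𝓝 a)) :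
    ulim hx U f = a :=
  tendsto_nhds_unique (tendsto_ulim hx U f) h

theorem ulim_algebraMap (c : ℂ) : ulim hx U (algebraMap ℂ F c) = ((c : ℂ) : OnePoint ℂ) := by
  apply ulim_eq
  simp only [pval_algebraMap]
  exact tendsto_const_nhds

theorem eventually_mem_of_ulim_ne {f : F} (h : ulim hx U f ≠ OnePoint.infty) :
    ∀ᶠ P in (U : Filter (Place ℂ F)), f ∈ P.toValuationSubring := by
  have h1 : ∀ᶠ z in 𝓝 (ulim hx U f), z ≠ OnePoint.infty :=
    isOpen_compl_singleton.mem_nhds h
  filter_upwards [(tendsto_ulim hx U f).eventually h1] with P hP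
  exact (pval_ne_infty_iff hx).mp hP

/-- finite limit of the sphere values ⇒ the finite values converge. -/
theorem tendsto_fval {f : F} {a : ℂ} (h : ulim hx U f = ((a : ℂ) : OnePoint ℂ)) :
    Tendsto (fun P => fval hx P f) U (𝓝 a) := by
  have hne : ulim hx U f ≠ OnePoint.infty := by
    rw [h]
    exact OnePoint.coe_ne_infty _
  have h1 : Tendsto (fun P => ((fval hx P f : ℂ) : OnePoint ℂ)) U (𝓝 ((a : ℂ) : OnePoint ℂ)) := by
    rw [← h]
    refine (tendsto_ulim hx U f).congr' ?_
    filter_upwards [eventually_mem_of_ulim_ne hx U hne] with P hP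
    exact pval_of_mem hx hP
  exact (OnePoint.isOpenEmbedding_coe.isInducing.tendsto_nhds_iff).mpr h1

/-- the finite values converge and `f` is eventually regular ⇒ the sphere values converge. -/
theorem ulim_eq_coe {f : F} {a : ℂ}
    (hmem : ∀ᶠ P in (U : Filter (Place ℂ F)), f ∈ P.toValuationSubring)
    (h : Tendsto (fun P => fval hx P f) U (𝓝 a)) : ulim hx U f = ((a : ℂ) : OnePoint ℂ) := by
  apply ulim_eq
  have h1 : Tendsto (fun P => ((fval hx P f : ℂ) : OnePoint ℂ)) U (𝓝 ((a : ℂ) : OnePoint ℂ)) :=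
    (OnePoint.continuous_coe.tendsto a).comp h
  refine h1.congr' ?_
  filter_upwards [hmem] with P hP
  exact (pval_of_mem hx hP).symm

theorem ulim_add {f g : F} {a b : ℂ} (hf : ulim hx U f = ((a : ℂ) : OnePoint ℂ))
    (hg : ulim hx U g = ((b : ℂ) : OnePoint ℂ)) :
    ulim hx U (f + g) = (((a + b : ℂ)) : OnePoint ℂ) := by
  have hf' := eventually_mem_of_ulim_ne hx U (f := f) (by rw [hf]; exact OnePoint.coe_ne_infty _)
  have hg' := eventually_mem_of_ulim_ne hx U (f := g) (by rw [hg]; exact OnePoint.coe_ne_infty _)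
  apply ulim_eq_coe
  · filter_upwards [hf', hg'] with P h1 h2
    exact add_mem h1 h2
  · refine ((tendsto_fval hx U hf).add (tendsto_fval hx U hg)).congr' ?_
    filter_upwards [hf', hg'] with P h1 h2
    exact (fval_add hx h1 h2).symm

theorem ulim_mul {f g : F} {a b : ℂ} (hf : ulim hx U f = ((a : ℂ) : OnePoint ℂ))
    (hg : ulim hx U g = ((b : ℂ) : OnePoint ℂ)) :
    ulim hx U (f * g) = (((a * b : ℂ)) : OnePoint ℂ) := by
  have hf' := eventually_mem_of_ulim_ne hx U (f := f) (by rw [hf]; exact OnePoint.coe_ne_infty _)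
  have hg' := eventually_mem_of_ulim_ne hx U (f := g) (by rw [hg]; exact OnePoint.coe_ne_infty _)
  apply ulim_eq_coe
  · filter_upwards [hf', hg'] with P h1 h2
    exact mul_mem h1 h2
  · refine ((tendsto_fval hx U hf).mul (tendsto_fval hx U hg)).congr' ?_
    filter_upwards [hf', hg'] with P h1 h2
    exact (fval_mul hx h1 h2).symm

theorem ulim_neg {f : F} {a : ℂ} (hf : ulim hx U f = ((a : ℂ) : OnePoint ℂ)) :
    ulim hx U (-f) = (((-a : ℂ)) : OnePoint ℂ) := by
  have hf' := eventually_mem_of_ulim_ne hx U (f := f) (by rw [hf]; exact OnePoint.coe_ne_infty _)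
  apply ulim_eq_coe
  · filter_upwards [hf'] with P h1
    exact neg_mem h1
  · refine (tendsto_fval hx U hf).neg.congr' ?_
    filter_upwards [hf'] with P h1
    exact (fval_neg hx h1).symm

/-- nonzero finite limit: the inverse has the inverse limit. -/
theorem ulim_inv_of_ne_zero {f : F} {a : ℂ} (hf : ulim hx U f = ((a : ℂ) : OnePoint ℂ))
    (ha : a ≠ 0) : ulim hx U f⁻¹ = (((a⁻¹ : ℂ)) : OnePoint ℂ) := by
  have hf' := eventually_mem_of_ulim_ne hx U (f := f) (by rw [hf]; exact OnePoint.coe_ne_infty _)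
  have hne : ∀ᶠ P in (U : Filter (Place ℂ F)), fval hx P f ≠ 0 :=
    (tendsto_fval hx U hf).eventually (isOpen_compl_singleton.mem_nhds ha)
  apply ulim_eq_coe
  · filter_upwards [hf', hne] with P h1 h2
    exact inv_mem_of_fval_ne_zero hx h1 h2
  · refine ((tendsto_fval hx U hf).inv₀ ha).congr' ?_
    filter_upwards [hf', hne] with P h1 h2
    exact (fval_inv_of_fval_ne_zero hx h1 h2).symm

theorem ulim_one : ulim hx U (1 : F) = (((1 : ℂ)) : OnePoint ℂ) := by
  have := ulim_algebraMap hx U 1
  rwa [map_one] at this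

theorem ulim_zero : ulim hx U (0 : F) = (((0 : ℂ)) : OnePoint ℂ) := by
  have := ulim_algebraMap hx U 0
  rwa [map_zero] at this

/-- limit `0` ⇒ the inverse has limit `∞`. -/
theorem ulim_inv_of_zero {f : F} (hf0 : f ≠ 0) (hf : ulim hx U f = (((0 : ℂ)) : OnePoint ℂ)) :
    ulim hx U f⁻¹ = OnePoint.infty := by
  by_contra h
  obtain ⟨b, hb⟩ := OnePoint.ne_infty_iff_exists.mp h
  have h1 := ulim_mul hx U hf hb.symm
  rw [mul_inv_cancel₀ hf0, ulim_one, zero_mul, OnePoint.coe_eq_coe] at h1
  exact one_ne_zero h1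

/-- at every place, `f` or `f⁻¹` has a value in the closed unit disc. -/
theorem pval_mem_or_inv_mem (P : Place ℂ F) (f : F) :
    pval hx P f ∈ ((↑) : ℂ → OnePoint ℂ) '' Metric.closedBall 0 1 ∨
      pval hx P f⁻¹ ∈ ((↑) : ℂ → OnePoint ℂ) '' Metric.closedBall 0 1 := by
  by_cases hf : f ∈ P.toValuationSubring
  · by_cases h1 : ‖fval hx P f‖ ≤ 1
    · left
      rw [pval_of_mem hx hf]
      exact ⟨_, by simpa using h1, rfl⟩
    · right
      have hne : fval hx P f ≠ 0 := by
        intro h0
        rw [h0, norm_zero] at h1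
        exact h1 zero_le_one
      rw [pval_of_mem hx (inv_mem_of_fval_ne_zero hx hf hne), fval_inv_of_fval_ne_zero hx hf hne]
      refine ⟨_, ?_, rfl⟩
      rw [mem_closedBall_zero_iff, norm_inv]
      exact inv_le_one_of_one_le₀ (le_of_not_ge h1)
  · right
    rw [pval_of_mem hx (inv_mem_of_not_mem hf), fval_inv_of_not_mem hx hf]
    exact ⟨0, by simp, rfl⟩

theorem eventually_notMem_closedBall {f : F} (hf : ulim hx U f = OnePoint.infty) :
    ∀ᶠ P in (U : Filter (Place ℂ F)),
      pval hx P f ∉ ((↑) : ℂ → OnePoint ℂ) '' Metric.closedBall 0 1 := by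
  have hopen : IsOpen (((↑) : ℂ → OnePoint ℂ) '' Metric.closedBall 0 1)ᶜ :=
    OnePoint.isOpen_compl_image_coe.mpr
      ⟨Metric.isClosed_closedBall, isCompact_closedBall 0 1⟩
  have hmem : OnePoint.infty ∈ (((↑) : ℂ → OnePoint ℂ) '' Metric.closedBall 0 1)ᶜ := by
    rintro ⟨z, -, hz⟩
    exact OnePoint.coe_ne_infty z hz
  have h1 := (tendsto_ulim hx U f).eventually (hopen.mem_nhds (hf ▸ hmem))
  exact h1

/-- limit `∞` ⇒ the inverse has limit `0`. -/
theorem ulim_inv_of_infty {f : F} (hf : ulim hx U f = OnePoint.infty) :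
    ulim hx U f⁻¹ = (((0 : ℂ)) : OnePoint ℂ) := by
  by_cases h : ulim hx U f⁻¹ = OnePoint.infty
  · -- both `f` and `f⁻¹` have limit `∞` along `U`: impossible
    exfalso
    have h1 := eventually_notMem_closedBall hx U hf
    have h2 := eventually_notMem_closedBall hx U h
    have h3 : ∀ᶠ P in (U : Filter (Place ℂ F)), False := by
      filter_upwards [h1, h2] with P hP1 hP2
      rcases pval_mem_or_inv_mem hx P f with h4 | h4
      · exact hP1 h4
      · exact hP2 h4
    exact (U.neBot.ne (eventually_false_iff_eq_bot.mp h3))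
  · obtain ⟨b, hb⟩ := OnePoint.ne_infty_iff_exists.mp h
    by_cases hb0 : b = 0
    · rw [← hb, hb0]
    · exfalso
      have h1 := ulim_inv_of_ne_zero hx U hb.symm hb0
      rw [inv_inv, hf] at h1
      exact OnePoint.infty_ne_coe _ h1

/-- the limit ring of an ultrafilter: the functions with a finite limit along `U`. -/
def limRing : ValuationSubring F where
  carrier := {f | ulim hx U f ≠ OnePoint.infty}
  mul_mem' := by
    intro f g hf hg
    obtain ⟨a, ha⟩ := OnePoint.ne_infty_iff_exists.mp hf
    obtain ⟨b, hb⟩ := OnePoint.ne_infty_iff_exists.mp hg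
    show ulim hx U (f * g) ≠ OnePoint.infty
    rw [ulim_mul hx U ha.symm hb.symm]
    exact OnePoint.coe_ne_infty _
  one_mem' := by
    show ulim hx U 1 ≠ OnePoint.infty
    rw [ulim_one]
    exact OnePoint.coe_ne_infty _
  add_mem' := by
    intro f g hf hg
    obtain ⟨a, ha⟩ := OnePoint.ne_infty_iff_exists.mp hf
    obtain ⟨b, hb⟩ := OnePoint.ne_infty_iff_exists.mp hg
    show ulim hx U (f + g) ≠ OnePoint.infty
    rw [ulim_add hx U ha.symm hb.symm]
    exact OnePoint.coe_ne_infty _
  zero_mem' := by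
    show ulim hx U 0 ≠ OnePoint.infty
    rw [ulim_zero]
    exact OnePoint.coe_ne_infty _
  neg_mem' := by
    intro f hf
    obtain ⟨a, ha⟩ := OnePoint.ne_infty_iff_exists.mp hf
    show ulim hx U (-f) ≠ OnePoint.infty
    rw [ulim_neg hx U ha.symm]
    exact OnePoint.coe_ne_infty _
  mem_or_inv_mem' := by
    intro f
    by_cases hf : ulim hx U f = OnePoint.infty
    · right
      show ulim hx U f⁻¹ ≠ OnePoint.infty
      rw [ulim_inv_of_infty hx U hf]
      exact OnePoint.coe_ne_infty _
    · left
      exact hf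

theorem mem_limRing {f : F} : f ∈ limRing hx U ↔ ulim hx U f ≠ OnePoint.infty := Iff.rfl

theorem algebraMap_mem_limRing (c : ℂ) : algebraMap ℂ F c ∈ limRing hx U := by
  rw [mem_limRing, ulim_algebraMap]
  exact OnePoint.coe_ne_infty _

theorem limRing_ne_top : limRing hx U ≠ ⊤ := by
  intro htop
  have hxm : x ∈ limRing hx U := by
    rw [htop]
    exact ValuationSubring.mem_top x
  obtain ⟨a, ha⟩ := OnePoint.ne_infty_iff_exists.mp ((mem_limRing hx U).mp hxm)
  have hne : x - algebraMap ℂ F a ≠ 0 := hx.sub_algebraMap_ne_zero a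
  have h0 : ulim hx U (x - algebraMap ℂ F a) = (((0 : ℂ)) : OnePoint ℂ) := by
    have h1 := ulim_add hx U ha.symm (ulim_neg hx U (ulim_algebraMap hx U a))
    rwa [← sub_eq_add_neg, ← sub_eq_add_neg, sub_self] at h1
  have h2 := ulim_inv_of_zero hx U hne h0
  have h3 : (x - algebraMap ℂ F a)⁻¹ ∈ limRing hx U := by
    rw [htop]
    exact ValuationSubring.mem_top _
  exact ((mem_limRing hx U).mp h3) h2

/-- the limit place of an ultrafilter. -/
def limPlace : Place ℂ F :=
  haveI : Algebra.IsAlgebraic ↥ℂ⟮x⟯ F := by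
    haveI := hx.finite
    exact Algebra.IsAlgebraic.of_finite _ _
  Fermat.Agent.ES.RED.PlacePIR27.placeOfValuationSubring hx inferInstance (limRing hx U)
    (algebraMap_mem_limRing hx U) (limRing_ne_top hx U)

theorem limPlace_toValuationSubring : (limPlace hx U).toValuationSubring = limRing hx U := rfl

/-- **the values at the limit place are the limits of the values.** -/
theorem pval_limPlace (f : F) : pval hx (limPlace hx U) f = ulim hx U f := by
  by_cases hf : f ∈ limRing hx U
  · obtain ⟨a, ha⟩ := OnePoint.ne_infty_iff_exists.mp ((mem_limRing hx U).mp hf)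
    rw [← ha, pval_eq_coe_iff]
    by_cases hfa : f = algebraMap ℂ F a
    · exact Or.inl hfa
    · right
      have hne : f - algebraMap ℂ F a ≠ 0 := sub_ne_zero.mpr hfa
      have h0 : ulim hx U (f - algebraMap ℂ F a) = (((0 : ℂ)) : OnePoint ℂ) := by
        have h1 := ulim_add hx U ha.symm (ulim_neg hx U (ulim_algebraMap hx U a))
        rwa [← sub_eq_add_neg, ← sub_eq_add_neg, sub_self] at h1
      have h2 := ulim_inv_of_zero hx U hne h0
      have h3 : (f - algebraMap ℂ F a)⁻¹ ∉ (limPlace hx U).toValuationSubring := by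
        rw [limPlace_toValuationSubring, mem_limRing, not_not]
        exact h2
      rw [ffp_mem_iff_ord_nonneg, (limPlace hx U).ord_inv, not_le] at h3
      omega
  · have h1 : ulim hx U f = OnePoint.infty := by
      by_contra h
      exact hf h
    rw [h1, pval_eq_infty_iff, limPlace_toValuationSubring]
    exact hf

/-- every ultrafilter converges to its limit place. -/
theorem le_nhds_limPlace : (U : Filter (Place ℂ F)) ≤ @nhds _ (topo hx) (limPlace hx U) := by
  have := (tendsto_iff hx (U : Filter (Place ℂ F)) id (limPlace hx U)).mpr (fun f => by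
    rw [pval_limPlace]
    exact tendsto_ulim hx U f)
  exact this

end Limit

/-- **`X` is compact.** -/
theorem compactSpace : @CompactSpace (Place ℂ F) (topo hx) := by
  letI := topo hx
  refine ⟨isCompact_iff_ultrafilter_le_nhds.mpr fun U _ => ⟨limPlace hx U, Set.mem_univ _, ?_⟩⟩
  exact le_nhds_limPlace hx U

end Fermat.Agent.M27.SurfTopo4
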