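/-
Programme M27 (target S27), END OF CHAPTER A (helper4): **`Place ℂ F` is a compact Riemann surface.**

* `exists_chart H hx P` : a chart of `SurfTopo4.topo hx` centred at `P` (plane model at `P` (A2, helper1),
  holomorphic branch and the place of the order function (A3 (P1), helper8), assembly `ChartAsm4`);
* `isRSurface hx H` : `IsRSurface H` for the topology `SurfTopo4.topo hx`;
* `exists_isRSurface hx H : ∃ τ, @IsRSurface F _ _ H τ` : the end literal of chapter A.

Imported by no statement.
-/
import Mathlib
import Fermat.Agent.M27.ChartAsm4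
import Fermat.Agent.M27.ChartPlace8
import Fermat.Agent.M27.PlaneModel1

set_option autoImplicit false
set_option linter.unusedSectionVars false
set_option linter.style.longLine false
set_option linter.unusedVariables false

open AlgebraicCurve Metric Topology Polynomial
open scoped Polynomial.Bivariate

noncomputable section

namespace Fermat.Agent.M27.SurfaceMain4

open Fermat.Agent.X0.FF Fermat.Agent.RR.LSpace
open Fermat.Agent.M27.Iface2 Fermat.Agent.M27.SurfTopo4 Fermat.Agent.M27.SurfIface4
open Fermat.Agent.M27.ChartHat8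

variable {F : Type*} [Field F] [Algebra ℂ F]

/-- **(A3)** a chart centred at every place. -/
theorem exists_chart (H : LHyp ℂ F) {x : F} (hx : IsGen ℂ x) (P : Place ℂ F) :
    ∃ φ : @Chart F _ _ H (topo hx), @Chart.c F _ _ H (topo hx) φ 0 = P := by
  obtain ⟨t, y, G, ht, hy, -, hmonic, hroot, hG00, hGY00, hker, hfrac⟩ :=
    Fermat.Agent.M27.PlaneModel1.exists_planeModel hx P
  let M : PlaneModel P := ⟨t, y, G, ht, hy, hmonic, hroot, hG00, hGY00, hker, hfrac⟩
  obtain ⟨B⟩ := nonempty_branchData M.G M.G00 M.GY00
  exact Fermat.Agent.M27.ChartAsm4.exists_chart_of_ord H M B (Fermat.Agent.M27.ChartPlace8.Q M B)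
    (fun a ha p hp => Fermat.Agent.M27.ChartPlace8.ord_Q M B ha hp) hx

/-- **`Place ℂ F` with the topology `topo hx` is a compact Riemann surface.** -/
theorem isRSurface {x : F} (hx : IsGen ℂ x) (H : LHyp ℂ F) : @IsRSurface F _ _ H (topo hx) :=
  isRSurface_of_charts H hx (exists_chart H hx)

/-- **END LITERAL OF CHAPTER A.** -/
theorem exists_isRSurface {x : F} (hx : IsGen ℂ x) (H : LHyp ℂ F) :
    ∃ τ : TopologicalSpace (Place ℂ F), @IsRSurface F _ _ H τ :=
  ⟨topo hx, isRSurface hx H⟩

end Fermat.Agent.M27.SurfaceMain4
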