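/-
Programme M27 (S27), top file (lead): **the literal statement of S27 from the analytic count over `ℂ`
alone** (`Lefschetz0.CountComplex0` = `CountC9.card_torsion_complex` at `F : Type`), chapter G being
complete (`GFinal3.constExtUp`, `GFinal3.fieldOfDef`, `Lefschetz0.s27_of_inputs0`).
-/
import Mathlib
import Fermat.Agent.M27.Lefschetz0
import Fermat.Agent.M27.GFinal3

set_option autoImplicit false

namespace Fermat.Agent.M27.Top0

open AlgebraicCurve

universe u v

/-- The count for every algebraically closed constant field of characteristic `0`, from the count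
over `ℂ`. -/
theorem card_torsion_of_countComplex0 (HC : Lefschetz0.CountComplex0)
    {K : Type u} {F : Type v} [Field K] [Field F] [Algebra K F] [IsAlgClosed K] [CharZero K]
    {X : F} (hX : Fermat.Agent.X0.FF.IsGen K X) {n : ℕ} (hn : 0 < n) :
    Nat.card ↥(Pic0.torsion K F n) = n ^ (2 * genusFF K F) :=
  Lefschetz0.card_torsion_of_isGen0 HC GFinal3.constExtUp GFinal3.fieldOfDef hX hn

/-- **S27 from the count over `ℂ`.** -/
theorem s27_of_countComplex0 (HC : Lefschetz0.CountComplex0)
    (K : Type u) (F : Type v) [Field K] [Field F] [Algebra K F] [IsAlgClosed K] [CharZero K]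
    [IsCurveOver K F] [Algebra.EssFiniteType K F]
    (ℓ : ℕ) [Fact ℓ.Prime] (k : ℕ) :
    Nat.card (Pic0.torsion K F (ℓ ^ k)) = ℓ ^ (2 * genusFF K F * k) :=
  Lefschetz0.s27_of_inputs0 HC GFinal3.constExtUp GFinal3.fieldOfDef K F ℓ k

end Fermat.Agent.M27.Top0
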